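import Mathlib
import Fermat.Agent.Red.Residue

/-!
# Extension of specialisations to valuation rings

A ring homomorphism from a subring of a field to an algebraically closed field extends to a
valuation subring, with kernel the maximal ideal.
-/

noncomputable section

open Polynomial IsLocalRing

namespace Fermat.Agent.AV

variable {F κ : Type*} [Field F] [Field κ]

/-- Subrings of `F × κ` which are graphs of partial ring homomorphisms. -/
def IsGraph (Γ : Subring (F × κ)) : Prop := ∀ y : κ, ((0 : F), y) ∈ Γ → y = 0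

theorem IsGraph.unique {Γ : Subring (F × κ)} (hΓ : IsGraph Γ) {x : F} {y z : κ} (hy : (x, y) ∈ Γ)
    (hz : (x, z) ∈ Γ) : y = z := by
  have := hΓ (y - z) (by simpa using sub_mem hy hz)
  exact sub_eq_zero.mp this

/-- The graph of a homomorphism into `κ` composed with one into `F`. -/
def graphOf {R : Type*} [CommRing R] (a : R →+* F) (b : R →+* κ) : Subring (F × κ) :=
  (a.prod b).range

theorem mem_graphOf {R : Type*} [CommRing R] {a : R →+* F} {b : R →+* κ} {z : F × κ} :
    z ∈ graphOf a b ↔ ∃ r, (a r, b r) = z := RingHom.mem_range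

theorem isGraph_graphOf {R : Type*} [CommRing R] {a : R →+* F} {b : R →+* κ}
    (h : RingHom.ker a ≤ RingHom.ker b) : IsGraph (graphOf a b) := by
  intro y hy
  obtain ⟨r, hr⟩ := mem_graphOf.1 hy
  simp only [Prod.mk.injEq] at hr
  rw [← hr.2]
  exact h hr.1

/-- A specialisation of a local subring extends to each element of a valuation ring dominating
it. -/
theorem exists_eval₂_eq_zero_of_dominated [IsAlgClosed κ] {S : Subring F} [IsLocalRing S]
    (g : S →+* κ) (hker : RingHom.ker g = maximalIdeal S) {V : ValuationSubring F}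
    (hSV' : S ≤ V.toSubring) (hloc : IsLocalHom (Subring.inclusion hSV')) {x : F}
    (hx : x ∈ V) :
    ∃ a : κ, ∀ p : S[X], eval₂ S.subtype x p = 0 → eval₂ g a p = 0 := by
  have : IsLocalRing V.toSubring := V.toLocalSubring.isLocalRing
  let gk : ResidueField S →+* κ := Ideal.Quotient.lift _ g (fun s hs => by
    rwa [← hker, RingHom.mem_ker] at hs)
  let J : Ideal (ResidueField S)[X] :=
    (RingHom.ker (eval₂RingHom S.subtype x)).map (mapRingHom (residue S))
  have hJ : J ≠ ⊤ := by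
    intro htop
    have h1 : (1 : (ResidueField S)[X]) ∈ J := htop ▸ Submodule.mem_top
    obtain ⟨p, hp, hp1⟩ := (Ideal.mem_map_iff_of_surjective _
      (Polynomial.map_surjective _ residue_surjective)).1 h1
    have hcoef : ∀ i, (p - 1).coeff i ∈ maximalIdeal S := fun i => by
      rw [← residue_eq_zero_iff, ← Polynomial.coeff_map, Polynomial.map_sub, Polynomial.map_one]
      rw [coe_mapRingHom] at hp1
      rw [hp1, sub_self, coeff_zero]
    have hm : eval₂ (Subring.inclusion hSV') (⟨x, hx⟩ : V) (p - 1) ∈ maximalIdeal V := by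
      rw [eval₂_eq_sum]
      refine Ideal.sum_mem _ fun i _ => Ideal.mul_mem_right _ _ ?_
      exact (IsLocalRing.mem_maximalIdeal _).2 fun hu =>
        (IsLocalRing.mem_maximalIdeal _).1 (hcoef i) (hloc.map_nonunit _ hu)
    have hval : eval₂ (Subring.inclusion hSV') (⟨x, hx⟩ : V) (p - 1) = -1 := by
      refine Subtype.ext ((hom_eval₂ (p - 1) (Subring.inclusion hSV') V.toSubring.subtype
          ⟨x, hx⟩).trans ?_)
      show eval₂ S.subtype x (p - 1) = -(1 : F)
      rw [eval₂_sub, eval₂_one, show eval₂ S.subtype x p = 0 from hp, zero_sub]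
    rw [hval] at hm
    exact (IsLocalRing.mem_maximalIdeal _).1 hm isUnit_one.neg
  obtain ⟨q, hq⟩ := IsPrincipalIdealRing.principal J
  have hqu : ¬ IsUnit q := fun hu => hJ (by rw [hq]; exact Ideal.span_singleton_eq_top.2 hu)
  obtain ⟨a, ha⟩ : ∃ a : κ, eval₂ gk a q = 0 := by
    rcases eq_or_ne q 0 with rfl | hq0
    · exact ⟨0, by simp⟩
    obtain ⟨a, ha⟩ := IsAlgClosed.exists_root (q.map gk) (by
      rw [degree_map]
      intro hd
      exact hqu (isUnit_iff_degree_eq_zero.2 hd))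
    exact ⟨a, by rwa [← eval_map]⟩
  refine ⟨a, fun p hp => ?_⟩
  have hmem : mapRingHom (residue S) p ∈ J := Ideal.mem_map_of_mem _ hp
  rw [hq] at hmem
  obtain ⟨r, hr⟩ := Ideal.mem_span_singleton'.1 hmem
  rw [show g = gk.comp (residue S) from RingHom.ext fun s => rfl, ← eval₂_map,
    show p.map (residue S) = r * q from hr.symm, eval₂_mul, ha, mul_zero]

/-- A place of `F` extending a specialisation. -/
theorem exists_valuationSubring_extend [IsAlgClosed κ] (R : Subring F) (f : R →+* κ) :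
    ∃ (V : ValuationSubring F) (g : V →+* κ) (h : R ≤ V.toSubring),
      (∀ r : R, g ⟨r, h r.2⟩ = f r) ∧ ∀ a : V, g a = 0 ↔ a ∈ maximalIdeal V := by
  classical
  set Γ₀ := graphOf R.subtype f
  have hΓ₀ : IsGraph Γ₀ := isGraph_graphOf fun r hr => by
    rw [RingHom.mem_ker] at hr ⊢
    rw [show r = 0 from Subtype.ext hr, map_zero]
  obtain ⟨Γ, hle, ⟨hΓ, hmax⟩⟩ := zorn_le_nonempty₀ {Γ : Subring (F × κ) | IsGraph Γ}
    (fun c hc hchain y hy => by
      have : Nonempty c := ⟨⟨y, hy⟩⟩
      have hdir : Directed (· ≤ ·) fun i : c => (i : Subring (F × κ)) :=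
        hchain.directed
      refine ⟨⨆ i : c, (i : Subring (F × κ)), fun z hz => ?_, fun z hz =>
        le_iSup (fun i : c => (i : Subring (F × κ))) ⟨z, hz⟩⟩
      obtain ⟨i, hi⟩ := (Subring.mem_iSup_of_directed hdir).1 hz
      exact hc i.2 z hi) Γ₀ hΓ₀
  have hmax' : ∀ Δ : Subring (F × κ), IsGraph Δ → Γ ≤ Δ → Δ ≤ Γ := fun Δ hΔ h => hmax hΔ h
  -- the homomorphism
  let S : Subring F := Γ.map (RingHom.fst F κ)
  have hS : ∀ {x : F}, x ∈ S ↔ ∃ y, (x, y) ∈ Γ := fun {x} => by
    simp [S]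
  choose val hval using fun x : S => hS.1 x.2
  let g : S →+* κ :=
    { toFun := val
      map_one' := hΓ.unique (hval 1) (one_mem Γ)
      map_mul' := fun a b => hΓ.unique (hval (a * b)) (mul_mem (hval a) (hval b))
      map_zero' := hΓ.unique (hval 0) (zero_mem Γ)
      map_add' := fun a b => hΓ.unique (hval (a + b)) (add_mem (hval a) (hval b)) }
  have hg : ∀ x : S, ((x : F), g x) ∈ Γ := hval
  have hgu : ∀ (x : S) (y : κ), ((x : F), y) ∈ Γ → g x = y := fun x y hy => hΓ.unique (hg x) hy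
  -- `S` is local: localise
  have hunit : ∀ x : S, g x ≠ 0 → IsUnit x := by
    intro x hx
    have hx0 : (x : F) ≠ 0 := fun h0 => hx (by rw [show x = 0 from Subtype.ext h0, map_zero])
    let M : Submonoid S := Submonoid.powers x
    have hMF : ∀ m : M, IsUnit (S.subtype m) := by
      rintro ⟨m, k, rfl⟩; exact (isUnit_iff_ne_zero.2 (by simp [hx0]))
    have hMκ : ∀ m : M, IsUnit (g m) := by
      rintro ⟨m, k, rfl⟩; exact (isUnit_iff_ne_zero.2 (by simp [hx]))
    let a : Localization M →+* F := IsLocalization.lift hMF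
    let b : Localization M →+* κ := IsLocalization.lift hMκ
    have hΔ : IsGraph (graphOf a b) := isGraph_graphOf fun r hr => by
      obtain ⟨s, m, rfl⟩ := IsLocalization.exists_mk'_eq M r
      rw [RingHom.mem_ker] at hr ⊢
      rw [IsLocalization.lift_mk'] at hr ⊢
      rw [Units.mul_left_eq_zero] at hr ⊢
      rw [show s = 0 from Subtype.ext hr, map_zero]
    have hsub : Γ ≤ graphOf a b := by
      rintro ⟨p, q⟩ hpq
      refine mem_graphOf.2 ⟨algebraMap S _ ⟨p, hS.2 ⟨q, hpq⟩⟩, ?_⟩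
      simp only [a, b, IsLocalization.lift_eq, Prod.mk.injEq]
      exact ⟨rfl, hgu _ _ hpq⟩
    have hmem : ((x : F)⁻¹, (g x)⁻¹) ∈ Γ := hmax' _ hΔ hsub <| mem_graphOf.2
      ⟨IsLocalization.mk' _ (1 : S) (⟨x, Submonoid.mem_powers x⟩ : M), by
        simp only [a, b, IsLocalization.lift_mk', map_one, one_mul, Prod.mk.injEq,
          Units.val_inv_eq_inv_val, IsUnit.coe_liftRight]
        exact ⟨rfl, rfl⟩⟩
    exact isUnit_iff_exists_inv.2 ⟨⟨_, hS.2 ⟨_, hmem⟩⟩, Subtype.ext (mul_inv_cancel₀ hx0)⟩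
  have hnu : ∀ x : S, x ∈ nonunits S ↔ g x = 0 := fun x =>
    ⟨fun h => by_contra fun h0 => h (hunit x h0), fun h0 hu => (hu.map g).ne_zero h0⟩
  have : IsLocalRing S := IsLocalRing.of_nonunits_add fun a b ha hb => by
    rw [hnu] at ha hb ⊢
    rw [map_add, ha, hb, add_zero]
  obtain ⟨V, hV⟩ := LocalSubring.exists_le_valuationSubring (LocalSubring.mk S)
  obtain ⟨hSV, hloc⟩ := hV
  have hSV' : S ≤ V.toSubring := hSV
  have : IsLocalRing V.toSubring := V.toLocalSubring.isLocalRing
  have hres : ∀ s : S, g s ≠ 0 → ¬ (⟨(s : F), hSV' s.2⟩ : V) ∈ maximalIdeal V := fun s hs h =>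
    (IsLocalRing.mem_maximalIdeal _).1 h ((hunit s hs).map (Subring.inclusion hSV'))
  -- `S = V`
  have hVS : V.toSubring ≤ S := by
    intro x hx
    have hker : RingHom.ker g = maximalIdeal S := by
      ext s
      rw [RingHom.mem_ker, IsLocalRing.mem_maximalIdeal, hnu]
    obtain ⟨a, ha⟩ := exists_eval₂_eq_zero_of_dominated g hker hSV' hloc hx
    have hΔ : IsGraph (graphOf (eval₂RingHom S.subtype x) (eval₂RingHom g a)) :=
      isGraph_graphOf fun p hp => RingHom.mem_ker.2 (ha p (RingHom.mem_ker.1 hp))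
    have hsub : Γ ≤ graphOf (eval₂RingHom S.subtype x) (eval₂RingHom g a) := by
      rintro ⟨p, q'⟩ hpq
      refine mem_graphOf.2 ⟨C ⟨p, hS.2 ⟨q', hpq⟩⟩, ?_⟩
      simp only [coe_eval₂RingHom, eval₂_C, Prod.mk.injEq]
      exact ⟨rfl, hgu _ _ hpq⟩
    exact hS.2 ⟨a, hmax' _ hΔ hsub (mem_graphOf.2 ⟨X, by simp⟩)⟩
  have heq : V.toSubring = S := le_antisymm hVS hSV'
  refine ⟨V, g.comp (Subring.inclusion hVS), fun r hr => hSV' (hS.2 ⟨f ⟨r, hr⟩,
    hle (mem_graphOf.2 ⟨⟨r, hr⟩, rfl⟩)⟩), fun r => hgu _ _ (hle (mem_graphOf.2 ⟨r, rfl⟩)),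
    fun a => ⟨fun h0 => ?_, fun hm => ?_⟩⟩
  · refine (IsLocalRing.mem_maximalIdeal _).2 fun hu => ?_
    exact (hu.map (g.comp (Subring.inclusion hVS))).ne_zero h0
  · by_contra h0
    exact hres (Subring.inclusion hVS a) h0 hm

/-- The specialisation of a valuation ring of an algebraically closed field is onto `κ` when `κ` is
algebraic over constants. -/
theorem surjective_of_isAlgebraic [IsAlgClosed F] (V : ValuationSubring F) (g : V →+* κ)
    (hg : ∀ a : V, g a = 0 ↔ a ∈ maximalIdeal V) {k₀ : Type*} [Field k₀] (j : k₀ →+* V)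
    (halg : ∀ z : κ, ∃ p : k₀[X], p ≠ 0 ∧ p.eval₂ (g.comp j) z = 0) : Function.Surjective g := by
  intro z
  let gk : ResidueField V →+* κ := Ideal.Quotient.lift _ g fun a ha => (hg a).2 ha
  have := Fermat.Agent.Red.isAlgClosed_residueField V
  obtain ⟨p, hp, hpz⟩ := halg z
  let r : k₀ →+* ResidueField V := (residue V).comp j
  have hcomp : g.comp j = gk.comp r := RingHom.ext fun c => rfl
  rw [hcomp, ← eval₂_map, ← eval_map] at hpz
  have hpr : p.map r ≠ 0 := (map_ne_zero hp)
  have hroot : z ∈ ((p.map r).map gk).roots := (mem_roots (map_ne_zero hpr)).2 hpz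
  rw [Polynomial.Splits.roots_map (IsAlgClosed.splits (p.map r)) gk, Multiset.mem_map] at hroot
  obtain ⟨w, -, rfl⟩ := hroot
  obtain ⟨a, rfl⟩ := residue_surjective w
  exact ⟨a, rfl⟩

end Fermat.Agent.AV
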