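import Fermat.Agent.AV.TensorDomain
import Fermat.Agent.FF.Degree

/-!
# Constant field extensions of function fields over algebraically closed fields

`IsConstExt k M Ω N`: `Ω ⊗[k] M` embeds in the field `N`, which is its field of fractions.
-/

noncomputable section

open IntermediateField Polynomial TensorProduct
open Fermat.Agent.FF (IsFunctionField)

namespace Fermat.Agent.AV

/-- The canonical map of the tensor product. -/
def extMap (k M Ω N : Type*) [Field k] [Field M] [Field Ω] [Field N] [Algebra k M] [Algebra k Ω]
    [Algebra k N] [Algebra Ω N] [Algebra M N] [IsScalarTower k Ω N] [IsScalarTower k M N] :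
    Ω ⊗[k] M →ₐ[k] N :=
  Algebra.TensorProduct.lift (IsScalarTower.toAlgHom k Ω N) (IsScalarTower.toAlgHom k M N)
    fun _ _ => Commute.all _ _

/-- `N` is the constant extension of `M/k` to `Ω`. -/
structure IsConstExt (k M Ω N : Type*) [Field k] [Field M] [Field Ω] [Field N] [Algebra k M]
    [Algebra k Ω] [Algebra k N] [Algebra Ω N] [Algebra M N] [IsScalarTower k Ω N]
    [IsScalarTower k M N] : Prop where
  injective : Function.Injective (extMap k M Ω N)
  frac : ∀ z : N, ∃ a b : Ω ⊗[k] M, extMap k M Ω N b ≠ 0 ∧ z * extMap k M Ω N b = extMap k M Ω N a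

variable {k M Ω N : Type*} [Field k] [Field M] [Field Ω] [Field N] [Algebra k M] [Algebra k Ω]
  [Algebra k N] [Algebra Ω N] [Algebra M N] [IsScalarTower k Ω N] [IsScalarTower k M N]

theorem extMap_tmul (a : Ω) (m : M) :
    extMap k M Ω N (a ⊗ₜ m) = algebraMap Ω N a * algebraMap M N m := by
  simp [extMap]

/-- Functions which are independent over the constants stay independent. -/
theorem IsConstExt.linearIndependent (h : IsConstExt k M Ω N) {ι : Type*} {m : ι → M}
    (hm : LinearIndependent k m) : LinearIndependent Ω fun i => algebraMap M N (m i) := by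
  have h1 : Function.Injective (LinearMap.lTensor Ω (Finsupp.linearCombination k m)) :=
    Module.Flat.lTensor_preserves_injective_linearMap _
      (linearIndependent_iff_injective_finsuppLinearCombination.1 hm)
  classical
  rw [linearIndependent_iff]
  intro c hc
  let e := TensorProduct.finsuppScalarRight k k Ω ι
  refine e.symm.injective.eq_iff.1 (h1 (h.injective ?_))
  have hkey : ∀ c : ι →₀ Ω, extMap k M Ω N
      (LinearMap.lTensor Ω (Finsupp.linearCombination k m) (e.symm c)) =
        Finsupp.linearCombination Ω (fun i => algebraMap M N (m i)) c := by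
    intro c
    induction c using Finsupp.induction_linear with
    | zero => simp
    | add p q hp hq => simp [map_add, hp, hq]
    | single i a => simp [e, extMap_tmul, Algebra.smul_def]
  rw [hkey, hkey, hc, map_zero]

/-- The trivial extension. -/
theorem isConstExt_self : IsConstExt k M k M where
  injective := by
    have e : (extMap k M k M : k ⊗[k] M → M) = Algebra.TensorProduct.lid k M := by
      refine funext fun z => ?_
      induction z using TensorProduct.induction_on with
      | zero => simp
      | tmul a m => simp [extMap_tmul, Algebra.smul_def]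
      | add p q hp hq => simp [map_add, hp, hq]
    rw [e]
    exact (Algebra.TensorProduct.lid k M).injective
  frac z := ⟨1 ⊗ₜ z, 1, by simp, by simp [extMap_tmul]⟩

section FieldExt

variable (k M Ω) [IsAlgClosed k]

/-- The fraction field of `Ω ⊗[k] M`. -/
abbrev ConstExtField : Type _ :=
  haveI := isDomain_tensorProduct (k := k) (A := Ω) (B := M)
  FractionRing (Ω ⊗[k] M)

instance : IsDomain (Ω ⊗[k] M) := isDomain_tensorProduct

instance : Algebra M (ConstExtField k M Ω) :=
  ((algebraMap (Ω ⊗[k] M) (ConstExtField k M Ω)).comp
    Algebra.TensorProduct.includeRight.toRingHom).toAlgebra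

instance : IsScalarTower k M (ConstExtField k M Ω) :=
  IsScalarTower.of_algebraMap_eq fun x => by
    rw [RingHom.algebraMap_toAlgebra, RingHom.comp_apply, AlgHom.toRingHom_eq_coe, RingHom.coe_coe,
      AlgHom.commutes, ← IsScalarTower.algebraMap_apply]

/-- `ConstExtField k M Ω` is a constant extension of `M` to `Ω`. -/
theorem isConstExt_constExtField : IsConstExt k M Ω (ConstExtField k M Ω) := by
  have e : (extMap k M Ω (ConstExtField k M Ω) : Ω ⊗[k] M → ConstExtField k M Ω) =
      algebraMap (Ω ⊗[k] M) (ConstExtField k M Ω) := by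
    refine funext fun z => ?_
    induction z using TensorProduct.induction_on with
    | zero => simp
    | tmul a m =>
      rw [extMap_tmul, IsScalarTower.algebraMap_apply Ω (Ω ⊗[k] M) (ConstExtField k M Ω),
        RingHom.algebraMap_toAlgebra (S := ConstExtField k M Ω), RingHom.comp_apply,
        ← map_mul]
      simp
    | add p q hp hq => simp [map_add, hp, hq]
  refine ⟨by rw [e]; exact IsFractionRing.injective _ _, fun z => ?_⟩
  obtain ⟨a, b, hb, rfl⟩ := IsFractionRing.div_surjective (A := Ω ⊗[k] M) z
  have hb0 : algebraMap (Ω ⊗[k] M) (ConstExtField k M Ω) b ≠ 0 :=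
    IsFractionRing.to_map_ne_zero_of_mem_nonZeroDivisors hb
  exact ⟨a, b, by rw [e]; exact hb0, by rw [e, div_mul_cancel₀ _ hb0]⟩

end FieldExt

namespace IsConstExt

variable (h : IsConstExt k M Ω N)
include h

/-- A function transcendental over the constants stays so in a constant extension. -/
theorem transcendental {x : M} (hx : Transcendental k x) : Transcendental Ω (algebraMap M N x) := by
  rw [transcendental_iff_injective]
  have hk : LinearIndependent k fun j : ℕ => x ^ j := by
    have := (Polynomial.basisMonomials k).linearIndependent.map' (aeval x).toLinearMap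
      (LinearMap.ker_eq_bot.mpr (transcendental_iff_injective.mp hx))
    simpa [Function.comp_def] using this
  have hΩ := h.linearIndependent hk
  refine (injective_iff_map_eq_zero _).2 fun p hp => ?_
  rw [aeval_eq_sum_range] at hp
  refine Polynomial.ext fun j => ?_
  rw [coeff_zero]
  by_cases hj : j ∈ Finset.range (p.natDegree + 1)
  · refine linearIndependent_iff'.1 hΩ _ (fun i => p.coeff i) ?_ j hj
    rw [← hp]
    exact Finset.sum_congr rfl fun i _ => by rw [map_pow]
  · exact coeff_eq_zero_of_natDegree_lt (by simpa [Nat.succ_le_iff] using hj)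

/-- A basis of `M` over `k(x)` is a basis of `N` over `Ω(x)`. -/
theorem linearIndependent_adjoin {x : M} (hx : Transcendental k x) {ι : Type*} [Fintype ι]
    (b : ι → M) (hb : LinearIndependent k⟮x⟯ b) :
    LinearIndependent Ω⟮algebraMap M N x⟯ fun i => algebraMap M N (b i) := by
  classical
  have hk : LinearIndependent k fun p : ι × ℕ => x ^ p.2 * b p.1 := by
    rw [linearIndependent_iff']
    intro s c hc p hp
    let φ : ι → k[X] := fun i => ∑ q ∈ s with q.1 = i, monomial q.2 (c q)
    have hsum : ∑ i, (⟨aeval x (φ i), by
        rw [IntermediateField.mem_adjoin_simple_iff]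
        exact ⟨φ i, 1, by simp⟩⟩ : k⟮x⟯) • b i = 0 := by
      rw [← hc, ← Finset.sum_fiberwise s (fun q => q.1) (fun q => c q • (x ^ q.2 * b q.1))]
      refine Finset.sum_congr rfl fun i _ => ?_
      rw [IntermediateField.smul_def, smul_eq_mul]
      show aeval x (φ i) * b i = _
      rw [map_sum, Finset.sum_mul]
      refine Finset.sum_congr rfl fun q hq => ?_
      rw [aeval_monomial, Algebra.smul_def, (Finset.mem_filter.1 hq).2, mul_assoc]
    have h0 := Fintype.linearIndependent_iff.1 hb _ hsum p.1
    have hφ : φ p.1 = 0 := transcendental_iff.1 hx _ (congrArg Subtype.val h0)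
    have := congrArg (fun r => r.coeff p.2) hφ
    simp only [φ, finsetSum_coeff, coeff_monomial, coeff_zero] at this
    rw [Finset.sum_eq_single p (fun q hq hne => if_neg fun e => hne
      (Prod.ext (Finset.mem_filter.1 hq).2 e)) (fun hn => (hn (by simp [hp])).elim),
      if_pos rfl] at this
    exact this
  have hΩ := h.linearIndependent hk
  refine FF.linearIndependent_adjoin (h.transcendental hx) _ fun φ hφ i => ?_
  let n := Finset.univ.sup fun i => (φ i).natDegree
  have hsum : ∑ q ∈ (Finset.univ : Finset ι) ×ˢ Finset.range (n + 1),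
      (φ q.1).coeff q.2 • algebraMap M N (x ^ q.2 * b q.1) = 0 := by
    rw [← hφ, Finset.sum_product]
    refine Finset.sum_congr rfl fun j _ => ?_
    rw [aeval_eq_sum_range' (Nat.lt_succ_of_le (Finset.le_sup (f := fun i => (φ i).natDegree)
      (Finset.mem_univ j))), Finset.sum_mul]
    refine Finset.sum_congr rfl fun l _ => ?_
    rw [map_mul, map_pow, smul_mul_assoc]
  exact linearIndependent_iff'.1 hΩ _ _ hsum (i, 0) (by simp)

theorem adjoin_range_eq_top (E : IntermediateField Ω N) (hE : ∀ m : M, algebraMap M N m ∈ E) :
    E = ⊤ := by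
  have hmem : ∀ z, extMap k M Ω N z ∈ E := fun z => by
    induction z using TensorProduct.induction_on with
    | zero => simp
    | tmul a m => rw [extMap_tmul]; exact mul_mem (E.algebraMap_mem a) (hE m)
    | add p q hp hq => rw [map_add]; exact add_mem hp hq
  refine eq_top_iff.2 fun z _ => ?_
  obtain ⟨a, b, hb, hz⟩ := h.frac z
  rw [show z = extMap k M Ω N a / extMap k M Ω N b from (eq_div_iff hb).2 hz]
  exact div_mem (hmem a) (hmem b)

/-- The degree over `Ω(x)` is the degree over `k(x)`. -/
theorem finrank_adjoin [IsFunctionField k M] {x : M} (hx : Transcendental k x) :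
    FiniteDimensional Ω⟮algebraMap M N x⟯ N ∧
      Module.finrank Ω⟮algebraMap M N x⟯ N = Module.finrank k⟮x⟯ M := by
  classical
  have := FF.finiteDimensional_adjoin_of_transcendental hx
  set E := Ω⟮algebraMap M N x⟯
  let b := Module.finBasis k⟮x⟯ M
  set y := fun i => algebraMap M N (b i)
  have hli : LinearIndependent E y := h.linearIndependent_adjoin hx _ b.linearIndependent
  -- the span of the basis
  set S := Submodule.span E (Set.range y)
  have hM : ∀ m : M, algebraMap M N m ∈ S := by
    intro m
    rw [← b.sum_repr m, map_sum]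
    refine Submodule.sum_mem _ fun i _ => ?_
    have hc : algebraMap M N ((b.repr m i : k⟮x⟯) : M) ∈ E := by
      obtain ⟨r, s, hrs⟩ := (IntermediateField.mem_adjoin_simple_iff k (α := x) _).1 (b.repr m i).2
      rw [hrs, map_div₀, IntermediateField.mem_adjoin_simple_iff]
      refine ⟨r.map (algebraMap k Ω), s.map (algebraMap k Ω), ?_⟩
      simp [aeval_algebraMap_apply]
    rw [IntermediateField.smul_def, smul_eq_mul, map_mul]
    exact S.smul_mem (⟨_, hc⟩ : E) (Submodule.subset_span ⟨i, rfl⟩)
  have hmul : ∀ p ∈ S, ∀ q ∈ S, p * q ∈ S := by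
    intro p hp q hq
    induction hp using Submodule.span_induction with
    | mem p hp =>
      obtain ⟨i, rfl⟩ := hp
      induction hq using Submodule.span_induction with
      | mem q hq => obtain ⟨j, rfl⟩ := hq; rw [← map_mul]; exact hM _
      | zero => simp
      | add u w _ _ hu hw => rw [mul_add]; exact add_mem hu hw
      | smul c u _ hu => rw [mul_smul_comm]; exact S.smul_mem c hu
    | zero => simp
    | add u w _ _ hu hw => rw [add_mul]; exact add_mem hu hw
    | smul c u _ hu => rw [smul_mul_assoc]; exact S.smul_mem c hu
  let A : Subalgebra E N := S.toSubalgebra (by simpa using hM 1) (fun p q hp hq => hmul p hp q hq)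
  have hfinS : FiniteDimensional E S := FiniteDimensional.span_of_finite E (Set.finite_range y)
  have hfinA : FiniteDimensional E A := hfinS
  have halg : ∀ a ∈ A, a⁻¹ ∈ A := fun a ha => by
    have : Algebra.IsAlgebraic E A := Algebra.IsAlgebraic.of_finite E A
    exact A.inv_mem_of_algebraic (x := ⟨a, ha⟩)
      ((Algebra.IsAlgebraic.isAlgebraic (R := E) (⟨a, ha⟩ : A)).algHom A.val)
  let I : IntermediateField E N := A.toIntermediateField halg
  have htop : I = ⊤ := by
    have hI : I.restrictScalars Ω = ⊤ := h.adjoin_range_eq_top _ fun m => hM m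
    exact IntermediateField.restrictScalars_eq_top_iff.1 hI
  have hS : S = ⊤ := by
    refine Submodule.eq_top_iff'.2 fun z => ?_
    have : z ∈ I := htop ▸ IntermediateField.mem_top
    exact this
  refine ⟨?_, ?_⟩
  · exact Module.Finite.of_surjective S.subtype fun z => ⟨⟨z, hS ▸ Submodule.mem_top⟩, rfl⟩
  · rw [← finrank_top E N, ← hS, finrank_span_eq_card hli, Fintype.card_fin]

theorem isFunctionField [IsFunctionField k M] : IsFunctionField Ω N := by
  obtain ⟨x, hx, -⟩ := IsFunctionField.exists_transcendental (K := k) (F := M)
  have := (h.finrank_adjoin hx).1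
  exact FF.isFunctionField_of_finite (h.transcendental hx)

end IsConstExt

end Fermat.Agent.AV
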