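import Mathlib

/-!
# Counting monomials and jets

The elementary part of the degree bounds for multiplication by `n`.
-/

noncomputable section

namespace Fermat.Agent.AV

/-- A natural number whose powers stay within constants of those of `N` equals `N`. -/
theorem eq_of_pow_sandwich {d N A B : ℕ} (hd : 0 < d) (hN : 0 < N)
    (h1 : ∀ k, 0 < k → N ^ k ≤ A * d ^ k) (h2 : ∀ k, 0 < k → d ^ k ≤ B * N ^ k) : d = N := by
  have key : ∀ a b c : ℕ, 0 < a → a < b → ∃ k, 0 < k ∧ c * a ^ k < b ^ k := by
    intro a b c ha hab
    obtain ⟨k, hk⟩ := pow_unbounded_of_one_lt (c : ℝ) (show (1 : ℝ) < b / a by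
      rw [lt_div_iff₀ (by exact_mod_cast ha), one_mul]; exact_mod_cast hab)
    refine ⟨k + 1, k.succ_pos, ?_⟩
    have hk' : (c : ℝ) < ((b : ℝ) / a) ^ (k + 1) := hk.trans_le
      (pow_le_pow_right₀ (by
        rw [le_div_iff₀ (by exact_mod_cast ha), one_mul]
        exact_mod_cast hab.le) k.le_succ)
    rw [div_pow, lt_div_iff₀ (by positivity)] at hk'
    exact_mod_cast hk'
  rcases lt_trichotomy d N with h | h | h
  · obtain ⟨k, hk, hlt⟩ := key d N A hd h
    exact absurd (h1 k hk) (by omega)
  · exact h
  · obtain ⟨k, hk, hlt⟩ := key N d B hN h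
    exact absurd (h2 k hk) (by omega)

/-- The exponents with every entry below `N`. -/
def boxExp {g N : ℕ} (α : Fin g → Fin N) : Fin g →₀ ℕ :=
  Finsupp.equivFunOnFinite.symm fun i => (α i : ℕ)

theorem boxExp_apply {g N : ℕ} (α : Fin g → Fin N) (i : Fin g) : boxExp α i = α i := rfl

theorem boxExp_injective {g N : ℕ} : Function.Injective (boxExp (g := g) (N := N)) :=
  fun _ _ h => funext fun i => Fin.ext (congrArg (fun e : Fin g →₀ ℕ => e i) h)

theorem exists_boxExp_of_degree_lt {g N : ℕ} {d : Fin g →₀ ℕ} (hd : d.degree < N) :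
    ∃ α : Fin g → Fin N, boxExp α = d :=
  ⟨fun i => ⟨d i, (Finsupp.le_degree i d).trans_lt hd⟩, Finsupp.ext fun _ => rfl⟩

variable {K : Type*} [Field K]

/-- A space whose members are determined by jets of order `N` at `e` points has dimension at most
`e * N ^ g`. -/
theorem card_le_of_jets {L : Type*} [AddCommGroup L] [Module K L] {ι κ : Type*} [Fintype ι]
    [Fintype κ] {g N : ℕ} (v : ι → L) (hv : LinearIndependent K v)
    (jet : κ → L →ₗ[K] MvPowerSeries (Fin g) K)
    (hjet : ∀ f ∈ Submodule.span K (Set.range v),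
      (∀ (T : κ) (d : Fin g →₀ ℕ), d.degree < N → MvPowerSeries.coeff d (jet T f) = 0) → f = 0) :
    Fintype.card ι ≤ Fintype.card κ * N ^ g := by
  let J : L →ₗ[K] (κ × (Fin g → Fin N) → K) :=
    LinearMap.pi fun x => (MvPowerSeries.coeff (boxExp x.2)).comp (jet x.1)
  have h : LinearIndependent K (J ∘ v) := hv.map (by
    rw [disjoint_iff, Submodule.eq_bot_iff]
    rintro f ⟨hf, hJ⟩
    refine hjet f hf fun T d hd => ?_
    obtain ⟨α, rfl⟩ := exists_boxExp_of_degree_lt hd
    exact congrFun (LinearMap.mem_ker.mp hJ) (T, α))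
  have := h.fintype_card_le_finrank
  simpa using this

/-- Products of a basis over a subfield with independent elements of the subfield are
independent. -/
theorem linearIndependent_mul {F E : Type*} [Field F] [Field E] [Algebra K F] [Algebra K E]
    [Algebra E F] [IsScalarTower K E F] {ι κ : Type*} {b : ι → F} (hb : LinearIndependent E b)
    {w : κ → E} (hw : LinearIndependent K w) :
    LinearIndependent K fun x : κ × ι => algebraMap E F (w x.1) * b x.2 := by
  simp_rw [← Algebra.smul_def]
  exact linearIndependent_smul hw hb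

/-- The box monomials in algebraically independent elements are independent. -/
theorem linearIndependent_box {F : Type*} [CommRing F] [Algebra K F] {g N : ℕ} {u : Fin g → F}
    (hu : AlgebraicIndependent K u) :
    LinearIndependent K fun α : Fin g → Fin N => ∏ i, u i ^ (α i : ℕ) := by
  have h := ((MvPolynomial.basisMonomials (Fin g) K).linearIndependent.comp _
    (boxExp_injective (g := g) (N := N))).map' (MvPolynomial.aeval u).toLinearMap
      (LinearMap.ker_eq_bot.mpr hu)
  rw [show (fun α : Fin g → Fin N => ∏ i, u i ^ (α i : ℕ)) = (MvPolynomial.aeval u).toLinearMap ∘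
      (MvPolynomial.basisMonomials (Fin g) K ∘ boxExp) from funext fun α => by
    simp [MvPolynomial.aeval_monomial, Finsupp.prod_fintype, boxExp_apply]]
  exact h

end Fermat.Agent.AV
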