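import Fermat.Agent.AV.CubeEval

/-!
# The theorem of the cube for degrees, and quadraticity of heights

For points on a curve through the origin, the degree of the pullback of the polar divisor satisfies
the relation of the theorem of the cube; its symmetrisation is quadratic.
-/

noncomputable section

universe u

open CategoryTheory AlgebraicGeometry NeronModelInfra GoodReductionJacobian AlgebraicCurve
open Fermat.Agent.FF (IsFunctionField)

namespace Fermat.Agent.AV.SmoothAV

variable {K : Type u} [Field K] [IsAlgClosed K] {g : ℕ} (X : SmoothAV K g)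
variable {k M : Type u} [Field k] [IsAlgClosed k] [Algebra K k] [Field M] [Algebra k M]
  [Algebra K M] [IsScalarTower K k M] [IsFunctionField k M]

omit [IsAlgClosed K] in
/-- A point with value zero at `o` has value zero at the place over `o` of the copy field. -/
theorem valuePt_liftPlace_copy (o : Place k M) {P : X.Pt M} (hP : X.valuePt o P = 0) :
    X.valuePt (liftPlace (isConstExt_constExtField k M (CopyConst k M)) o)
      (X.map (IsScalarTower.toAlgHom K M (CopyField k M)) P) = X.map (inclK (K := K)) 0 := by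
  have hN := isConstExt_constExtField k M (CopyConst k M)
  rw [map_zero, ← X.map_liftAt o P, X.map_map,
    X.valuePt_eq_of_hom (liftPlace hN o)
      ((IsScalarTower.toAlgHom K M (CopyField k M)).comp (placeIncl o))
      ((IsScalarTower.toAlgHom K k (CopyConst k M)).comp (valueAlg o)) (fun v => ?_),
    ← X.map_map (valueAlg o) (IsScalarTower.toAlgHom K k (CopyConst k M))]
  · rw [show X.map (valueAlg o) (X.liftAt o P) = X.valuePt o P from rfl, hP, map_zero]
  · have hmem : algebraMap M (CopyField k M) (v : M) ∈ (liftPlace hN o).toValuationSubring :=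
      (FF.mem_iff_ord_nonneg (liftPlace hN o)).2 (by
        rw [ord_liftPlace]; exact (FF.mem_iff_ord_nonneg o).1 v.2)
    refine ⟨hmem, (valueHom_eq_iff (liftPlace hN o) _ _).2 ?_⟩
    have e : algebraMap (CopyConst k M) (CopyField k M)
        (algebraMap k (CopyConst k M) (valueHom o v)) =
          algebraMap M (CopyField k M) (algebraMap k M (valueHom o v)) := by
      rw [← IsScalarTower.algebraMap_apply, ← IsScalarTower.algebraMap_apply]
    change (algebraMap M (CopyField k M) (v : M) - algebraMap (CopyConst k M) (CopyField k M)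
      (algebraMap k (CopyConst k M) (valueHom o v)) = 0) ∨
      0 < (liftPlace hN o).ord (algebraMap M (CopyField k M) (v : M) - algebraMap (CopyConst k M)
        (CopyField k M) (algebraMap k (CopyConst k M) (valueHom o v)))
    rw [e, ← map_sub, ord_liftPlace, map_eq_zero_iff _ (algebraMap M _).injective]
    exact (valueHom_eq_iff o v _).1 rfl

section ChangePieces

variable {Ω N : Type u} [Field Ω] [IsAlgClosed Ω] [Field N] [Algebra Ω N] [IsFunctionField Ω N]
  [Algebra K Ω] [Algebra K N] [IsScalarTower K Ω N]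

/-- Changing the pieces in which a principal combination of divisors is written. -/
theorem exists_change_pieces (X₀ : Fin 4 → X.Pt N) (n : Fin 4 → ℤ) (a₀ a : Fin 4 → X.Piece)
    (ha₀ : ∀ i, X.centre (X₀ i) ∈ (a₀ i).O) (haX : ∀ i, X.centre (X₀ i) ∈ (a i).O) {f : N}
    (hf : f ≠ 0) (hdiv₀ : ∑ i, n i • X.dDiv (k := Ω) (a₀ i) (X₀ i) (ha₀ i) = FF.divOf f) :
    ∃ f' : N, f' ≠ 0 ∧ ∑ i, n i • X.dDiv (k := Ω) (a i) (X₀ i) (haX i) = FF.divOf f' ∧
      ∀ (p : Place Ω N) (b : Fin 4 → X.Piece)
        (hb : ∀ i, X.centre (X.liftAt p (X₀ i)) ∈ (b i).O),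
        f * ∏ i, X.ratio (X₀ i) (a₀ i) (b i) (ha₀ i) (X.centre_mem_of_liftAt (hb i)) ^ n i =
          f' * ∏ i, X.ratio (X₀ i) (a i) (b i) (haX i) (X.centre_mem_of_liftAt (hb i)) ^ n i := by
  have hne : ∀ i, X.ratio (X₀ i) (a₀ i) (a i) (ha₀ i) (haX i) ≠ 0 := fun i =>
    (X.isUnit_ratio _ _ _ _ _).ne_zero
  set f' := f * ∏ i, X.ratio (X₀ i) (a₀ i) (a i) (ha₀ i) (haX i) ^ n i with hf'
  have hprod0 : (∏ i, X.ratio (X₀ i) (a₀ i) (a i) (ha₀ i) (haX i) ^ n i) ≠ 0 :=
    Finset.prod_ne_zero_iff.2 fun i _ => zpow_ne_zero _ (hne i)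
  have hf'0 : f' ≠ 0 := mul_ne_zero hf hprod0
  have hdiv' : ∑ i, n i • X.dDiv (k := Ω) (a i) (X₀ i) (haX i) = FF.divOf f' := by
    rw [hf', FF.divOf_mul hf hprod0, ← hdiv₀]
    ext v
    simp only [Finsupp.add_apply, Finsupp.finsetSum_apply, Finsupp.smul_apply, FF.divOf_apply,
      smul_eq_mul]
    rw [ord_prod_zpow v _ _ _ hne, ← Finset.sum_add_distrib]
    refine Finset.sum_congr rfl fun i _ => ?_
    rw [X.dDiv_change (a₀ i) (a i) (X₀ i) (ha₀ i), Finsupp.add_apply, FF.divOf_apply]
    ring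
  refine ⟨f', hf'0, hdiv', fun p b hb => ?_⟩
  rw [hf', mul_assoc, ← Finset.prod_mul_distrib]
  refine congrArg _ (Finset.prod_congr rfl fun i _ => ?_)
  rw [← mul_zpow, X.ratio_mul]

end ChangePieces

/-- **The theorem of the cube**: the third difference of the degree vanishes. -/
theorem degPt_cube (o : Place k M) {P Q R : X.Pt M} (hP : X.valuePt o P = 0)
    (hQ : X.valuePt o Q = 0) (hR : X.valuePt o R = 0) :
    X.degPt k (P + Q + R) - X.degPt k (P + Q) - X.degPt k (P + R) + X.degPt k P -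
      X.degPt k (Q + R) + X.degPt k Q + X.degPt k R = 0 := by
  classical
  have hN := isConstExt_constExtField k M (CopyConst k M)
  have hM : IsConstExt k M k M := isConstExt_self
  set ιM := IsScalarTower.toAlgHom K M (CopyField k M)
  set ιC := IsScalarTower.toAlgHom K (CopyConst k M) (CopyField k M)
  set cQ := X.map ιC (X.map (inclK (K := K)) Q) with hcQ
  set cR := X.map ιC (X.map (inclK (K := K)) R) with hcR
  set x := X.map ιM P with hx
  let X₀ : Fin 4 → X.Pt (CopyField k M) := ![x + cQ + cR, x + cQ, x + cR, x]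
  let n : Fin 4 → ℤ := ![1, -1, -1, 1]
  let a₀ : Fin 4 → X.Piece := fun i => X.piece (X.centre (X₀ i))
  have ha₀ : ∀ i, X.centre (X₀ i) ∈ (a₀ i).O := fun i => X.mem_piece _
  obtain ⟨f, hf, hfv⟩ := X.cubeDiv_const_mem o P Q R hQ hR
  have hdiv₀ : ∑ i, n i • X.dDiv (k := CopyConst k M) (a₀ i) (X₀ i) (ha₀ i) = FF.divOf f := by
    rw [← show X.cubeDiv (k := CopyConst k M) x cQ cR = FF.divOf f from Finsupp.ext hfv]
    simp only [Fin.sum_univ_four, cubeDiv, stdDiv, n, X₀, a₀, Matrix.cons_val_zero,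
      Matrix.cons_val_one, Matrix.cons_val, one_smul, neg_smul]
    abel
  -- the diagonal and the place over the base place
  obtain ⟨δ, hδ⟩ := exists_diagonal (k := k) (M := M)
  set o' := liftPlace hN o
  have hδx : X.valuePt δ x = X.map (inclK (K := K)) P :=
    X.valuePt_eq_of_hom δ ιM inclK (fun m => hδ m) P
  have hox : X.valuePt o' x = X.map (inclK (K := K)) 0 := X.valuePt_liftPlace_copy o hP
  have hconst : ∀ (p : Place (CopyConst k M) (CopyField k M)) (W : X.Pt M),
      X.valuePt p (X.map ιC (X.map (inclK (K := K)) W)) = X.map (inclK (K := K)) W :=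
    fun p W => X.valuePt_const p _
  let Yδ : Fin 4 → X.Pt M := ![P + Q + R, P + Q, P + R, P]
  let Yo : Fin 4 → X.Pt M := ![Q + R, Q, R, 0]
  have hYδ : ∀ i, X.valuePt δ (X₀ i) = X.map (inclK (K := K)) (Yδ i) := fun i => by
    fin_cases i <;> simp [X₀, Yδ, hδx, hconst, cQ, cR]
  have hYo : ∀ i, X.valuePt o' (X₀ i) = X.map (inclK (K := K)) (Yo i) := fun i => by
    fin_cases i <;> simp [X₀, Yo, hox, hconst, cQ, cR]
  let bδ : Fin 4 → X.Piece := fun i => X.piece (X.centre (Yδ i))
  let bo : Fin 4 → X.Piece := fun i => X.piece (X.centre (Yo i))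
  have hbδ : ∀ i, X.centre (Yδ i) ∈ (bδ i).O := fun i => X.mem_piece _
  have hbo : ∀ i, X.centre (Yo i) ∈ (bo i).O := fun i => X.mem_piece _
  have hbpδ : ∀ i, X.centre (X.liftAt δ (X₀ i)) ∈ (bδ i).O := fun i => by
    rw [← X.centre_valuePt, hYδ, X.centre_map]; exact hbδ i
  have hbpo : ∀ i, X.centre (X.liftAt o' (X₀ i)) ∈ (bo i).O := fun i => by
    rw [← X.centre_valuePt, hYo, X.centre_map]; exact hbo i
  obtain ⟨Fδ, hFδu, hFδ⟩ := X.exists_adjusted δ X₀ n a₀ bδ ha₀ hbpδ hf hdiv₀
  obtain ⟨Fo, hFou, hFo⟩ := X.exists_adjusted o' X₀ n a₀ bo ha₀ hbpo hf hdiv₀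
  let E : Divisor k M := ∑ i, n i • (X.dDiv (bδ i) (Yδ i) (hbδ i) - X.dDiv (bo i) (Yo i) (hbo i))
  have hE : ∀ q, E q = ∑ i, n i * X.dDiv (k := k) (bδ i) (Yδ i) (hbδ i) q -
      ∑ i, n i * X.dDiv (k := k) (bo i) (Yo i) (hbo i) q := fun q => by
    simp only [E, Finsupp.finsetSum_apply, Finsupp.smul_apply, Finsupp.sub_apply, smul_eq_mul,
      mul_sub, Finset.sum_sub_distrib]
  have hδ0 : valueHom δ Fδ ≠ 0 := (hFδu.map (valueHom δ)).ne_zero
  have ho0 : valueHom o' Fo ≠ 0 := (hFou.map (valueHom o')).ne_zero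
  obtain ⟨Nm, d, hNm, hd, hord⟩ := exists_norm (φ := valueHom δ Fδ / valueHom o' Fo)
    (div_ne_zero hδ0 ho0) (fun q => E q) fun q S hS => by
      let X' : Fin 4 → X.Pt M := fun i =>
        ![P + X.map (IsScalarTower.toAlgHom K k M) (X.specPt S (X.map (inclK (K := K)) Q)) +
            X.map (IsScalarTower.toAlgHom K k M) (X.specPt S (X.map (inclK (K := K)) R)),
          P + X.map (IsScalarTower.toAlgHom K k M) (X.specPt S (X.map (inclK (K := K)) Q)),
          P + X.map (IsScalarTower.toAlgHom K k M) (X.specPt S (X.map (inclK (K := K)) R)), P] i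
      have hred : ∀ i, X.Reduces S hN hM (X₀ i) (X' i) := by
        have hP' := X.reduces_map S hN hM P
        rw [show IsScalarTower.toAlgHom K M M = AlgHom.id K M from AlgHom.ext fun _ => rfl,
          X.map_id] at hP'
        have hQ' := X.reduces_const S hN hM (X.map (inclK (K := K)) Q)
        have hR' := X.reduces_const S hN hM (X.map (inclK (K := K)) R)
        intro i
        fin_cases i
        · exact (hP'.add hQ').add hR'
        · exact hP'.add hQ'
        · exact hP'.add hR'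
        · exact hP'
      let a : Fin 4 → X.Piece := fun i => X.piece (X.centre (X' i))
      have ha' : ∀ i, X.centre (X' i) ∈ (a i).O := fun i => X.mem_piece _
      have haX : ∀ i, X.centre (X₀ i) ∈ (a i).O := fun i => (hred i).centre_mem (ha' i)
      obtain ⟨f', hf'0, hdiv', hadj⟩ :=
        X.exists_change_pieces X₀ n a₀ a ha₀ haX hf hdiv₀
      obtain ⟨c, w, hw, hfw⟩ := (S.redData hN hM).scale f' hf'0
      have hc : c ≠ 0 := fun h0 => hf'0 (by rw [hfw, h0, map_zero, zero_mul])
      obtain ⟨α₁, m₁, hα₁, hm₁, hv₁, ho₁⟩ := X.value_adjusted inclK hS hM hN δ X₀ X' hred n a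
        ha' Yδ hYδ bδ hbδ hw hfw hf'0 hdiv' hbpδ Fδ (hFδ.trans (hadj δ bδ hbpδ))
      obtain ⟨α₂, m₂, hα₂, hm₂, hv₂, ho₂⟩ := X.value_adjusted inclK hS hM hN o' X₀ X' hred n a
        ha' Yo hYo bo hbo hw hfw hf'0 hdiv' hbpo Fo (hFo.trans (hadj o' bo hbpo))
      simp only [AlgHom.restrictScalars_apply] at hv₁ hv₂
      obtain ⟨β, hβ⟩ := (S.isUnit_of_pi_ne_zero hα₂).exists_right_inv
      have hπβ : S.π β ≠ 0 := fun h0 => by
        have := congrArg S.π hβ
        rw [map_mul, h0, mul_zero, map_one] at this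
        exact zero_ne_one this
      refine ⟨α₁ * β, m₁ / m₂, by rw [map_mul]; exact mul_ne_zero hα₁ hπβ, div_ne_zero hm₁ hm₂,
        ?_, ?_⟩
      · have hβ' : (α₂ : CopyConst k M) * β = 1 := congrArg Subtype.val hβ
        have hm₂' : copyIncl k M m₂ ≠ 0 := (_root_.map_ne_zero _).2 hm₂
        have hα₂' : (α₂ : CopyConst k M) ≠ 0 := left_ne_zero_of_mul_eq_one hβ'
        rw [hv₁, hv₂, map_div₀, MulMemClass.coe_mul, eq_inv_of_mul_eq_one_right hβ']
        field_simp
      · rw [FF.ord_div _ hm₁ hm₂, ho₁, ho₂, hE]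
  have hdeg : (d : ℤ) * Divisor.degree E = 0 := by
    have h := FF.degree_divOf (K := k) Nm
    rw [show FF.divOf (K := k) Nm = (d : ℤ) • E from Finsupp.ext fun q => by
      rw [FF.divOf_apply, hord, Finsupp.smul_apply, smul_eq_mul], map_zsmul, smul_eq_mul] at h
    exact h
  have hdE : Divisor.degree E = 0 := (mul_eq_zero.1 hdeg).resolve_left (by omega)
  simp only [E, Fin.sum_univ_four, map_add, map_sub, map_zsmul, X.degree_dDiv, n, Yδ, Yo,
    Matrix.cons_val_zero, Matrix.cons_val_one, Matrix.cons_val, smul_eq_mul, X.degPt_zero] at hdE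
  linarith

variable (k) in
/-- The height of a point. -/
def ht (R : X.Pt M) : ℤ := X.degPt k R + X.degPt k (-R)

theorem ht_zero : X.ht k (0 : X.Pt M) = 0 := by rw [ht, neg_zero, X.degPt_zero, add_zero]

theorem ht_parallelogram (o : Place k M) {P Q : X.Pt M} (hP : X.valuePt o P = 0)
    (hQ : X.valuePt o Q = 0) :
    X.ht k (P + Q) + X.ht k (P - Q) = 2 * X.ht k P + 2 * X.ht k Q := by
  have hQ' : X.valuePt o (-Q) = 0 := by rw [map_neg, hQ, neg_zero]
  have hP' : X.valuePt o (-P) = 0 := by rw [map_neg, hP, neg_zero]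
  have h1 := X.degPt_cube o hP hQ hQ'
  have h2 := X.degPt_cube o hP' hQ hQ'
  rw [add_neg_cancel_right, add_neg_cancel, X.degPt_zero] at h1 h2
  simp only [ht]
  rw [show P + -Q = P - Q from (sub_eq_add_neg _ _).symm] at h1
  rw [show -P + Q = -(P - Q) by abel, show -P + -Q = -(P + Q) by abel] at h2
  linarith

/-- **Quadraticity.** -/
theorem ht_nsmul (o : Place k M) {P : X.Pt M} (hP : X.valuePt o P = 0) (n : ℕ) :
    X.ht k (n • P) = (n : ℤ) ^ 2 * X.ht k P := by
  induction n using Nat.twoStepInduction with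
  | zero => rw [zero_smul, X.ht_zero]; simp
  | one => simp
  | more m ih1 ih2 =>
    have h := X.ht_parallelogram o (P := (m + 1) • P) (Q := P) (by rw [map_nsmul, hP, smul_zero]) hP
    rw [← succ_nsmul, show (m + 1) • P - P = m • P by rw [succ_nsmul, add_sub_cancel_right],
      ih1, ih2] at h
    push_cast at h ⊢
    linarith

end Fermat.Agent.AV.SmoothAV
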