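import Fermat.Agent.AV.CubeRigid

/-!
# Evaluation of a function along a constant extension, and norms

The value at a place of a function with given polar parts, read off along specialisations, and the
degree relation it gives after taking the norm.
-/

noncomputable section

universe u

open CategoryTheory AlgebraicGeometry NeronModelInfra GoodReductionJacobian AlgebraicCurve
open Fermat.Agent.FF (IsFunctionField)

namespace Fermat.Agent.AV

section Norm

variable {k M : Type u} [Field k] [IsAlgClosed k] [Field M] [Algebra k M] [IsFunctionField k M]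

/-- A specialisation of the constants lying over a place. -/
def IsSpecAt (q : Place k M) (S : Specialization k (CopyConst k M) k) : Prop :=
  ∀ x : q.toValuationSubring, ∃ h : copyIncl k M (x : M) ∈ S.A,
    S.π ⟨_, h⟩ = valueHom q x

theorem exists_isSpecAt (q : Place k M) : ∃ S, IsSpecAt q S := by
  let v : q.toValuationSubring →ₐ[k] k := { valueHom q with commutes' := valueHom_algebraMap q }
  let i : q.toValuationSubring →ₐ[k] CopyConst k M :=
    (copyIncl k M).comp (IsScalarTower.toAlgHom k q.toValuationSubring M)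
  obtain ⟨S, hS⟩ := exists_spec_of_hom i
    ((copyInclHom k M).injective.comp Subtype.val_injective) v
    (algebraMap k q.toValuationSubring) fun z => by
      rw [v.comp_algebraMap]
      exact isAlgebraic_base z
  exact ⟨S, hS⟩

/-- A function agreeing with a unit of a specialisation over `q` has order zero at `q`. -/
theorem ord_eq_zero_of_spec {q : Place k M} {S : Specialization k (CopyConst k M) k}
    (hS : IsSpecAt q S) {x : M} {a : S.A} (ha : S.π a ≠ 0)
    (h : copyIncl k M x = (a : CopyConst k M)) : q.ord x = 0 := by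
  have hx : x ≠ 0 := fun h0 => by
    rw [h0, map_zero] at h
    exact ha (by rw [show a = 0 from Subtype.ext h.symm, map_zero])
  rcases lt_trichotomy (q.ord x) 0 with hlt | h0 | hgt
  · exfalso
    have hmem : x⁻¹ ∈ q.toValuationSubring := (FF.mem_iff_ord_nonneg q).2 (by rw [q.ord_inv]; omega)
    obtain ⟨hA, hπ⟩ := hS ⟨x⁻¹, hmem⟩
    rw [(valueHom_eq_zero_iff_ord q ⟨x⁻¹, hmem⟩).2 (Or.inr (by rw [q.ord_inv]; omega))] at hπ
    have h1 : a * ⟨_, hA⟩ = (1 : S.A) := Subtype.ext (by
      show (a : CopyConst k M) * copyIncl k M (x⁻¹ : M) = 1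
      rw [← h, ← map_mul, mul_inv_cancel₀ hx, map_one])
    have h2 := congrArg S.π h1
    rw [map_mul, hπ, mul_zero, map_one] at h2
    exact zero_ne_one h2
  · exact h0
  · exfalso
    have hmem : x ∈ q.toValuationSubring := (FF.mem_iff_ord_nonneg q).2 hgt.le
    obtain ⟨hA, hπ⟩ := hS ⟨x, hmem⟩
    rw [(valueHom_eq_zero_iff_ord q ⟨x, hmem⟩).2 (Or.inr hgt)] at hπ
    exact ha (by rw [← hπ]; exact congrArg S.π (Subtype.ext h.symm))

/-- The norm of a constant with prescribed orders along all specialisations. -/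
theorem exists_norm {φ : CopyConst k M} (hφ : φ ≠ 0) (E : Place k M → ℤ)
    (h : ∀ (q : Place k M) (S : Specialization k (CopyConst k M) k), IsSpecAt q S →
      ∃ (a : S.A) (m : M), S.π a ≠ 0 ∧ m ≠ 0 ∧ φ = a * copyIncl k M m ∧ q.ord m = E q) :
    ∃ (N : M) (d : ℕ), N ≠ 0 ∧ 0 < d ∧ ∀ q, q.ord N = d * E q := by
  classical
  let algM : Algebra M (CopyConst k M) := (copyInclHom k M).toAlgebra
  have halg : Algebra.IsAlgebraic M (CopyConst k M) := ⟨fun z => by
    obtain ⟨p, hp, hpz⟩ := exists_poly_copyConst k M z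
    exact ⟨p, hp, hpz⟩⟩
  have hnormal : Normal M (CopyConst k M) := normal_iff.2 fun x =>
    ⟨(halg.isAlgebraic x).isIntegral, IsAlgClosed.splits _⟩
  have hint : IsIntegral M φ := (halg.isAlgebraic φ).isIntegral
  set p := minpoly M φ
  refine ⟨p.coeff 0, p.natDegree, minpoly.coeff_zero_ne_zero hint hφ,
    minpoly.natDegree_pos hint, fun q => ?_⟩
  obtain ⟨S, hS⟩ := exists_isSpecAt q
  obtain ⟨a₀, m₀, -, hm₀, -, hE₀⟩ := h q S hS
  -- every conjugate has the same order
  have hroot : ∀ r ∈ p.aroots (CopyConst k M), ∃ a : S.A, S.π a ≠ 0 ∧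
      r = a * copyIncl k M m₀ := by
    intro r hr
    obtain ⟨σ, hσ⟩ := (isConjRoot_iff_exists_algEquiv).1
      ((isConjRoot_iff_mem_minpoly_aroots hint).2 hr).symm
    have hσk : ∀ c : k, σ (algebraMap k (CopyConst k M) c) = algebraMap k (CopyConst k M) c :=
      fun c => σ.commutes (algebraMap k M c)
    let S' : Specialization k (CopyConst k M) k :=
      { A := S.A.comap (σ : CopyConst k M →+* CopyConst k M)
        π := S.π.comp (((σ : CopyConst k M →+* CopyConst k M).comp
          (S.A.comap (σ : CopyConst k M →+* CopyConst k M)).subtype).codRestrict S.A.toSubring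
            fun x => x.2)
        mem := fun c => by
          show σ (algebraMap k (CopyConst k M) c) ∈ S.A
          rw [hσk]; exact S.mem c
        comm := fun c => by
          refine Eq.trans (congrArg S.π (Subtype.ext ?_)) (S.comm c)
          exact hσk c
        surj := fun z => by
          obtain ⟨x, hx⟩ := S.surj z
          refine ⟨⟨σ.symm x, show σ (σ.symm x) ∈ S.A by rw [σ.apply_symm_apply]; exact x.2⟩, ?_⟩
          rw [← hx]
          exact congrArg S.π (Subtype.ext (σ.apply_symm_apply _)) }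
    have hS' : IsSpecAt q S' := fun x => by
      obtain ⟨hA, hπ⟩ := hS x
      have e : σ (copyIncl k M (x : M)) = copyIncl k M (x : M) := σ.commutes (x : M)
      refine ⟨show σ (copyIncl k M (x : M)) ∈ S.A by rw [e]; exact hA, ?_⟩
      rw [← hπ]
      exact congrArg S.π (Subtype.ext e)
    obtain ⟨a, m, ha, hm, hφa, hEm⟩ := h q S' hS'
    let aS : S.A := ⟨σ (a : CopyConst k M), a.2⟩
    have ha' : S.π aS ≠ 0 := ha
    have hord : q.ord (m / m₀) = 0 := by
      rw [FF.ord_div _ hm hm₀, hEm, hE₀, sub_self]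
    obtain ⟨hA, hπ⟩ := hS ⟨m / m₀, (FF.mem_iff_ord_nonneg q).2 hord.ge⟩
    refine ⟨aS * ⟨_, hA⟩, ?_, ?_⟩
    · rw [map_mul, hπ]
      refine mul_ne_zero ha' fun h0 => ?_
      rcases (valueHom_eq_zero_iff_ord q _).1 h0 with h1 | h1
      · exact div_ne_zero hm hm₀ h1
      · change 0 < q.ord (m / m₀) at h1
        omega
    · rw [← hσ, hφa, map_mul]
      show σ (a : CopyConst k M) * σ (copyIncl k M m) =
        σ (a : CopyConst k M) * copyIncl k M (m / m₀) * copyIncl k M m₀
      rw [show σ (copyIncl k M m) = copyIncl k M m from σ.commutes m, mul_assoc, ← map_mul,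
        div_mul_cancel₀ m hm₀]
  have hprod : ∀ s : Multiset (CopyConst k M),
      (∀ r ∈ s, ∃ a : S.A, S.π a ≠ 0 ∧ r = a * copyIncl k M m₀) →
      ∃ a : S.A, S.π a ≠ 0 ∧ s.prod = a * copyIncl k M m₀ ^ Multiset.card s := by
    intro s
    induction s using Multiset.induction with
    | empty => exact fun _ => ⟨1, by simp, by simp⟩
    | cons r s ih =>
      intro hs
      obtain ⟨a, ha, hr⟩ := hs r (Multiset.mem_cons_self r s)
      obtain ⟨b, hb, hs'⟩ := ih fun x hx => hs x (Multiset.mem_cons_of_mem hx)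
      refine ⟨a * b, by rw [map_mul]; exact mul_ne_zero ha hb, ?_⟩
      rw [Multiset.prod_cons, hr, hs', Multiset.card_cons, pow_succ, MulMemClass.coe_mul]
      ring
  obtain ⟨a, ha, hpa⟩ := hprod _ hroot
  have hsplit : (p.map (algebraMap M (CopyConst k M))).Splits := IsAlgClosed.splits _
  have hcoeff := hsplit.coeff_zero_eq_prod_roots_of_monic ((minpoly.monic hint).map _)
  have hcard : Multiset.card (p.aroots (CopyConst k M)) = p.natDegree := by
    rw [Polynomial.aroots, ← hsplit.natDegree_eq_card_roots, Polynomial.natDegree_map]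
  rw [Polynomial.coeff_map, Polynomial.natDegree_map] at hcoeff
  change copyIncl k M (p.coeff 0) = (-1) ^ p.natDegree * (p.aroots (CopyConst k M)).prod at hcoeff
  rw [hpa, hcard] at hcoeff
  have hm₀' : m₀ ^ p.natDegree ≠ 0 := pow_ne_zero _ hm₀
  have hx := ord_eq_zero_of_spec hS (x := p.coeff 0 / m₀ ^ p.natDegree)
    (a := (-1) ^ p.natDegree * a) (by
      rw [map_mul, map_pow, map_neg, map_one]
      exact mul_ne_zero (pow_ne_zero _ (neg_ne_zero.2 one_ne_zero)) ha) (by
      rw [map_div₀, hcoeff, map_pow, div_eq_iff (pow_ne_zero _ ((_root_.map_ne_zero _).2 hm₀)),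
        MulMemClass.coe_mul, SubmonoidClass.coe_pow]
      push_cast
      ring)
  rw [FF.ord_div _ (minpoly.coeff_zero_ne_zero hint hφ) hm₀', FF.ord_pow, hE₀] at hx
  linarith

omit [IsAlgClosed k] in
/-- A homomorphism of the functions to the constants gives a place of a constant extension. -/
theorem exists_place_of_hom {Ω N : Type u} [Field Ω] [IsAlgClosed Ω] [Field N] [Algebra k Ω]
    [Algebra k N] [Algebra Ω N] [Algebra M N] [IsScalarTower k Ω N] [IsScalarTower k M N]
    [IsFunctionField Ω N] (hN : IsConstExt k M Ω N) (ι : M →ₐ[k] Ω) :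
    ∃ δ : Place Ω N, ∀ m : M,
      ∃ h : algebraMap M N m ∈ δ.toValuationSubring, valueHom δ ⟨_, h⟩ = ι m := by
  classical
  let ext := extMap k M Ω N
  let mult : TensorProduct k Ω M →ₐ[k] Ω :=
    Algebra.TensorProduct.lift (AlgHom.id k _) ι fun _ _ => Commute.all _ _
  let e : TensorProduct k Ω M ≃+* ext.toRingHom.range :=
    RingEquiv.ofBijective ext.toRingHom.rangeRestrict
      ⟨fun a b h => hN.injective (congrArg Subtype.val h), RingHom.rangeRestrict_surjective _⟩
  obtain ⟨V, gV, hle, hg, hker⟩ := exists_valuationSubring_extend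
    ext.toRingHom.range (mult.toRingHom.comp e.symm.toRingHom)
  have hval : ∀ z, ∃ h : ext z ∈ V, gV ⟨ext z, h⟩ = mult z := fun z => ⟨hle ⟨z, rfl⟩, by
    rw [hg ⟨ext z, z, rfl⟩]
    exact congrArg mult (e.symm_apply_apply z)⟩
  have hc : ∀ a, ext (a ⊗ₜ[k] 1) = algebraMap Ω N a := fun a => by
    simp [ext, extMap_tmul]
  have hm : ∀ m, ext ((1 : Ω) ⊗ₜ[k] m) = algebraMap M N m := fun m => by
    simp [ext, extMap_tmul]
  have hK : ∀ a, algebraMap Ω N a ∈ V := fun a => hc a ▸ hle ⟨_, rfl⟩
  have hA : V ≠ ⊤ := by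
    obtain ⟨x, hx, -⟩ := IsFunctionField.exists_transcendental (K := k) (F := M)
    set z := (ι x) ⊗ₜ[k] (1 : M) - (1 : Ω) ⊗ₜ[k] x
    obtain ⟨hz, hgz⟩ := hval z
    have hmz : mult z = 0 := by simp [z, mult]
    intro htop
    have hne : ext z ≠ 0 := by
      rw [map_sub, hc, hm, sub_ne_zero]
      intro heq
      have htr := hN.transcendental hx
      rw [← heq] at htr
      exact htr (isAlgebraic_algebraMap _)
    have hinv : (ext z)⁻¹ ∈ V := htop ▸ ValuationSubring.mem_top _
    have h1 : (⟨ext z, hz⟩ : V) * ⟨_, hinv⟩ = 1 := Subtype.ext (mul_inv_cancel₀ hne)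
    have h2 := congrArg gV h1
    rw [map_mul, hgz, hmz, zero_mul, map_one] at h2
    exact zero_ne_one h2
  refine ⟨FF.placeOfValuationSubring V hK hA, fun m => ?_⟩
  set δ := FF.placeOfValuationSubring V hK hA
  have hV : δ.toValuationSubring = V := FF.placeOfValuationSubring_toValuationSubring V hK hA
  obtain ⟨h, hgm⟩ := hval ((1 : Ω) ⊗ₜ[k] m)
  rw [show mult ((1 : Ω) ⊗ₜ[k] m) = ι m by simp [mult]] at hgm
  have hmem : algebraMap M N m ∈ δ.toValuationSubring := by
    rw [hV, ← hm]; exact h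
  refine ⟨hmem, (valueHom_eq_iff δ _ _).2 ?_⟩
  set y := algebraMap M N m - algebraMap Ω N (ι m)
  rcases eq_or_ne y 0 with h0 | hne
  · exact Or.inl h0
  refine Or.inr ?_
  by_contra hle'
  have hyV : y ∈ V := sub_mem (hm m ▸ h) (hK _)
  have hyinv : y⁻¹ ∈ V := by
    rw [← hV, FF.mem_iff_ord_nonneg, δ.ord_inv]
    change ¬ 0 < δ.ord y at hle'
    omega
  have h1 : (⟨y, hyV⟩ : V) * ⟨_, hyinv⟩ = 1 := Subtype.ext (mul_inv_cancel₀ hne)
  have h0 : gV ⟨y, hyV⟩ = 0 := by
    obtain ⟨h', hg'⟩ := hval ((ι m) ⊗ₜ[k] (1 : M))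
    rw [show mult ((ι m) ⊗ₜ[k] (1 : M)) = ι m by simp [mult]] at hg'
    have e1 : (⟨y, hyV⟩ : V) = ⟨_, h⟩ - ⟨_, h'⟩ := Subtype.ext (by simp [y, hm, hc])
    rw [e1, map_sub, hgm, hg', sub_self]
  have h2 := congrArg gV h1
  rw [map_mul, h0, zero_mul, map_one] at h2
  exact zero_ne_one h2

/-- The diagonal place. -/
theorem exists_diagonal : ∃ δ : Place (CopyConst k M) (CopyField k M), ∀ m : M,
    ∃ h : algebraMap M (CopyField k M) m ∈ δ.toValuationSubring,
      valueHom δ ⟨_, h⟩ = copyIncl k M m :=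
  exists_place_of_hom (isConstExt_constExtField k M (CopyConst k M)) (copyIncl k M)

end Norm

namespace SmoothAV

variable {K : Type u} [Field K] [IsAlgClosed K] {g : ℕ} (X : SmoothAV K g)

section Value

variable {k M : Type u} [Field k] [IsAlgClosed k] [Algebra K k] [Field M] [Algebra k M]
  [Algebra K M] [IsScalarTower K k M] [IsFunctionField k M]

omit [IsAlgClosed K] in
/-- The value at `c` of a point is computed by the values at `c` of its coordinates. -/
theorem valuePt_eq_of_hom {V : Type u} [CommRing V] [Algebra K V] (c : Place k M) (e : V →ₐ[K] M)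
    (e' : V →ₐ[K] k) (he : ∀ v, ∃ h : e v ∈ c.toValuationSubring, valueHom c ⟨e v, h⟩ = e' v)
    (W : X.Pt V) : X.valuePt c (X.map e W) = X.map e' W := by
  let φ : V →ₐ[K] c.toValuationSubring :=
    { (e : V →+* M).codRestrict c.toValuationSubring.toSubring (fun v => (he v).1) with
      commutes' := fun r => Subtype.ext ((e.commutes r).trans
        (IsScalarTower.algebraMap_apply K c.toValuationSubring M r)) }
  have h : X.map φ W = X.liftAt c (X.map e W) := X.eq_liftAt (by rw [X.map_map]; rfl)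
  rw [valuePt, AddMonoidHom.comp_apply, ← h, X.map_map]
  exact congrArg (fun e => X.map e W) (AlgHom.ext fun v => (he v).2)

omit [IsAlgClosed K] in
theorem valuePt_const (c : Place k M) (y : X.Pt k) :
    X.valuePt c (X.map (IsScalarTower.toAlgHom K k M) y) = y := by
  rw [X.valuePt_eq_of_hom c (IsScalarTower.toAlgHom K k M) (AlgHom.id K k)
    (fun v => ⟨c.algebraMap_mem' v, valueHom_algebraMap c v⟩), X.map_id]

end Value

section Eval

variable {k M : Type u} [Field k] [IsAlgClosed k] [Algebra K k] [Field M] [Algebra k M]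
  [Algebra K M] [IsScalarTower K k M] [IsFunctionField k M]

/-- The inclusion of the functions, over the base. -/
abbrev inclK : M →ₐ[K] CopyConst k M := (copyIncl k M).restrictScalars K

variable {Ω N : Type u} [Field Ω] [IsAlgClosed Ω] [Field N] [Algebra k Ω] [Algebra k N]
  [Algebra Ω N] [Algebra M N] [IsScalarTower k Ω N] [IsScalarTower k M N] [IsFunctionField Ω N]
  [Algebra K Ω] [IsScalarTower K k Ω] [Algebra K N] [IsScalarTower K Ω N]

omit [Algebra K M] [IsScalarTower K k M] in
/-- A rational function with prescribed polar parts, adjusted at a place, is regular there. -/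
theorem exists_adjusted (p : Place Ω N)
    (X₀ : Fin 4 → X.Pt N) (n : Fin 4 → ℤ) (a b : Fin 4 → X.Piece)
    (ha : ∀ i, X.centre (X₀ i) ∈ (a i).O) (hb : ∀ i, X.centre (X.liftAt p (X₀ i)) ∈ (b i).O)
    {f : N} (hf : f ≠ 0)
    (hdiv : ∑ i, n i • X.dDiv (k := Ω) (a i) (X₀ i) (ha i) = FF.divOf f) :
    ∃ F : p.toValuationSubring, IsUnit F ∧ (F : N) =
      f * ∏ i, X.ratio (X₀ i) (a i) (b i) (ha i) (X.centre_mem_of_liftAt (hb i)) ^ n i := by
  classical
  have hne : ∀ i, X.ratio (X₀ i) (a i) (b i) (ha i) (X.centre_mem_of_liftAt (hb i)) ≠ 0 :=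
    fun i => (X.isUnit_ratio _ _ _ _ _).ne_zero
  set r := f * ∏ i, X.ratio (X₀ i) (a i) (b i) (ha i) (X.centre_mem_of_liftAt (hb i)) ^ n i
  have hr0 : r ≠ 0 := mul_ne_zero hf (Finset.prod_ne_zero_iff.2 fun i _ => zpow_ne_zero _ (hne i))
  have hr : p.ord r = 0 := by
    rw [p.ord_mul hf (Finset.prod_ne_zero_iff.2 fun i _ => zpow_ne_zero _ (hne i)),
      ← FF.divOf_apply, ← hdiv]
    rw [ord_prod_zpow p _ _ _ hne, Finsupp.finsetSum_apply, ← Finset.sum_add_distrib]
    refine Finset.sum_eq_zero fun i _ => ?_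
    rw [Finsupp.smul_apply, smul_eq_mul, dDiv_apply, X.dfun_eq (a i) (X₀ i) (ha i) (hb i),
      ← mul_add, ← p.ord_mul (X.isUnit_ratio _ _ _ _ _).ne_zero (hne i), X.ratio_mul,
      X.ratio_self, p.ord_one, mul_zero]
  refine ⟨⟨r, (FF.mem_iff_ord_nonneg p).2 hr.ge⟩, ?_, rfl⟩
  by_contra hu
  have := (mem_maximalIdeal_iff_ord_pos p ⟨r, _⟩ hr0).1 hu
  change 0 < p.ord r at this
  omega

/-- The image of a product of powers of units under a homomorphism to a field. -/
theorem map_units_prod_zpow {ι R L : Type*} [CommRing R] [Field L] (φ : R →+* L) (s : Finset ι)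
    (u : ι → Rˣ) (n : ι → ℤ) :
    φ ((∏ i ∈ s, u i ^ n i : Rˣ) : R) = ∏ i ∈ s, φ (u i : R) ^ n i := by
  rw [show φ ((∏ i ∈ s, u i ^ n i : Rˣ) : R) = (Units.map φ.toMonoidHom (∏ i ∈ s, u i ^ n i) : L)
    from rfl, map_prod, Units.coe_prod]
  refine Finset.prod_congr rfl fun i _ => ?_
  rw [map_zpow, Units.val_zpow_eq_zpow_val]
  rfl

omit [IsAlgClosed K] in
/-- If a point over the class ring of `Q` gives `X₀` at `p` and `X'` at `Q`, and the value of `X₀`
at `p` is that of `Y`, then `Y` and `X'` have the same value at `q` and `Q`. -/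
theorem valuePt_eq_of_class (ι : M →ₐ[K] Ω) {q : Place k M} {S : Specialization k Ω k}
    (hS : ∀ x : q.toValuationSubring, ∃ h : ι (x : M) ∈ S.A, S.π ⟨_, h⟩ = valueHom q x)
    (hM : IsConstExt k M k M) (hN : IsConstExt k M Ω N) {p : Place Ω N} {Q : Place k M}
    (hp : (S.redData hN hM).r p = Q) (Z : X.Pt (S.classRing hN hM Q)) {X₁ : X.Pt N}
    {X₁' Y₁ : X.Pt M} (hlift : X.liftAt p X₁ = X.map (S.classToPlace hN hM hp) Z)
    (hred : X.map (S.classRed hN hM Q) Z = X.liftAt Q X₁')
    (hY : X.valuePt p X₁ = X.map ι Y₁) : X.valuePt q Y₁ = X.valuePt Q X₁' := by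
  let χ : S.classRing hN hM Q →ₐ[K] S.A :=
    { (((valueAlg (K := K) p).comp (S.classToPlace hN hM hp)).toRingHom).codRestrict
        S.A.toSubring (fun x => by
          obtain ⟨e, h1, -, he, -⟩ := (S.class_value hN hM (S.classToO (K := K) hN hM Q x) Q
            fun p' hp' => (FF.mem_iff_ord_nonneg p').1 (x.2.2 p' hp')).2 p hp
          show valueHom p ⟨_, _⟩ ∈ S.A
          exact he ▸ e.2) with
      commutes' := fun r => Subtype.ext
        ((((valueAlg (K := K) p).comp (S.classToPlace hN hM hp)).commutes r).trans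
          (IsScalarTower.algebraMap_apply K S.A Ω r)) }
  have hz : X.map (IsScalarTower.toAlgHom K S.A Ω) (X.map χ Z) = X.map ι Y₁ := by
    rw [← hY, valuePt, AddMonoidHom.comp_apply, hlift, X.map_map, X.map_map]
    rfl
  have hsp := X.specPt_eq S hz
  rw [X.specPt_copy S ι q hS Y₁] at hsp
  have hcl : X.map (S.piK (K := K)) (X.map χ Z) = X.valuePt Q X₁' := by
    rw [valuePt, AddMonoidHom.comp_apply, ← hred, X.map_map, X.map_map]
    refine congrArg (fun e => X.map e Z) (AlgHom.ext fun x => ?_)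
    obtain ⟨e, h1, h2, he, he'⟩ := (S.class_value hN hM (S.classToO (K := K) hN hM Q x) Q
      fun p' hp' => (FF.mem_iff_ord_nonneg p').1 (x.2.2 p' hp')).2 p hp
    show S.π _ = valueHom Q _
    exact (congrArg S.π (Subtype.ext he)).trans he'.symm
  rw [hcl, show IsScalarTower.toAlgHom K k k = AlgHom.id K k from AlgHom.ext fun _ => rfl,
    X.map_id] at hsp
  exact hsp

omit [IsAlgClosed K] [Algebra K k] [Algebra K M] [IsScalarTower K k M] [Algebra K Ω]
  [IsScalarTower K k Ω] [Algebra K N] [IsScalarTower K Ω N] in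
/-- A function without zeros on a residue class reduces to one without a zero at the class. -/
theorem ord_red_nonpos_of_fibre {S : Specialization k Ω k} (hN : IsConstExt k M Ω N)
    (hM : IsConstExt k M k M) (G : (S.redData hN hM).O) (hG : (S.redData hN hM).red G ≠ 0)
    (Q : Place k M) (h : ∀ p', (S.redData hN hM).r p' = Q → p'.ord (G : N) = 0) :
    Q.ord ((S.redData hN hM).red G) ≤ 0 := by
  have h2 := (S.redData hN hM).push G hG _ (fun P => FF.divOf_apply (G : N) P) Q
  have h3 := Red.mapDomain_nonneg_of_fibre (S.redData hN hM).r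
    (-FF.divOf (K := Ω) (G : N)) Q fun p' hp' => by
      rw [Finsupp.neg_apply, FF.divOf_apply, h p' hp', neg_zero]
  rw [show -FF.divOf (K := Ω) (G : N) = 0 - FF.divOf (K := Ω) (G : N) from (zero_sub _).symm,
    Finsupp.mapDomain_sub, Finsupp.sub_apply, Finsupp.mapDomain_zero, Finsupp.zero_apply, h2] at h3
  omega

/-- **The value of the adjusted function along a specialisation**, for an embedding `ι` of the
functions into the constants lying over the place `q`. -/
theorem value_adjusted (ι : M →ₐ[K] Ω) {q : Place k M} {S : Specialization k Ω k}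
    (hS : ∀ x : q.toValuationSubring, ∃ h : ι (x : M) ∈ S.A, S.π ⟨_, h⟩ = valueHom q x)
    (hM : IsConstExt k M k M) (hN : IsConstExt k M Ω N) (p : Place Ω N)
    (X₀ : Fin 4 → X.Pt N) (X' : Fin 4 → X.Pt M)
    (hred : ∀ i, X.Reduces S hN hM (X₀ i) (X' i)) (n : Fin 4 → ℤ)
    (a : Fin 4 → X.Piece) (ha' : ∀ i, X.centre (X' i) ∈ (a i).O)
    (Y : Fin 4 → X.Pt M) (hY : ∀ i, X.valuePt p (X₀ i) = X.map ι (Y i))
    (b : Fin 4 → X.Piece) (hb : ∀ i, X.centre (Y i) ∈ (b i).O)
    {f : N} {c : Ω} {w : (S.redData hN hM).O}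
    (hw : (S.redData hN hM).red w ≠ 0) (hfw : f = algebraMap Ω N c * w)
    (hf : f ≠ 0)
    (hdiv : ∑ i, n i • X.dDiv (k := Ω) (a i) (X₀ i) ((hred i).centre_mem (ha' i)) =
      FF.divOf f)
    (hbp : ∀ i, X.centre (X.liftAt p (X₀ i)) ∈ (b i).O) (F : p.toValuationSubring)
    (hF : (F : N) = f * ∏ i, X.ratio (X₀ i) (a i) (b i)
      ((hred i).centre_mem (ha' i)) (X.centre_mem_of_liftAt (hbp i)) ^ n i) :
    ∃ (α : S.A) (m : M), S.π α ≠ 0 ∧ m ≠ 0 ∧ valueHom p F = c * α * ι m ∧
      q.ord m = ∑ i, n i * X.dDiv (k := k) (b i) (Y i) (hb i) q := by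
  classical
  set Q := (S.redData hN hM).r p
  choose ZO hZO hZO' hZc hZQ using fun i => (hred i).exists_lift Q
  choose ZQ hZQO hZQred using fun i => hZQ i Q
  set cc : Fin 4 → X.Piece := fun i => X.piece (X.centre (X.liftAt Q (X' i)))
  have hccQ : ∀ i, X.centre (X.liftAt Q (X' i)) ∈ (cc i).O := fun i => X.mem_piece _
  have hccZQ : ∀ i, X.centre (ZQ i) ∈ (cc i).O := fun i => by
    rw [← X.centre_map (S.classRed hN hM Q) (ZQ i), X.eq_liftAt (hZQred i)]
    exact hccQ i
  have hccZ : ∀ i, X.centre (ZO i) ∈ (cc i).O := fun i =>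
    hZQO i ▸ (X.centre_map_specializes _ (ZQ i)).mem_open (cc i).O.2 (hccZQ i)
  have haZ : ∀ i, X.centre (ZO i) ∈ (a i).O := fun i => hZc i ▸ ha' i
  have haX : ∀ i, X.centre (X₀ i) ∈ (a i).O := fun i => (hred i).centre_mem (ha' i)
  -- points of the class
  have hlift : ∀ p', (hp' : (S.redData hN hM).r p' = Q) → ∀ i,
      X.liftAt p' (X₀ i) = X.map (S.classToPlace hN hM hp') (ZQ i) := fun p' hp' i =>
    (X.eq_liftAt (by rw [X.map_map, ← hZO i, ← hZQO i, X.map_map]; rfl)).symm
  have hccp : ∀ p', (S.redData hN hM).r p' = Q → ∀ i, X.centre (X.liftAt p' (X₀ i)) ∈ (cc i).O :=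
      fun p' hp' i =>
    hlift p' hp' i ▸ (X.centre_map_specializes _ (ZQ i)).mem_open (cc i).O.2 (hccZQ i)
  have hccX : ∀ i, X.centre (X₀ i) ∈ (cc i).O := fun i => X.centre_mem_of_liftAt (hccp p rfl i)
  -- the function with a reduction
  let ρ : Fin 4 → ((S.redData hN hM).O)ˣ :=
      fun i => (X.isUnit_ratio (ZO i) (a i) (cc i) (haZ i) (hccZ i)).unit
  let G : (S.redData hN hM).O :=
      w * ((∏ i, ρ i ^ n i : ((S.redData hN hM).O)ˣ) : (S.redData hN hM).O)
  have hρcoe : ∀ i, ((ρ i : (S.redData hN hM).O) : N) =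
      X.ratio (X₀ i) (a i) (cc i) (haX i) (hccX i) := fun i => by
    refine (X.map_ratio (S.inclO (K := K) hN hM) (ZO i) (a i) (cc i) (haZ i) (hccZ i)).trans ?_
    simp_rw [hZO i]
  have hGcoe : (G : N) =
      (w : N) * ∏ i, X.ratio (X₀ i) (a i) (cc i) (haX i) (hccX i) ^ n i := by
    show (w : N) * _ = _
    refine congrArg _ ((map_units_prod_zpow (S.redData hN hM).O.subtype Finset.univ ρ n).trans
      (Finset.prod_congr rfl fun i _ => congrArg (· ^ n i) (hρcoe i)))
  have hGred : (S.redData hN hM).red G ≠ 0 := by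
    rw [map_mul]
    exact mul_ne_zero hw ((Units.isUnit _).map (S.redData hN hM).red).ne_zero
  have hc0 : c ≠ 0 := fun h0 => hf (by rw [hfw, h0, map_zero, zero_mul])
  have hGord : ∀ p', (S.redData hN hM).r p' = Q → p'.ord (G : N) = 0 := fun p' hp' => by
    obtain ⟨F', hu', hF'⟩ := X.exists_adjusted p' X₀ n a cc haX (hccp p' hp') hf hdiv
    have h0 : p'.ord ((F' : p'.toValuationSubring) : N) = 0 :=
      ord_placeIncl_of_isUnit (K := K) p' hu'
    rwa [hF', hfw, mul_assoc, FF.ord_algebraMap_mul p' hc0, ← hGcoe] at h0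
  have hGnn : ∀ p', (S.redData hN hM).r p' = Q → 0 ≤ p'.ord (G : N) :=
      fun p' hp' => (hGord p' hp').ge
  obtain ⟨-, hval⟩ := S.class_value hN hM G Q hGnn
  obtain ⟨α, hαp, hαQ, hα, hα'⟩ := hval p rfl
  have hπα : S.π α ≠ 0 := by
    rw [← hα']
    intro h0
    rcases (valueHom_eq_zero_iff_ord Q _).1 h0 with h1 | h1
    · exact hGred h1
    · exact absurd h1 (not_lt.2 (ord_red_nonpos_of_fibre hN hM G hGred Q hGord))
  -- ratios of pieces around the values
  have hccY : ∀ i, X.centre (Y i) ∈ (cc i).O := fun i => by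
    have h := hccp p rfl i
    rwa [← X.centre_valuePt p (X₀ i), hY i, X.centre_map] at h
  have hqY : ∀ i, X.centre (X.liftAt q (Y i)) ∈ (cc i).O := fun i => by
    rw [← X.centre_valuePt q, X.valuePt_eq_of_class ι hS hM hN rfl (ZQ i) (hlift p rfl i)
      (X.eq_liftAt (hZQred i)) (hY i), X.centre_valuePt]
    exact hccQ i
  -- the value
  set m := ∏ i, X.ratio (Y i) (cc i) (b i) (hccY i) (hb i) ^ n i
  have hne : ∀ i, X.ratio (Y i) (cc i) (b i) (hccY i) (hb i) ≠ 0 := fun i =>
    (X.isUnit_ratio _ _ _ _ _).ne_zero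
  refine ⟨α, m, hπα, Finset.prod_ne_zero_iff.2 fun i _ => zpow_ne_zero _ (hne i), ?_, ?_⟩
  · let σ : Fin 4 → (p.toValuationSubring)ˣ := fun i =>
      (X.isUnit_ratio (X.liftAt p (X₀ i)) (cc i) (b i) (hccp p rfl i) (hbp i)).unit
    have hσcoe : ∀ i, (((σ i : p.toValuationSubring)) : N) =
        X.ratio (X₀ i) (cc i) (b i) (hccX i) (X.centre_mem_of_liftAt (hbp i)) := fun i => by
      refine (X.map_ratio (placeIncl (K := K) p) (X.liftAt p (X₀ i)) (cc i) (b i) (hccp p rfl i)
        (hbp i)).trans ?_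
      simp_rw [X.map_liftAt]
    have hσval : ∀ i, valueHom p (σ i : p.toValuationSubring) =
        ι (X.ratio (Y i) (cc i) (b i) (hccY i) (hb i)) := fun i => by
      refine (X.map_ratio (valueAlg (K := K) p) (X.liftAt p (X₀ i)) (cc i) (b i) (hccp p rfl i)
        (hbp i)).trans ?_
      refine Eq.trans ?_ (X.map_ratio ι (Y i) (cc i) (b i) (hccY i) (hb i)).symm
      have e : X.map (valueAlg (K := K) p) (X.liftAt p (X₀ i)) = X.map ι (Y i) := hY i
      simp_rw [e]
    have hFeq : F = algebraMap Ω p.toValuationSubring c *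
        ⟨(G : N), hαp⟩ * ((∏ i, σ i ^ n i : (p.toValuationSubring)ˣ) :
          p.toValuationSubring) := by
      refine Subtype.ext ?_
      rw [hF, MulMemClass.coe_mul, MulMemClass.coe_mul]
      have h1 : p.toValuationSubring.subtype
          ((∏ i, σ i ^ n i : (p.toValuationSubring)ˣ) : p.toValuationSubring) =
            ∏ i, X.ratio (X₀ i) (cc i) (b i) (hccX i)
              (X.centre_mem_of_liftAt (hbp i)) ^ n i :=
        (map_units_prod_zpow p.toValuationSubring.subtype Finset.univ σ n).trans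
          (Finset.prod_congr rfl fun i _ => congrArg (· ^ n i) (hσcoe i))
      rw [show (((∏ i, σ i ^ n i : (p.toValuationSubring)ˣ) : p.toValuationSubring) : N) = _
        from h1]
      show _ = algebraMap Ω N c * (G : N) * _
      rw [hGcoe, hfw, mul_assoc, mul_assoc, mul_assoc, ← Finset.prod_mul_distrib]
      refine congrArg _ (congrArg _ (Finset.prod_congr rfl fun i _ => ?_))
      rw [← mul_zpow, X.ratio_mul]
    rw [hFeq, map_mul, map_mul, valueHom_algebraMap, hα]
    refine congrArg _ ?_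
    rw [map_units_prod_zpow (valueHom p) Finset.univ σ n, map_prod]
    refine Finset.prod_congr rfl fun i _ => ?_
    rw [map_zpow₀]
    exact congrArg (· ^ n i) (hσval i)
  · simp only [m]
    rw [ord_prod_zpow q _ _ _ hne]
    refine Finset.sum_congr rfl fun i _ => ?_
    rw [dDiv_apply, X.dfun_eq (b i) (Y i) (hb i) (hqY i)]

end Eval

end SmoothAV

end Fermat.Agent.AV
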