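import Fermat.Agent.AV.Special

/-!
# Places of constant extensions under specialisation

Above every place of `M` there is one place of a constant extension, compatible with the reduction
along a specialisation, and a function regular on a residue class has integral values there.
-/

noncomputable section

open IntermediateField AlgebraicCurve
open Fermat.Agent.FF (IsFunctionField)

namespace Fermat.Agent.AV

/-- A function with its only pole at a given place. -/
theorem exists_only_pole {k M : Type*} [Field k] [Field M] [Algebra k M] [IsAlgClosed k]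
    [IsFunctionField k M] (c : Place k M) :
    ∃ φ : M, c.ord φ < 0 ∧ ∀ c' : Place k M, c' ≠ c → 0 ≤ c'.ord φ := by
  have hRR : Red.RR k M (genusFF k M) := Red.RR.ofFF
  set g := genusFF k M
  have h1 := hRR.ell_eq_of_large (D := Finsupp.single c (2 * (g : ℤ) + 1))
    (by rw [Divisor.degree_single, hRR.deg_one]; omega)
  have h2 := hRR.ell_eq_of_large (D := Finsupp.single c (2 * (g : ℤ)))
    (by rw [Divisor.degree_single, hRR.deg_one]; omega)
  rw [Divisor.degree_single, hRR.deg_one] at h1 h2
  have := hRR.finiteDim (Finsupp.single c (2 * (g : ℤ)))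
  obtain ⟨φ, hφ, hφ'⟩ : ∃ φ, φ ∈ riemannRochSpace (Finsupp.single c (2 * (g : ℤ) + 1)) ∧
      φ ∉ riemannRochSpace (Finsupp.single c (2 * (g : ℤ))) := by
    by_contra hcon
    push Not at hcon
    have := Submodule.finrank_mono hcon
    rw [Red.ell] at h1 h2
    omega
  rw [mem_riemannRochSpace_iff] at hφ hφ'
  push Not at hφ'
  obtain ⟨v, hv0, hv⟩ := hφ'
  have hoff : ∀ c' : Place k M, c' ≠ c → 0 ≤ c'.ord φ := fun c' hc' => by
    have := (hφ c').resolve_left hv0
    rwa [Finsupp.single_eq_of_ne hc', neg_zero] at this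
  have hvc : v = c := by
    by_contra hne
    rw [Finsupp.single_eq_of_ne hne, neg_zero] at hv
    exact absurd (hoff v hne) (not_le.2 hv)
  subst hvc
  rw [Finsupp.single_eq_same] at hv
  exact ⟨φ, by omega, hoff⟩

variable {k M Ω N : Type*} [Field k] [Field M] [Field Ω] [Field N] [Algebra k M] [Algebra k Ω]
  [Algebra k N] [Algebra Ω N] [Algebra M N] [IsScalarTower k Ω N] [IsScalarTower k M N]
  [IsAlgClosed k] [IsFunctionField k M] [IsAlgClosed Ω] [IsFunctionField Ω N]
  (hN : IsConstExt k M Ω N)

include hN in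
/-- There is exactly one place over a place of `M`, and it is unramified. -/
theorem existsUnique_over (c : Place k M) :
    ∃ p : Place Ω N, IsOver p c ∧ (∀ m : M, p.ord (algebraMap M N m) = c.ord m) ∧
      ∀ p' : Place Ω N, IsOver p' c → p' = p := by
  classical
  obtain ⟨T⟩ := Specialization.exists_to_base (k := k) (Ω := Ω)
  set R := T.redData hN (isConstExt_self (k := k) (M := M))
  have hred : ∀ m : M, R.red ⟨algebraMap M N m, T.map_mem_O hN isConstExt_self m⟩ = m := fun m =>
    T.red_map hN isConstExt_self m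
  have hpush : ∀ m : M, m ≠ 0 → ∀ q, Finsupp.mapDomain R.r (FF.divOf (K := Ω)
      (algebraMap M N m)) q =
      q.ord m := fun m hm q => by
    rw [R.push ⟨algebraMap M N m, T.map_mem_O hN isConstExt_self m⟩ (by rwa [hred]) _
      (fun P => FF.divOf_apply _ P), hred]
  -- places over a place reduce to it
  have hover : ∀ (c : Place k M) (p : Place Ω N), IsOver p c → R.r p = c := by
    intro c p hp
    obtain ⟨φ, hφc, hφ⟩ := exists_only_pole c
    have hφ0 : φ ≠ 0 := by rintro rfl; simp at hφc
    have htr : Transcendental k φ := FF.transcendental_of_ord_ne_zero c (by omega)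
    set P := FF.poleDiv (K := Ω) (algebraMap M N φ)
    set n := -c.ord φ
    have hdeg : Divisor.degree P = n := by
      rw [FF.degree_poleDiv (hN.transcendental htr), (hN.finrank_adjoin htr).2,
        ← FF.degree_poleDiv htr]
      have e : FF.poleDiv (K := k) φ = Finsupp.single c n := by
        ext v
        rw [FF.poleDiv_apply]
        rcases eq_or_ne v c with rfl | hne
        · rw [Finsupp.single_eq_same]; omega
        · rw [Finsupp.single_eq_of_ne hne]; have := hφ v hne; omega
      rw [e, Divisor.degree_single, FF.place_deg_eq_one]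
      simp
    have hp' : P p ≠ 0 := by
      have h1 := (hp.ord_pos_iff φ⁻¹).2 (by rw [c.ord_inv]; omega)
      rw [map_inv₀, p.ord_inv] at h1
      rw [FF.poleDiv_apply]
      omega
    by_contra hne
    obtain ⟨Q, hQdef⟩ : ∃ Q, Q = Finsupp.mapDomain R.r P := ⟨_, rfl⟩
    have hQ : ∀ q, 0 ≤ Q q := fun q => hQdef ▸ Red.mapDomain_nonneg_of_fibre _ _ _ fun a _ => by
      rw [FF.poleDiv_apply]; exact le_max_right _ _
    have hQc : n ≤ Q c := by
      have h0 : 0 ≤ Finsupp.mapDomain R.r (FF.divOf (K := Ω) (algebraMap M N φ) + P) c :=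
        Red.mapDomain_nonneg_of_fibre _ _ _ fun a _ => by
          rw [Finsupp.add_apply, FF.poleDiv_apply, FF.divOf_apply]; omega
      rw [Finsupp.mapDomain_add, Finsupp.add_apply, hpush φ hφ0, ← hQdef] at h0
      omega
    have hQp : 1 ≤ Q (R.r p) := by
      have h1 := Red.apply_le_mapDomain R.r P p fun a _ => by
        rw [FF.poleDiv_apply]; exact le_max_right _ _
      have h2 : 0 ≤ P p := by rw [FF.poleDiv_apply]; exact le_max_right _ _
      rw [← hQdef] at h1
      omega
    have hdQ : Divisor.degree Q = n := by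
      rw [hQdef]; exact (R.degree_mapDomain Red.RR.ofFF Red.RR.ofFF P).trans hdeg
    have hnn : 0 ≤ Q - Finsupp.single c n - Finsupp.single (R.r p) 1 := fun q => by
      rw [Finsupp.coe_zero, Pi.zero_apply, Finsupp.sub_apply, Finsupp.sub_apply]
      rcases eq_or_ne q c with rfl | h1
      · rw [Finsupp.single_eq_same, Finsupp.single_eq_of_ne (Ne.symm hne)]; omega
      · rw [Finsupp.single_eq_of_ne h1]
        rcases eq_or_ne q (R.r p) with rfl | h2
        · rw [Finsupp.single_eq_same]; omega
        · rw [Finsupp.single_eq_of_ne h2]; have := hQ q; omega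
    have := FF.degree_nonneg hnn
    rw [map_sub, map_sub, hdQ, Divisor.degree_single, Divisor.degree_single,
      FF.place_deg_eq_one, FF.place_deg_eq_one] at this
    omega
  obtain ⟨t, ht0, ht⟩ := FF.exists_ord_eq_one c
  have hclass : ∀ p, R.r p = c → 0 ≤ p.ord (algebraMap M N t) ∧
      (¬ IsOver p c → p.ord (algebraMap M N t) = 0) := by
    intro p hp
    rcases trivial_or_over (K := k) (F := M) p with h | ⟨c', hc'⟩
    · exact ⟨(h t).ge, fun _ => h t⟩
    · obtain rfl : c' = c := (hover c' p hc').symm.trans hp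
      exact ⟨(hc'.mem_iff t).2 (by omega), fun h => absurd hc' h⟩
  obtain ⟨p, hp, hp1, hrest⟩ := Red.exists_unique_simple R.r
    (FF.divOf (K := Ω) (algebraMap M N t)) c
    (fun p hp => by rw [FF.divOf_apply]; exact (hclass p hp).1) (by rw [hpush t ht0, ht])
  rw [FF.divOf_apply] at hp1
  have hpc : IsOver p c := by
    by_contra h
    have := (hclass p hp).2 h
    omega
  refine ⟨p, hpc, fun m => ?_, fun p' hp' => ?_⟩
  · rcases eq_or_ne m 0 with rfl | hm
    · simp
    have hu : c.ord (m * (t ^ c.ord m)⁻¹) = 0 := by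
      rw [c.ord_mul hm (inv_ne_zero (zpow_ne_zero _ ht0)), c.ord_inv, c.ord_zpow, ht]; ring
    have h := (hpc.ord_eq_zero_iff _).2 hu
    have ht' : algebraMap M N t ≠ 0 := (_root_.map_ne_zero _).2 ht0
    rw [map_mul, map_inv₀, map_zpow₀, p.ord_mul ((_root_.map_ne_zero _).2 hm)
      (inv_ne_zero (zpow_ne_zero _ ht')), p.ord_inv, p.ord_zpow, hp1] at h
    linarith
  · by_contra hne
    have h0 := hrest p' (hover c p' hp') hne
    rw [FF.divOf_apply] at h0
    have := (hp'.ord_pos_iff t).2 (by omega)
    omega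

/-- The place over a place of `M`. -/
def liftPlace (c : Place k M) : Place Ω N := (existsUnique_over hN c).choose

theorem isOver_liftPlace (c : Place k M) : IsOver (liftPlace hN c) c :=
  (existsUnique_over hN c).choose_spec.1

theorem ord_liftPlace (c : Place k M) (m : M) :
    (liftPlace hN c).ord (algebraMap M N m) = c.ord m :=
  (existsUnique_over hN c).choose_spec.2.1 m

theorem eq_liftPlace {c : Place k M} {p : Place Ω N} (h : IsOver p c) : p = liftPlace hN c :=
  (existsUnique_over hN c).choose_spec.2.2 p h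

theorem liftPlace_injective : Function.Injective (liftPlace hN) := fun c c' h => by
  have h1 := isOver_liftPlace hN c
  rw [h] at h1
  exact Place.ext (h1.symm.trans (isOver_liftPlace hN c'))

namespace Specialization

variable {κ N' : Type*} [Field κ] [Field N'] [Algebra k κ] [Algebra k N']
    [Algebra κ N'] [Algebra M N']
  [IsScalarTower k κ N'] [IsScalarTower k M N'] [IsAlgClosed κ] [IsFunctionField κ N']
  (S : Specialization k Ω κ) (hN' : IsConstExt k M κ N')

/-- Places over places of `M` reduce to places over them. -/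
theorem r_liftPlace (c : Place k M) :
    (S.redData hN hN').r (liftPlace hN c) = liftPlace hN' c := by
  classical
  obtain ⟨φ, hφc, hφ⟩ := exists_only_pole c
  have hφ0 : φ ≠ 0 := by rintro rfl; simp at hφc
  have h := (S.redData hN hN').push ⟨_, S.map_mem_O hN hN' φ⟩
    (by rw [S.red_map]; exact (_root_.map_ne_zero _).2 hφ0) _
    (fun P => FF.divOf_apply (algebraMap M N φ) P) (liftPlace hN' c)
  rw [S.red_map, ord_liftPlace] at h
  by_contra hne
  have hnn : 0 ≤ Finsupp.mapDomain (S.redData hN hN').r
      (FF.divOf (K := Ω) (algebraMap M N φ)) (liftPlace hN' c) :=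
    Red.mapDomain_nonneg_of_fibre _ _ _ fun p hp => by
      rw [FF.divOf_apply]
      rcases trivial_or_over (K := k) (F := M) p with h' | ⟨c', hc'⟩
      · exact (h' φ).ge
      · refine (hc'.mem_iff φ).2 (hφ c' ?_)
        rintro rfl
        exact hne (eq_liftPlace hN hc' ▸ hp)
  omega

/-- **Functions regular on a residue class have integral values there.** -/
theorem class_value (u : (S.redData hN hN').O) (Q : Place κ N')
    (hu : ∀ p, (S.redData hN hN').r p = Q → 0 ≤ p.ord (u : N)) :
    0 ≤ Q.ord ((S.redData hN hN').red u) ∧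
      ∀ p (_hp : (S.redData hN hN').r p = Q), ∃ (a : S.A) (h1 : (u : N) ∈ p.toValuationSubring)
        (h2 : (S.redData hN hN').red u ∈ Q.toValuationSubring),
        valueHom p ⟨u, h1⟩ = a ∧ valueHom Q ⟨_, h2⟩ = S.π a := by
  classical
  have hQ : 0 ≤ Q.ord ((S.redData hN hN').red u) := by
    rcases eq_or_ne ((S.redData hN hN').red u) 0 with h0 | h0
    · simp [h0]
    · exact (S.redData hN hN').ord_red_nonneg Red.RR.ofFF h0 hu
  refine ⟨hQ, fun p hp => ?_⟩
  have h1 : (u : N) ∈ p.toValuationSubring := (FF.mem_iff_ord_nonneg p).2 (hu p hp)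
  have h2 : (S.redData hN hN').red u ∈ Q.toValuationSubring := (FF.mem_iff_ord_nonneg Q).2 hQ
  set a := valueHom p ⟨u, h1⟩
  have ha := (valueHom_eq_iff p ⟨u, h1⟩ a).1 rfl
  have haA : a ∈ S.A := by
    by_contra hna
    have hinv : a⁻¹ ∈ S.A := (S.A.mem_or_inv_mem a).resolve_left hna
    have hπ0 : S.π ⟨a⁻¹, hinv⟩ = 0 := by
      by_contra hne
      exact hna (inv_inv a ▸ Red.inv_mem_of_pi_ne_zero S.surj hne)
    have ha0 : a ≠ 0 := fun h => hna (h ▸ S.A.zero_mem)
    set g : (S.redData hN hN').O := (S.redData hN hN').ι ⟨a⁻¹, hinv⟩ * u - 1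
    have hg : (S.redData hN hN').red g = -1 := by
      simp only [g, map_sub, map_mul, Red.RedBase.red_ι, hπ0, map_zero, zero_mul, map_one, zero_sub]
    have hgne : (S.redData hN hN').red g ≠ 0 := by rw [hg]; simp
    have hgval : (g : N) = algebraMap Ω N a⁻¹ * ((u : N) - algebraMap Ω N a) := by
      simp only [g, AddSubgroupClass.coe_sub, Subring.coe_mul, Red.RedBase.coe_ι,
          OneMemClass.coe_one]
      rw [mul_sub, ← map_mul, inv_mul_cancel₀ ha0, map_one]
    have hpos : 0 < p.ord (g : N) := by
      rcases ha with h0 | h0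
      · exact absurd (by rw [hgval, h0, mul_zero]) ((S.redData hN hN').coe_ne_zero hgne)
      · rwa [hgval, FF.ord_algebraMap_mul p (inv_ne_zero ha0)]
    have hle := (S.redData hN hN').ord_le_ord_red Red.RR.ofFF hgne (P₀ := p) fun P hP => by
      rw [hgval, FF.ord_algebraMap_mul P (inv_ne_zero ha0), sub_eq_add_neg]
      refine (FF.mem_iff_ord_nonneg P).1 (add_mem ((FF.mem_iff_ord_nonneg P).2
          (hu P (hP.trans hp))) ?_)
      exact neg_mem (P.algebraMap_mem' a)
    rw [hg, hp, FF.ord_neg, Place.ord_one] at hle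
    omega
  refine ⟨⟨a, haA⟩, h1, h2, rfl, (valueHom_eq_iff Q ⟨_, h2⟩ _).2 ?_⟩
  set g : (S.redData hN hN').O := u - (S.redData hN hN').ι ⟨a, haA⟩
  have hgval : (g : N) = (u : N) - algebraMap Ω N a := by simp [g]
  have hg : (S.redData hN hN').red g =
      (S.redData hN hN').red u - algebraMap κ N' (S.π ⟨a, haA⟩) := by simp [g]
  show (S.redData hN hN').red u - _ = 0 ∨ _
  rw [← hg]
  refine (eq_or_ne ((S.redData hN hN').red g) 0).imp id fun hne => ?_
  have hpos : 0 < p.ord (g : N) := by
    rcases ha with h0 | h0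
    · exact absurd (by rw [hgval]; exact h0) ((S.redData hN hN').coe_ne_zero hne)
    · rwa [hgval]
  have hle := (S.redData hN hN').ord_le_ord_red Red.RR.ofFF hne (P₀ := p) fun P hP => by
    rw [hgval, sub_eq_add_neg]
    exact (FF.mem_iff_ord_nonneg P).1 (add_mem ((FF.mem_iff_ord_nonneg P).2 (hu P (hP.trans hp)))
      (neg_mem (P.algebraMap_mem' a)))
  rw [hp] at hle
  omega

end Specialization

end Fermat.Agent.AV
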