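import Fermat.Agent.AV.Reduce
import Fermat.Agent.AV.SpecialPlaces

/-!
# Rigidity of divisor classes under specialisation

A divisor of degree zero on a constant extension whose specialisations are principal along two
independent families of specialisations is principal.
-/

noncomputable section

universe u

open AlgebraicCurve
open Fermat.Agent.FF (IsFunctionField)

namespace Fermat.Agent.AV

section Places

variable {k M : Type u} [Field k] [Field M] [Algebra k M] [IsAlgClosed k] [IsFunctionField k M]

/-- A function field over an algebraically closed field has infinitely many places. -/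
theorem exists_place_notMem (s : Finset (Place k M)) : ∃ v, v ∉ s := by
  obtain ⟨x, hx, -⟩ := IsFunctionField.exists_transcendental (K := k) (F := M)
  have hexists : ∀ a : k, ∃ v : Place k M, 0 < v.ord (x - algebraMap k M a) := fun a =>
    FF.exists_place_ord_pos (x := x - algebraMap k M a) fun halg =>
      hx (by simpa using halg.add (isAlgebraic_algebraMap a))
  choose v hv using hexists
  have hinj : Function.Injective v := fun a b hab => by
    by_contra hne
    have h1 := hv a
    have h2 := hv b
    rw [hab, show x - algebraMap k M a = algebraMap k M (b - a) + (x - algebraMap k M b) by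
        rw [map_sub]; ring,
      FF.ord_add_eq_of_lt (v b) ((_root_.map_ne_zero _).2 (sub_ne_zero.2 (Ne.symm hne)))
        (Or.inr (by rw [FF.ord_algebraMap]; exact h2)), FF.ord_algebraMap] at h1
    omega
  have : Infinite k := inferInstance
  have : Infinite (Place k M) := Infinite.of_injective v hinj
  exact Infinite.exists_notMem_finset s

/-- Removing a suitable point from a divisor with sections lowers `ℓ`. -/
theorem exists_ell_sub_single_lt {D : Divisor k M} (h : 0 < FF.ell D) :
    ∃ c : Place k M, FF.ell (D - Finsupp.single c 1) < FF.ell D := by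
  classical
  obtain ⟨f, hf, hfD⟩ := FF.exists_ne_zero_of_ell_pos h
  obtain ⟨c, hc⟩ := exists_place_notMem (D + FF.divOf (K := k) f).support
  rw [Finsupp.notMem_support_iff, Finsupp.add_apply, FF.divOf_apply] at hc
  refine ⟨c, ?_⟩
  have hle : D - Finsupp.single c 1 ≤ D := fun v => by
    rw [Finsupp.sub_apply]
    rcases eq_or_ne v c with rfl | hv
    · rw [Finsupp.single_eq_same]; omega
    · rw [Finsupp.single_eq_of_ne hv, sub_zero]
  refine lt_of_le_of_ne (FF.ell_mono hle) fun heq => ?_
  have hsub : riemannRochSpace (D - Finsupp.single c 1) ≤ riemannRochSpace D := by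
    intro z hz
    rw [mem_riemannRochSpace_iff] at hz ⊢
    intro v
    refine (hz v).imp id fun hz' => le_trans ?_ hz'
    have := hle v
    omega
  have := (Red.RR.ofFF (K := k) (F := M)).finiteDim D
  have hEq := Submodule.eq_of_le_of_finrank_eq hsub heq
  rw [← hEq, FF.mem_rrSpace_of_ord hf] at hfD
  have := hfD c
  rw [Finsupp.sub_apply, Finsupp.single_eq_same] at this
  omega

/-- There is an effective divisor of degree the genus which moves in no linear system. -/
theorem exists_rigid_divisor :
    ∃ E : Divisor k M, Divisor.degree E = genusFF k M ∧ FF.ell E = 1 ∧ ∀ v, 0 ≤ E v := by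
  classical
  obtain ⟨b, hb⟩ := FF.exists_degree_bound (K := k) (F := M)
  obtain ⟨c₀, -⟩ := exists_place_notMem (∅ : Finset (Place k M))
  have key : ∀ j : ℕ, ∀ D : Divisor k M, Divisor.degree D = genusFF k M + j →
      (FF.ell D : ℤ) = j + 1 →
        ∃ E : Divisor k M, Divisor.degree E = genusFF k M ∧ FF.ell E = 1 := by
    intro j
    induction j with
    | zero => intro D h1 h2; exact ⟨D, by simpa using h1, by simp at h2; exact_mod_cast h2⟩
    | succ j ih =>
      intro D h1 h2
      obtain ⟨c, hc⟩ := exists_ell_sub_single_lt (D := D) (by omega)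
      have hdeg : Divisor.degree (D - Finsupp.single c 1) = genusFF k M + j := by
        rw [map_sub, h1, Divisor.degree_single, FF.place_deg_eq_one]
        push_cast; ring
      refine ih _ hdeg ?_
      have := FF.riemann_inequality (D - Finsupp.single c 1)
      omega
  obtain ⟨j, hj⟩ : ∃ j : ℕ, b ≤ (genusFF k M : ℤ) + j := ⟨b.toNat, by
    have := Int.self_le_toNat b; omega⟩
  have hdeg : Divisor.degree (Finsupp.single c₀ ((genusFF k M : ℤ) + j) : Divisor k M) =
      genusFF k M + j := by
    rw [Divisor.degree_single, FF.place_deg_eq_one]; simp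
  obtain ⟨E, hE, hE1⟩ := key j _ hdeg (by
    have := FF.riemann_roch (K := k) (Finsupp.single c₀ ((genusFF k M : ℤ) + j) : Divisor k M)
    rw [hb _ (by rw [hdeg]; exact hj), hdeg] at this
    omega)
  obtain ⟨f, hf, hfE⟩ := FF.exists_ne_zero_of_ell_pos (D := E) (by omega)
  exact ⟨E + FF.divOf f, by rw [map_add, FF.degree_divOf, add_zero, hE],
    by rw [FF.ell_add_divOf hf, hE1], fun v => FF.neg_divOf_le hf hfE v⟩

omit [IsAlgClosed k] [IsFunctionField k M] in
/-- A rigid effective divisor is the only effective divisor of its class. -/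
theorem eq_of_principal_sub {E D : Divisor k M} (hE : FF.ell E = 1) (hE0 : ∀ v, 0 ≤ E v)
    (hD0 : ∀ v, 0 ≤ D v) (h : D - E ∈ Divisor.principal (K := k) (F := M)) : D = E := by
  obtain ⟨f, hf, hfv⟩ := h
  have hmem : f ∈ riemannRochSpace E := (FF.mem_rrSpace_of_ord hf).2 fun v => by
    have := hfv v
    rw [Finsupp.sub_apply] at this
    have := hD0 v
    omega
  have h1 : (1 : M) ∈ riemannRochSpace E := (FF.mem_rrSpace_of_ord one_ne_zero).2 fun v => by
    have := hE0 v
    rw [v.ord_one]; omega
  obtain ⟨c, hc⟩ := (finrank_eq_one_iff_of_nonzero' (⟨1, h1⟩ : riemannRochSpace E)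
    (fun h0 => one_ne_zero (congrArg Subtype.val h0))).1 hE ⟨f, hmem⟩
  have hfc : f = algebraMap k M c := by
    have := congrArg Subtype.val hc
    simpa [Algebra.algebraMap_eq_smul_one] using this.symm
  ext v
  have := hfv v
  rw [hfc, FF.ord_algebraMap, Finsupp.sub_apply] at this
  omega

end Places

variable {k M Ω N : Type u} [Field k] [Field M] [Field Ω] [Field N] [Algebra k M] [Algebra k Ω]
  [Algebra k N] [Algebra Ω N] [Algebra M N] [IsScalarTower k Ω N] [IsScalarTower k M N]
  [IsAlgClosed k] [IsFunctionField k M] [IsAlgClosed Ω] [IsFunctionField Ω N]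
  (hN : IsConstExt k M Ω N)

omit [IsFunctionField Ω N] in
/-- Principal divisors specialise to principal divisors. -/
theorem Specialization.mapDomain_principal {κ N' : Type u} [Field κ] [Field N'] [Algebra k κ]
    [Algebra k N'] [Algebra κ N'] [Algebra M N'] [IsScalarTower k κ N'] [IsScalarTower k M N']
    [IsAlgClosed κ] (S : Specialization k Ω κ) (hN' : IsConstExt k M κ N')
    {D : Divisor Ω N} (hD : D ∈ Divisor.principal (K := Ω) (F := N)) :
    Finsupp.mapDomain (S.redData hN hN').r D ∈ Divisor.principal (K := κ) (F := N') := by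
  classical
  obtain ⟨f, hf, hfv⟩ := hD
  obtain ⟨c, w, hw, hfw⟩ := (S.redData hN hN').scale f hf
  refine ⟨(S.redData hN hN').red w, hw, fun Q => ?_⟩
  refine (S.redData hN hN').push w hw D (fun p => ?_) Q
  have hc : c ≠ 0 := fun h0 => hf (by rw [hfw, h0, map_zero, zero_mul])
  rw [hfv, hfw, FF.ord_algebraMap_mul p hc]

/-- **Rigidity.** If all specialisations of a degree zero divisor to the ground field in two
families are principal, and the constants integral on both families are those of the ground field,
the divisor is principal. -/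
theorem principal_of_specializations (S : Set (Specialization k Ω k)) (hS : S.Nonempty)
    (hconst : ∀ u : Ω, (∀ s ∈ S, u ∈ s.A) → ∃ c : k, algebraMap k Ω c = u)
    (D : Divisor Ω N) (hdeg : Divisor.degree D = 0)
    (hD : ∀ s ∈ S, Finsupp.mapDomain (s.redData hN (isConstExt_self (k := k) (M := M))).r D ∈
      Divisor.principal (K := k) (F := M)) :
    D ∈ Divisor.principal (K := Ω) (F := N) := by
  classical
  obtain ⟨E, hEdeg, hE1, hE0⟩ := exists_rigid_divisor (k := k) (M := M)
  set L : Divisor k M → Divisor Ω N := Finsupp.mapDomain (liftPlace hN) with hL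
  have hLr : ∀ (s : Specialization k Ω k) (D' : Divisor k M),
      Finsupp.mapDomain (s.redData hN (isConstExt_self (k := k) (M := M))).r (L D') = D' := by
    intro s D'
    rw [hL, ← Finsupp.mapDomain_comp,
      show (s.redData hN isConstExt_self).r ∘ liftPlace hN = id from funext fun c => by
        rw [Function.comp_apply, s.r_liftPlace hN isConstExt_self, id]
        exact (eq_liftPlace (isConstExt_self (k := k) (M := M)) (p := c) (c := c)
          (by ext; rfl)).symm,
      Finsupp.mapDomain_id]
  have hLdeg : Divisor.degree (L E) = Divisor.degree E := by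
    obtain ⟨s, hs⟩ := hS
    conv_rhs => rw [← hLr s E]
    exact ((s.redData hN isConstExt_self).degree_mapDomain Red.RR.ofFF Red.RR.ofFF _).symm
  obtain ⟨φ, hφ, hφD⟩ := FF.exists_ne_zero_mem_of_genusFF_le (K := Ω) (F := N) (D := D + L E)
    (by rw [map_add, hdeg, hLdeg, hEdeg, zero_add, Specialization.genus_eq hN])
  set D' := D + L E + FF.divOf φ with hD'
  have hD'0 : ∀ p, 0 ≤ D' p := fun p => FF.neg_divOf_le hφ hφD p
  have hred : ∀ s ∈ S,
      Finsupp.mapDomain (s.redData hN (isConstExt_self (k := k) (M := M))).r D' = E :=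
          fun s hs => by
    refine eq_of_principal_sub hE1 hE0
      (fun q => Red.mapDomain_nonneg_of_fibre _ _ _ fun p _ => hD'0 p) ?_
    rw [hD', Finsupp.mapDomain_add, Finsupp.mapDomain_add, hLr, add_sub_right_comm,
      add_sub_cancel_right]
    exact add_mem (hD s hs) (s.mapDomain_principal hN _ (FF.divOf_mem_principal hφ))
  -- the effective representative is constant
  obtain ⟨c₁, hc₁⟩ := exists_place_notMem E.support
  obtain ⟨θ, hθ1, hθ⟩ := exists_only_pole c₁
  have hsupp : ∀ p ∈ D'.support, ∃ c, p = liftPlace hN c := by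
    intro p hp
    have hppos : 0 < D' p := lt_of_le_of_ne (hD'0 p) (Ne.symm (Finsupp.mem_support_iff.1 hp))
    have hreg : ∀ s ∈ S, ∀ p', (s.redData hN (isConstExt_self (k := k) (M := M))).r p' =
        (s.redData hN isConstExt_self).r p → 0 ≤ p'.ord (algebraMap M N θ) := by
      intro s hs p' hp'
      have hpos : 0 < E ((s.redData hN isConstExt_self).r p) := by
        rw [← hred s hs]
        exact lt_of_lt_of_le hppos (Red.apply_le_mapDomain _ D' p fun a _ => hD'0 a)
      rcases trivial_or_over (K := k) (F := M) p' with h | ⟨c', hc'⟩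
      · exact (h θ).ge
      · refine (hc'.mem_iff θ).2 (hθ c' fun hcc => ?_)
        have : (s.redData hN isConstExt_self).r p = c' := by
          rw [← hp', eq_liftPlace hN hc', s.r_liftPlace hN isConstExt_self]
          exact (eq_liftPlace (isConstExt_self (k := k) (M := M)) (p := c') (c := c')
            (by ext; rfl)).symm
        rw [this, hcc, Finsupp.notMem_support_iff.1 hc₁] at hpos
        omega
    obtain ⟨s₀, hs₀⟩ := hS
    have hmem : algebraMap M N θ ∈ p.toValuationSubring :=
      (FF.mem_iff_ord_nonneg p).2 (hreg s₀ hs₀ p rfl)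
    have hint : ∀ s ∈ S, valueHom p ⟨_, hmem⟩ ∈ s.A := fun s hs => by
      obtain ⟨a, h1, h2, ha, -⟩ := (s.class_value hN isConstExt_self
        ⟨_, s.map_mem_O hN isConstExt_self θ⟩ _ (hreg s hs)).2 p rfl
      rw [ha]
      exact a.2
    obtain ⟨c, hc⟩ := hconst _ hint
    rcases trivial_or_over (K := k) (F := M) p with h | ⟨c', hc'⟩
    · exfalso
      rcases (valueHom_eq_iff p ⟨_, hmem⟩ _).1 hc.symm with h0 | h0
      · have hθc : θ = algebraMap k M c := by
          refine (algebraMap M N).injective ?_
          rw [← IsScalarTower.algebraMap_apply k M N, IsScalarTower.algebraMap_apply k Ω N]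
          exact sub_eq_zero.1 h0
        rw [hθc, FF.ord_algebraMap] at hθ1
        omega
      · change 0 < p.ord (algebraMap M N θ - algebraMap Ω N (algebraMap k Ω c)) at h0
        rw [← IsScalarTower.algebraMap_apply k Ω N, IsScalarTower.algebraMap_apply k M N,
          ← map_sub, h] at h0
        omega
    · exact ⟨c', eq_liftPlace hN hc'⟩
  obtain ⟨D₀, hD₀⟩ : ∃ D₀, L D₀ = D' := by
    refine ⟨Finsupp.comapDomain (liftPlace hN) D' (liftPlace_injective hN).injOn, ?_⟩
    exact Finsupp.mapDomain_comapDomain _ (liftPlace_injective hN) _ fun p hp => by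
      obtain ⟨c, rfl⟩ := hsupp p hp
      exact ⟨c, rfl⟩
  obtain ⟨s₀, hs₀⟩ := hS
  have hE : D₀ = E := by rw [← hred s₀ hs₀, ← hD₀, hLr]
  have : D = -FF.divOf φ := by
    have h := hD'
    rw [← hD₀, hE] at h
    rw [eq_neg_iff_add_eq_zero]
    calc D + FF.divOf φ = D + L E + FF.divOf φ - L E := by abel
      _ = 0 := by rw [← h, sub_self]
  rw [this]
  exact neg_mem (FF.divOf_mem_principal hφ)

end Fermat.Agent.AV
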