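import Fermat.Agent.AV.CubeFF

/-!
# The cube of a divisor class on a curve times two parameters

Specialisations of two independent copies of a function field, and the principality of the cube of
the pullbacks of the polar divisor.
-/

noncomputable section

universe u

open CategoryTheory AlgebraicGeometry NeronModelInfra GoodReductionJacobian AlgebraicCurve
open TensorProduct
open Fermat.Agent.FF (IsFunctionField)

namespace Fermat.Agent.AV

section Spec

variable {k Ω κ : Type u} [Field k] [Field Ω] [Field κ] [Algebra k Ω] [Algebra k κ]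
  [IsAlgClosed Ω] [IsAlgClosed κ]

/-- A specialisation extending a homomorphism. -/
theorem exists_spec_of_hom {T : Type u} [CommRing T] [Algebra k T] (i : T →ₐ[k] Ω)
    (hi : Function.Injective i) (f : T →ₐ[k] κ) {M₀ : Type u} [Field M₀] (j : M₀ →+* T)
    (halg : ∀ z : κ, ∃ p : Polynomial M₀, p ≠ 0 ∧ p.eval₂ ((f : T →+* κ).comp j) z = 0) :
    ∃ S : Specialization k Ω κ, ∀ x : T, ∃ h : i x ∈ S.A, S.π ⟨i x, h⟩ = f x := by
  let e : T ≃+* (i : T →+* Ω).range := RingEquiv.ofBijective (i : T →+* Ω).rangeRestrict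
    ⟨fun a b h => hi (congrArg Subtype.val h), RingHom.rangeRestrict_surjective _⟩
  obtain ⟨V, g, hle, hg, hker⟩ := exists_valuationSubring_extend (i : T →+* Ω).range
    ((f : T →+* κ).comp (e.symm : _ →+* T))
  have hval : ∀ x : T, ∃ h : i x ∈ V, g ⟨i x, h⟩ = f x := fun x => ⟨hle ⟨x, rfl⟩, by
    rw [hg ⟨i x, x, rfl⟩]
    exact congrArg f (e.symm_apply_apply x)⟩
  have hk : ∀ c : k, algebraMap k Ω c ∈ V := fun c => by
    obtain ⟨h, -⟩ := hval (algebraMap k T c)
    rwa [i.commutes] at h
  refine ⟨⟨V, g, hk, fun c => ?_, ?_⟩, hval⟩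
  · obtain ⟨h, he⟩ := hval (algebraMap k T c)
    rw [f.commutes] at he
    rw [← he]
    exact congrArg g (Subtype.ext (i.commutes c).symm)
  · let jV : M₀ →+* V := ((i : T →+* Ω).comp j).codRestrict V.toSubring fun m => hle ⟨j m, rfl⟩
    refine surjective_of_isAlgebraic V g hker jV fun z => ?_
    obtain ⟨p, hp, hpz⟩ := halg z
    refine ⟨p, hp, ?_⟩
    have e' : g.comp jV = (f : T →+* κ).comp j := RingHom.ext fun m => by
      obtain ⟨h, he⟩ := hval (j m)
      exact he
    rw [e', hpz]

/-- `z` is a root of a nonzero polynomial over `k`. -/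
theorem isAlgebraic_base (z : k) :
    ∃ p : Polynomial k, p ≠ 0 ∧ p.eval₂ (RingHom.id k) z = 0 :=
  ⟨Polynomial.X - Polynomial.C z, Polynomial.X_sub_C_ne_zero z, by simp⟩

end Spec

section Copies

variable (k M : Type u) [Field k] [Field M] [Algebra k M]

/-- An algebraic closure of the functions. It deliberately carries no algebra over the functions. -/
def CopyConst (_k M : Type u) [Field M] : Type u := AlgebraicClosure M

instance : Field (CopyConst k M) := inferInstanceAs (Field (AlgebraicClosure M))

instance : IsAlgClosed (CopyConst k M) := inferInstanceAs (IsAlgClosed (AlgebraicClosure M))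

/-- The inclusion of the functions. -/
def copyInclHom : M →+* CopyConst k M := algebraMap M (AlgebraicClosure M)

instance algebraCopyConst {K₀ : Type u} [CommSemiring K₀] [Algebra K₀ k] :
    Algebra K₀ (CopyConst k M) :=
  (((copyInclHom k M).comp (algebraMap k M)).comp (algebraMap K₀ k)).toAlgebra

instance isScalarTower_copyConst {K₀ : Type u} [CommSemiring K₀] [Algebra K₀ k] :
    IsScalarTower K₀ k (CopyConst k M) :=
  IsScalarTower.of_algebraMap_eq fun _ => rfl

/-- The inclusion of the functions, over the constants. -/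
def copyIncl : M →ₐ[k] CopyConst k M :=
  { copyInclHom k M with commutes' := fun _ => rfl }

omit [Field k] [Algebra k M] in
/-- Every constant of the copy is algebraic over the functions of `M`. -/
theorem exists_poly_copyConst (z : CopyConst k M) :
    ∃ p : Polynomial M, p ≠ 0 ∧ p.eval₂ (copyInclHom k M) z = 0 := by
  obtain ⟨p, hp, hpz⟩ := Algebra.IsAlgebraic.isAlgebraic (R := M) (A := AlgebraicClosure M) z
  exact ⟨p, hp, hpz⟩

variable [IsAlgClosed k] [IsFunctionField k M]

/-- The two copies. -/
abbrev CopyField : Type u := ConstExtField k M (CopyConst k M)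

/-- An algebraically closed field with two independent copies of the functions. -/
def CopyClosure : Type u := AlgebraicClosure (CopyField k M)

instance : Field (CopyClosure k M) := inferInstanceAs (Field (AlgebraicClosure (CopyField k M)))

instance : IsAlgClosed (CopyClosure k M) :=
  inferInstanceAs (IsAlgClosed (AlgebraicClosure (CopyField k M)))

/-- The inclusion of the two copies. -/
def copyClosureHom : CopyField k M →+* CopyClosure k M :=
  algebraMap (CopyField k M) (AlgebraicClosure (CopyField k M))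

instance algebraCopyClosure {K₀ : Type u} [CommSemiring K₀] [Algebra K₀ k] :
    Algebra K₀ (CopyClosure k M) :=
  (((copyClosureHom k M).comp (algebraMap k (CopyField k M))).comp (algebraMap K₀ k)).toAlgebra

instance isScalarTower_copyClosure {K₀ : Type u} [CommSemiring K₀] [Algebra K₀ k] :
    IsScalarTower K₀ k (CopyClosure k M) :=
  IsScalarTower.of_algebraMap_eq fun _ => rfl

/-- The inclusion of the two copies, over the constants. -/
def copyClosureAlg : CopyField k M →ₐ[k] CopyClosure k M :=
  { copyClosureHom k M with commutes' := fun _ => rfl }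

/-- The first copy. -/
def copy₁ : M →ₐ[k] CopyClosure k M :=
  ((copyClosureAlg k M).comp
    (IsScalarTower.toAlgHom k (CopyConst k M) (CopyField k M))).comp (copyIncl k M)

/-- The second copy. -/
def copy₂ : M →ₐ[k] CopyClosure k M :=
  (copyClosureAlg k M).comp (IsScalarTower.toAlgHom k M (CopyField k M))

variable {k M}

/-- The functions of both copies. -/
def copyMap {T T' : Type u} [CommRing T] [CommRing T'] [Algebra k T] [Algebra k T']
    (a : T →ₐ[k] M) (b : T' →ₐ[k] M) : T ⊗[k] T' →ₐ[k] CopyClosure k M :=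
  Algebra.TensorProduct.lift ((copy₁ k M).comp a) ((copy₂ k M).comp b) fun _ _ => Commute.all _ _

omit [IsFunctionField k M] in
/-- Functions of the two copies are linearly disjoint over the constants. -/
theorem copyMap_injective {T T' : Type u} [CommRing T] [CommRing T'] [Algebra k T] [Algebra k T']
    (a : T →ₐ[k] M) (b : T' →ₐ[k] M) (ha : Function.Injective a) (hb : Function.Injective b) :
    Function.Injective (copyMap a b) := by
  let a' : T →ₐ[k] CopyConst k M := (copyIncl k M).comp a
  have e : copyMap a b = ((copyClosureAlg k M).comp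
      (extMap k M (CopyConst k M) (CopyField k M))).comp (Algebra.TensorProduct.map a' b) := by
    refine Algebra.TensorProduct.ext' fun x y => ?_
    simp [copyMap, a', copy₁, copy₂, extMap_tmul]
  rw [e]
  refine ((copyClosureHom k M).injective.comp
    (isConstExt_constExtField k M (CopyConst k M)).injective).comp ?_
  have h1 : Function.Injective (LinearMap.rTensor T' a'.toLinearMap) :=
    Module.Flat.rTensor_preserves_injective_linearMap _
      ((copyInclHom k M).injective.comp ha)
  have h2 : Function.Injective (LinearMap.lTensor (CopyConst k M) b.toLinearMap) :=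
    Module.Flat.lTensor_preserves_injective_linearMap _ hb
  have e2 : (Algebra.TensorProduct.map a' b).toLinearMap =
      (LinearMap.lTensor (CopyConst k M) b.toLinearMap).comp
        (LinearMap.rTensor T' a'.toLinearMap) := by
    ext x y
    simp
  intro x y h
  apply h1
  apply h2
  have hx := LinearMap.congr_fun e2 x
  have hy := LinearMap.congr_fun e2 y
  exact hx.symm.trans (h.trans hy)

omit [IsAlgClosed k] [IsFunctionField k M] in
theorem injective_placeVal (o : Place k M) :
    Function.Injective (IsScalarTower.toAlgHom k o.toValuationSubring M) := fun _ _ h =>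
  Subtype.ext h

/-- Specialisations at a place on one copy with an element of negative value. -/
theorem exists_spec_notMem (o : Place k M) (e : M →ₐ[k] CopyClosure k M) {u : CopyClosure k M}
    (hu : ∀ p : Polynomial M, p.eval₂ (e : M →+* CopyClosure k M) u = 0 → p = 0) :
    ∃ S : Specialization k (CopyClosure k M) k, u ∉ S.A ∧ ∀ x : o.toValuationSubring,
      ∃ h : e (x : M) ∈ S.A, S.π ⟨e (x : M), h⟩ = valueHom o x := by
  have hu0 : u ≠ 0 := fun h => Polynomial.X_ne_zero (hu Polynomial.X (by simp [h]))
  let v : o.toValuationSubring →ₐ[k] k := { valueHom o with commutes' := valueHom_algebraMap o }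
  let i : Polynomial o.toValuationSubring →ₐ[k] CopyClosure k M :=
    Polynomial.aevalTower (e.comp (IsScalarTower.toAlgHom k o.toValuationSubring M)) u⁻¹
  let f : Polynomial o.toValuationSubring →ₐ[k] k := Polynomial.aevalTower v 0
  have hi : Function.Injective i := by
    refine (injective_iff_map_eq_zero i).2 fun p hp => ?_
    have h1 : (p.map (algebraMap o.toValuationSubring M)).eval₂ (e : M →+* CopyClosure k M)
        u⁻¹ = 0 := by
      rw [Polynomial.eval₂_map]
      exact hp
    set q := p.map (algebraMap o.toValuationSubring M)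
    have h2 : q.reverse.eval₂ (e : M →+* CopyClosure k M) u = 0 := by
      let := invertibleOfNonzero (inv_ne_zero hu0)
      have h3 := Polynomial.eval₂_reverse_eq_zero_iff (e : M →+* CopyClosure k M) u⁻¹ q
      rw [invOf_eq_inv, inv_inv] at h3
      exact h3.2 h1
    have h4 := hu _ h2
    rw [Polynomial.reverse_eq_zero] at h4
    exact (Polynomial.map_eq_zero_iff (f := algebraMap o.toValuationSubring M)
      Subtype.val_injective).1 h4
  obtain ⟨S, hS⟩ := exists_spec_of_hom i hi f (algebraMap k (Polynomial o.toValuationSubring))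
    fun z => by
      rw [f.comp_algebraMap]
      exact isAlgebraic_base z
  refine ⟨S, fun hmem => ?_, fun x => ?_⟩
  · obtain ⟨h, hX⟩ := hS Polynomial.X
    have hiX : i Polynomial.X = u⁻¹ := Polynomial.aevalTower_X _ _
    have hprod : (⟨i Polynomial.X, h⟩ : S.A) * ⟨u, hmem⟩ = 1 := Subtype.ext (by
      show i Polynomial.X * u = 1
      rw [hiX, inv_mul_cancel₀ hu0])
    have := congrArg S.π hprod
    rw [map_mul, hX, map_one, show f Polynomial.X = 0 from Polynomial.aevalTower_X _ _,
      zero_mul] at this
    exact zero_ne_one this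
  · obtain ⟨h, hC⟩ := hS (Polynomial.C x)
    have hiC : i (Polynomial.C x) = e (x : M) := Polynomial.aevalTower_C _ _ _
    refine ⟨hiC ▸ h, ?_⟩
    rw [show f (Polynomial.C x) = v x from Polynomial.aevalTower_C _ _ _] at hC
    exact (congrArg S.π (Subtype.ext hiC.symm)).trans hC

omit [IsFunctionField k M] in
/-- An element algebraic over both copies is a constant. -/
theorem exists_const_of_algebraic {u : CopyClosure k M} {p₁ p₂ : Polynomial M} (h₁ : p₁ ≠ 0)
    (hu₁ : p₁.eval₂ (copy₁ k M : M →+* CopyClosure k M) u = 0) (h₂ : p₂ ≠ 0)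
    (hu₂ : p₂.eval₂ (copy₂ k M : M →+* CopyClosure k M) u = 0) :
    ∃ c : k, algebraMap k (CopyClosure k M) c = u := by
  classical
  set c₁ : CopyConst k M →+* CopyClosure k M :=
    (copyClosureHom k M).comp (algebraMap (CopyConst k M) (CopyField k M))
  obtain ⟨u₀, rfl⟩ : ∃ u₀, c₁ u₀ = u := by
    have hq : p₁.map (copyInclHom k M) ≠ 0 := Polynomial.map_ne_zero h₁
    have hroot : u ∈ ((p₁.map (copyInclHom k M)).map c₁).roots := by
      rw [Polynomial.mem_roots (Polynomial.map_ne_zero hq), Polynomial.IsRoot.def,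
        Polynomial.eval_map, Polynomial.eval₂_map]
      exact hu₁
    rw [Polynomial.Splits.roots_map (IsAlgClosed.splits _) c₁, Multiset.mem_map] at hroot
    obtain ⟨u₀, -, h⟩ := hroot
    exact ⟨u₀, h⟩
  suffices ∃ c : k, algebraMap k (CopyConst k M) c = u₀ by
    obtain ⟨c, rfl⟩ := this
    refine ⟨c, ?_⟩
    show copyClosureHom k M (algebraMap k (CopyField k M) c) = _
    rw [IsScalarTower.algebraMap_apply k (CopyConst k M) (CopyField k M)]
    rfl
  by_contra hcon
  have htr : Transcendental k u₀ := fun halg => hcon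
    (minpoly.degree_eq_one_iff.1 (IsAlgClosed.degree_eq_one_of_irreducible k
      (minpoly.irreducible halg.isIntegral)))
  have hz : (∑ i ∈ p₂.support, (u₀ ^ i) ⊗ₜ[k] p₂.coeff i : CopyConst k M ⊗[k] M) = 0 := by
    apply (isConstExt_constExtField k M (CopyConst k M)).injective
    rw [map_zero, map_sum]
    apply (copyClosureHom k M).injective
    rw [map_zero, map_sum, ← hu₂, Polynomial.eval₂_eq_sum, Polynomial.sum]
    refine Finset.sum_congr rfl fun i _ => ?_
    rw [extMap_tmul, map_mul, map_pow, map_pow, mul_comm]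
    rfl
  refine h₂ (Polynomial.ext fun i => ?_)
  rw [Polynomial.coeff_zero]
  by_cases hi : i ∈ p₂.support
  swap
  · exact Polynomial.notMem_support_iff.1 hi
  refine (Module.forall_dual_apply_eq_zero_iff k _).1 fun l => ?_
  have h := congrArg ((TensorProduct.rid k (CopyConst k M)).toLinearMap ∘ₗ
    LinearMap.lTensor (CopyConst k M) l) hz
  rw [map_zero, map_sum] at h
  simp only [LinearMap.comp_apply, LinearMap.lTensor_tmul, LinearEquiv.coe_coe,
    TensorProduct.rid_tmul] at h
  have hq : (∑ i ∈ p₂.support, Polynomial.monomial i (l (p₂.coeff i))) = 0 := by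
    refine (transcendental_iff.1 htr) _ ?_
    rw [map_sum, ← h]
    refine Finset.sum_congr rfl fun i _ => ?_
    rw [Polynomial.aeval_monomial, Algebra.smul_def]
  have := congrArg (fun q => Polynomial.coeff q i) hq
  simpa [Polynomial.finsetSum_coeff, Polynomial.coeff_monomial, hi] using this

end Copies

namespace SmoothAV

variable {K : Type u} [Field K] [IsAlgClosed K] {g : ℕ} (X : SmoothAV K g)

section Cube

variable {k M : Type u} [Field k] [IsAlgClosed k] [Algebra K k] [Field M] [Algebra k M]
  [Algebra K M] [IsScalarTower K k M] [IsFunctionField k M]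

/-- The pullback of the polar divisor with respect to a piece at the generic point. -/
def stdDiv (P : X.Pt M) : Divisor k M := X.dDiv (X.piece (X.centre P)) P (X.mem_piece _)

/-- The alternating sum of pullbacks. -/
def cubeDiv (x y z : X.Pt M) : Divisor k M :=
  X.stdDiv (x + y + z) - X.stdDiv (x + y) - X.stdDiv (x + z) + X.stdDiv x

theorem cubeDiv_zero_left (x z : X.Pt M) : X.cubeDiv (k := k) x 0 z = 0 := by
  rw [cubeDiv, add_zero]; abel

theorem cubeDiv_zero_right (x y : X.Pt M) : X.cubeDiv (k := k) x y 0 = 0 := by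
  rw [cubeDiv, add_zero, add_zero]; abel

end Cube

section Reduction

variable {k Ω κ M N N' : Type u} [Field k] [Field Ω] [Field κ] [Field M] [Field N]
  [Field N'] [Algebra k Ω] [Algebra k κ] [Algebra k M] [Algebra k N] [Algebra Ω N] [Algebra M N]
  [IsScalarTower k Ω N] [IsScalarTower k M N] [Algebra k N'] [Algebra κ N'] [Algebra M N']
  [IsScalarTower k κ N'] [IsScalarTower k M N']
  [IsAlgClosed k] [IsFunctionField k M] [IsAlgClosed Ω] [IsAlgClosed κ]
  [IsFunctionField Ω N] [IsFunctionField κ N']
  [Algebra K k] [Algebra K Ω] [IsScalarTower K k Ω] [Algebra K κ] [IsScalarTower K k κ]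
  [Algebra K M] [IsScalarTower K k M] [Algebra K N] [IsScalarTower K Ω N] [Algebra K N']
  [IsScalarTower K κ N']
  {S : Specialization k Ω κ} {hN : IsConstExt k M Ω N} {hN' : IsConstExt k M κ N'}

variable {X}

omit [Algebra K M] [IsScalarTower K k M] in
theorem Reduces.stdDiv_sub_mem {P : X.Pt N} {P' : X.Pt N'} (h : X.Reduces S hN hN' P P') :
    Finsupp.mapDomain (S.redData hN hN').r (X.stdDiv (k := Ω) P) - X.stdDiv (k := κ) P' ∈
      Divisor.principal (K := κ) (F := N') := by
  have ha := h.centre_mem (X.mem_piece (X.centre P'))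
  have h1 : X.stdDiv (k := Ω) P = X.dDiv (X.piece (X.centre P')) P ha + FF.divOf
      (X.ratio P (X.piece (X.centre P')) (X.piece (X.centre P)) ha (X.mem_piece _)) :=
    X.dDiv_change _ _ P ha (X.mem_piece _)
  have h2 : Finsupp.mapDomain (S.redData hN hN').r (X.dDiv (X.piece (X.centre P')) P ha) =
      X.stdDiv (k := κ) P' :=
    Finsupp.ext fun Q => h.mapDomain_dDiv _ (X.mem_piece _) Q
  rw [h1, Finsupp.mapDomain_add, h2, add_sub_cancel_left]
  exact S.mapDomain_principal hN hN'
    (FF.divOf_mem_principal (X.isUnit_ratio _ _ _ _ _).ne_zero)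

omit [Algebra K M] [IsScalarTower K k M] in
theorem Reduces.cubeDiv_sub_mem {x y z : X.Pt N} {x' y' z' : X.Pt N'}
    (hx : X.Reduces S hN hN' x x') (hy : X.Reduces S hN hN' y y')
    (hz : X.Reduces S hN hN' z z') :
    Finsupp.mapDomain (S.redData hN hN').r (X.cubeDiv (k := Ω) x y z) -
      X.cubeDiv (k := κ) x' y' z' ∈ Divisor.principal (K := κ) (F := N') := by
  have h1 := ((hx.add hy).add hz).stdDiv_sub_mem
  have h2 := (hx.add hy).stdDiv_sub_mem
  have h3 := (hx.add hz).stdDiv_sub_mem
  have h4 := hx.stdDiv_sub_mem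
  convert add_mem (sub_mem (sub_mem h1 h2) h3) h4 using 1
  simp only [cubeDiv, Finsupp.mapDomain_add, Finsupp.mapDomain_sub]
  abel

variable (X)

omit [IsAlgClosed K] [IsAlgClosed Ω] [IsAlgClosed κ] in
/-- The specialisation of the points of a copy of the functions. -/
theorem specPt_copy (S : Specialization k Ω κ) (e : M →ₐ[K] Ω) (c : Place k M)
    (he : ∀ x : c.toValuationSubring, ∃ h : e (x : M) ∈ S.A,
      S.π ⟨e (x : M), h⟩ = algebraMap k κ (valueHom c x)) (P : X.Pt M) :
    X.specPt S (X.map e P) = X.map (IsScalarTower.toAlgHom K k κ) (X.valuePt c P) := by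
  let φ : c.toValuationSubring →ₐ[K] S.A :=
    { ((e : M →+* Ω).comp c.toValuationSubring.subtype).codRestrict S.A.toSubring
        (fun x => (he x).1) with
      commutes' := fun r => Subtype.ext
        ((congrArg e (IsScalarTower.algebraMap_apply K c.toValuationSubring M r).symm).trans
          ((e.commutes r).trans (IsScalarTower.algebraMap_apply K S.A Ω r))) }
  rw [X.specPt_eq S (z := X.map φ (X.liftAt c P))]
  · rw [X.map_map, valuePt, AddMonoidHom.comp_apply, X.map_map]
    exact congrArg (fun e => X.map e _) (AlgHom.ext fun x => (he x).2)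
  · conv_rhs => rw [← X.map_liftAt c P]
    rw [X.map_map, X.map_map]
    rfl

end Reduction

section Rigid

variable {k M : Type u} [Field k] [IsAlgClosed k] [Algebra K k] [Field M] [Algebra k M]
  [Algebra K M] [IsScalarTower K k M] [IsFunctionField k M]

/-- A copy, over the base. -/
abbrev copyK₁ : M →ₐ[K] CopyClosure k M := (copy₁ k M).restrictScalars K

/-- A copy, over the base. -/
abbrev copyK₂ : M →ₐ[K] CopyClosure k M := (copy₂ k M).restrictScalars K

omit [IsAlgClosed K] in
theorem specPt_copy_eq_zero (o : Place k M) (s : Specialization k (CopyClosure k M) k)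
    (e : M →ₐ[k] CopyClosure k M) (W : X.Pt M) (hW : X.valuePt o W = 0)
    (he : ∀ a : o.toValuationSubring,
      ∃ h : e (a : M) ∈ s.A, s.π ⟨e (a : M), h⟩ = valueHom o a) :
    X.specPt s (X.map (e.restrictScalars K) W) = 0 := by
  rw [X.specPt_copy s (e.restrictScalars K) o he W, hW, map_zero]

omit [Algebra K k] [Algebra K M] [IsScalarTower K k M] in
/-- A specialisation of both copies to a place `o` of `M`. -/
theorem exists_spec_both_base (o : Place k M) :
    ∃ s : Specialization k (CopyClosure k M) k,
      (∀ a : o.toValuationSubring,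
        ∃ h : copy₁ k M (a : M) ∈ s.A, s.π ⟨_, h⟩ = valueHom o a) ∧
      ∀ a : o.toValuationSubring,
        ∃ h : copy₂ k M (a : M) ∈ s.A, s.π ⟨_, h⟩ = valueHom o a := by
  let incl := IsScalarTower.toAlgHom k o.toValuationSubring M
  let val : o.toValuationSubring →ₐ[k] k := { valueHom o with commutes' := valueHom_algebraMap o }
  obtain ⟨s, hs⟩ := exists_spec_of_hom (copyMap incl incl)
    (copyMap_injective incl incl (injective_placeVal o) (injective_placeVal o))
    (Algebra.TensorProduct.lift val val fun _ _ => Commute.all _ _)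
    (algebraMap k (o.toValuationSubring ⊗[k] o.toValuationSubring)) fun a => by
      rw [AlgHom.comp_algebraMap]
      exact isAlgebraic_base a
  refine ⟨s, fun a => ?_, fun a => ?_⟩
  · obtain ⟨h, he⟩ := hs (a ⊗ₜ[k] 1)
    have e1 : copyMap incl incl (a ⊗ₜ[k] 1) = copy₁ k M (a : M) := by simp [copyMap, incl]
    refine ⟨e1 ▸ h, ?_⟩
    rw [show (⟨copy₁ k M (a : M), e1 ▸ h⟩ : s.A) = ⟨_, h⟩ from Subtype.ext e1.symm, he]
    simp [val]
  · obtain ⟨h, he⟩ := hs ((1 : o.toValuationSubring) ⊗ₜ[k] a)
    have e1 : copyMap incl incl ((1 : o.toValuationSubring) ⊗ₜ[k] a) = copy₂ k M (a : M) := by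
      simp [copyMap, incl]
    refine ⟨e1 ▸ h, ?_⟩
    rw [show (⟨copy₂ k M (a : M), e1 ▸ h⟩ : s.A) = ⟨_, h⟩ from Subtype.ext e1.symm, he]
    simp [val]

omit [Algebra K k] [Algebra K M] [IsScalarTower K k M] [IsFunctionField k M] in
/-- The diagonal specialisation, sending both copies to the copy of `M`. -/
theorem exists_spec_both_copy :
    ∃ S : Specialization k (CopyClosure k M) (CopyConst k M),
      (∀ m : M, ∃ h : copy₁ k M m ∈ S.A, S.π ⟨_, h⟩ = copyIncl k M m) ∧
      ∀ m : M, ∃ h : copy₂ k M m ∈ S.A, S.π ⟨_, h⟩ = copyIncl k M m := by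
  obtain ⟨S, hS⟩ := exists_spec_of_hom (copyMap (AlgHom.id k M) (AlgHom.id k M))
    (copyMap_injective _ _ Function.injective_id Function.injective_id)
    (Algebra.TensorProduct.lift (copyIncl k M) (copyIncl k M) fun _ _ => Commute.all _ _)
    (Algebra.TensorProduct.includeLeftRingHom : M →+* M ⊗[k] M) fun a => by
      obtain ⟨p, hp, hpa⟩ := exists_poly_copyConst k M a
      refine ⟨p, hp, ?_⟩
      refine Eq.trans ?_ hpa
      congr 1
      ext m
      simp
      rfl
  refine ⟨S, fun m => ?_, fun m => ?_⟩
  · obtain ⟨h, he⟩ := hS (m ⊗ₜ[k] 1)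
    have e1 : copyMap (AlgHom.id k M) (AlgHom.id k M) (m ⊗ₜ[k] 1) = copy₁ k M m := by simp [copyMap]
    refine ⟨e1 ▸ h, ?_⟩
    rw [show (⟨copy₁ k M m, e1 ▸ h⟩ : S.A) = ⟨_, h⟩ from Subtype.ext e1.symm, he]
    simp
  · obtain ⟨h, he⟩ := hS ((1 : M) ⊗ₜ[k] m)
    have e1 : copyMap (AlgHom.id k M) (AlgHom.id k M) ((1 : M) ⊗ₜ[k] m) = copy₂ k M m := by
      simp [copyMap]
    refine ⟨e1 ▸ h, ?_⟩
    rw [show (⟨copy₂ k M m, e1 ▸ h⟩ : S.A) = ⟨_, h⟩ from Subtype.ext e1.symm, he]
    simp

omit [IsFunctionField k M] [IsAlgClosed K] in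
theorem specPt_copy_eq_incl (S : Specialization k (CopyClosure k M) (CopyConst k M))
    (e : M →ₐ[k] CopyClosure k M)
    (he : ∀ m : M, ∃ h : e m ∈ S.A, S.π ⟨e m, h⟩ = copyIncl k M m) (W : X.Pt M) :
    X.specPt S (X.map (e.restrictScalars K) W) =
      X.map ((copyIncl k M).restrictScalars K) W := by
  let φ : M →ₐ[K] S.A :=
    { (e : M →+* CopyClosure k M).codRestrict S.A.toSubring (fun m => (he m).1) with
      commutes' := fun r => Subtype.ext
        (((e.restrictScalars K).commutes r).trans
          (IsScalarTower.algebraMap_apply K S.A (CopyClosure k M) r)) }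
  rw [X.specPt_eq S (z := X.map φ W) (by rw [X.map_map]; rfl), X.map_map]
  exact congrArg (fun e => X.map e W) (AlgHom.ext fun m => (he m).2)

end Rigid

section CubeTop

variable {k M Ω N Nκ : Type u} [Field k] [IsAlgClosed k] [Algebra K k] [Field M] [Algebra k M]
  [Algebra K M] [IsScalarTower K k M] [IsFunctionField k M] [Field Ω] [IsAlgClosed Ω]
  [Algebra k Ω] [Algebra K Ω] [IsScalarTower K k Ω] [Field N] [Algebra k N] [Algebra Ω N]
  [Algebra M N] [IsScalarTower k Ω N] [IsScalarTower k M N] [Algebra K N] [IsScalarTower K Ω N]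
  [IsFunctionField Ω N]

/-- The cube at two constant points which specialise to the origin. -/
theorem cubeDiv_mem_of_family (hN : IsConstExt k M Ω N) [IsScalarTower K M N] (P : X.Pt M)
    (y z : X.Pt Ω) (s₀ : Specialization k Ω k) (hs₀ : X.specPt s₀ y = 0)
    (hconst : ∀ u : Ω, (∀ s : Specialization k Ω k, (X.specPt s y = 0 ∨ X.specPt s z = 0) →
      u ∈ s.A) → ∃ c : k, algebraMap k Ω c = u) :
    X.cubeDiv (k := Ω) (X.map (IsScalarTower.toAlgHom K M N) P)
      (X.map (IsScalarTower.toAlgHom K Ω N) y) (X.map (IsScalarTower.toAlgHom K Ω N) z) ∈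
      Divisor.principal (K := Ω) (F := N) := by
  classical
  have hM : IsConstExt k M k M := isConstExt_self
  let fam : Set (Specialization k Ω k) := {s | X.specPt s y = 0 ∨ X.specPt s z = 0}
  set D := X.cubeDiv (k := Ω) (X.map (IsScalarTower.toAlgHom K M N) P)
      (X.map (IsScalarTower.toAlgHom K Ω N) y) (X.map (IsScalarTower.toAlgHom K Ω N) z) with hD
  have hcube : ∀ s ∈ fam, Finsupp.mapDomain (s.redData hN hM).r D ∈
      Divisor.principal (K := k) (F := M) := by
    intro s hs
    have hx := X.reduces_map s hN hM P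
    rw [show IsScalarTower.toAlgHom K M M = AlgHom.id K M from AlgHom.ext fun _ => rfl,
      X.map_id] at hx
    have := hx.cubeDiv_sub_mem (X.reduces_const s hN hM y) (X.reduces_const s hN hM z)
    rw [← hD] at this
    rcases hs with h | h <;> rw [h, map_zero] at this
    · rwa [cubeDiv_zero_left, sub_zero] at this
    · rwa [cubeDiv_zero_right, sub_zero] at this
  refine principal_of_specializations hN fam ⟨s₀, Or.inl hs₀⟩ hconst D ?_ hcube
  obtain ⟨f, -, hf⟩ := hcube s₀ (Or.inl hs₀)
  rw [← (s₀.redData hN hM).degree_mapDomain Red.RR.ofFF Red.RR.ofFF,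
    show Finsupp.mapDomain (s₀.redData hN hM).r D = FF.divOf f from Finsupp.ext hf,
    FF.degree_divOf]

/-- The cube specialised to constant points with values in another field. -/
theorem cubeDiv_mem_of_spec {κ : Type u} [Field κ] [IsAlgClosed κ] [Algebra k κ] [Algebra K κ]
    [IsScalarTower K k κ] [Field Nκ] [Algebra k Nκ] [Algebra κ Nκ] [Algebra M Nκ]
    [IsScalarTower k κ Nκ] [IsScalarTower k M Nκ] [Algebra K Nκ] [IsScalarTower K κ Nκ]
    [IsFunctionField κ Nκ] [IsScalarTower K M N] [IsScalarTower K M Nκ]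
    (hN : IsConstExt k M Ω N) (hNκ : IsConstExt k M κ Nκ) (S : Specialization k Ω κ)
    (P : X.Pt M) (y z : X.Pt Ω) {y' z' : X.Pt κ} (hy : X.specPt S y = y')
    (hz : X.specPt S z = z')
    (h : X.cubeDiv (k := Ω) (X.map (IsScalarTower.toAlgHom K M N) P)
      (X.map (IsScalarTower.toAlgHom K Ω N) y) (X.map (IsScalarTower.toAlgHom K Ω N) z) ∈
      Divisor.principal (K := Ω) (F := N)) :
    X.cubeDiv (k := κ) (X.map (IsScalarTower.toAlgHom K M Nκ) P)
      (X.map (IsScalarTower.toAlgHom K κ Nκ) y') (X.map (IsScalarTower.toAlgHom K κ Nκ) z') ∈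
      Divisor.principal (K := κ) (F := Nκ) := by
  subst hy hz
  have hfin := (X.reduces_map S hN hNκ P).cubeDiv_sub_mem (X.reduces_const S hN hNκ y)
    (X.reduces_const S hN hNκ z)
  have h2 := sub_mem (S.mapDomain_principal hN hNκ h) hfin
  rwa [sub_sub_cancel] at h2

end CubeTop

section Final

variable {k M : Type u} [Field k] [IsAlgClosed k] [Algebra K k] [Field M] [Algebra k M]
  [Algebra K M] [IsScalarTower K k M] [IsFunctionField k M]

instance : IsFunctionField (CopyConst k M) (CopyField k M) :=
  (isConstExt_constExtField k M (CopyConst k M)).isFunctionField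

instance : IsFunctionField (CopyClosure k M) (ConstExtField k M (CopyClosure k M)) :=
  (isConstExt_constExtField k M (CopyClosure k M)).isFunctionField

instance : IsScalarTower K M (CopyField k M) :=
  isScalarTower_ext K k (CopyConst k M) M (CopyField k M)

instance : IsScalarTower K M (ConstExtField k M (CopyClosure k M)) :=
  isScalarTower_ext K k (CopyClosure k M) M (ConstExtField k M (CopyClosure k M))

/-- **The cube is principal for constant points.** -/
theorem cubeDiv_const_mem (o : Place k M) (P Q R : X.Pt M) (hQ : X.valuePt o Q = 0)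
    (hR : X.valuePt o R = 0) :
    X.cubeDiv (k := CopyConst k M) (X.map (IsScalarTower.toAlgHom K M (CopyField k M)) P)
      (X.map (IsScalarTower.toAlgHom K (CopyConst k M) (CopyField k M))
        (X.map ((copyIncl k M).restrictScalars K) Q))
      (X.map (IsScalarTower.toAlgHom K (CopyConst k M) (CopyField k M))
        (X.map ((copyIncl k M).restrictScalars K) R)) ∈
      Divisor.principal (K := CopyConst k M) (F := CopyField k M) := by
  obtain ⟨s₀, h₁, -⟩ := exists_spec_both_base o
  obtain ⟨S, hS₁, hS₂⟩ := exists_spec_both_copy (k := k) (M := M)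
  have hN := isConstExt_constExtField k M (CopyClosure k M)
  refine X.cubeDiv_mem_of_spec hN (isConstExt_constExtField k M (CopyConst k M)) S P
    (X.map copyK₁ Q) (X.map copyK₂ R) (X.specPt_copy_eq_incl S _ hS₁ Q)
    (X.specPt_copy_eq_incl S _ hS₂ R) ?_
  refine X.cubeDiv_mem_of_family hN P _ _ s₀ (X.specPt_copy_eq_zero o s₀ _ Q hQ h₁) fun u hu => ?_
  have key : ∀ (e : M →ₐ[k] CopyClosure k M) (W : X.Pt M), X.valuePt o W = 0 →
      (∀ s, X.specPt s (X.map (e.restrictScalars K) W) = 0 →
        X.specPt s (X.map copyK₁ Q) = 0 ∨ X.specPt s (X.map copyK₂ R) = 0) →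
      ∃ p : Polynomial M, p ≠ 0 ∧ p.eval₂ (e : M →+* CopyClosure k M) u = 0 := fun e W hW he => by
    by_contra hcon
    push Not at hcon
    obtain ⟨s, hsu, hse⟩ := exists_spec_notMem o e fun p hp => by
      by_contra hp0; exact hcon p hp0 hp
    exact hsu (hu s (he s (X.specPt_copy_eq_zero o s e W hW hse)))
  obtain ⟨p₁, hp₁, hu₁⟩ := key (copy₁ k M) Q hQ fun s h => Or.inl h
  obtain ⟨p₂, hp₂, hu₂⟩ := key (copy₂ k M) R hR fun s h => Or.inr h
  exact exists_const_of_algebraic hp₁ hu₁ hp₂ hu₂

end Final

end SmoothAV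

end Fermat.Agent.AV
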