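import Fermat.Agent.FF.Places

/-!
# Values at places, and restriction of places to subfields

The residue map `valueHom` of a place with values in the algebraically closed constants, and the
relation between a place of a larger field and the place of a subfield below it.
-/

noncomputable section

open AlgebraicCurve
open Fermat.Agent.FF (IsFunctionField)

namespace Fermat.Agent.AV

variable {K F : Type*} [Field K] [Field F] [Algebra K F] [IsAlgClosed K] [IsFunctionField K F]

/-- The value of a regular function at a place. -/
def valueHom (v : Place K F) : v.toValuationSubring →+* K :=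
  ((RingEquiv.ofBijective (algebraMap K v.ResidueField)
      (FF.algebraMap_residueField_bijective v)).symm : v.ResidueField →+* K).comp
    (IsLocalRing.residue v.toValuationSubring)

theorem valueHom_eq_zero_iff (v : Place K F) (f : v.toValuationSubring) :
    valueHom v f = 0 ↔ f ∈ IsLocalRing.maximalIdeal v.toValuationSubring := by
  rw [valueHom, RingHom.comp_apply, RingHom.coe_coe, map_eq_zero_iff _ (RingEquiv.injective _),
    IsLocalRing.residue_eq_zero_iff]

theorem valueHom_algebraMap (v : Place K F) (c : K) :
    valueHom v (algebraMap K v.toValuationSubring c) = c := by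
  rw [valueHom, RingHom.comp_apply, RingHom.coe_coe, RingEquiv.symm_apply_eq]
  rfl

omit [IsAlgClosed K] [IsFunctionField K F] in
theorem mem_maximalIdeal_iff_ord_pos (v : Place K F) (f : v.toValuationSubring) (hf : (f : F) ≠ 0) :
    f ∈ IsLocalRing.maximalIdeal v.toValuationSubring ↔ 0 < v.ord (f : F) := by
  have hnn : 0 ≤ v.ord (f : F) := (FF.mem_iff_ord_nonneg v).1 f.2
  rw [IsLocalRing.mem_maximalIdeal, mem_nonunits_iff, ← v.adicValuation_coe_eq_one_iff,
    v.adicValuation_eq_exp_neg_ord hf, ← WithZero.exp_zero, WithZero.exp_inj]
  omega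

theorem valueHom_eq_zero_iff_ord (v : Place K F) (f : v.toValuationSubring) :
    valueHom v f = 0 ↔ (f : F) = 0 ∨ 0 < v.ord (f : F) := by
  rw [valueHom_eq_zero_iff]
  rcases eq_or_ne (f : F) 0 with h | h
  · simp [show f = 0 from Subtype.ext h]
  · rw [mem_maximalIdeal_iff_ord_pos v f h]
    simp [h]

/-- A function has value `c` at a place iff its difference with `c` vanishes there. -/
theorem valueHom_eq_iff (v : Place K F) (f : v.toValuationSubring) (c : K) :
    valueHom v f = c ↔
      (f : F) - algebraMap K F c = 0 ∨ 0 < v.ord ((f : F) - algebraMap K F c) := by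
  have h := valueHom_eq_zero_iff_ord v (f - algebraMap K v.toValuationSubring c)
  rw [map_sub, valueHom_algebraMap, sub_eq_zero] at h
  exact h

section Over

variable {L N : Type*} [Field L] [Field N] [Algebra L N] [Algebra F N]

/-- The place `p` of `N` lies over the place `c` of `F`. -/
def IsOver (p : Place L N) (c : Place K F) : Prop :=
  p.toValuationSubring.comap (algebraMap F N) = c.toValuationSubring

omit [IsAlgClosed K] [IsFunctionField K F] in
theorem IsOver.mem_iff {p : Place L N} {c : Place K F} (h : IsOver p c) (m : F) :
    0 ≤ p.ord (algebraMap F N m) ↔ 0 ≤ c.ord m := by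
  rw [← FF.mem_iff_ord_nonneg, ← FF.mem_iff_ord_nonneg, ← h]
  rfl

omit [IsAlgClosed K] [IsFunctionField K F] in
theorem IsOver.ord_pos_iff {p : Place L N} {c : Place K F} (h : IsOver p c) (m : F) :
    0 < p.ord (algebraMap F N m) ↔ 0 < c.ord m := by
  rcases eq_or_ne m 0 with rfl | hm
  · simp
  have := h.mem_iff m⁻¹
  rw [map_inv₀, p.ord_inv, c.ord_inv] at this
  constructor <;> intro h' <;> by_contra hle <;> omega

omit [IsAlgClosed K] [IsFunctionField K F] in
theorem IsOver.ord_eq_zero_iff {p : Place L N} {c : Place K F} (h : IsOver p c) (m : F) :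
    p.ord (algebraMap F N m) = 0 ↔ c.ord m = 0 := by
  have h1 := h.mem_iff m
  have h2 := h.ord_pos_iff m
  omega

variable [Algebra K N] [IsScalarTower K F N] [Algebra K L] [IsScalarTower K L N]

/-- A place of `N` is trivial on `F` or lies over a place. -/
theorem trivial_or_over (p : Place L N) :
    (∀ m : F, p.ord (algebraMap F N m) = 0) ∨ ∃ c : Place K F, IsOver p c := by
  by_cases hA : p.toValuationSubring.comap (algebraMap F N) = ⊤
  · refine Or.inl fun m => ?_
    have hm : ∀ y : F, 0 ≤ p.ord (algebraMap F N y) := fun y => by
      rw [← FF.mem_iff_ord_nonneg]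
      exact ValuationSubring.mem_comap.1 (hA ▸ ValuationSubring.mem_top y)
    have h1 := hm m
    have h2 := hm m⁻¹
    rw [map_inv₀, p.ord_inv] at h2
    omega
  · have hK : ∀ a : K, algebraMap K F a ∈ p.toValuationSubring.comap (algebraMap F N) := fun a => by
      rw [ValuationSubring.mem_comap, ← IsScalarTower.algebraMap_apply,
        IsScalarTower.algebraMap_apply K L N]
      exact p.algebraMap_mem' _
    exact Or.inr ⟨FF.placeOfValuationSubring _ hK hA,
      (FF.placeOfValuationSubring_toValuationSubring _ hK hA).symm⟩

end Over

end Fermat.Agent.AV
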