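import Fermat.Agent.AV.Divisor
import Fermat.Agent.AV.PlaceValue
import Fermat.Agent.FF.Degree

/-!
# Pullbacks of the polar divisor to curves

For a point with values in a function field: the lifts to the local rings of the places, the
pullback of the polar divisor with respect to a reference piece, and its degree.
-/

noncomputable section

universe u

open CategoryTheory AlgebraicGeometry NeronModelInfra GoodReductionJacobian AlgebraicCurve
open Fermat.Agent.FF (IsFunctionField)

namespace Fermat.Agent.AV

section Place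

variable {K k M : Type u} [Field K] [Field k] [Field M] [Algebra K k] [Algebra k M]

/-- The valuation ring of a place as an algebra over a smaller field. -/
instance algebraPlaceBase (c : Place k M) : Algebra K c.toValuationSubring :=
  ((algebraMap k c.toValuationSubring).comp (algebraMap K k)).toAlgebra

instance isScalarTower_placeBase (c : Place k M) : IsScalarTower K k c.toValuationSubring :=
  IsScalarTower.of_algebraMap_eq fun _ => rfl

variable [Algebra K M] [IsScalarTower K k M]

instance isScalarTower_placeBase' (c : Place k M) : IsScalarTower K c.toValuationSubring M :=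
  IsScalarTower.of_algebraMap_eq fun r => by
    rw [IsScalarTower.algebraMap_apply K k M,
      IsScalarTower.algebraMap_apply K k c.toValuationSubring,
      ← IsScalarTower.algebraMap_apply k c.toValuationSubring M]

omit [Field K] [Algebra K k] [Algebra K M] [IsScalarTower K k M] in
/-- The order of a product of powers. -/
theorem ord_prod_zpow (c : Place k M) {ι : Type*} (s : Finset ι) (x : ι → M) (n : ι → ℤ)
    (hx : ∀ i, x i ≠ 0) : c.ord (∏ i ∈ s, x i ^ n i) = ∑ i ∈ s, n i * c.ord (x i) := by
  classical
  induction s using Finset.induction_on with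
  | empty => simp [c.ord_one]
  | insert i s hi ih =>
    rw [Finset.prod_insert hi, Finset.sum_insert hi, c.ord_mul (zpow_ne_zero _ (hx i))
      (Finset.prod_ne_zero_iff.2 fun j _ => zpow_ne_zero _ (hx j)), c.ord_zpow, ih]

/-- The inclusion of the valuation ring of a place. -/
def placeIncl (c : Place k M) : c.toValuationSubring →ₐ[K] M :=
  IsScalarTower.toAlgHom K c.toValuationSubring M

theorem placeIncl_injective (c : Place k M) : Function.Injective (placeIncl (K := K) c) :=
  fun _ _ h => Subtype.ext h

theorem ord_placeIncl_of_isUnit (c : Place k M) {x : c.toValuationSubring} (hx : IsUnit x) :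
    c.ord (placeIncl (K := K) c x) = 0 := by
  obtain ⟨w, rfl⟩ := hx
  have h1 : 0 ≤ c.ord ((w : c.toValuationSubring) : M) :=
      (FF.mem_iff_ord_nonneg c).1 (w : c.toValuationSubring).2
  have h2 : 0 ≤ c.ord (((w⁻¹ : (c.toValuationSubring)ˣ) : c.toValuationSubring) : M) :=
    (FF.mem_iff_ord_nonneg c).1 (Subtype.prop _)
  have h3 : ((w : c.toValuationSubring) : M) *
      (((w⁻¹ : (c.toValuationSubring)ˣ) : c.toValuationSubring) : M) = 1 := by
    rw [← MulMemClass.coe_mul, Units.mul_inv, OneMemClass.coe_one]
  have := congrArg c.ord h3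
  rw [c.ord_mul (left_ne_zero_of_mul_eq_one h3) (right_ne_zero_of_mul_eq_one h3), c.ord_one] at this
  show c.ord ((w : c.toValuationSubring) : M) = 0
  omega

variable [IsAlgClosed k] [IsFunctionField k M]

omit [Algebra K M] [IsScalarTower K k M] in
/-- The value at a place, as a map of algebras over a smaller field. -/
def valueAlg (c : Place k M) : c.toValuationSubring →ₐ[K] k :=
  { valueHom c with
    commutes' := fun r => valueHom_algebraMap c (algebraMap K k r) }

omit [Algebra K M] [IsScalarTower K k M] in
theorem isUnit_of_valueAlg_ne_zero (c : Place k M) {x : c.toValuationSubring}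
    (hx : valueAlg (K := K) c x ≠ 0) : IsUnit x := by
  by_contra h
  exact hx ((valueHom_eq_zero_iff c x).2 h)

instance isLocalHom_valueAlg (c : Place k M) : IsLocalHom (valueAlg (K := K) c).toRingHom :=
  ⟨fun _ h => isUnit_of_valueAlg_ne_zero c h.ne_zero⟩

end Place

namespace SmoothAV

variable {K : Type u} [Field K] {g : ℕ} (X : SmoothAV K g)
variable {k M : Type u} [Field k] [Algebra K k] [Field M] [Algebra k M] [Algebra K M]
  [IsScalarTower K k M]

/-- The lift of a point to the valuation ring of a place. -/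
def liftAt (c : Place k M) : X.Pt M →+ X.Pt c.toValuationSubring :=
  (AddEquiv.ofBijective (X.map (placeIncl c))
    ⟨X.map_injective (placeIncl c) (placeIncl_injective c),
      X.map_surjective (V := c.toValuationSubring) (N := M)⟩).symm.toAddMonoidHom

theorem map_liftAt (c : Place k M) (R : X.Pt M) : X.map (placeIncl c) (X.liftAt c R) = R :=
  (AddEquiv.ofBijective (X.map (placeIncl c))
    ⟨X.map_injective (placeIncl c) (placeIncl_injective c),
      X.map_surjective (V := c.toValuationSubring) (N := M)⟩).apply_symm_apply R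

theorem eq_liftAt {c : Place k M} {R : X.Pt M} {Z : X.Pt c.toValuationSubring}
    (h : X.map (placeIncl c) Z = R) : Z = X.liftAt c R :=
  X.map_injective (placeIncl c) (placeIncl_injective c) (h.trans (X.map_liftAt c R).symm)

theorem centre_specializes_liftAt (c : Place k M) (R : X.Pt M) :
    X.centre R ⤳ X.centre (X.liftAt c R) := by
  have := X.centre_map_specializes (placeIncl c) (X.liftAt c R)
  rwa [map_liftAt] at this

theorem centre_mem_of_liftAt {c : Place k M} {R : X.Pt M} {O : X.A.Opens}
    (h : X.centre (X.liftAt c R) ∈ O) : X.centre R ∈ O :=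
  (X.centre_specializes_liftAt c R).mem_open O.2 h

/-- The value of a point at a place. -/
def valuePt [IsAlgClosed k] [IsFunctionField k M] (c : Place k M) : X.Pt M →+ X.Pt k :=
  (X.map (valueAlg c)).comp (X.liftAt c)

/-- The value of a point at a place is centred where its lift is centred. -/
theorem centre_valuePt [IsAlgClosed k] [IsFunctionField k M] (c : Place k M) (R : X.Pt M) :
    X.centre (X.valuePt c R) = X.centre (X.liftAt c R) :=
  X.centre_map (valueAlg c) (X.liftAt c R)

variable [IsAlgClosed K]

/-- The order of the polar divisor at a place, relative to a reference piece. -/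
def dfun (a : X.Piece) (R : X.Pt M) (ha : X.centre R ∈ a.O) (c : Place k M) : ℤ :=
  c.ord (X.ratio R (X.piece (X.centre (X.liftAt c R))) a
    (X.centre_mem_of_liftAt (X.mem_piece _)) ha)

/-- The order may be computed with any piece around the centre. -/
theorem dfun_eq (a : X.Piece) (R : X.Pt M) (ha : X.centre R ∈ a.O) {c : Place k M} {b : X.Piece}
    (hb : X.centre (X.liftAt c R) ∈ b.O) :
    X.dfun a R ha c = c.ord (X.ratio R b a (X.centre_mem_of_liftAt hb) ha) := by
  have h := X.ratio_mul R (X.piece (X.centre (X.liftAt c R))) b a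
    (X.centre_mem_of_liftAt (X.mem_piece _)) (X.centre_mem_of_liftAt hb) ha
  have h0 : c.ord (X.ratio R (X.piece (X.centre (X.liftAt c R))) b
      (X.centre_mem_of_liftAt (X.mem_piece _)) (X.centre_mem_of_liftAt hb)) = 0 := by
    have hm := X.map_ratio (placeIncl c) (X.liftAt c R) (X.piece (X.centre (X.liftAt c R))) b
      (X.mem_piece _) hb
    simp_rw [map_liftAt] at hm
    rw [← hm]
    exact ord_placeIncl_of_isUnit c (X.isUnit_ratio _ _ _ _ _)
  rw [dfun, ← h, c.ord_mul (X.isUnit_ratio _ _ _ _ _).ne_zero (X.isUnit_ratio _ _ _ _ _).ne_zero,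
    h0, zero_add]

/-- The divisor function vanishes at a place where the centre of the point stays in the piece. -/
theorem dfun_eq_zero (a : X.Piece) (R : X.Pt M) (ha : X.centre R ∈ a.O) {c : Place k M}
    (h : X.centre (X.liftAt c R) ∈ a.O) : X.dfun a R ha c = 0 := by
  rw [X.dfun_eq a R ha h, X.ratio_self, c.ord_one]

variable [IsAlgClosed k] [IsFunctionField k M]

/-- The divisor function of a point has finite support. -/
theorem finite_dfun (a : X.Piece) (R : X.Pt M) (ha : X.centre R ∈ a.O) :
    {c : Place k M | X.dfun a R ha c ≠ 0}.Finite := by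
  classical
  obtain ⟨U, hU, hxU, hsm⟩ := X.exists_chart (X.centre R)
  obtain ⟨s, hsa, hxs⟩ := hU.exists_basicOpen_le (V := a.O) ⟨X.centre R, ha⟩ hxU
  have hRU : X.InOpen R U := (X.inOpen_iff).2 hxU
  have : Algebra.IsStandardSmooth K Γ(X.A, U) :=
    Algebra.IsStandardSmoothOfRelativeDimension.isStandardSmooth g
  obtain ⟨G, hG⟩ := (inferInstance : Algebra.FiniteType K Γ(X.A, U)).out
  refine ((insert s G).finite_toSet.biUnion fun z _ =>
    FF.finite_ord_ne_zero (K := k) (X.eval R U hRU z)).subset fun c hc => ?_
  by_contra hcon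
  simp only [Set.mem_iUnion, Set.mem_ofPred_eq, not_exists, not_not] at hcon
  have hmem : ∀ z, X.eval R U hRU z ∈ c.toValuationSubring := fun z => by
    have hz : z ∈ Algebra.adjoin K (G : Set Γ(X.A, U)) := hG ▸ Algebra.mem_top
    induction hz using Algebra.adjoin_induction with
    | mem y hy => exact (FF.mem_iff_ord_nonneg c).2 (hcon y (Finset.mem_insert_of_mem hy)).ge
    | algebraMap r =>
      rw [X.eval_algebraMap, IsScalarTower.algebraMap_apply K k M]
      exact c.algebraMap_mem' _
    | add x y _ _ hx hy => rw [map_add]; exact add_mem hx hy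
    | mul x y _ _ hx hy => rw [map_mul]; exact mul_mem hx hy
  let φ : Γ(X.A, U) →ₐ[K] c.toValuationSubring :=
    { (X.eval R U hRU).codRestrict c.toValuationSubring.toSubring hmem with
      commutes' := fun r => Subtype.ext ((X.eval_algebraMap R U hRU r).trans
        (IsScalarTower.algebraMap_apply K c.toValuationSubring M r)) }
  have hlift : X.ofAlgHom hU φ = X.liftAt c R := X.eq_liftAt (by
    conv_rhs => rw [X.eq_ofAlgHom R hU hRU]
    rw [X.map_ofAlgHom]
    congr 1)
  apply hc
  refine X.dfun_eq_zero a R ha (hsa ?_)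
  rw [← hlift, X.mem_basicOpen_iff _ (X.inOpen_ofAlgHom hU φ)]
  have hφ : X.eval (X.ofAlgHom hU φ) U (X.inOpen_ofAlgHom hU φ) s = φ s :=
    AlgHom.congr_fun (X.evalAlg_ofAlgHom hU φ _) s
  rw [hφ]
  have hs0 : c.ord ((φ s : c.toValuationSubring) : M) = 0 := hcon s (Finset.mem_insert_self _ _)
  have hne : ((φ s : c.toValuationSubring) : M) ≠ 0 :=
    ((X.mem_basicOpen_iff R hRU s).1 hxs).ne_zero
  by_contra hnu
  have := (mem_maximalIdeal_iff_ord_pos c (φ s) hne).1 hnu
  omega

/-- The pullback of the polar divisor, relative to a reference piece. -/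
def dDiv (a : X.Piece) (R : X.Pt M) (ha : X.centre R ∈ a.O) : Divisor k M :=
  Finsupp.onFinset (X.finite_dfun (k := k) a R ha).toFinset (X.dfun a R ha)
    fun _ hc => (Set.Finite.mem_toFinset _).2 hc

theorem dDiv_apply (a : X.Piece) (R : X.Pt M) (ha : X.centre R ∈ a.O) (c : Place k M) :
    X.dDiv a R ha c = X.dfun a R ha c := rfl

theorem dDiv_change (a b : X.Piece) (R : X.Pt M) (ha : X.centre R ∈ a.O)
    (hb : X.centre R ∈ b.O) :
    X.dDiv (k := k) b R hb = X.dDiv a R ha + FF.divOf (X.ratio R a b ha hb) := by
  ext c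
  rw [Finsupp.add_apply, dDiv_apply, dDiv_apply, FF.divOf_apply, dfun, dfun,
    ← c.ord_mul (X.isUnit_ratio _ _ _ _ _).ne_zero (X.isUnit_ratio _ _ _ _ _).ne_zero,
    X.ratio_mul]

variable (k) in
/-- The degree of the pullback of the polar divisor. -/
def degPt (R : X.Pt M) : ℤ :=
  Divisor.degree (X.dDiv (k := k) (X.piece (X.centre R)) R (X.mem_piece _))

theorem degree_dDiv (a : X.Piece) (R : X.Pt M) (ha : X.centre R ∈ a.O) :
    Divisor.degree (X.dDiv (k := k) a R ha) = X.degPt k R := by
  rw [degPt, X.dDiv_change (X.piece (X.centre R)) a R (X.mem_piece _) ha, map_add,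
    FF.degree_divOf, add_zero]

/-- Constant points have degree zero. -/
theorem degPt_map_algebraMap (y : X.Pt k) :
    X.degPt k (X.map (IsScalarTower.toAlgHom K k M) y) = 0 := by
  set R := X.map (IsScalarTower.toAlgHom K k M) y
  have hR : ∀ c : Place k M, X.centre (X.liftAt c R) = X.centre y := fun c => by
    rw [← X.eq_liftAt (c := c)
      (Z := X.map (IsScalarTower.toAlgHom K k c.toValuationSubring) y) (by
        rw [X.map_map]; rfl),
      ← X.centre_map (valueAlg c) (X.map (IsScalarTower.toAlgHom K k c.toValuationSubring) y),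
      X.map_map]
    rw [show (valueAlg (K := K) c).comp (IsScalarTower.toAlgHom K k c.toValuationSubring) =
      AlgHom.id K k from AlgHom.ext fun x => valueHom_algebraMap c x, X.map_id]
  have hy : X.centre R ∈ (X.piece (X.centre y)).O :=
    (X.centre_map_specializes _ y).mem_open (X.piece _).O.2 (X.mem_piece _)
  rw [← X.degree_dDiv (X.piece (X.centre y)) R hy]
  suffices X.dDiv (k := k) (X.piece (X.centre y)) R hy = 0 by rw [this, map_zero]
  ext c
  rw [Finsupp.zero_apply, dDiv_apply, X.dfun_eq_zero _ R hy (by rw [hR]; exact X.mem_piece _)]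

theorem degPt_zero : X.degPt k (0 : X.Pt M) = 0 := by
  rw [← map_zero (X.map (IsScalarTower.toAlgHom K k M))]
  exact X.degPt_map_algebraMap 0

/-! ### Generic points -/

omit [IsAlgClosed k] [IsFunctionField k M] [Algebra K k] [Algebra k M] [IsScalarTower K k M] in
theorem evalLoc_generic {R : X.Pt M} (hR : X.Generic R) (f : X.loc (X.centre R)) :
    X.evalLoc R f = X.genMap R hR f := by
  obtain ⟨O, hO, s, hs⟩ := f.2
  rw [X.evalLoc_eq R f hO s hs, ← hs]
  have h : X.InOpen X.eta O := Generic.inOpen X X.generic_eta ⟨_, hO⟩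
  show _ = X.genMap R hR (X.eval X.eta O h s)
  rw [← X.eval_map X.eta (X.genMap R hR) O h (AVData.InOpen.map _ h _)]
  simp_rw [X.map_genMap R hR]

/-- The effective pullback of the polar divisor along a generic point. -/
def effDiv {R : X.Pt M} (hR : X.Generic R) : Divisor k M :=
  X.dDiv (X.piece (X.centre R)) R (X.mem_piece _) +
    FF.divOf (X.genMap R hR (X.eqn (X.piece (X.centre R))))

theorem degree_effDiv {R : X.Pt M} (hR : X.Generic R) :
    Divisor.degree (X.effDiv (k := k) hR) = X.degPt k R := by
  rw [effDiv, map_add, FF.degree_divOf, add_zero, degPt]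

theorem effDiv_apply {R : X.Pt M} (hR : X.Generic R) (c : Place k M) :
    X.effDiv hR c = c.ord (X.genMap R hR (X.eqn (X.piece (X.centre (X.liftAt c R))))) := by
  have hne : ∀ b : X.Piece, X.genMap R hR (X.eqn b) ≠ 0 := fun b =>
    (_root_.map_ne_zero _).2 (X.eqn_ne_zero b)
  rw [effDiv, Finsupp.add_apply, dDiv_apply, FF.divOf_apply, dfun,
    ← c.ord_mul (X.isUnit_ratio _ _ _ _ _).ne_zero (hne _)]
  rw [ratio, X.evalLoc_generic hR, ← map_mul]
  congr 2
  rw [mul_assoc, inv_mul_cancel₀ (X.eqn_ne_zero _), mul_one]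

omit [IsAlgClosed k] [IsFunctionField k M] in
theorem zero_le_ord_genMap {R : X.Pt M} (hR : X.Generic R) (c : Place k M)
    {f : X.FF} (hf : f ∈ X.loc (X.centre (X.liftAt c R))) : 0 ≤ c.ord (X.genMap R hR f) := by
  have hf' : f ∈ X.loc (X.centre (X.map (placeIncl c) (X.liftAt c R))) :=
    X.loc_le_of_specializes (X.centre_map_specializes _ _) hf
  have key : ∀ (R' : X.Pt M), X.map (placeIncl c) (X.liftAt c R) = R' →
      ∀ h' : f ∈ X.loc (X.centre R'),
        X.evalLoc R' ⟨f, h'⟩ = placeIncl (K := K) c (X.evalLoc (X.liftAt c R) ⟨f, hf⟩) := by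
    rintro R' rfl h'
    exact X.evalLoc_map (placeIncl c) (X.liftAt c R) ⟨f, hf⟩ h'
  rw [← X.evalLoc_generic hR ⟨f, X.loc_le_of_specializes (X.centre_specializes_liftAt c R) hf⟩,
    key R (X.map_liftAt c R)]
  exact (FF.mem_iff_ord_nonneg c).1 (Subtype.prop _)

theorem effDiv_nonneg {R : X.Pt M} (hR : X.Generic R) : (0 : Divisor k M) ≤ X.effDiv hR :=
  fun c => by
    rw [Finsupp.zero_apply, X.effDiv_apply]
    exact X.zero_le_ord_genMap hR c (X.eqn_mem _ (X.mem_piece _))

/-- The values of the parameters have poles at most on the polar divisor. -/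
theorem neg_ord_u_le {R : X.Pt M} (hR : X.Generic R) (c : Place k M) (i : Fin g) :
    -c.ord (X.genMap R hR (X.u i)) ≤ X.effDiv hR c := by
  rcases eq_or_ne (X.genMap R hR (X.u i)) 0 with h0 | h0
  · rw [h0, c.ord_zero, neg_zero]
    exact X.effDiv_nonneg hR c
  have hne : X.genMap R hR (X.eqn (X.piece (X.centre (X.liftAt c R)))) ≠ 0 :=
    (_root_.map_ne_zero _).2 (X.eqn_ne_zero _)
  have := X.zero_le_ord_genMap hR c (X.eqn_mul_u_mem _ (X.mem_piece _) i)
  rw [map_mul, c.ord_mul hne h0] at this
  rw [X.effDiv_apply]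
  omega

end SmoothAV

end Fermat.Agent.AV
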