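import Fermat.Agent.AV.PowerSeries
import Fermat.Agent.FF.Places

/-!
# The generic germ of a curve at a point

`X i ↦ t i U` maps power series to series in one variable over `k'`, preserving the order; a field
inside the series is a function field over `k'` with a place at `U = 0`.
-/

noncomputable section

open IntermediateField AlgebraicCurve
open Fermat.Agent.FF (IsFunctionField)

namespace Fermat.Agent.AV

universe u

variable {K : Type u} [Field K] {g : ℕ} {k' : Type u} [Field k'] [Algebra K k'] (t : Fin g → k')

theorem hasSubst_germ : MvPowerSeries.HasSubst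
    fun i => (PowerSeries.C (t i) * PowerSeries.X : PowerSeries k') :=
  MvPowerSeries.hasSubst_of_constantCoeff_zero fun i => by
    show MvPowerSeries.constantCoeff (PowerSeries.C (t i) * PowerSeries.X : PowerSeries k') = 0
    rw [map_mul]; exact mul_eq_zero_of_right _ PowerSeries.constantCoeff_X

/-- The germ `X i ↦ t i U`. -/
def germ : Series.S K g →ₐ[K] PowerSeries k' := MvPowerSeries.substAlgHom (hasSubst_germ t)

theorem germ_X (i : Fin g) :
    germ (K := K) t (MvPowerSeries.X i) = PowerSeries.C (t i) * PowerSeries.X :=
  MvPowerSeries.substAlgHom_X _ i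

/-- The coefficients of a germ are the homogeneous parts evaluated at the direction. -/
theorem coeff_germ (f : Series.S K g) (j : ℕ) :
    PowerSeries.coeff j (germ t f) = MvPolynomial.aeval t (Series.homPart f j) := by
  classical
  have hprod : ∀ d : Fin g →₀ ℕ,
      (d.prod fun i e => (PowerSeries.C (t i) * PowerSeries.X : PowerSeries k') ^ e) =
        PowerSeries.C (d.prod fun i e => t i ^ e) * PowerSeries.X ^ d.degree := by
    intro d
    rw [Finsupp.prod_fintype _ _ (by simp), Finsupp.prod_fintype _ _ (by simp), map_prod,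
      Finsupp.degree_eq_sum, ← Finset.prod_pow_eq_pow_sum, ← Finset.prod_mul_distrib]
    exact Finset.prod_congr rfl fun i _ => by rw [mul_pow, map_pow]
  rw [germ, MvPowerSeries.coe_substAlgHom,
    PowerSeries.coeff_def (show Finsupp.single () j () = j from Finsupp.single_eq_same),
    MvPowerSeries.coeff_subst (hasSubst_germ t)]
  have hterm : ∀ d : Fin g →₀ ℕ, MvPowerSeries.coeff (Finsupp.single () j)
      (d.prod fun i e => (PowerSeries.C (t i) * PowerSeries.X : PowerSeries k') ^ e) =
        if d.degree = j then d.prod (fun i e => t i ^ e) else 0 := fun d => by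
    rw [hprod,
      ← PowerSeries.coeff_def (show Finsupp.single () j () = j from Finsupp.single_eq_same),
      PowerSeries.coeff_C_mul, PowerSeries.coeff_X_pow]
    by_cases h : d.degree = j
    · rw [if_pos h, if_pos h.symm, mul_one]
    · rw [if_neg h, if_neg (Ne.symm h), mul_zero]
  simp only [hterm]
  rw [finsum_eq_sum_of_support_subset _ (s := Finset.univ.finsuppAntidiag j) fun d hd => by
    rw [Finset.mem_coe, Finset.mem_finsuppAntidiag]
    refine ⟨?_, Finset.subset_univ _⟩
    by_contra h
    rw [Function.mem_support, if_neg (by rwa [Finsupp.degree_eq_sum]), smul_zero] at hd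
    exact hd rfl]
  rw [Series.homPart, map_sum]
  refine Finset.sum_congr rfl fun d hd => ?_
  rw [Finset.mem_finsuppAntidiag] at hd
  rw [if_pos (by rw [Finsupp.degree_eq_sum]; exact hd.1), MvPolynomial.aeval_monomial,
    Algebra.smul_def]

variable {t} (ht : AlgebraicIndependent K t)

include ht

/-- The germ preserves the order. -/
theorem germ_coeff_eq_zero_iff {f : Series.S K g} {N : ℕ} :
    (∀ j < N, PowerSeries.coeff j (germ t f) = 0) ↔
      ∀ d : Fin g →₀ ℕ, d.degree < N → MvPowerSeries.coeff d f = 0 := by
  classical
  constructor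
  · intro h d hd
    by_contra hne
    refine Series.homPart_ne_zero rfl hne (ht ?_)
    rw [map_zero, ← coeff_germ]
    exact h _ hd
  · intro h j hj
    rw [coeff_germ]
    convert map_zero (MvPolynomial.aeval t) using 2
    refine Finset.sum_eq_zero fun d hd => ?_
    rw [Finset.mem_finsuppAntidiag] at hd
    rw [h d (by rw [Finsupp.degree_eq_sum, hd.1]; exact hj), map_zero]

/-- The germ along a generic direction is injective. -/
theorem germ_injective : Function.Injective (germ (K := K) t) := by
  rw [injective_iff_map_eq_zero]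
  intro f hf
  ext d
  exact (germ_coeff_eq_zero_iff ht (N := d.degree + 1)).1 (fun j _ => by rw [hf, map_zero]) d
    (Nat.lt_succ_self _)

omit ht

/-- The series without negative powers. -/
def laurentIntegers (k' : Type u) [Field k'] : ValuationSubring (LaurentSeries k') where
  toSubring := (HahnSeries.ofPowerSeries ℤ k').range
  mem_or_inv_mem' := fun x => by
    rcases eq_or_ne x 0 with rfl | hx
    · exact Or.inl ⟨0, map_zero _⟩
    have key : ∀ y : LaurentSeries k', 0 ≤ y.order → y ∈ (HahnSeries.ofPowerSeries ℤ k').range :=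
      fun y hy => by
        obtain ⟨m, hm⟩ := Int.eq_ofNat_of_zero_le hy
        refine ⟨PowerSeries.X ^ m * y.powerSeriesPart, ?_⟩
        rw [map_mul, HahnSeries.ofPowerSeries_X_pow]
        conv_rhs => rw [← LaurentSeries.single_order_mul_powerSeriesPart y, hm]
    rcases le_total 0 x.order with h | h
    · exact Or.inl (key x h)
    · refine Or.inr (key x⁻¹ ?_)
      have := HahnSeries.order_mul hx (inv_ne_zero hx)
      rw [mul_inv_cancel₀ hx, HahnSeries.order_one] at this
      omega

/-- The variable. -/
abbrev lvar (k' : Type u) [Field k'] : LaurentSeries k' :=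
  HahnSeries.ofPowerSeries ℤ k' PowerSeries.X

theorem lvar_ne_zero : lvar k' ≠ 0 := fun h =>
  PowerSeries.X_ne_zero (HahnSeries.ofPowerSeries_injective (h.trans (map_zero _).symm))

theorem inv_lvar_not_mem : (lvar k')⁻¹ ∉ laurentIntegers k' := by
  rintro ⟨f, hf⟩
  have h : HahnSeries.ofPowerSeries ℤ k' (f * PowerSeries.X) = HahnSeries.ofPowerSeries ℤ k' 1 := by
    rw [map_mul, hf, map_one]
    exact inv_mul_cancel₀ lvar_ne_zero
  have h2 := congrArg PowerSeries.constantCoeff (HahnSeries.ofPowerSeries_injective h)
  simp at h2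

theorem algebraMap_laurent (c : k') :
    algebraMap k' (LaurentSeries k') c = HahnSeries.ofPowerSeries ℤ k' (PowerSeries.C c) := by
  rw [HahnSeries.algebraMap_apply', ← PowerSeries.C_eq_algebraMap]

instance tower_laurent :
    @IsScalarTower K k' (LaurentSeries k') Algebra.toSMul Algebra.toSMul Algebra.toSMul :=
  IsScalarTower.of_algebraMap_eq (R := K) (S := k') (A := LaurentSeries k') fun c => by
    rw [algebraMap_laurent, HahnSeries.algebraMap_apply', PowerSeries.algebraMap_apply]

theorem transcendental_lvar : Transcendental k' (lvar k') := by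
  refine transcendental_iff.mpr fun q hp => ?_
  have key : ∀ p : Polynomial k',
      HahnSeries.ofPowerSeries ℤ k' (p : PowerSeries k') = Polynomial.aeval (lvar k') p := by
    intro p
    induction p using Polynomial.induction_on' with
    | add a b ha hb => simp [ha, hb]
    | monomial n a =>
      rw [Polynomial.aeval_monomial, algebraMap_laurent, Polynomial.coe_monomial,
        ← map_pow, ← map_mul]
      congr 1
      rw [PowerSeries.monomial_eq_C_mul_X_pow]
  have h := key q
  rw [hp, ← map_zero (HahnSeries.ofPowerSeries ℤ k')] at h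
  exact_mod_cast HahnSeries.ofPowerSeries_injective h

section Field

variable (E : IntermediateField k' (LaurentSeries k')) (hU : lvar k' ∈ E)

/-- The trace of the series without negative powers on a subfield. -/
def seriesRing : ValuationSubring E := (laurentIntegers k').comap E.val.toRingHom

theorem algebraMap_mem_seriesRing (c : k') : algebraMap k' E c ∈ seriesRing E :=
  ⟨PowerSeries.C c, (algebraMap_laurent c).symm⟩

include hU in
theorem seriesRing_ne_top : seriesRing E ≠ ⊤ := fun h => by
  have : (⟨lvar k', hU⟩ : E)⁻¹ ∈ seriesRing E := h ▸ trivial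
  exact inv_lvar_not_mem (k' := k') this

variable [IsAlgClosed k'] [IsFunctionField k' E]

/-- The place at `U = 0`. -/
def seriesPlace : Place k' E :=
  FF.placeOfValuationSubring (seriesRing E) (algebraMap_mem_seriesRing E) (seriesRing_ne_top E hU)

theorem mem_seriesPlace {x : E} :
    x ∈ (seriesPlace E hU).toValuationSubring ↔
      ∃ f : PowerSeries k', HahnSeries.ofPowerSeries ℤ k' f = (x : LaurentSeries k') := Iff.rfl

theorem ord_lvar_pos : 0 < (seriesPlace E hU).ord ⟨lvar k', hU⟩ := by
  by_contra h
  push Not at h
  have h2 : (⟨lvar k', hU⟩ : E)⁻¹ ∈ (seriesPlace E hU).toValuationSubring :=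
    (FF.mem_iff_ord_nonneg _).2 (by rw [Place.ord_inv]; omega)
  exact inv_lvar_not_mem (k' := k') h2

/-- An element with series vanishing to order `N` has order at least `N`. -/
theorem le_ord_seriesPlace {x : E} (hx : x ≠ 0) {f : PowerSeries k'}
    (hf : HahnSeries.ofPowerSeries ℤ k' f = (x : LaurentSeries k')) {N : ℕ}
    (h : ∀ j < N, PowerSeries.coeff j f = 0) : (N : ℤ) ≤ (seriesPlace E hU).ord x := by
  obtain ⟨r, rfl⟩ := PowerSeries.X_pow_dvd_iff.2 h
  set U : E := ⟨lvar k', hU⟩
  have hU0 : U ≠ 0 := fun e => lvar_ne_zero (congrArg Subtype.val e)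
  have hr : x / U ^ N ∈ (seriesPlace E hU).toValuationSubring := by
    refine (mem_seriesPlace E hU).2 ⟨r, ?_⟩
    rw [IntermediateField.coe_div, IntermediateField.coe_pow,
        eq_div_iff (pow_ne_zero _ lvar_ne_zero),
      ← hf, map_mul, map_pow, mul_comm]
  have h1 := (FF.mem_iff_ord_nonneg _).1 hr
  rw [FF.ord_div _ hx (pow_ne_zero _ hU0), FF.ord_pow] at h1
  have h2 : (N : ℤ) * 1 ≤ N * (seriesPlace E hU).ord U :=
    mul_le_mul_of_nonneg_left (ord_lvar_pos E hU) (by omega)
  omega

end Field

section Curve

variable {F : Type u} [Field F] [Algebra K F] (j : F →ₐ[K] LaurentSeries k')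

/-- The field generated over `k'` by the series of the functions. -/
abbrev curveField : IntermediateField k' (LaurentSeries k') :=
    IntermediateField.adjoin k' (Set.range j)

variable {j} {v : Fin g → F} (hv : ∀ i, j (v i) = algebraMap k' (LaurentSeries k') (t i) * lvar k')

include hv

theorem lvar_mem_curveField {i : Fin g} (hi : t i ≠ 0) : lvar k' ∈ curveField j := by
  have h : j (v i) / algebraMap k' (LaurentSeries k') (t i) = lvar k' := by
    rw [hv, mul_comm, mul_div_assoc, div_self ((_root_.map_ne_zero _).2 hi), mul_one]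
  exact h ▸ div_mem (IntermediateField.subset_adjoin k' _ ⟨v i, rfl⟩)
    ((curveField j).algebraMap_mem _)

theorem map_adjoin_le : (IntermediateField.adjoin K (Set.range v)).map j ≤
    (k'⟮lvar k'⟯).restrictScalars K := by
  rw [IntermediateField.adjoin_map, IntermediateField.adjoin_le_iff]
  rintro _ ⟨_, ⟨i, rfl⟩, rfl⟩
  show j (v i) ∈ (k'⟮lvar k'⟯).restrictScalars K
  rw [IntermediateField.mem_restrictScalars, hv]
  exact mul_mem ((k'⟮lvar k'⟯).algebraMap_mem _) (IntermediateField.mem_adjoin_simple_self _ _)

/-- The field generated by the germs is a function field of one variable. -/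
theorem isFunctionField_curveField
    [FiniteDimensional (IntermediateField.adjoin K (Set.range v)) F] {i : Fin g} (hi : t i ≠ 0) :
    IsFunctionField k' (curveField j) := by
  set E₀ := IntermediateField.adjoin K (Set.range v) with hE₀
  set L := k'⟮lvar k'⟯ with hL
  have hU := lvar_mem_curveField hv hi
  have hE : ∀ c : E₀, j c ∈ L := fun c => map_adjoin_le hv ⟨c, c.2, rfl⟩
  let ψ : E₀ →+* L :=
    ((j : F →+* LaurentSeries k').comp (algebraMap E₀ F)).codRestrict L.toSubfield.toSubring hE
  let b := Module.finBasis E₀ F
  let s : Set (LaurentSeries k') := Set.range (j ∘ b)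
  have hint : ∀ y ∈ s, IsIntegral L y := by
    rintro _ ⟨x, rfl⟩
    obtain ⟨p, hp, hp0⟩ := (Algebra.IsIntegral.isIntegral (R := E₀) (b x))
    refine ⟨p.map ψ, hp.map ψ, ?_⟩
    rw [Polynomial.eval₂_map]
    show Polynomial.eval₂ ((j : F →+* LaurentSeries k').comp (algebraMap E₀ F)) (j (b x)) p = 0
    rw [show j (b x) = (j : F →+* LaurentSeries k') (b x) from rfl, ← Polynomial.hom_eval₂, hp0,
      map_zero]
  let B := IntermediateField.adjoin L s
  have hfin : FiniteDimensional L B := by
    have : Finite s := Set.finite_range _ |>.to_subtype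
    exact IntermediateField.finiteDimensional_adjoin hint
  have hjB : ∀ x : F, j x ∈ B := fun x => by
    rw [← b.sum_repr x, map_sum]
    refine sum_mem fun l _ => ?_
    rw [Algebra.smul_def, map_mul]
    refine mul_mem ?_ (IntermediateField.subset_adjoin L _ ⟨l, rfl⟩)
    exact B.algebraMap_mem ⟨_, hE (b.repr x l)⟩
  have hBle : B.restrictScalars k' = curveField j := by
    refine le_antisymm (fun y hy => ?_) (IntermediateField.adjoin_le_iff.2 ?_)
    · rw [IntermediateField.mem_restrictScalars] at hy
      induction hy using IntermediateField.adjoin_induction with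
      | mem z hz => obtain ⟨l, rfl⟩ := hz; exact IntermediateField.subset_adjoin k' _ ⟨b l, rfl⟩
      | algebraMap c => exact (IntermediateField.adjoin_simple_le_iff.2 hU) c.2
      | add a c _ _ ha hc => exact add_mem ha hc
      | inv a _ ha => exact inv_mem ha
      | mul a c _ _ ha hc => exact mul_mem ha hc
    · rintro _ ⟨x, rfl⟩; exact hjB x
  set M := curveField j
  set U : M := ⟨lvar k', hU⟩
  have hUt : Transcendental k' U := by
    intro h
    exact transcendental_lvar (k' := k') (h.algebraMap (A := LaurentSeries k'))
  refine ⟨⟨U, hUt, ?_⟩⟩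
  have hle : L ≤ M := IntermediateField.adjoin_simple_le_iff.2 hU
  have hmap : k'⟮U⟯.map M.val = L := by
    rw [IntermediateField.adjoin_map, Set.image_singleton]
    rfl
  let e : k'⟮U⟯ ≃ₐ[k'] L := (k'⟮U⟯.equivMap M.val).trans (IntermediateField.equivOfEq hmap)
  let e' : M ≃+* B := RingEquiv.subringCongr
    (show M.toSubfield.toSubring = B.toSubfield.toSubring by rw [← hBle]; rfl)
  exact Module.Finite.of_equiv_equiv (A₁ := L) (B₁ := B) e.symm.toRingEquiv e'.symm
    (RingHom.ext fun c => by
      obtain ⟨x, rfl⟩ := e.surjective c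
      refine Subtype.ext ?_
      show ((e.symm (e x) : k'⟮U⟯) : M).1 = _
      rw [e.symm_apply_apply]
      rfl)

end Curve

end Fermat.Agent.AV
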