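import Fermat.Agent.AV.Count
import Fermat.Agent.AV.GermCurve
import Fermat.Agent.FF.Degree

/-!
# The upper bound for the degree of multiplication by `n`

A chart gives the functions regular at the origin as power series in parameters `u`. If the pole
degree of the `φ uₗ` on the generic germ is at most `n² h` then `[F : φF] ≤ ((g h + 1) n²)^g`.
-/

noncomputable section

open IntermediateField AlgebraicCurve
open Fermat.Agent.FF (IsFunctionField)

namespace Fermat.Agent.AV

universe u

section Counting

variable {k M : Type*} [Field k] [Field M] [Algebra k M] [IsAlgClosed k] [IsFunctionField k M]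

/-- A function with poles bounded by `Θ` has at most `deg Θ` zeros in total, poles counted in. -/
theorem mul_card_le_degree {x : M} {Θ : Divisor k M}
    (hpole : ∀ v : Place k M, -Θ v ≤ v.ord x) (S : Finset (Place k M)) {N : ℤ}
    (hS : ∀ v ∈ S, N ≤ v.ord x + Θ v) : (S.card : ℤ) * N ≤ Divisor.degree Θ := by
  classical
  set D := FF.divOf (K := k) x + Θ with hD
  have hD0 : ∀ v, 0 ≤ D v := fun v => by
    rw [hD, Finsupp.add_apply, FF.divOf_apply]; have := hpole v; omega
  have hdeg : Divisor.degree D = Divisor.degree Θ := by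
    rw [hD, map_add, FF.degree_divOf, zero_add]
  rw [← hdeg, FF.degree_eq_sum, Finsupp.sum_of_support_subset _ Finset.subset_union_left
      (fun _ n => n)
    (fun _ _ => rfl) (s := D.support ∪ S)]
  calc (S.card : ℤ) * N = ∑ _v ∈ S, N := by simp
    _ ≤ ∑ v ∈ S, D v := Finset.sum_le_sum fun v hv => by
        rw [hD, Finsupp.add_apply, FF.divOf_apply]; exact hS v hv
    _ ≤ ∑ v ∈ D.support ∪ S, D v :=
        Finset.sum_le_sum_of_subset_of_nonneg Finset.subset_union_right fun v _ _ => hD0 v

omit [IsAlgClosed k] [IsFunctionField k M] in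
/-- Pole bounds of the image of a linear combination. -/
theorem neg_le_ord_map_sum {K F ι : Type*} [Field K] [Field F] [Algebra K F] (T : F →+* M)
    (ψ : K → k) (hT : ∀ c, T (algebraMap K F c) = algebraMap k M (ψ c)) (s : Finset ι) (c : ι → K)
    (y : ι → F) {v : Place k M} {B : ℤ} (hB : 0 ≤ B) (h : ∀ i ∈ s, -B ≤ v.ord (T (y i))) :
    -B ≤ v.ord (T (∑ i ∈ s, c i • y i)) := by
  have key : T (∑ i ∈ s, c i • y i) ∈ FF.poleLe v B := by
    rw [map_sum]
    refine sum_mem fun i hi => ?_
    rw [Algebra.smul_def, map_mul, hT, ← Algebra.smul_def]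
    exact Submodule.smul_mem _ _ ((FF.mem_poleLe v).2 (Or.inr (h i hi)))
  rcases (FF.mem_poleLe v).1 key with h0 | h0
  · rw [h0, Place.ord_zero]; omega
  · exact h0

theorem neg_poleDiv_le (x : M) (v : Place k M) : -FF.poleDiv (K := k) x v ≤ v.ord x := by
  rw [FF.poleDiv_apply]; omega

theorem poleDiv_nonneg (x : M) (v : Place k M) : 0 ≤ FF.poleDiv (K := k) x v := by
  rw [FF.poleDiv_apply]; omega

omit [IsAlgClosed k] [IsFunctionField k M] in
/-- A monomial with exponents at most `N` has poles at most `N` times those of its factors. -/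
theorem neg_le_ord_prod {g N : ℕ} (x : Fin g → M) (a : Fin g → ℕ) (ha : ∀ l, a l ≤ N)
    {v : Place k M} {B : Fin g → ℤ} (hB : ∀ l, 0 ≤ B l) (h : ∀ l, -B l ≤ v.ord (x l)) :
    -((N : ℤ) * ∑ l, B l) ≤ v.ord (∏ l, x l ^ a l) := by
  by_cases h0 : ∃ l, x l ^ a l = 0
  · obtain ⟨l, hl⟩ := h0
    rw [Finset.prod_eq_zero (Finset.mem_univ l) hl, Place.ord_zero]
    have := Finset.sum_nonneg (s := Finset.univ) fun l _ => hB l
    nlinarith
  push Not at h0
  have key : ∀ s : Finset (Fin g), -((N : ℤ) * ∑ l ∈ s, B l) ≤ v.ord (∏ l ∈ s, x l ^ a l) := by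
    intro s
    induction s using Finset.induction with
    | empty => simp
    | insert l s hl ih =>
      rw [Finset.prod_insert hl, Finset.sum_insert hl,
        v.ord_mul (h0 l) (Finset.prod_ne_zero_iff.2 fun i _ => h0 i), FF.ord_pow]
      have h1 : ((a l : ℤ)) * B l ≤ N * B l :=
        mul_le_mul_of_nonneg_right (by exact_mod_cast ha l) (hB l)
      have h2 : (a l : ℤ) * -B l ≤ a l * v.ord (x l) :=
        mul_le_mul_of_nonneg_left (h l) (by omega)
      linarith
  exact key Finset.univ

end Counting

/-! ### Charts -/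

/-- Functions regular at a point, expanded in parameters. -/
structure Chart (K : Type u) [Field K] (F : Type u) [Field F] [Algebra K F] (g : ℕ) where
  /-- the functions regular at the point -/
  R : Subalgebra K F
  frac : ∀ f : F, ∃ a b : R, (b : F) ≠ 0 ∧ f * b = a
  /-- the parameters -/
  u : Fin g → R
  /-- the expansion -/
  iota : R →ₐ[K] Series.S K g
  injective : Function.Injective iota
  iota_u : ∀ l, iota (u l) = MvPowerSeries.X l
  finite : FiniteDimensional (IntermediateField.adjoin K (Set.range fun l => (u l : F))) F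

/-- The constants of the generic germ. -/
abbrev germConst (K : Type u) [Field K] (g : ℕ) : Type u :=
  AlgebraicClosure (FractionRing (MvPolynomial (Fin g) K))

/-- The generic direction. -/
def germDir (K : Type u) [Field K] (g : ℕ) (l : Fin g) : germConst K g :=
  algebraMap (MvPolynomial (Fin g) K) (germConst K g) (MvPolynomial.X l)

theorem algebraicIndependent_germDir (K : Type u) [Field K] (g : ℕ) :
    AlgebraicIndependent K (germDir K g) :=
  (MvPolynomial.algebraicIndependent_X (Fin g) K).map'
    (f := IsScalarTower.toAlgHom K (MvPolynomial (Fin g) K) (germConst K g))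
    (by
      show Function.Injective (algebraMap (MvPolynomial (Fin g) K) (germConst K g))
      rw [IsScalarTower.algebraMap_eq (MvPolynomial (Fin g) K)
        (FractionRing (MvPolynomial (Fin g) K)) (germConst K g), RingHom.coe_comp]
      exact (algebraMap (FractionRing (MvPolynomial (Fin g) K)) (germConst K g)).injective.comp
        (IsFractionRing.injective _ _))

theorem germDir_ne_zero (K : Type u) [Field K] (g : ℕ) (l : Fin g) : germDir K g l ≠ 0 :=
  (algebraicIndependent_germDir K g).ne_zero l

/-- Power series as Laurent series. -/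
def laurentHom (K k' : Type u) [Field K] [Field k'] [Algebra K k'] :
    PowerSeries k' →ₐ[K] LaurentSeries k' :=
  { HahnSeries.ofPowerSeries ℤ k' with commutes' := fun c =>
      (HahnSeries.algebraMap_apply' ℤ c).symm }

namespace Chart

variable {K F : Type u} [Field K] [Field F] [Algebra K F] {g : ℕ} (C : Chart K F g)

theorem isFractionRing : IsFractionRing C.R F where
  map_units y := isUnit_iff_ne_zero.2 fun h =>
    nonZeroDivisors.coe_ne_zero y (Subtype.ext h)
  surj z := by
    obtain ⟨a, b, hb, h⟩ := C.frac z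
    exact ⟨(a, ⟨b, mem_nonZeroDivisors_of_ne_zero fun e => hb (congrArg Subtype.val e)⟩), h⟩
  exists_of_eq h := ⟨1, by rw [Subtype.ext h]⟩

/-- The germ of an expansion, in Laurent series. -/
def germOf (ι : C.R →ₐ[K] Series.S K g) : C.R →ₐ[K] LaurentSeries (germConst K g) :=
  (laurentHom K (germConst K g)).comp ((germ (germDir K g)).comp ι)

theorem germOf_injective {ι : C.R →ₐ[K] Series.S K g} (hι : Function.Injective ι) :
    Function.Injective (C.germOf ι) :=
  HahnSeries.ofPowerSeries_injective.comp
    ((germ_injective (algebraicIndependent_germDir K g)).comp hι)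

/-- The germ of all functions. -/
def germField (ι : C.R →ₐ[K] Series.S K g) (hι : Function.Injective ι) :
    F →ₐ[K] LaurentSeries (germConst K g) :=
  haveI := C.isFractionRing
  IsFractionRing.liftAlgHom (A := C.R) (R := K) (g := C.germOf ι) (C.germOf_injective hι)

theorem germField_apply (ι : C.R →ₐ[K] Series.S K g) (hι : Function.Injective ι) (r : C.R) :
    C.germField ι hι (r : F) =
      HahnSeries.ofPowerSeries ℤ (germConst K g) (germ (germDir K g) (ι r)) := by
  have := C.isFractionRing
  rw [germField, IsFractionRing.liftAlgHom_apply]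
  exact IsFractionRing.lift_algebraMap (C.germOf_injective hι) r

/-- The germ at the point. -/
abbrev toGerm : F →ₐ[K] LaurentSeries (germConst K g) := C.germField C.iota C.injective

theorem toGerm_u (l : Fin g) : C.toGerm (C.u l) =
    algebraMap (germConst K g) (LaurentSeries (germConst K g)) (germDir K g l) *
      lvar (germConst K g) := by
  rw [germField_apply, C.iota_u, germ_X, map_mul, algebraMap_laurent]

/-- The generic germ of a curve. -/
abbrev curve : IntermediateField (germConst K g) (LaurentSeries (germConst K g)) :=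
  curveField C.toGerm

theorem lvar_mem_curve [NeZero g] : lvar (germConst K g) ∈ C.curve :=
  lvar_mem_curveField C.toGerm_u (i := 0) (germDir_ne_zero K g 0)

instance isFunctionField_curve [NeZero g] : IsFunctionField (germConst K g) C.curve :=
  haveI := C.finite
  isFunctionField_curveField C.toGerm_u (i := 0) (germDir_ne_zero K g 0)

/-- The germs of functions on the curve. -/
def toCurve (f : F) : C.curve := ⟨C.toGerm f, IntermediateField.subset_adjoin _ _ ⟨f, rfl⟩⟩

theorem algebraicIndependent_u : AlgebraicIndependent K fun l => (C.u l : F) := by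
  refine AlgebraicIndependent.map' (f := C.R.val) ?_ Subtype.val_injective
  refine AlgebraicIndependent.of_comp C.iota ?_
  rw [show C.iota ∘ C.u = fun l => (MvPowerSeries.X l : Series.S K g) from funext C.iota_u]
  have h := (MvPolynomial.algebraicIndependent_X (Fin g) K).map'
    (f := MvPolynomial.coeToMvPowerSeries.algHom K) fun a b h => MvPolynomial.coe_injective _ _
      (by simpa [MvPolynomial.coeToMvPowerSeries.algHom_apply] using h)
  convert h using 1
  funext l
  simp [MvPolynomial.coeToMvPowerSeries.algHom_apply]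

/-- A common denominator. -/
theorem exists_denominator {ι : Type*} (s : Finset ι) (e : ι → F) :
    ∃ r : C.R, (r : F) ≠ 0 ∧ ∀ i ∈ s, (r : F) * e i ∈ C.R := by
  classical
  induction s using Finset.induction with
  | empty => exact ⟨1, one_ne_zero, fun i hi => absurd hi (Finset.notMem_empty i)⟩
  | insert a s ha ih =>
    obtain ⟨r, hr, hrs⟩ := ih
    obtain ⟨x, b, hb, h⟩ := C.frac (e a)
    refine ⟨b * r, mul_ne_zero hb hr, fun i hi => ?_⟩
    rcases Finset.mem_insert.1 hi with rfl | hi
    · rw [Subalgebra.coe_mul, mul_comm (b : F), mul_assoc, mul_comm (b : F), h]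
      exact mul_mem r.2 x.2
    · rw [Subalgebra.coe_mul, mul_assoc]
      exact mul_mem b.2 (hrs i hi)

/-- **The upper bound.** -/
theorem finrank_le [NeZero g] (φ : F →ₐ[K] F) [FiniteDimensional φ.fieldRange F]
    (hφR : ∀ l, φ (C.u l) ∈ C.R) (n h : ℕ) (hn : 0 < n)
    (hpole : ∀ l, Divisor.degree (FF.poleDiv (K := germConst K g) (C.toCurve (φ (C.u l)))) ≤
      (n : ℤ) ^ 2 * h) :
    Module.finrank φ.fieldRange F ≤ ((g * h + 1) * n ^ 2) ^ g := by
  classical
  set d := Module.finrank φ.fieldRange F
  let b := Module.finBasis φ.fieldRange F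
  obtain ⟨r, hr0, hr⟩ := C.exists_denominator Finset.univ b
  let e : Fin d → F := fun i => (r : F) * b i
  have he : LinearIndependent φ.fieldRange e := b.linearIndependent.map'
    (LinearMap.mulLeft φ.fieldRange (r : F)) (LinearMap.ker_eq_bot.2 (mul_right_injective₀ hr0))
  set Me : Fin d → Divisor (germConst K g) C.curve := fun i => FF.poleDiv (C.toCurve (e i))
  set Mu : Fin g → Divisor (germConst K g) C.curve := fun l =>
    FF.poleDiv (C.toCurve (φ (C.u l))) with hMu
  set c := (Divisor.degree (∑ i, Me i)).toNat
  set N := c + 1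
  set Θ : Divisor (germConst K g) C.curve := (N : ℤ) • ∑ l, Mu l + ∑ i, Me i with hΘ
  set B := N * (g * h + 1) * n ^ 2 with hBdef
  -- the functions
  let w : (Fin g → Fin N) → φ.fieldRange :=
    fun α => ∏ l, (⟨φ (C.u l), C.u l, rfl⟩ : φ.fieldRange) ^ (α l : ℕ)
  have hw : LinearIndependent K w := linearIndependent_box
    (AlgebraicIndependent.of_comp φ.fieldRange.val
      (C.algebraicIndependent_u.map' (f := φ) φ.injective))
  let y : (Fin g → Fin N) × Fin d → F := fun x => algebraMap φ.fieldRange F (w x.1) * e x.2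
  have hy : LinearIndependent K y := linearIndependent_mul he hw
  have hyR : ∀ x, y x ∈ C.R := fun x => by
    refine mul_mem ?_ (hr x.2 (Finset.mem_univ _))
    show φ.fieldRange.val (w x.1) ∈ C.R
    rw [map_prod]
    exact prod_mem fun l _ => by rw [map_pow]; exact pow_mem (hφR l) _
  let z : (Fin g → Fin N) × Fin d → C.R := fun x => ⟨y x, hyR x⟩
  have hz : LinearIndependent K z := LinearIndependent.of_comp C.R.val.toLinearMap hy
  have hcount := card_le_of_jets z hz (fun _ : Unit => C.iota.toLinearMap) (g := g) (N := B) ?_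
  · rw [Fintype.card_prod, Fintype.card_fun, Fintype.card_fin, Fintype.card_fin, Fintype.card_unit,
      one_mul, hBdef, mul_assoc, mul_pow, mul_comm] at hcount
    simp only [Fintype.card_fin] at hcount
    exact Nat.le_of_mul_le_mul_left (by rwa [mul_comm d] at hcount) (pow_pos c.succ_pos g)
  -- a combination with vanishing jets is zero
  intro f hf hjet
  obtain ⟨a, rfl⟩ := (Submodule.mem_span_range_iff_exists_fun K).1 hf
  by_contra hne
  set x : C.curve := C.toCurve ((∑ i, a i • z i : C.R) : F)
  have hx : x ≠ 0 := fun h0 => hne (Subtype.ext (C.toGerm.injective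
    ((congrArg Subtype.val h0).trans (map_zero C.toGerm).symm)))
  have hΘ0 : ∀ v, 0 ≤ Θ v := fun v => by
    simp only [hΘ, hMu, Me, Finsupp.add_apply, Finsupp.smul_apply, smul_eq_mul,
      Finsupp.finsetSum_apply]
    exact add_nonneg (mul_nonneg (by omega) (Finset.sum_nonneg fun l _ => poleDiv_nonneg _ v))
      (Finset.sum_nonneg fun i _ => poleDiv_nonneg _ v)
  have hpoles : ∀ v : Place (germConst K g) C.curve, -Θ v ≤ v.ord x := by
    intro v
    let T : F →ₐ[K] C.curve := C.toGerm.codRestrict (C.curve.restrictScalars K).toSubalgebra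
      fun f => (C.toCurve f).2
    have hT : ∀ f, C.toCurve f = T f := fun _ => rfl
    have hx' : x = T (∑ i, a i • y i) := by
      show T _ = _
      simp only [AddSubmonoidClass.coe_finsetSum, SetLike.val_smul, z]
    rw [hx']
    refine neg_le_ord_map_sum (T : F →+* C.curve) (algebraMap K (germConst K g))
      (fun c => (T.commutes c).trans (IsScalarTower.algebraMap_apply K (germConst K g) C.curve c))
      _ a _ (hΘ0 v) fun i _ => ?_
    show _ ≤ v.ord (T (y i))
    have e1 : T (y i) = (∏ l, T (φ (C.u l)) ^ (i.1 l : ℕ)) * T (e i.2) := by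
      simp only [y, map_mul]
      congr 1
      show T (φ.fieldRange.val (w i.1)) = _
      simp only [w, map_prod, map_pow]
      rfl
    by_cases h0 : T (y i) = 0
    · rw [h0, Place.ord_zero]; have := hΘ0 v; omega
    rw [e1] at h0 ⊢
    rw [v.ord_mul (left_ne_zero_of_mul h0) (right_ne_zero_of_mul h0)]
    have h1 := neg_le_ord_prod (N := N) (fun l => T (φ (C.u l))) (fun l => (i.1 l : ℕ))
      (fun l => (i.1 l).2.le) (v := v) (B := fun l => Mu l v) (fun l => poleDiv_nonneg _ v)
      (fun l => neg_poleDiv_le (T (φ (C.u l))) v)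
    have h2 : -Me i.2 v ≤ v.ord (T (e i.2)) := neg_poleDiv_le _ v
    have h3 : Me i.2 v ≤ ∑ j, Me j v := Finset.single_le_sum (f := fun j => Me j v)
      (fun j _ => poleDiv_nonneg _ v) (Finset.mem_univ i.2)
    simp only [hΘ, Finsupp.add_apply, Finsupp.smul_apply, smul_eq_mul, Finsupp.finsetSum_apply]
    linarith
  have hvan : (B : ℤ) ≤ (seriesPlace C.curve C.lvar_mem_curve).ord x := by
    refine le_ord_seriesPlace C.curve _ hx (f := germ (germDir K g) (C.iota (∑ i, a i • z i))) ?_ ?_
    · exact (C.germField_apply C.iota C.injective _).symm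
    · exact (germ_coeff_eq_zero_iff (algebraicIndependent_germDir K g)).2 fun d hd => hjet () d hd
  have hle := mul_card_le_degree hpoles {seriesPlace C.curve C.lvar_mem_curve} (N := (B : ℤ))
    fun v hv => by
      rw [Finset.mem_singleton] at hv
      subst hv
      have := hΘ0 (seriesPlace C.curve C.lvar_mem_curve)
      omega
  rw [Finset.card_singleton, Nat.cast_one, one_mul] at hle
  have hdeg : Divisor.degree Θ ≤ (N : ℤ) * (g * ((n : ℤ) ^ 2 * h)) + c := by
    rw [hΘ, map_add, map_zsmul, map_sum Divisor.degree Mu, smul_eq_mul]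
    refine add_le_add (mul_le_mul_of_nonneg_left ?_ (by omega)) (Int.self_le_toNat _)
    refine (Finset.sum_le_card_nsmul _ _ _ fun l _ => hpole l).trans ?_
    simp
  have hn2 : (1 : ℤ) ≤ (n : ℤ) ^ 2 := one_le_pow₀ (by exact_mod_cast hn)
  have hN : (c : ℤ) < N * (n : ℤ) ^ 2 := by
    calc (c : ℤ) < (N : ℤ) := by omega
      _ ≤ N * (n : ℤ) ^ 2 := le_mul_of_one_le_right (by omega) hn2
  rw [hBdef] at hle
  push_cast at hle
  nlinarith [hle, hdeg, hN]

end Chart

end Fermat.Agent.AV
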