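import Mathlib

/-!
# The image of a finite Galois extension generates a finite Galois extension

If `F/F₀` is finite Galois and `F` maps to `L` with `F₀` landing in a subfield `M`, then `M(F)/M` is
finite Galois and its automorphisms restrict to those of `F`.
-/

noncomputable section

open IntermediateField

namespace Fermat.Agent.AV

variable {k L F0 F : Type*} [Field k] [Field L] [Algebra k L] [Field F0] [Field F] [Algebra F0 F]
  [FiniteDimensional F0 F] [IsGalois F0 F] (j : F →+* L) {M M' : IntermediateField k L}
  (hle : M ≤ M') (hbase : ∀ c : F0, j (algebraMap F0 F c) ∈ M)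
  (hgen : M' ≤ IntermediateField.adjoin k (Set.range j)) (hsub : ∀ f, j f ∈ M')

/-- The base homomorphism. -/
def relBase : F0 →+* M := (j.comp (algebraMap F0 F)).codRestrict M.toSubfield.toSubring hbase

include hgen in
theorem relExt_le_of (E : IntermediateField M L) (h : ∀ f, j f ∈ E) :
    IntermediateField.extendScalars hle ≤ E := fun x hx => by
  have : M' ≤ E.restrictScalars k :=
    hgen.trans (IntermediateField.adjoin_le_iff.2 (by rintro _ ⟨f, rfl⟩; exact h f))
  exact this hx

include hgen hsub hbase in
/-- The relative extension is the splitting field of a separable polynomial. -/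
theorem exists_rel_splitting :
    ∃ (θ : F) (p : Polynomial M), p.Separable ∧
      p.IsSplittingField M (IntermediateField.extendScalars hle) ∧
      Polynomial.aeval (j θ) p = 0 ∧
      (∀ y : L, Polynomial.aeval y p = 0 → y ∈ Set.range j) ∧
      IntermediateField.adjoin F0 {θ} = ⊤ := by
  obtain ⟨θ, hθ⟩ := Field.exists_primitive_element F0 F
  set q := minpoly F0 θ
  set p := q.map (relBase j hbase) with hp
  have hcomp' : (algebraMap M L).comp (relBase j hbase) = j.comp (algebraMap F0 F) :=
    RingHom.ext fun _ => rfl
  have hq : (q.map (algebraMap F0 F)).Splits := Normal.splits inferInstance θ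
  have hmapL : p.map (algebraMap M L) = (q.map (algebraMap F0 F)).map j := by
    rw [hp, Polynomial.map_map, hcomp', ← Polynomial.map_map]
  have hsplit : (p.map (algebraMap M L)).Splits := by
    rw [hmapL]; exact hq.map j
  have hq0 : q ≠ 0 := minpoly.ne_zero (Algebra.IsIntegral.isIntegral θ)
  have hroot : ∀ y : L, Polynomial.aeval y p = 0 → y ∈ Set.range j := by
    intro y hy
    rw [Polynomial.aeval_def, ← Polynomial.eval_map, hmapL] at hy
    have hmem : y ∈ ((q.map (algebraMap F0 F)).map j).roots :=
      (Polynomial.mem_roots (Polynomial.map_ne_zero (Polynomial.map_ne_zero hq0))).2 hy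
    rw [hq.roots_map] at hmem
    obtain ⟨z, -, rfl⟩ := Multiset.mem_map.1 hmem
    exact ⟨z, rfl⟩
  have hθp : Polynomial.aeval (j θ) p = 0 := by
    rw [Polynomial.aeval_def, ← Polynomial.eval_map, hmapL, Polynomial.eval_map,
      Polynomial.eval₂_hom, Polynomial.eval_map, ← Polynomial.aeval_def, minpoly.aeval, map_zero]
  have hsep : p.Separable := (show q.Separable from Algebra.IsSeparable.isSeparable F0 θ).map
  refine ⟨θ, p, hsep, IntermediateField.isSplittingField_iff.2 ⟨?_, ?_⟩, hθp, hroot, hθ⟩
  · refine IntermediateField.splits_of_splits hsplit fun y hy => ?_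
    rw [Polynomial.mem_rootSet] at hy
    obtain ⟨z, rfl⟩ := hroot y hy.2
    exact hsub z
  · refine le_antisymm ?_ ?_
    · refine relExt_le_of j hle hgen _ fun f => ?_
      set E := IntermediateField.adjoin M (p.rootSet L)
      have hf : f ∈ IntermediateField.adjoin F0 {θ} := hθ ▸ trivial
      induction hf using IntermediateField.adjoin_induction with
      | mem z hz =>
        rw [Set.mem_singleton_iff] at hz
        subst hz
        exact IntermediateField.subset_adjoin _ _ (Polynomial.mem_rootSet.2
          ⟨Polynomial.map_ne_zero hq0, hθp⟩)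
      | algebraMap c => exact E.algebraMap_mem (relBase j hbase c)
      | add a c _ _ ha hc => rw [map_add]; exact add_mem ha hc
      | inv a _ ha => rw [map_inv₀]; exact inv_mem ha
      | mul a c _ _ ha hc => rw [map_mul]; exact mul_mem ha hc
    · rw [IntermediateField.adjoin_le_iff]
      intro y hy
      rw [Polynomial.mem_rootSet] at hy
      obtain ⟨z, rfl⟩ := hroot y hy.2
      exact hsub z

include hgen hsub hbase in
/-- The relative extension is finite Galois, of degree at most that of `F` over `F0`. -/
theorem isGalois_relExt :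
    IsGalois M (IntermediateField.extendScalars hle) ∧
      FiniteDimensional M (IntermediateField.extendScalars hle) ∧
      Module.finrank M (IntermediateField.extendScalars hle) ≤ Module.finrank F0 F := by
  classical
  obtain ⟨θ, p, hsep, hsf, hθp, hroot, hθ⟩ := exists_rel_splitting j hle hbase hgen hsub
  have := hsf
  set E := IntermediateField.extendScalars hle
  have : FiniteDimensional M E := Polynomial.IsSplittingField.finiteDimensional _ p
  refine ⟨IsGalois.of_separable_splitting_field hsep, inferInstance, ?_⟩
  set d := Module.finrank F0 F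
  let b := Module.finBasis F0 F
  let y : Fin d → L := fun i => j (b i)
  -- the images of a basis span the generated extension
  set V : Submodule M L := Submodule.span M (Set.range y)
  have hV : ∀ f, j f ∈ V := fun f => by
    rw [← b.sum_repr f, map_sum]
    refine Submodule.sum_mem _ fun i _ => ?_
    rw [Algebra.smul_def, map_mul]
    exact V.smul_mem (relBase j hbase (b.repr f i)) (Submodule.subset_span ⟨i, rfl⟩)
  have hmul : ∀ a c, a ∈ V → c ∈ V → a * c ∈ V := by
    intro a c ha hc
    have h2 : V * V ≤ V := by
      rw [Submodule.span_mul_span, Submodule.span_le]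
      rintro _ ⟨_, ⟨i, rfl⟩, _, ⟨l, rfl⟩, rfl⟩
      show j (b i) * j (b l) ∈ V
      rw [← map_mul]
      exact hV _
    exact h2 (Submodule.mul_mem_mul ha hc)
  have hone : (1 : L) ∈ V := map_one j ▸ hV 1
  have : FiniteDimensional M V := FiniteDimensional.span_of_finite M (Set.finite_range y)
  let A : Subalgebra M L := V.toSubalgebra hone hmul
  have : FiniteDimensional M A := inferInstanceAs (FiniteDimensional M V)
  have hinv : ∀ x ∈ A, x⁻¹ ∈ A := fun x hx => by
    rcases eq_or_ne x 0 with rfl | hx0
    · rw [inv_zero]; exact hx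
    exact Subalgebra.inv_mem_of_algebraic A (x := ⟨x, hx⟩)
      (((Algebra.IsIntegral.isIntegral (R := M) (⟨x, hx⟩ : A)).map A.val).isAlgebraic)
  let B : IntermediateField M L := A.toIntermediateField hinv
  have hEB : E ≤ B := relExt_le_of j hle hgen B hV
  calc Module.finrank M E ≤ Module.finrank M V :=
        Submodule.finrank_mono (show E.toSubalgebra.toSubmodule ≤ V from hEB)
    _ ≤ d := (finrank_range_le_card y).trans (by simp)

include hgen hsub hbase in
/-- An automorphism of the generated extension comes from one of `F`. -/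
theorem exists_rel_hom
    (s : IntermediateField.extendScalars hle ≃ₐ[M] IntermediateField.extendScalars hle) :
    ∃ τ : F →+* F, (∀ c, τ (algebraMap F0 F c) = algebraMap F0 F c) ∧
      ∀ f, (s ⟨j f, hsub f⟩ : L) = j (τ f) := by
  obtain ⟨θ, p, -, -, hθp, hroot, hθ⟩ := exists_rel_splitting j hle hbase hgen hsub
  let E := IntermediateField.extendScalars hle
  let J : F →+* E := j.codRestrict E.toSubfield.toSubring hsub
  have hbase' : ∀ c, s (J (algebraMap F0 F c)) = J (algebraMap F0 F c) := fun c =>
    s.commutes (relBase j hbase c)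
  have hall : ∀ f, ∃ f', s (J f) = J f' := by
    intro f
    have hf : f ∈ IntermediateField.adjoin F0 {θ} := hθ ▸ trivial
    induction hf using IntermediateField.adjoin_induction with
    | mem z hz =>
      rw [Set.mem_singleton_iff] at hz
      subst hz
      have h0 : Polynomial.aeval (J z) p = 0 :=
        Subtype.ext ((IntermediateField.aeval_coe _ (J z) p).symm.trans hθp)
      have h1 : Polynomial.aeval (s (J z)) p = 0 := by
        rw [Polynomial.aeval_algHom_apply, h0, map_zero]
      obtain ⟨z', hz'⟩ := hroot ((s (J z) : E) : L)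
        ((IntermediateField.aeval_coe _ (s (J z)) p).trans (congrArg Subtype.val h1))
      exact ⟨z', Subtype.ext hz'.symm⟩
    | algebraMap c => exact ⟨_, hbase' c⟩
    | add a c _ _ ha hc =>
      obtain ⟨a', ha⟩ := ha; obtain ⟨c', hc⟩ := hc
      exact ⟨a' + c', by rw [map_add, map_add, ha, hc, map_add]⟩
    | inv a _ ha =>
      obtain ⟨a', ha⟩ := ha
      exact ⟨a'⁻¹, by rw [map_inv₀, map_inv₀, ha, map_inv₀]⟩
    | mul a c _ _ ha hc =>
      obtain ⟨a', ha⟩ := ha; obtain ⟨c', hc⟩ := hc
      exact ⟨a' * c', by rw [map_mul, map_mul, ha, hc, map_mul]⟩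
  choose τ hτ using hall
  have hJ : Function.Injective J := RingHom.injective J
  let σ : F →+* E := (s : E →+* E).comp J
  have hτ' : ∀ f, σ f = J (τ f) := hτ
  refine ⟨⟨⟨⟨τ, ?_⟩, ?_⟩, ?_, ?_⟩, fun c => ?_, fun f => congrArg Subtype.val (hτ f)⟩
  · exact hJ (((hτ' 1).symm.trans σ.map_one).trans J.map_one.symm)
  · exact fun a c => hJ (((hτ' (a * c)).symm.trans (σ.map_mul a c)).trans
      ((congrArg₂ (· * ·) (hτ' a) (hτ' c)).trans (J.map_mul _ _).symm))
  · exact hJ (((hτ' 0).symm.trans σ.map_zero).trans J.map_zero.symm)
  · exact fun a c => hJ (((hτ' (a + c)).symm.trans (σ.map_add a c)).trans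
      ((congrArg₂ (· + ·) (hτ' a) (hτ' c)).trans (J.map_add _ _).symm))
  · exact hJ ((hτ _).symm.trans (hbase' c))

end Fermat.Agent.AV
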