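import Mathlib.FieldTheory.Galois.Basic
import Mathlib.FieldTheory.PrimitiveElement
import Fermat.Agent.AV.DegreeUpper
import Fermat.Agent.AV.RelGalois

/-!
# The lower bound for the degree of multiplication by `n`

Below the generic germ `P` of a curve lies the curve of `Q`, `n Q = P`, whose conjugates give `e`
places over `U = 0`. If a divisor of degree at most `e h / n²` bounds the poles of the parameters
and the denominators at these places then `n^(2g) ≤ [F : φF] (g h + 1)^g`.
-/

noncomputable section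

open IntermediateField AlgebraicCurve
open Fermat.Agent.FF (IsFunctionField)

namespace Fermat.Agent.AV

universe u

/-- An automorphism fixing the variable and the ring of series without negative powers is
trivial. -/
theorem eq_id_of_stable {k' : Type u} [Field k'] {E : IntermediateField k' (LaurentSeries k')}
    (hU : lvar k' ∈ E) (ρ : E ≃ₐ[k'] E) (hρU : ρ ⟨lvar k', hU⟩ = ⟨lvar k', hU⟩)
    (hρ : ∀ x, x ∈ seriesRing E → ρ x ∈ seriesRing E) (x : E) : ρ x = x := by
  have key : ∀ (j : ℕ) (y : E) (f f' : PowerSeries k'),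
      HahnSeries.ofPowerSeries ℤ k' f = (y : LaurentSeries k') →
      HahnSeries.ofPowerSeries ℤ k' f' = ((ρ y : E) : LaurentSeries k') →
      PowerSeries.coeff j f' = PowerSeries.coeff j f := by
    intro j
    induction j using Nat.strong_induction_on with
    | _ j ih =>
      intro y f f' hf hf'
      set U : E := ⟨lvar k', hU⟩
      have hU0 : U ≠ 0 := fun e => lvar_ne_zero (congrArg Subtype.val e)
      set c := PowerSeries.constantCoeff f
      obtain ⟨r, hr⟩ : PowerSeries.X ∣ f - PowerSeries.C c := by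
        rw [PowerSeries.X_dvd_iff]; simp [c]
      have hfr : f = PowerSeries.C c + PowerSeries.X * r := by rw [← hr]; ring
      let z : E := (y - algebraMap k' E c) / U
      have hz : HahnSeries.ofPowerSeries ℤ k' r = (z : LaurentSeries k') := by
        show _ = ((y : LaurentSeries k') - algebraMap k' (LaurentSeries k') c) / lvar k'
        rw [← hf, hfr, eq_div_iff lvar_ne_zero, map_add, map_mul, algebraMap_laurent]
        ring
      obtain ⟨r', hr'⟩ := hρ z ⟨r, hz⟩
      have hfr' : f' = PowerSeries.C c + PowerSeries.X * r' := by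
        apply HahnSeries.ofPowerSeries_injective (Γ := ℤ)
        have e1 : y = algebraMap k' E c + U * z := by
          simp only [z]; field_simp; ring
        rw [hf', e1, map_add, map_mul, AlgEquiv.commutes, hρU, map_add, map_mul,
          ← algebraMap_laurent, hr']
        rfl
      rcases j with - | j
      · rw [hfr, hfr']; simp
      · rw [hfr, hfr', map_add, map_add, PowerSeries.coeff_succ_X_mul, PowerSeries.coeff_succ_X_mul,
          PowerSeries.coeff_C, if_neg j.succ_ne_zero, zero_add, zero_add]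
        exact ih j (Nat.lt_succ_self j) z r r' hz hr'
  have hfix : ∀ y, y ∈ seriesRing E → ρ y = y := fun y hy => by
    obtain ⟨f, hf⟩ := hy
    obtain ⟨f', hf'⟩ := hρ y ⟨f, hf⟩
    refine Subtype.ext (hf'.symm.trans ((congrArg _ ?_).trans hf))
    exact PowerSeries.ext fun j => key j y f f' hf hf'
  rcases (seriesRing E).mem_or_inv_mem x with h | h
  · exact hfix x h
  · have := hfix x⁻¹ h
    rwa [map_inv₀, inv_inj] at this

namespace Chart

variable {K F : Type u} [Field K] [Field F] [Algebra K F] {g : ℕ} (C : Chart K F g)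
  (φ : F →ₐ[K] F) (ι' : C.R →ₐ[K] Series.S K g) (hι' : Function.Injective ι')

/-- The curve of the conjugate germ. -/
abbrev curve' : IntermediateField (germConst K g) (LaurentSeries (germConst K g)) :=
  curveField (C.germField ι' hι')

/-- The germ of a function on the conjugate curve. -/
def toCurve' (f : F) : C.curve' ι' hι' :=
  ⟨C.germField ι' hι' f, IntermediateField.subset_adjoin _ _ ⟨f, rfl⟩⟩

/-- The germs on the conjugate curve, as a homomorphism. -/
def homCurve' : F →+* C.curve' ι' hι' where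
  toFun := C.toCurve' ι' hι'
  map_one' := Subtype.ext (map_one (C.germField ι' hι'))
  map_mul' a b := Subtype.ext (map_mul (C.germField ι' hι') a b)
  map_zero' := Subtype.ext (map_zero (C.germField ι' hι'))
  map_add' a b := Subtype.ext (map_add (C.germField ι' hι') a b)

theorem homCurve'_algebraMap (c : K) : C.homCurve' ι' hι' (algebraMap K F c) =
    algebraMap (germConst K g) (C.curve' ι' hι') (algebraMap K (germConst K g) c) := by
  refine Subtype.ext ?_
  show C.germField ι' hι' (algebraMap K F c) = algebraMap (germConst K g)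
    (LaurentSeries (germConst K g)) (algebraMap K (germConst K g) c)
  rw [AlgHom.commutes, IsScalarTower.algebraMap_apply K (germConst K g)
    (LaurentSeries (germConst K g))]

variable {φ ι' hι'} (hcomp : ∀ f, C.germField ι' hι' (φ f) = C.toGerm f)

include hcomp

theorem curve_le : C.curve ≤ C.curve' ι' hι' := by
  rw [IntermediateField.adjoin_le_iff]
  rintro _ ⟨f, rfl⟩
  exact IntermediateField.subset_adjoin _ _ ⟨φ f, hcomp f⟩

/-- The conjugate curve over the curve. -/
abbrev rel : IntermediateField C.curve (LaurentSeries (germConst K g)) :=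
  IntermediateField.extendScalars (C.curve_le hcomp)

theorem lvar_mem_curve' [NeZero g] : lvar (germConst K g) ∈ C.curve' ι' hι' :=
  C.curve_le hcomp C.lvar_mem_curve

/-- The conjugate curve field is a function field of one variable. -/
theorem isFunctionField_curve' [NeZero g] [FiniteDimensional φ.fieldRange F] :
    IsFunctionField (germConst K g) (C.curve' ι' hι') := by
  set E₀ := IntermediateField.adjoin K (Set.range fun l => (C.u l : F)) with hE₀
  set E₁ := IntermediateField.adjoin K (Set.range fun l => φ (C.u l : F)) with hE₁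
  have hv : ∀ l, C.germField ι' hι' (φ (C.u l)) = algebraMap (germConst K g)
      (LaurentSeries (germConst K g)) (germDir K g l) * lvar (germConst K g) := fun l =>
    (hcomp _).trans (C.toGerm_u l)
  have hle : E₁ ≤ φ.fieldRange := IntermediateField.adjoin_le_iff.2 (by
    rintro _ ⟨l, rfl⟩; exact ⟨_, rfl⟩)
  let : Algebra E₁ φ.fieldRange := (IntermediateField.inclusion hle).toAlgebra
  have : IsScalarTower E₁ φ.fieldRange F := IsScalarTower.of_algebraMap_eq fun _ => rfl
  have hmap : E₀.map φ = E₁ := by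
    rw [hE₀, hE₁, IntermediateField.adjoin_map, ← Set.range_comp]; rfl
  let e₁ : E₀ ≃+* E₁ := ((E₀.equivMap φ).trans (IntermediateField.equivOfEq hmap)).toRingEquiv
  let e₂ : F ≃+* φ.fieldRange := (AlgEquiv.ofInjectiveField φ).toRingEquiv
  have : FiniteDimensional E₀ F := C.finite
  have : Module.Finite E₁ φ.fieldRange := Module.Finite.of_equiv_equiv e₁ e₂
    (RingHom.ext fun _ => Subtype.ext rfl)
  have : FiniteDimensional E₁ F := Module.Finite.trans φ.fieldRange F
  exact isFunctionField_curveField hv (i := 0) (germDir_ne_zero K g 0)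

/-- The embedding of the base of the covering. -/
def baseHom : φ.fieldRange →+* C.curve :=
  ((C.germField ι' hι').toRingHom.comp φ.fieldRange.val.toRingHom).codRestrict
    C.curve.toSubfield.toSubring (by
      rintro ⟨x, f, rfl⟩
      exact (hcomp f).symm ▸ IntermediateField.subset_adjoin _ _ ⟨f, rfl⟩)

theorem isGalois_rel [FiniteDimensional φ.fieldRange F] [IsGalois φ.fieldRange F] :
    IsGalois C.curve (C.rel hcomp) ∧ FiniteDimensional C.curve (C.rel hcomp) ∧
      Module.finrank C.curve (C.rel hcomp) ≤ Module.finrank φ.fieldRange F :=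
  isGalois_relExt (C.germField ι' hι').toRingHom (C.curve_le hcomp)
    (fun c => (C.baseHom hcomp c).2) le_rfl
    (fun f => IntermediateField.subset_adjoin _ _ ⟨f, rfl⟩)

omit hcomp

/-- An automorphism over the curve as one over the constants. -/
def conjEquiv {hcomp : ∀ f, C.germField ι' hι' (φ f) = C.toGerm f}
    (s : C.rel hcomp ≃ₐ[C.curve] C.rel hcomp) :
    C.curve' ι' hι' ≃ₐ[germConst K g] C.curve' ι' hι' :=
  AlgEquiv.ofRingEquiv (f := (show C.curve' ι' hι' ≃+* C.curve' ι' hι' from s.toRingEquiv))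
    fun c => s.commutes ⟨algebraMap (germConst K g) _ c, C.curve.algebraMap_mem c⟩

/-- The place at which the conjugate by `s` is centred. -/
def conjPlace [NeZero g] {hcomp : ∀ f, C.germField ι' hι' (φ f) = C.toGerm f}
    [IsFunctionField (germConst K g) (C.curve' ι' hι')]
    (s : C.rel hcomp ≃ₐ[C.curve] C.rel hcomp) : Place (germConst K g) (C.curve' ι' hι') :=
  (C.conjEquiv s)⁻¹ • seriesPlace (C.curve' ι' hι') (C.lvar_mem_curve' hcomp)

variable (φ ι' hι')

theorem ord_conjPlace [NeZero g] (hcomp : ∀ f, C.germField ι' hι' (φ f) = C.toGerm f)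
    [IsFunctionField (germConst K g) (C.curve' ι' hι')]
    (s : C.rel hcomp ≃ₐ[C.curve] C.rel hcomp) (x : C.curve' ι' hι') :
    (C.conjPlace s).ord x =
      (seriesPlace (C.curve' ι' hι') (C.lvar_mem_curve' hcomp)).ord (C.conjEquiv s x) := by
  conv_lhs => rw [← (C.conjEquiv s).symm_apply_apply x]
  exact Place.ord_smul _ _ _

/-- Distinct conjugates are centred at distinct places. -/
theorem conjPlace_injective [NeZero g] (hcomp : ∀ f, C.germField ι' hι' (φ f) = C.toGerm f)
    [IsFunctionField (germConst K g) (C.curve' ι' hι')] :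
    Function.Injective fun s : C.rel hcomp ≃ₐ[C.curve] C.rel hcomp => C.conjPlace s := by
  intro s s' h
  set M := C.curve' ι' hι'
  set v₀ := seriesPlace M (C.lvar_mem_curve' hcomp)
  set ρ := C.conjEquiv s' * (C.conjEquiv s)⁻¹ with hρ
  have hfix : ρ • v₀ = v₀ := by
    rw [hρ, mul_smul]
    change (C.conjEquiv s') • C.conjPlace s = v₀
    rw [show C.conjPlace s = C.conjPlace s' from h]
    exact smul_inv_smul _ _
  have hring : ∀ x, x ∈ seriesRing M → ρ x ∈ seriesRing M := by
    intro x hx
    have h1 : 0 ≤ v₀.ord x := (FF.mem_iff_ord_nonneg v₀).1 hx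
    refine (FF.mem_iff_ord_nonneg v₀).2 ?_
    rw [← hfix, Place.ord_smul]
    exact h1
  have hUfix : ∀ t : C.rel hcomp ≃ₐ[C.curve] C.rel hcomp,
      C.conjEquiv t ⟨lvar _, C.lvar_mem_curve' hcomp⟩ = ⟨lvar _, C.lvar_mem_curve' hcomp⟩ :=
    fun t => t.commutes ⟨lvar _, C.lvar_mem_curve⟩
  have hρU : ρ ⟨lvar _, C.lvar_mem_curve' hcomp⟩ = ⟨lvar _, C.lvar_mem_curve' hcomp⟩ := by
    rw [hρ, AlgEquiv.mul_apply, show (C.conjEquiv s)⁻¹ ⟨lvar _, C.lvar_mem_curve' hcomp⟩ = _ from
      ((AlgEquiv.symm_apply_eq (C.conjEquiv s)).2 (hUfix s).symm)]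
    exact hUfix s'
  refine AlgEquiv.ext fun x => ?_
  have := eq_id_of_stable (C.lvar_mem_curve' hcomp) ρ hρU hring (C.conjEquiv s x)
  rw [hρ, AlgEquiv.mul_apply] at this
  erw [AlgEquiv.symm_apply_apply] at this
  exact this.symm

/-- A conjugate is given by an automorphism of the functions. -/
theorem exists_conj_hom [FiniteDimensional φ.fieldRange F] [IsGalois φ.fieldRange F]
    (hcomp : ∀ f, C.germField ι' hι' (φ f) = C.toGerm f)
    (s : C.rel hcomp ≃ₐ[C.curve] C.rel hcomp) :
    ∃ τ : F →ₐ[K] F, (∀ f, τ (φ f) = φ f) ∧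
      ∀ f, C.conjEquiv s (C.toCurve' ι' hι' f) = C.toCurve' ι' hι' (τ f) := by
  obtain ⟨τ, hτ0, hτ⟩ := exists_rel_hom (C.germField ι' hι').toRingHom (C.curve_le hcomp)
    (fun c => (C.baseHom hcomp c).2) le_rfl
    (fun f => IntermediateField.subset_adjoin _ _ ⟨f, rfl⟩) s
  exact ⟨{ τ with commutes' := fun c => hτ0 (algebraMap K φ.fieldRange c) },
    fun f => hτ0 ⟨φ f, f, rfl⟩, fun f => Subtype.ext (hτ f)⟩

/-- **The lower bound.** -/
theorem pow_le_finrank [NeZero g] [FiniteDimensional φ.fieldRange F] [IsGalois φ.fieldRange F]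
    (hcomp : ∀ f, C.germField ι' hι' (φ f) = C.toGerm f)
    [IsFunctionField (germConst K g) (C.curve' ι' hι')] (n h : ℕ)
    (Θ : Divisor (germConst K g) (C.curve' ι' hι'))
    (hdeg : (n : ℤ) ^ 2 * Divisor.degree Θ ≤ (Module.finrank C.curve (C.rel hcomp) : ℤ) * h)
    (hΘ : ∀ l v, FF.poleDiv (K := germConst K g) (C.toCurve' ι' hι' (C.u l)) v ≤ Θ v)
    (hloc : ∀ (s : C.rel hcomp ≃ₐ[C.curve] C.rel hcomp) (τ : F →ₐ[K] F),
      (∀ f, τ (φ f) = φ f) →
      (∀ f, C.conjEquiv s (C.toCurve' ι' hι' f) = C.toCurve' ι' hι' (τ f)) →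
      ∃ b : C.R, (b : F) ≠ 0 ∧ (∀ l, (b : F) * τ (C.u l) ∈ C.R) ∧
        (seriesPlace (C.curve' ι' hι') (C.lvar_mem_curve' hcomp)).ord (C.toCurve' ι' hι' b) ≤
          Θ (C.conjPlace s)) :
    n ^ (2 * g) ≤ Module.finrank φ.fieldRange F * (g * h + 1) ^ g := by
  classical
  obtain ⟨hgal, hfin, hle⟩ := C.isGalois_rel hcomp
  have := hgal
  have := hfin
  refine le_trans ?_ (Nat.mul_le_mul_right _ hle)
  set e := Module.finrank C.curve (C.rel hcomp) with he
  have : Fintype (C.rel hcomp ≃ₐ[C.curve] C.rel hcomp) := Fintype.ofFinite _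
  have hcard : Fintype.card (C.rel hcomp ≃ₐ[C.curve] C.rel hcomp) = e := by
    rw [← Nat.card_eq_fintype_card, IsGalois.card_aut_eq_finrank]
  set m := n ^ 2 with hm
  set B := g * h + 1 with hB
  choose τ hτφ hτ using fun s => C.exists_conj_hom φ ι' hι' hcomp s
  choose b hb0 hbu hbΘ using fun s => hloc s (τ s) (hτφ s) (hτ s)
  let z : (Fin g → Fin m) → F := fun α => ∏ l, (C.u l : F) ^ (α l : ℕ)
  have hz : LinearIndependent K z := linearIndependent_box C.algebraicIndependent_u
  -- denominators
  let den : (C.rel hcomp ≃ₐ[C.curve] C.rel hcomp) → C.R := fun s => b s ^ (g * m)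
  have hden : ∀ s α, (den s : F) * τ s (z α) ∈ C.R := by
    intro s α
    have e1 : (den s : F) * τ s (z α) = (b s : F) ^ (g * m - ∑ l, (α l : ℕ)) *
        ∏ l, ((b s : F) * τ s (C.u l)) ^ (α l : ℕ) := by
      simp only [den, z, map_prod, map_pow, mul_pow, SubmonoidClass.coe_pow]
      rw [Finset.prod_mul_distrib, Finset.prod_pow_eq_pow_sum, ← mul_assoc, ← pow_add,
        Nat.sub_add_cancel ((Finset.sum_le_card_nsmul _ _ m fun l _ => (α l).2.le).trans (by simp))]
    rw [e1]
    exact mul_mem (pow_mem (b s).2 _) (prod_mem fun l _ => pow_mem (hbu s l) _)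
  set L := Submodule.span K (Set.range z)
  have hdenL : ∀ s, ∀ f ∈ L, (den s : F) * τ s f ∈ C.R := fun s f hf => by
    induction hf using Submodule.span_induction with
    | mem f hf => obtain ⟨α, rfl⟩ := hf; exact hden s α
    | zero => simp
    | add a c _ _ ha hc => rw [map_add, mul_add]; exact add_mem ha hc
    | smul a c _ hc => rw [map_smul, mul_smul_comm]; exact C.R.smul_mem hc a
  let jet : (C.rel hcomp ≃ₐ[C.curve] C.rel hcomp) → L →ₗ[K] Series.S K g := fun s =>
    ι'.toLinearMap.comp
      (((LinearMap.mulLeft K (den s : F)).comp ((τ s).toLinearMap.comp L.subtype)).codRestrict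
        (Subalgebra.toSubmodule C.R) fun f => hdenL s f f.2)
  have hzL : LinearIndependent K fun α => (⟨z α, Submodule.subset_span ⟨α, rfl⟩⟩ : L) :=
    LinearIndependent.of_comp L.subtype hz
  have hcount := card_le_of_jets (g := g) (N := B) _ hzL jet ?_
  · rw [Fintype.card_fun, Fintype.card_fin, Fintype.card_fin, hcard] at hcount
    rw [pow_mul]
    exact hcount
  intro f _ hjet
  by_contra hne
  set T := C.homCurve' ι' hι' with hTdef
  set x := T (f : F) with hxdef
  have hx : x ≠ 0 := fun h0 => hne (Subtype.ext (T.injective (h0.trans (map_zero T).symm)))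
  set Θ' : Divisor (germConst K g) (C.curve' ι' hι') := ((g * m : ℕ) : ℤ) • Θ with hΘ'
  have hΘ0 : ∀ v, 0 ≤ Θ v := fun v => (poleDiv_nonneg _ v).trans (hΘ 0 v)
  have hpoles : ∀ v, -Θ' v ≤ v.ord x := by
    intro v
    obtain ⟨a, ha⟩ := (Submodule.mem_span_range_iff_exists_fun K).1 f.2
    rw [hxdef, ← ha]
    refine neg_le_ord_map_sum T (algebraMap K (germConst K g))
      (C.homCurve'_algebraMap ι' hι') _ a _ ?_ fun α _ => ?_
    · rw [hΘ', Finsupp.smul_apply, smul_eq_mul]; exact mul_nonneg (by omega) (hΘ0 v)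
    simp only [z, map_prod, map_pow]
    have h1 := neg_le_ord_prod (N := m) (fun l => T (C.u l)) (fun l => (α l : ℕ))
      (fun l => (α l).2.le) (v := v) (B := fun _ => Θ v) (fun _ => hΘ0 v)
      (fun l => (neg_le_neg (hΘ l v)).trans (neg_poleDiv_le (T (C.u l)) v))
    rw [Finset.sum_const, Finset.card_univ, Fintype.card_fin, nsmul_eq_mul] at h1
    rw [hΘ', Finsupp.smul_apply, smul_eq_mul]
    push_cast at h1 ⊢
    linarith
  let S : Finset (Place (germConst K g) (C.curve' ι' hι')) :=
    Finset.univ.map ⟨_, C.conjPlace_injective φ ι' hι' hcomp⟩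
  have hS : ∀ v ∈ S, (B : ℤ) ≤ v.ord x + Θ' v := by
    intro v hv
    obtain ⟨s, -, rfl⟩ := Finset.mem_map.1 hv
    show (B : ℤ) ≤ (C.conjPlace s).ord x + Θ' (C.conjPlace s)
    rw [C.ord_conjPlace φ ι' hι' hcomp, show C.conjEquiv s x = T (τ s f) from hτ s f]
    set v₀ := seriesPlace (C.curve' ι' hι') (C.lvar_mem_curve' hcomp)
    have hy : T (den s : F) * T (τ s f) ≠ 0 := mul_ne_zero
      (fun h0 => pow_ne_zero (g * m) (hb0 s) (T.injective (h0.trans (map_zero T).symm)))
      (fun h0 => hne (Subtype.ext ((τ s).toRingHom.injective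
        ((T.injective (h0.trans (map_zero T).symm)).trans (map_zero (τ s)).symm))))
    have h1 : (B : ℤ) ≤ v₀.ord (T ((den s : F) * τ s f)) := by
      refine le_ord_seriesPlace _ _ (by rw [map_mul]; exact hy)
        (f := germ (germDir K g) (jet s f)) (C.germField_apply ι' hι' _).symm ?_
      exact (germ_coeff_eq_zero_iff (algebraicIndependent_germDir K g)).2 fun d hd => hjet s d hd
    rw [map_mul, v₀.ord_mul (left_ne_zero_of_mul hy) (right_ne_zero_of_mul hy)] at h1
    have h2 : v₀.ord (T (den s : F)) ≤ Θ' (C.conjPlace s) := by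
      simp only [den, SubmonoidClass.coe_pow, map_pow, FF.ord_pow, hΘ', Finsupp.smul_apply,
        smul_eq_mul]
      exact mul_le_mul_of_nonneg_left (hbΘ s) (by omega)
    linarith
  have hmain := mul_card_le_degree hpoles S hS
  rw [Finset.card_map, Finset.card_univ, hcard, hΘ', map_zsmul, smul_eq_mul, hB, hm] at hmain
  push_cast at hmain
  have h3 : (g : ℤ) * ((n : ℤ) ^ 2 * Divisor.degree Θ) ≤ g * ((e : ℤ) * h) :=
    mul_le_mul_of_nonneg_left hdeg (by omega)
  have hepos : (0 : ℤ) < e := by exact_mod_cast Module.finrank_pos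
  nlinarith

/-- Multiplicativity and the two bounds determine the degree. -/
theorem degree_eq_pow {d : ℕ → ℕ} {n h g : ℕ} (hn : 0 < n)
    (hmul : ∀ k, d (n ^ k) = d n ^ k) (hd : 0 < d n)
    (hup : ∀ k, 0 < k → d (n ^ k) ≤ ((g * h + 1) * (n ^ k) ^ 2) ^ g)
    (hlow : ∀ k, 0 < k → (n ^ k) ^ (2 * g) ≤ d (n ^ k) * (g * h + 1) ^ g) :
    d n = n ^ (2 * g) := by
  refine eq_of_pow_sandwich hd (pow_pos hn _) (A := (g * h + 1) ^ g) (B := (g * h + 1) ^ g)
    (fun k hk => ?_) (fun k hk => ?_)
  · calc (n ^ (2 * g)) ^ k = (n ^ k) ^ (2 * g) := by rw [← pow_mul, ← pow_mul, mul_comm]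
      _ ≤ d (n ^ k) * (g * h + 1) ^ g := hlow k hk
      _ = (g * h + 1) ^ g * d n ^ k := by rw [hmul, mul_comm]
  · rw [← hmul k]
    refine (hup k hk).trans (le_of_eq ?_)
    rw [mul_pow]
    congr 1
    rw [← pow_mul, ← pow_mul, ← pow_mul]
    congr 1
    ring

end Chart

end Fermat.Agent.AV
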