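import Fermat.Agent.AV.Generic

/-!
# Local functions and the divisor of denominators

The local rings inside the function field, the evaluation of local functions at points, and the
local equations of the common polar divisor of the parameters.
-/

noncomputable section

universe u

open CategoryTheory AlgebraicGeometry TopologicalSpace NeronModelInfra GoodReductionJacobian

namespace Fermat.Agent.AV.SmoothAV

variable {K : Type u} [Field K] [IsAlgClosed K] {g : ℕ} (X : SmoothAV K g)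

/-- Evaluation of sections at the generic point. -/
def etaEval (U : X.A.Opens) (hU : (U : Set X.A).Nonempty) : Γ(X.A, U) →ₐ[K] X.FF :=
  X.evalAlg X.eta U (Generic.inOpen X X.generic_eta hU)

theorem etaEval_injective (U : X.A.Opens) (hU : (U : Set X.A).Nonempty) :
    Function.Injective (X.etaEval U hU) :=
  Generic.injective X X.generic_eta hU _

theorem etaEval_res {U U₁ : X.A.Opens} (hle : U ≤ U₁) (hU : (U : Set X.A).Nonempty)
    (s : Γ(X.A, U₁)) :
    X.etaEval U hU (X.res hle s) = X.etaEval U₁ (hU.mono hle) s :=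
  X.eval_res X.eta hle _ s

/-- A section on a basic open set is a fraction with a power of its equation as denominator. -/
theorem exists_frac_basicOpen {U : X.A.Opens} (hU : IsAffineOpen U) {s : Γ(X.A, U)}
    (hne : ((X.A.basicOpen s : X.A.Opens) : Set X.A).Nonempty) (a : Γ(X.A, X.A.basicOpen s)) :
    ∃ (b : Γ(X.A, U)) (k : ℕ), X.etaEval _ hne a * X.etaEval U
        (hne.mono (X.A.basicOpen_le s)) s ^ k =
      X.etaEval U (hne.mono (X.A.basicOpen_le s)) b := by
  have := hU.isLocalization_basicOpen s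
  obtain ⟨⟨b, ⟨_, k, rfl⟩⟩, hb⟩ := IsLocalization.surj (Submonoid.powers s) a
  refine ⟨b, k, ?_⟩
  have h : ∀ z, algebraMap Γ(X.A, U) Γ(X.A, X.A.basicOpen s) z = X.res (X.A.basicOpen_le s) z :=
    fun z => rfl
  have := congrArg (X.etaEval _ hne) hb
  rwa [map_mul, h, h, etaEval_res, etaEval_res, map_pow] at this

/-! ### Local functions -/

/-- The local ring at a point, inside the function field. -/
def loc (x : X.A) : Subalgebra K X.FF where
  carrier := {f | ∃ (O : X.A.Opens) (hx : x ∈ O) (s : Γ(X.A, O)), X.etaEval O ⟨x, hx⟩ s = f}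
  mul_mem' := by
    rintro f f' ⟨O, hx, s, rfl⟩ ⟨O', hx', s', rfl⟩
    refine ⟨O ⊓ O', ⟨hx, hx'⟩, X.res inf_le_left s * X.res inf_le_right s', ?_⟩
    rw [map_mul, etaEval_res, etaEval_res]
  add_mem' := by
    rintro f f' ⟨O, hx, s, rfl⟩ ⟨O', hx', s', rfl⟩
    refine ⟨O ⊓ O', ⟨hx, hx'⟩, X.res inf_le_left s + X.res inf_le_right s', ?_⟩
    rw [map_add, etaEval_res, etaEval_res]
  algebraMap_mem' r := ⟨⊤, trivial, algebraMap K _ r, AlgHom.commutes _ r⟩

theorem mem_loc {x : X.A} {O : X.A.Opens} (hx : x ∈ O) (s : Γ(X.A, O)) :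
    X.etaEval O ⟨x, hx⟩ s ∈ X.loc x :=
  ⟨O, hx, s, rfl⟩

theorem loc_le_of_specializes {x y : X.A} (h : x ⤳ y) : X.loc y ≤ X.loc x := by
  rintro f ⟨O, hy, s, rfl⟩
  exact ⟨O, h.mem_open O.2 hy, s, rfl⟩

theorem exists_frac {U : X.A.Opens} (hU : IsAffineOpen U) {x : X.A} (hx : x ∈ U) {f : X.FF}
    (hf : f ∈ X.loc x) : ∃ a s : Γ(X.A, U), x ∈ X.A.basicOpen s ∧
      f * X.etaEval U ⟨x, hx⟩ s = X.etaEval U ⟨x, hx⟩ a := by
  obtain ⟨O, hxO, t, rfl⟩ := hf
  obtain ⟨s, hsO, hxs⟩ := hU.exists_basicOpen_le (V := O) ⟨x, hxO⟩ hx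
  obtain ⟨b, k, hb⟩ := X.exists_frac_basicOpen hU ⟨x, hxs⟩ (X.res hsO t)
  rw [etaEval_res] at hb
  refine ⟨b * s, s ^ (k + 1), ?_, ?_⟩
  · rwa [Scheme.basicOpen_pow _ _ k.succ_pos]
  · rw [map_pow, map_mul, pow_succ, ← mul_assoc, ← hb]

theorem mem_loc_of_frac {U : X.A.Opens} {x : X.A} (hx : x ∈ U) {f : X.FF} {a s : Γ(X.A, U)}
    (hs : x ∈ X.A.basicOpen s) (h : f * X.etaEval U ⟨x, hx⟩ s = X.etaEval U ⟨x, hx⟩ a) :
    f ∈ X.loc x := by
  obtain ⟨w, hw⟩ : IsUnit (X.res (X.A.basicOpen_le s) s) :=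
    RingedSpace.isUnit_res_basicOpen _ s
  have h1 := congrArg (X.etaEval _ ⟨x, hs⟩) w.mul_inv
  rw [map_mul, map_one, hw, etaEval_res] at h1
  refine ⟨X.A.basicOpen s, hs, X.res (X.A.basicOpen_le s) a * ↑w⁻¹, ?_⟩
  rw [map_mul, etaEval_res, ← h, mul_assoc, h1, mul_one]

/-- Every rational function is a quotient of sections on a nonempty affine open set. -/
theorem exists_frac_of_nonempty {U : X.A.Opens} (hU : IsAffineOpen U)
    (hne : (U : Set X.A).Nonempty) (f : X.FF) : ∃ a b : Γ(X.A, U), b ≠ 0 ∧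
      f * X.etaEval U hne b = X.etaEval U hne a := by
  obtain ⟨a₀, b₀, hb₀, rfl⟩ := IsFractionRing.div_surjective X.B₀ f
  have hb : algebraMap X.B₀ X.FF b₀ ≠ 0 :=
    IsFractionRing.to_map_ne_zero_of_mem_nonZeroDivisors hb₀
  have h0 : X.centre X.eta ∈ X.U₀ := (X.inOpen_iff).1 X.eta_inOpen
  have he : ∀ z, X.etaEval X.U₀ ⟨_, h0⟩ z = algebraMap X.B₀ X.FF z := X.eval_eta
  have hf : algebraMap X.B₀ X.FF a₀ / algebraMap X.B₀ X.FF b₀ ∈ X.loc (X.centre X.eta) := by
    refine X.mem_loc_of_frac h0 (a := a₀) (s := b₀) ?_ ?_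
    · exact (X.mem_basicOpen_iff _ X.eta_inOpen b₀).2 (IsUnit.mk0 _ (by rwa [X.eval_eta]))
    · rw [he, he, div_mul_cancel₀ _ hb]
  have hxU : X.centre X.eta ∈ U := (X.inOpen_iff).1 (Generic.inOpen X X.generic_eta hne)
  obtain ⟨a, b, hxb, hab⟩ := X.exists_frac hU hxU hf
  refine ⟨a, b, fun h => ?_, hab⟩
  rw [h, Scheme.basicOpen_zero] at hxb
  exact hxb

/-! ### Evaluation of local functions -/

variable {V W : Type u} [CommRing V] [Algebra K V] [IsLocalRing V] [CommRing W] [Algebra K W]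
  [IsLocalRing W]

/-- The value of a local function, computed with a chosen representative. -/
def locVal (R : X.Pt V) (f : X.loc (X.centre R)) : V :=
  X.eval R f.2.choose ((X.inOpen_iff).2 f.2.choose_spec.choose)
    f.2.choose_spec.choose_spec.choose

/-- The value of a local function does not depend on the representing section. -/
theorem locVal_eq (R : X.Pt V) (f : X.loc (X.centre R)) {O : X.A.Opens}
    (hO : X.centre R ∈ O) (s : Γ(X.A, O)) (hs : X.etaEval O ⟨_, hO⟩ s = f) :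
    X.locVal R f = X.eval R O ((X.inOpen_iff).2 hO) s := by
  obtain ⟨hx', hs'⟩ : ∃ hx : X.centre R ∈ f.2.choose,
      X.etaEval f.2.choose ⟨_, hx⟩ f.2.choose_spec.choose_spec.choose = f :=
    ⟨f.2.choose_spec.choose, f.2.choose_spec.choose_spec.choose_spec⟩
  have hne : ((f.2.choose ⊓ O : X.A.Opens) : Set X.A).Nonempty := ⟨_, hx', hO⟩
  have h : X.res inf_le_left f.2.choose_spec.choose_spec.choose =
      X.res (inf_le_right : f.2.choose ⊓ O ≤ O) s := by
    apply X.etaEval_injective _ hne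
    rw [etaEval_res, etaEval_res]
    exact hs'.trans hs.symm
  have := congrArg (X.eval R (f.2.choose ⊓ O) ((X.inOpen_iff).2 ⟨hx', hO⟩)) h
  rwa [X.eval_res, X.eval_res] at this

/-- The evaluation of local functions at a point. -/
def evalLoc (R : X.Pt V) : X.loc (X.centre R) →ₐ[K] V where
  toFun := X.locVal R
  map_one' := by
    rw [X.locVal_eq R 1 (O := ⊤) trivial 1 (map_one _), map_one]
  map_mul' := by
    rintro ⟨_, O, hO, s, rfl⟩ ⟨_, O', hO', s', rfl⟩
    rw [X.locVal_eq R ⟨_, O, hO, s, rfl⟩ hO s rfl, X.locVal_eq R ⟨_, O', hO', s', rfl⟩ hO' s' rfl,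
      X.locVal_eq R _ (O := O ⊓ O') ⟨hO, hO'⟩ (X.res inf_le_left s * X.res inf_le_right s') ?_]
    · rw [map_mul, X.eval_res, X.eval_res]
    · rw [map_mul, etaEval_res, etaEval_res]; rfl
  map_zero' := by
    rw [X.locVal_eq R 0 (O := ⊤) trivial 0 (map_zero _), map_zero]
  map_add' := by
    rintro ⟨_, O, hO, s, rfl⟩ ⟨_, O', hO', s', rfl⟩
    rw [X.locVal_eq R ⟨_, O, hO, s, rfl⟩ hO s rfl, X.locVal_eq R ⟨_, O', hO', s', rfl⟩ hO' s' rfl,
      X.locVal_eq R _ (O := O ⊓ O') ⟨hO, hO'⟩ (X.res inf_le_left s + X.res inf_le_right s') ?_]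
    · rw [map_add, X.eval_res, X.eval_res]
    · rw [map_add, etaEval_res, etaEval_res]; rfl
  commutes' r := by
    rw [X.locVal_eq R _ (O := ⊤) trivial (algebraMap K _ r) (AlgHom.commutes _ r)]
    exact X.eval_algebraMap R ⊤ _ r

theorem evalLoc_eq (R : X.Pt V) (f : X.loc (X.centre R)) {O : X.A.Opens}
    (hO : X.centre R ∈ O) (s : Γ(X.A, O)) (hs : X.etaEval O ⟨_, hO⟩ s = f) :
    X.evalLoc R f = X.eval R O ((X.inOpen_iff).2 hO) s :=
  X.locVal_eq R f hO s hs

omit [IsAlgClosed K] in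
theorem centre_map_specializes (φ : V →ₐ[K] W) (R : X.Pt V) :
    X.centre (X.map φ R) ⤳ X.centre R := by
  show X.hom (X.map φ R) _ ⤳ _
  rw [AVData.hom_map, Scheme.Hom.comp_apply]
  exact (IsLocalRing.specializes_closedPoint _).map (X.hom R).continuous

/-- Evaluation of local functions commutes with maps of points. -/
theorem evalLoc_map (φ : V →ₐ[K] W) (R : X.Pt V) (f : X.loc (X.centre R))
    (hf : (f : X.FF) ∈ X.loc (X.centre (X.map φ R))) :
    X.evalLoc (X.map φ R) ⟨f, hf⟩ = φ (X.evalLoc R f) := by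
  obtain ⟨O, hO, s, hs⟩ := f.2
  have hO' := (X.centre_map_specializes φ R).mem_open O.2 hO
  rw [X.evalLoc_eq R f hO s hs, X.evalLoc_eq (X.map φ R) ⟨f, hf⟩ hO' s hs]
  exact X.eval_map R φ O _ _ s

/-! ### Pieces of the polar divisor of the parameters -/

/-- The parameters as rational functions. -/
def u (i : Fin g) : X.FF := algebraMap X.B₀ X.FF (X.par i)

/-- An open set with least denominators for the parameters. -/
structure Piece where
  /-- the open set -/
  O : X.A.Opens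
  /-- the denominators -/
  den : Fin g → X.FF
  den_ne_zero : ∀ i, den i ≠ 0
  den_mem : ∀ y ∈ O, IsClosed {y} → ∀ i, den i ∈ X.loc y
  den_mul_mem : ∀ y ∈ O, IsClosed {y} → ∀ i, den i * X.u i ∈ X.loc y
  div_mem : ∀ y ∈ O, IsClosed {y} → ∀ i r, r ∈ X.loc y → r * X.u i ∈ X.loc y →
    r * (den i)⁻¹ ∈ X.loc y

/-- Every closed point lies in some piece. -/
theorem exists_piece_closed {x : X.A} (hx : IsClosed {x}) : ∃ a : X.Piece, x ∈ a.O := by
  classical
  obtain ⟨U, hU, hxU, hsm⟩ := X.exists_chart x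
  have hne : (U : Set X.A).Nonempty := ⟨x, hxU⟩
  obtain ⟨P, hP⟩ := X.exists_rational_point hx
  have hPU : X.InOpen P U := (X.inOpen_iff).2 (hP ▸ hxU)
  have : IsDomain Γ(X.A, U) := X.isDomain_sections hxU
  obtain ⟨t, ht⟩ := Local.exists_params (g := g) (X.evalAlg P U hPU)
  obtain ⟨ι⟩ := Local.exists_expansion _ ht
  choose a b hb hab using fun i => X.exists_frac_of_nonempty hU hne (X.u i)
  choose h s hh hs hdvd hmin using fun i => ι.exists_denominator ht (a i) (b i) (hb i)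
  set e := X.etaEval U hne
  have heb : ∀ i, e (b i) ≠ 0 := fun i => (map_ne_zero_iff _ (X.etaEval_injective U hne)).2 (hb i)
  have hbo : ∀ {y}, y ∈ X.A.basicOpen (∏ i, s i) → ∀ i, y ∈ X.A.basicOpen (s i) :=
      fun {y} hy i => by
    rw [← Finset.mul_prod_erase _ _ (Finset.mem_univ i), Scheme.basicOpen_mul] at hy
    exact hy.1
  refine ⟨⟨X.A.basicOpen (∏ i, s i), fun i => e (h i),
    fun i => (map_ne_zero_iff _ (X.etaEval_injective U hne)).2 (hh i), fun y hy _ i => ?_,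
    fun y hy _ i => ?_, fun y hy _ i r hr hru => ?_⟩, ?_⟩
  · exact X.mem_loc (X.A.basicOpen_le _ hy) (h i)
  · obtain ⟨q, hq⟩ := hdvd i
    have : e (h i) * X.u i = e q := by
      refine mul_left_cancel₀ (heb i) ?_
      rw [← map_mul, ← hq, map_mul, ← hab i]
      ring
    rw [this]
    exact X.mem_loc (X.A.basicOpen_le _ hy) q
  · have hyU := X.A.basicOpen_le _ hy
    obtain ⟨a₁, s₁, hys₁, h₁⟩ := X.exists_frac hU hyU hr
    obtain ⟨a₂, s₂, hys₂, h₂⟩ := X.exists_frac hU hyU hru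
    obtain ⟨q, hq⟩ := hmin i (a₁ * s₂) ⟨a₂ * s₁, X.etaEval_injective U hne (by
      show e (a₁ * s₂ * a i) = e (b i * (a₂ * s₁))
      rw [map_mul, map_mul, map_mul, map_mul, ← hab i, ← h₁, ← h₂]
      ring)⟩
    refine X.mem_loc_of_frac hyU (a := q) (s := s i * s₁ * s₂) ?_ ?_
    · rw [Scheme.basicOpen_mul, Scheme.basicOpen_mul]
      exact ⟨⟨hbo hy i, hys₁⟩, hys₂⟩
    · show r * (e (h i))⁻¹ * e (s i * s₁ * s₂) = e q
      have hq' := congrArg e hq
      rw [map_mul, map_mul, map_mul, ← h₁] at hq'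
      rw [map_mul, map_mul]
      calc r * (e (h i))⁻¹ * (e (s i) * e s₁ * e s₂)
          = (e (h i))⁻¹ * (e (s i) * (r * e s₁ * e s₂)) := by ring
        _ = e q := by
          rw [hq', inv_mul_cancel_left₀]
          exact (map_ne_zero_iff _ (X.etaEval_injective U hne)).2 (hh i)
  · subst hP
    refine (X.mem_basicOpen_iff P hPU _).2 (IsUnit.mk0 _ ?_)
    show X.evalAlg P U hPU (∏ i, s i) ≠ 0
    rw [map_prod]
    exact Finset.prod_ne_zero_iff.2 fun i _ => hs i

theorem exists_piece (x : X.A) : ∃ a : X.Piece, x ∈ a.O := by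
  obtain ⟨y, hy, hxy⟩ := X.exists_closed_specialization x
  obtain ⟨a, ha⟩ := X.exists_piece_closed hy
  exact ⟨a, hxy.mem_open a.O.2 ha⟩

/-- A chosen piece at a point. -/
def piece (x : X.A) : X.Piece := (X.exists_piece x).choose

theorem mem_piece (x : X.A) : x ∈ (X.piece x).O := (X.exists_piece x).choose_spec

omit [IsAlgClosed K] in
theorem exists_closed_mem {x : X.A} {O : X.A.Opens} (hx : x ∈ O) :
    ∃ y ∈ O, IsClosed {y} ∧ x ⤳ y := by
  have := X.jacobsonSpace
  obtain ⟨y, ⟨hyO, hyx⟩, hyc⟩ := nonempty_inter_closedPoints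
    (Z := (O : Set X.A) ∩ closure {x}) ⟨x, hx, subset_closure rfl⟩
    (O.2.isLocallyClosed.inter isClosed_closure.isLocallyClosed)
  exact ⟨y, hyO, hyc, specializes_iff_mem_closure.2 hyx⟩

/-- The equation of a piece. -/
def eqn (a : X.Piece) : X.FF := ∏ i, a.den i

theorem eqn_ne_zero (a : X.Piece) : X.eqn a ≠ 0 :=
  Finset.prod_ne_zero_iff.2 fun i _ => a.den_ne_zero i

theorem eqn_mem (a : X.Piece) {x : X.A} (hx : x ∈ a.O) : X.eqn a ∈ X.loc x := by
  obtain ⟨y, hy, hyc, hxy⟩ := X.exists_closed_mem hx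
  exact X.loc_le_of_specializes hxy (prod_mem fun i _ => a.den_mem y hy hyc i)

theorem eqn_mul_u_mem (a : X.Piece) {x : X.A} (hx : x ∈ a.O) (j : Fin g) :
    X.eqn a * X.u j ∈ X.loc x := by
  classical
  obtain ⟨y, hy, hyc, hxy⟩ := X.exists_closed_mem hx
  refine X.loc_le_of_specializes hxy ?_
  rw [eqn, ← Finset.prod_erase_mul _ _ (Finset.mem_univ j), mul_assoc]
  exact mul_mem (prod_mem fun i _ => a.den_mem y hy hyc i) (a.den_mul_mem y hy hyc j)

theorem eqn_div_mem (a b : X.Piece) {x : X.A} (ha : x ∈ a.O) (hb : x ∈ b.O) :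
    X.eqn a * (X.eqn b)⁻¹ ∈ X.loc x := by
  obtain ⟨y, ⟨hya, hyb⟩, hyc, hxy⟩ := X.exists_closed_mem (O := a.O ⊓ b.O) ⟨ha, hb⟩
  refine X.loc_le_of_specializes hxy ?_
  rw [eqn, eqn, ← Finset.prod_inv_distrib, ← Finset.prod_mul_distrib]
  exact prod_mem fun i _ => b.div_mem y hyb hyc i _ (a.den_mem y hya hyc i)
    (a.den_mul_mem y hya hyc i)

/-- The quotient of two equations at a point. -/
def ratio (R : X.Pt V) (a b : X.Piece) (ha : X.centre R ∈ a.O) (hb : X.centre R ∈ b.O) : V :=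
  X.evalLoc R ⟨X.eqn a * (X.eqn b)⁻¹, X.eqn_div_mem a b ha hb⟩

theorem ratio_mul (R : X.Pt V) (a b c : X.Piece) (ha : X.centre R ∈ a.O) (hb : X.centre R ∈ b.O)
    (hc : X.centre R ∈ c.O) :
    X.ratio R a b ha hb * X.ratio R b c hb hc = X.ratio R a c ha hc := by
  rw [ratio, ratio, ratio, ← map_mul]
  congr 1
  ext
  show X.eqn a * (X.eqn b)⁻¹ * (X.eqn b * (X.eqn c)⁻¹) = _
  field_simp [X.eqn_ne_zero b]

theorem ratio_self (R : X.Pt V) (a : X.Piece) (ha : X.centre R ∈ a.O) :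
    X.ratio R a a ha ha = 1 := by
  rw [ratio, ← map_one (X.evalLoc R)]
  congr 1
  ext
  exact mul_inv_cancel₀ (X.eqn_ne_zero a)

theorem isUnit_ratio (R : X.Pt V) (a b : X.Piece) (ha : X.centre R ∈ a.O)
    (hb : X.centre R ∈ b.O) : IsUnit (X.ratio R a b ha hb) :=
  IsUnit.of_mul_eq_one _ ((X.ratio_mul R a b a ha hb ha).trans (X.ratio_self R a ha))

theorem map_ratio (φ : V →ₐ[K] W) (R : X.Pt V) (a b : X.Piece) (ha : X.centre R ∈ a.O)
    (hb : X.centre R ∈ b.O) :
    φ (X.ratio R a b ha hb) = X.ratio (X.map φ R) a b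
      ((X.centre_map_specializes φ R).mem_open a.O.2 ha)
      ((X.centre_map_specializes φ R).mem_open b.O.2 hb) :=
  (X.evalLoc_map φ R _ _).symm

end Fermat.Agent.AV.SmoothAV
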