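import Fermat.Agent.AV.Generic

/-!
# Multiplication by an integer near the origin

The tautological point with values in the power series, the linear part of its multiples, and the
endomorphism of the function field given by multiplication by an integer.
-/

noncomputable section

universe u

open CategoryTheory AlgebraicGeometry NeronModelInfra GoodReductionJacobian
open Fermat.Agent.AV.Series MvPowerSeries

namespace Fermat.Agent.AV

/-- The constant term. -/
def constHom (K : Type u) [Field K] (g : ℕ) : S K g →ₐ[K] K :=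
  { constantCoeff with
    commutes' := fun r => by simp [MvPowerSeries.algebraMap_apply] }

instance {K : Type u} [Field K] {g : ℕ} : IsLocalHom (constHom K g).toRingHom :=
  ⟨fun _ h => isUnit_iff_constantCoeff.2 h⟩

instance isLocalRing_trivSqZeroExt {K M : Type u} [Field K] [AddCommGroup M] [Module K M]
    [Module Kᵐᵒᵖ M] [IsCentralScalar K M] : IsLocalRing (TrivSqZeroExt K M) := by
  refine IsLocalRing.of_nonunits_add fun a b ha hb => ?_
  simp only [mem_nonunits_iff, TrivSqZeroExt.isUnit_iff_isUnit_fst, isUnit_iff_ne_zero,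
    not_ne_iff, TrivSqZeroExt.fst_add] at ha hb ⊢
  rw [ha, hb, add_zero]

instance {K M : Type u} [Field K] [AddCommGroup M] [Module K M]
    [Module Kᵐᵒᵖ M] [IsCentralScalar K M] :
    IsLocalHom (TrivSqZeroExt.fstHom K K M).toRingHom :=
  ⟨fun _ h => TrivSqZeroExt.isUnit_iff_isUnit_fst.2 h⟩

/-- The terms of degree at most one. -/
def tangentHom (K : Type u) [Field K] (g : ℕ) :
    S K g →ₐ[K] TrivSqZeroExt K (Fin g → K) where
  toFun f := TrivSqZeroExt.inl (constantCoeff f) +
    TrivSqZeroExt.inr fun j => coeff (Finsupp.single j 1) f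
  map_one' := by
    classical
    ext1
    · simp
    · funext j
      simp [coeff_one]
  map_mul' f h := by
    classical
    ext1
    · simp
    · funext j
      simp [coeff_mul, Finsupp.antidiagonal_single, Finset.sum_map,
        Finset.Nat.sum_antidiagonal_eq_sum_range_succ_mk, Finset.sum_range_succ, mul_comm,
        add_comm]
  map_zero' := by ext1 <;> simp; rfl
  map_add' f h := by
    ext1
    · simp
    · funext j
      simp
  commutes' r := by
    classical
    ext1
    · simp [MvPowerSeries.algebraMap_apply, TrivSqZeroExt.algebraMap_eq_inl]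
    · funext j
      simp [MvPowerSeries.algebraMap_apply, TrivSqZeroExt.algebraMap_eq_inl, coeff_C]

theorem fstHom_comp_tangentHom (K : Type u) [Field K] (g : ℕ) :
    (TrivSqZeroExt.fstHom K K (Fin g → K)).comp (tangentHom K g) = constHom K g := by
  ext f
  simp [tangentHom, constHom]

namespace SmoothAV

variable {K : Type u} [Field K] {g : ℕ} (X : SmoothAV K g)

theorem inOpen_of_map_zero {V : Type u} [CommRing V] [Algebra K V] [IsLocalRing V]
    (π : V →ₐ[K] K) [IsLocalHom π.toRingHom] {P : X.Pt V} (h : X.map π P = 0) :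
    X.InOpen P X.U₀ := by
  rw [X.inOpen_iff, ← X.centre_map π P, h]
  exact X.centre_zero_mem

/-- The tautological point with values in the series. -/
def theta : X.Pt (S K g) := X.ofAlgHom X.isAffine_U₀ X.ι₀.hom

/-- The subgroup of points reducing to the origin. -/
def formalPts : AddSubgroup (X.Pt (S K g)) := (X.map (constHom K g)).ker

theorem theta_mem : X.theta ∈ X.formalPts := by
  show X.map (constHom K g) X.theta = 0
  rw [theta, X.map_ofAlgHom, X.eq_ofAlgHom (0 : X.Pt K) X.isAffine_U₀ X.zero_inOpen]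
  congr 1
  exact AlgHom.ext X.ι₀.const

theorem formal_inOpen (Q : X.formalPts) : X.InOpen (Q : X.Pt (S K g)) X.U₀ :=
  X.inOpen_of_map_zero (constHom K g) Q.2

/-- The coordinates of a formal point. -/
def formalCoord (Q : X.formalPts) (i : Fin g) : S K g :=
  X.eval (Q : X.Pt (S K g)) X.U₀ (X.formal_inOpen Q) (X.par i)

theorem const_eval (Q : X.formalPts) (b : X.B₀) :
    constantCoeff (X.eval (Q : X.Pt (S K g)) X.U₀ (X.formal_inOpen Q) b) = X.c₀ b := by
  have hh := X.eval_map (Q : X.Pt (S K g)) (constHom K g) X.U₀ (X.formal_inOpen Q)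
    (AVData.InOpen.map _ (X.formal_inOpen Q) _) b
  have hQ : X.map (constHom K g) (Q : X.Pt (S K g)) = 0 := Q.2
  refine hh.symm.trans ?_
  simp_rw [hQ]
  rfl

theorem const_formalCoord (Q : X.formalPts) (i : Fin g) :
    constantCoeff (X.formalCoord Q i) = 0 :=
  (X.const_eval Q _).trans (X.isParams_par.1 i)

/-- The linear part of a formal point. -/
def linPart (Q : X.formalPts) (i : Fin g) : Fin g → K :=
  fun j => coeff (Finsupp.single j 1) (X.formalCoord Q i)

/-- The linear part of a sum of formal points is the sum of the linear parts. -/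
theorem linPart_add (P Q : X.formalPts) : X.linPart (P + Q) = X.linPart P + X.linPart Q := by
  let T := tangentHom K g
  let i₁ : (TrivSqZeroExt K (Fin g → K)) →ₐ[K] (TrivSqZeroExt K ((Fin g → K) × (Fin g → K))) :=
      TrivSqZeroExt.map (LinearMap.inl K _ _)
  let i₂ : (TrivSqZeroExt K (Fin g → K)) →ₐ[K] (TrivSqZeroExt K ((Fin g → K) × (Fin g → K))) :=
      TrivSqZeroExt.map (LinearMap.inr K _ _)
  let p₁ : (TrivSqZeroExt K ((Fin g → K) × (Fin g → K))) →ₐ[K] (TrivSqZeroExt K (Fin g → K)) :=
      TrivSqZeroExt.map (LinearMap.fst K _ _)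
  let p₂ : (TrivSqZeroExt K ((Fin g → K) × (Fin g → K))) →ₐ[K] (TrivSqZeroExt K (Fin g → K)) :=
      TrivSqZeroExt.map (LinearMap.snd K _ _)
  let σ : (TrivSqZeroExt K ((Fin g → K) × (Fin g → K))) →ₐ[K] (TrivSqZeroExt K (Fin g → K)) :=
      TrivSqZeroExt.map (LinearMap.fst K _ _ + LinearMap.snd K _ _)
  let fst : (TrivSqZeroExt K (Fin g → K)) →ₐ[K] K := TrivSqZeroExt.fstHom K K _
  have hfst : ∀ R : X.formalPts, X.map fst (X.map T R) = 0 := fun R => by
    rw [X.map_map, fstHom_comp_tangentHom]
    exact R.2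
  have hzero : ∀ φ : (TrivSqZeroExt K (Fin g → K)) →ₐ[K] (TrivSqZeroExt K (Fin g → K)),
      (∀ e, φ e = algebraMap K (TrivSqZeroExt K (Fin g → K)) (fst e)) → ∀ R : X.formalPts,
      X.map φ (X.map T R) = 0 := fun φ hφ R => by
    rw [show φ = (Algebra.ofId K (TrivSqZeroExt K (Fin g → K))).comp fst from AlgHom.ext hφ,
        ← X.map_map, hfst, map_zero]
  let Z : X.Pt (TrivSqZeroExt K ((Fin g → K) × (Fin g → K))) :=
      X.map i₁ (X.map T P) + X.map i₂ (X.map T Q)
  have hid : ∀ φ : (TrivSqZeroExt K (Fin g → K)) →ₐ[K] (TrivSqZeroExt K (Fin g → K)),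
      (∀ e, φ e = e) → ∀ R : X.Pt (TrivSqZeroExt K (Fin g → K)), X.map φ R = R := fun φ hφ R => by
    rw [show φ = AlgHom.id K (TrivSqZeroExt K (Fin g → K)) from AlgHom.ext hφ, X.map_id]
  have h₁ : X.map p₁ Z = X.map T P := by
    rw [map_add, X.map_map, X.map_map (φ := i₂), hid _ (fun e => ?_),
      hzero _ (fun e => ?_) Q, add_zero]
    · ext1 <;> simp [p₁, i₂, fst, TrivSqZeroExt.algebraMap_eq_inl]
    · ext1 <;> simp [p₁, i₁]
  have h₂ : X.map p₂ Z = X.map T Q := by
    rw [map_add, X.map_map, X.map_map (φ := i₂), hzero _ (fun e => ?_) P,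
      hid _ (fun e => ?_), zero_add]
    · ext1 <;> simp [p₂, i₂]
    · ext1 <;> simp [p₂, i₁, fst, TrivSqZeroExt.algebraMap_eq_inl]
  have hσ : X.map σ Z = X.map T ((P + Q : X.formalPts) : X.Pt (S K g)) := by
    rw [map_add, X.map_map, X.map_map (φ := i₂), hid _ (fun e => ?_), hid _ (fun e => ?_)]
    · exact (map_add (X.map T) _ _).symm
    · ext1 <;> simp [σ, i₂]
    · ext1 <;> simp [σ, i₁]
  have hZ : X.InOpen Z X.U₀ := by
    refine X.inOpen_of_map_zero (TrivSqZeroExt.fstHom K K _) ?_
    rw [map_add, X.map_map, X.map_map (φ := i₂)]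
    have : ∀ j : (TrivSqZeroExt K (Fin g → K)) →ₐ[K] (TrivSqZeroExt K ((Fin g → K) × (Fin g → K))),
        (TrivSqZeroExt.fstHom K K _).comp j = fst →
        X.map ((TrivSqZeroExt.fstHom K K _).comp j) = X.map fst := fun j hj => by rw [hj]
    rw [this i₁ (by ext; simp [i₁, fst]), this i₂ (by ext; simp [i₂, fst]), hfst, hfst,
      add_zero]
  funext i j
  have key : ∀ (p : (TrivSqZeroExt K ((Fin g → K) × (Fin g → K))) →ₐ[K]
      (TrivSqZeroExt K (Fin g → K))) (R : X.formalPts), X.map p Z = X.map T R →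
      p (X.eval Z X.U₀ hZ (X.par i)) = T (X.formalCoord R i) := fun p R hR => by
    rw [formalCoord, ← X.eval_map Z p _ hZ (AVData.InOpen.map _ hZ p),
      ← X.eval_map _ T _ _ (AVData.InOpen.map _ (X.formal_inOpen R) T)]
    simp_rw [hR]
  have k₁ := congrArg TrivSqZeroExt.snd (key p₁ P h₁)
  have k₂ := congrArg TrivSqZeroExt.snd (key p₂ Q h₂)
  have k₃ := congrArg TrivSqZeroExt.snd (key σ (P + Q) hσ)
  simp only [p₁, p₂, σ, TrivSqZeroExt.snd_map, LinearMap.fst_apply, LinearMap.snd_apply,
    LinearMap.add_apply] at k₁ k₂ k₃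
  rw [k₁, k₂] at k₃
  have := congrFun k₃ j
  simpa [T, tangentHom, linPart] using this.symm

theorem linPart_theta : X.linPart ⟨X.theta, X.theta_mem⟩ = fun i => Pi.single i (1 : K) := by
  classical
  funext i j
  have h : X.formalCoord ⟨X.theta, X.theta_mem⟩ i = MvPowerSeries.X i := by
    refine Eq.trans ?_ (X.ι₀.map_t i)
    exact AlgHom.congr_fun (X.evalAlg_ofAlgHom X.isAffine_U₀ X.ι₀.hom _) (X.par i)
  rw [linPart, h, coeff_X, Pi.single_apply]
  exact if_congr ⟨fun h => (Finsupp.single_left_injective one_ne_zero h), fun h => by rw [h]⟩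
    rfl rfl

/-- The multiple of the tautological point, as a formal point. -/
def thetaMul (n : ℤ) : X.formalPts := n • ⟨X.theta, X.theta_mem⟩

theorem linPart_thetaMul (n : ℤ) : X.linPart (X.thetaMul n) = fun i => Pi.single i (n : K) := by
  have := map_zsmul (AddMonoidHom.mk' X.linPart X.linPart_add) n ⟨X.theta, X.theta_mem⟩
  refine this.trans ?_
  show n • X.linPart _ = _
  rw [linPart_theta]
  funext i j
  simp [Pi.single_apply]

/-- The substitution given by multiplication by an integer. -/
def mulSubst (n : ℤ) : S K g →ₐ[K] S K g := substHom (X.const_formalCoord (X.thetaMul n))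

theorem mulSubst_apply (n : ℤ) (b : X.B₀) :
    X.mulSubst n (X.ι₀.hom b) =
      X.eval (X.thetaMul n : X.Pt (S K g)) X.U₀ (X.formal_inOpen _) b := by
  have h : (X.mulSubst n).comp X.ι₀.hom = X.evalAlg _ X.U₀ (X.formal_inOpen (X.thetaMul n)) := by
    refine Local.Expansion.eq_of_forall (c := X.c₀) X.isParams_par (fun b => ?_)
      (X.const_eval _) fun i => ?_
    · have hm := substHom_mem (X.const_formalCoord (X.thetaMul n))
        (f := X.ι₀.hom b - MvPowerSeries.C (X.c₀ b))
        (mem_mI_iff.2 (by simp [X.ι₀.const]))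
      rw [mem_mI_iff, map_sub, substHom_C, map_sub, sub_eq_zero] at hm
      exact hm.trans (constantCoeff_C _)
    · rw [AlgHom.comp_apply, X.ι₀.map_t, mulSubst, substHom_X]
      rfl
  exact AlgHom.congr_fun h b

/-- Multiplication by `n` has linear part `n` in the formal parameters. -/
theorem formalCoord_sub_mem (n : ℤ) (i : Fin g) :
    X.formalCoord (X.thetaMul n) i - linSubst (Matrix.scalar (Fin g) (n : K)) i ∈
      mI K g ^ 2 := by
  classical
  rw [mem_pow_iff]
  intro d hd
  rw [map_sub, sub_eq_zero]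
  rcases Nat.eq_zero_or_pos d.degree with h0 | h1
  · rw [(Finsupp.degree_eq_zero_iff d).1 h0, coeff_zero_eq_constantCoeff_apply,
      coeff_zero_eq_constantCoeff_apply, X.const_formalCoord, constantCoeff_linSubst]
  · obtain ⟨j, rfl⟩ : ∃ j, d = Finsupp.single j 1 :=
      (Finsupp.sum_eq_one_iff d).1 (show d.degree = 1 by omega)
    refine (congrFun (congrFun (X.linPart_thetaMul n) i) j).trans ?_
    simp only [linSubst, Matrix.scalar_apply, map_sum]
    rw [Finset.sum_eq_single i]
    · rw [Matrix.diagonal_apply_eq, coeff_C_mul]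
      simp [coeff_X, Pi.single_apply, Finsupp.single_left_inj]
    · intro k _ hk
      simp [Matrix.diagonal_apply_ne _ (Ne.symm hk)]
    · simp

theorem bijective_mulSubst (n : ℤ) (hn : (n : K) ≠ 0) : Function.Bijective (X.mulSubst n) :=
  bijective_substHom _ (B := Matrix.scalar (Fin g) (n : K))
    (((Matrix.isUnit_iff_isUnit_det _).1 ((isUnit_iff_ne_zero.2 hn).map _)))
    (X.formalCoord_sub_mem n)

variable [IsAlgClosed K]

/-- The expansion of functions. -/
def expand : X.FF →ₐ[K] FractionRing (S K g) :=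
  IsFractionRing.liftAlgHom (g := (IsScalarTower.toAlgHom K (S K g) _).comp X.ι₀.hom)
    ((IsFractionRing.injective (S K g) _).comp X.injective_ι₀)

theorem expand_algebraMap (b : X.B₀) :
    X.expand (algebraMap X.B₀ X.FF b) = algebraMap (S K g) _ (X.ι₀.hom b) := by
  simp [expand, IsFractionRing.liftAlgHom_apply]

theorem map_expand_eta :
    X.map X.expand X.eta =
      X.map (IsScalarTower.toAlgHom K (S K g) (FractionRing (S K g))) X.theta := by
  rw [eta, theta, X.map_ofAlgHom, X.map_ofAlgHom]
  congr 1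
  exact AlgHom.ext X.expand_algebraMap

omit [IsAlgClosed K] in
/-- A point is generic if some field extension of it is. -/
theorem Generic.of_map {M N : Type u} [Field M] [Algebra K M] [Field N] [Algebra K N]
    {P : X.Pt M} (ψ : M →ₐ[K] N) (h : X.Generic (X.map ψ P)) : X.Generic P := by
  intro U hU
  obtain ⟨hPU, hinj⟩ := h U hU
  have : IsLocalHom ψ.toRingHom := inferInstance
  have hP : X.InOpen P U := by
    rw [X.inOpen_iff, ← X.centre_map ψ P, ← X.inOpen_iff]
    exact hPU
  refine ⟨hP, fun a b hab => hinj ?_⟩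
  rw [X.eval_map P ψ U hP, X.eval_map P ψ U hP, hab]

theorem map_expand_zsmul_eta (n : ℤ) :
    X.map X.expand (n • X.eta) =
      X.map (IsScalarTower.toAlgHom K (S K g) (FractionRing (S K g))) (X.thetaMul n) := by
  rw [map_zsmul, map_expand_eta, ← map_zsmul]
  rfl

theorem generic_zsmul_eta {n : ℤ} (hn : (n : K) ≠ 0) : X.Generic (n • X.eta) := by
  refine Generic.of_map X X.expand ?_
  rw [map_expand_zsmul_eta]
  refine X.generic_of_injective X.isAffine_U₀ (AVData.InOpen.map _ (X.formal_inOpen _) _)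
    fun a b hab => ?_
  rw [X.eval_map _ _ _ (X.formal_inOpen _), X.eval_map _ _ _ (X.formal_inOpen _),
    ← mulSubst_apply, ← mulSubst_apply] at hab
  exact X.injective_ι₀ ((X.bijective_mulSubst n hn).1
    (IsFractionRing.injective (S K g) (FractionRing (S K g)) hab))

/-- The endomorphism of the function field given by multiplication by an integer. -/
def mulMap (n : ℤ) (hn : (n : K) ≠ 0) : X.FF →ₐ[K] X.FF :=
  X.genMap (n • X.eta) (X.generic_zsmul_eta hn)

theorem map_mulMap_eta (n : ℤ) (hn : (n : K) ≠ 0) :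
    X.map (X.mulMap n hn) X.eta = n • X.eta :=
  X.map_genMap _ _

theorem expand_mulMap (n : ℤ) (hn : (n : K) ≠ 0) (b : X.B₀) :
    X.expand (X.mulMap n hn (algebraMap X.B₀ X.FF b)) =
      algebraMap (S K g) _ (X.mulSubst n (X.ι₀.hom b)) := by
  have hg := Generic.inOpen X (X.generic_zsmul_eta hn) X.nonempty_U₀
  rw [mulMap, genMap_algebraMap, mulSubst_apply,
    ← X.eval_map _ X.expand _ hg (AVData.InOpen.map _ hg _)]
  simp_rw [map_expand_zsmul_eta]
  rw [X.eval_map _ _ _ (X.formal_inOpen _)]
  rfl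

theorem Generic.zsmul {M : Type u} [Field M] [Algebra K M] {P : X.Pt M} (hP : X.Generic P)
    {n : ℤ} (hn : (n : K) ≠ 0) : X.Generic (n • P) := by
  rw [← X.map_genMap P hP, ← map_zsmul]
  exact Generic.map X (X.generic_zsmul_eta hn) _

theorem Generic.neg {M : Type u} [Field M] [Algebra K M] {P : X.Pt M} (hP : X.Generic P) :
    X.Generic (-P) := by
  rw [← neg_one_zsmul P]
  exact Generic.zsmul X hP (by simp)

end SmoothAV

end Fermat.Agent.AV
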