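import Fermat.Agent.AV.Integral

/-!
# The chart at the origin, the function field, and generic points

The affine chart `U₀` around the origin with its parameters and expansion, the function field
`X.FF`, the generic point `X.eta`, and the correspondence between generic points with values in a
field and homomorphisms of the function field.
-/

noncomputable section

universe u

open CategoryTheory AlgebraicGeometry TopologicalSpace NeronModelInfra GoodReductionJacobian
open Fermat.Agent.AV.Series

namespace Fermat.Agent.AV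

namespace AVData

variable {K : Type u} [Field K] (X : AVData K)
variable {V W : Type u} [CommRing V] [Algebra K V] [CommRing W] [Algebra K W]

/-- A local homomorphism preserves the centre of a point. -/
theorem centre_map [IsLocalRing V] [IsLocalRing W] (φ : V →ₐ[K] W) [IsLocalHom φ.toRingHom]
    (P : X.Pt V) : X.centre (X.map φ P) = X.centre P := by
  show X.hom (X.map φ P) _ = X.hom P _
  rw [hom_map, Scheme.Hom.comp_apply]
  congr 1
  exact IsLocalRing.comap_closedPoint φ.toRingHom

end AVData

namespace SmoothAV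

variable {K : Type u} [Field K] [IsAlgClosed K] {g : ℕ} (X : SmoothAV K g)

/-- The chart at the origin. -/
def U₀ : X.A.Opens := (X.exists_chart (X.centre (0 : X.Pt K))).choose

omit [IsAlgClosed K] in
theorem isAffine_U₀ : IsAffineOpen X.U₀ :=
  (X.exists_chart (X.centre (0 : X.Pt K))).choose_spec.1

omit [IsAlgClosed K] in
theorem centre_zero_mem : X.centre (0 : X.Pt K) ∈ X.U₀ :=
  (X.exists_chart (X.centre (0 : X.Pt K))).choose_spec.2.1

/-- The ring of the chart at the origin. -/
abbrev B₀ : Type u := Γ(X.A, X.U₀)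

instance : Algebra.IsStandardSmoothOfRelativeDimension g K X.B₀ :=
  (X.exists_chart (X.centre (0 : X.Pt K))).choose_spec.2.2

instance : IsDomain X.B₀ := X.isDomain_sections X.centre_zero_mem

omit [IsAlgClosed K] in
theorem zero_inOpen : X.InOpen (0 : X.Pt K) X.U₀ := (X.inOpen_iff).2 X.centre_zero_mem

/-- The evaluation at the origin. -/
def c₀ : X.B₀ →ₐ[K] K := X.evalAlg 0 X.U₀ X.zero_inOpen

/-- Parameters at the origin. -/
def par : Fin g → X.B₀ := (Local.exists_params (g := g) X.c₀).choose

omit [IsAlgClosed K] in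
theorem isParams_par : Local.IsParams X.c₀ X.par :=
  (Local.exists_params (g := g) X.c₀).choose_spec

/-- The expansion at the origin. -/
def ι₀ : Local.Expansion X.c₀ X.par := (Local.exists_expansion X.c₀ X.isParams_par).some

theorem injective_ι₀ : Function.Injective X.ι₀.hom := X.ι₀.injective X.isParams_par

/-- The function field. -/
abbrev FF : Type u := FractionRing X.B₀

/-- The generic point. -/
def eta : X.Pt X.FF := X.ofAlgHom X.isAffine_U₀ (IsScalarTower.toAlgHom K X.B₀ X.FF)

omit [IsAlgClosed K] in
theorem eta_inOpen : X.InOpen X.eta X.U₀ := X.inOpen_ofAlgHom _ _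

omit [IsAlgClosed K] in
theorem eval_eta (s : X.B₀) : X.eval X.eta X.U₀ X.eta_inOpen s = algebraMap X.B₀ X.FF s :=
  AlgHom.congr_fun (X.evalAlg_ofAlgHom X.isAffine_U₀ _ _) s

variable {M N : Type u} [Field M] [Algebra K M] [Field N] [Algebra K N]

/-- A point is generic if it lies in every nonempty open set and no nonzero section vanishes
at it. -/
def Generic (P : X.Pt M) : Prop :=
  ∀ U : X.A.Opens, (U : Set X.A).Nonempty →
    ∃ h : X.InOpen P U, Function.Injective (X.eval P U h)

/-- A point injective on the sections of one affine open set is generic. -/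
theorem generic_of_injective {P : X.Pt M} {U : X.A.Opens} (hU : IsAffineOpen U)
    (hP : X.InOpen P U) (hinj : Function.Injective (X.eval P U hP)) : X.Generic P := by
  intro W hW
  have hPU : X.centre P ∈ U := (X.inOpen_iff).1 hP
  have hne : ((U : Set X.A) ∩ W).Nonempty := by
    have := X.irreducibleSpace
    exact nonempty_preirreducible_inter U.2 W.2 ⟨_, hPU⟩ hW
  obtain ⟨y, hyU, hyW⟩ := hne
  obtain ⟨s, hsW, hys⟩ := hU.exists_basicOpen_le (V := W) ⟨y, hyW⟩ hyU
  have hs : s ≠ 0 := fun h0 => by
    rw [h0, Scheme.basicOpen_zero] at hys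
    exact hys
  have hPs : X.centre P ∈ X.A.basicOpen s :=
    (X.mem_basicOpen_iff P hP s).2 (IsUnit.mk0 _ fun h0 => hs (hinj (h0.trans (map_zero _).symm)))
  have hPW : X.InOpen P W := (X.inOpen_iff).2 (hsW hPs)
  refine ⟨hPW, (injective_iff_map_eq_zero _).2 fun a ha => ?_⟩
  have hPD : X.InOpen P (X.A.basicOpen s) := (X.inOpen_iff).2 hPs
  apply X.res_injective hsW ⟨_, hPs⟩
  rw [map_zero]
  have hloc := hU.isLocalization_basicOpen s
  obtain ⟨⟨b, d⟩, hbd⟩ := IsLocalization.surj (Submonoid.powers s) (X.res hsW a)
  have hb : b = 0 := by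
    apply hinj
    rw [map_zero, ← X.eval_res P (X.A.basicOpen_le s) hPD]
    have := congrArg (X.eval P (X.A.basicOpen s) hPD) hbd
    rw [map_mul, X.eval_res P hsW hPD, ha, zero_mul] at this
    exact this.symm
  rw [hb, map_zero] at hbd
  exact (IsLocalization.map_units _ d).mul_left_eq_zero.1 hbd

theorem generic_eta : X.Generic X.eta :=
  X.generic_of_injective X.isAffine_U₀ X.eta_inOpen fun a b h => by
    rw [eval_eta, eval_eta] at h
    exact IsFractionRing.injective X.B₀ X.FF h

omit [IsAlgClosed K] in
theorem Generic.inOpen {P : X.Pt M} (hP : X.Generic P) {U : X.A.Opens}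
    (hU : (U : Set X.A).Nonempty) : X.InOpen P U :=
  (hP U hU).1

omit [IsAlgClosed K] in
theorem Generic.injective {P : X.Pt M} (hP : X.Generic P) {U : X.A.Opens}
    (hU : (U : Set X.A).Nonempty) (h : X.InOpen P U) : Function.Injective (X.eval P U h) :=
  (hP U hU).2

omit [IsAlgClosed K] in
theorem nonempty_U₀ : (X.U₀ : Set X.A).Nonempty := ⟨_, X.centre_zero_mem⟩

/-- Images of generic points under field embeddings are generic. -/
theorem Generic.map {P : X.Pt M} (hP : X.Generic P) (ψ : M →ₐ[K] N) :
    X.Generic (X.map ψ P) := by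
  have h := Generic.inOpen X hP X.nonempty_U₀
  refine X.generic_of_injective X.isAffine_U₀ (AVData.InOpen.map _ h ψ) fun a b hab => ?_
  rw [X.eval_map P ψ _ h, X.eval_map P ψ _ h] at hab
  exact Generic.injective X hP X.nonempty_U₀ h (ψ.toRingHom.injective hab)

/-- The field homomorphism of a generic point. -/
def genMap (P : X.Pt M) (hP : X.Generic P) : X.FF →ₐ[K] M :=
  IsFractionRing.liftAlgHom
    (show Function.Injective (X.evalAlg P X.U₀ (Generic.inOpen X hP X.nonempty_U₀)) from
      Generic.injective X hP X.nonempty_U₀ _)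

theorem genMap_algebraMap (P : X.Pt M) (hP : X.Generic P) (s : X.B₀) :
    X.genMap P hP (algebraMap X.B₀ X.FF s) =
      X.eval P X.U₀ (Generic.inOpen X hP X.nonempty_U₀) s := by
  simp [genMap, IsFractionRing.liftAlgHom_apply, AVData.evalAlg_apply]

theorem map_genMap (P : X.Pt M) (hP : X.Generic P) : X.map (X.genMap P hP) X.eta = P := by
  refine X.ext_of_eval X.isAffine_U₀ (AVData.InOpen.map _ X.eta_inOpen _)
    (Generic.inOpen X hP X.nonempty_U₀) fun s => ?_
  rw [X.eval_map X.eta _ _ X.eta_inOpen, eval_eta, genMap_algebraMap]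

theorem genMap_eq (ψ : X.FF →ₐ[K] M) (hP : X.Generic (X.map ψ X.eta)) :
    X.genMap _ hP = ψ := by
  refine AlgHom.coe_ringHom_injective (IsLocalization.ringHom_ext (nonZeroDivisors X.B₀) ?_)
  ext s
  simp [genMap_algebraMap, X.eval_map X.eta ψ _ X.eta_inOpen, eval_eta]

/-- Two homomorphisms of the function field with the same image of the generic point are
equal. -/
theorem hom_eq_of_map_eta {ψ ψ' : X.FF →ₐ[K] M} (h : X.map ψ X.eta = X.map ψ' X.eta) :
    ψ = ψ' := by
  rw [← X.genMap_eq ψ (Generic.map X X.generic_eta ψ),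
    ← X.genMap_eq ψ' (Generic.map X X.generic_eta ψ')]
  simp_rw [h]

end SmoothAV

end Fermat.Agent.AV
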