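import Fermat.Agent.AV.Cube
import Fermat.Agent.AV.Formal
import Fermat.Agent.AV.GermCurve
import Fermat.Agent.FF.LSpace

/-!
# Poles of the parameters at multiples of a point on a curve

For a point of a curve passing through the origin, the poles of the parameters at its `n`-th
multiple have degree at most `n ^ 2` times a height.
-/

noncomputable section

universe u

open CategoryTheory AlgebraicGeometry NeronModelInfra GoodReductionJacobian AlgebraicCurve
open Fermat.Agent.FF (IsFunctionField)

namespace Fermat.Agent.AV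

section SeriesValue

variable {k' : Type u} [Field k'] (E : IntermediateField k' (LaurentSeries k')) (hU : lvar k' ∈ E)
  [IsAlgClosed k'] [IsFunctionField k' E]

/-- The value at the series place is the constant term. -/
theorem valueHom_seriesPlace {x : E} {f : PowerSeries k'}
    (hf : HahnSeries.ofPowerSeries ℤ k' f = (x : LaurentSeries k')) :
    ∃ h : x ∈ (seriesPlace E hU).toValuationSubring,
      valueHom (seriesPlace E hU) ⟨x, h⟩ = PowerSeries.constantCoeff f := by
  refine ⟨(mem_seriesPlace E hU).2 ⟨f, hf⟩, (valueHom_eq_iff _ _ _).2 ?_⟩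
  set y : E := x - algebraMap k' E (PowerSeries.constantCoeff f) with hy
  rcases eq_or_ne y 0 with h0 | h0
  · exact Or.inl h0
  refine Or.inr (le_ord_seriesPlace E hU h0
    (f := f - PowerSeries.C (PowerSeries.constantCoeff f)) (N := 1) ?_ fun j hj => ?_)
  · rw [map_sub, hf, ← algebraMap_laurent]
    rfl
  · obtain rfl : j = 0 := by omega
    simp

end SeriesValue

namespace SmoothAV

variable {K : Type u} [Field K] [IsAlgClosed K] {g : ℕ} (X : SmoothAV K g)
variable {k M : Type u} [Field k] [IsAlgClosed k] [Algebra K k] [Field M] [Algebra k M]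
  [Algebra K M] [IsScalarTower K k M] [IsFunctionField k M]

omit [IsAlgClosed K] in
/-- A point whose coordinates take at a place their values at the origin has value zero there. -/
theorem valuePt_map_eta (o : Place k M) (ψ : X.FF →ₐ[K] M)
    (hψ : ∀ b : X.B₀, ∃ h : ψ (algebraMap X.B₀ X.FF b) ∈ o.toValuationSubring,
      valueHom o ⟨_, h⟩ = algebraMap K k (X.c₀ b)) :
    X.valuePt o (X.map ψ X.eta) = 0 := by
  rw [eta, X.map_ofAlgHom]
  have h := X.valuePt_eq_of_hom o (ψ.comp (IsScalarTower.toAlgHom K X.B₀ X.FF))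
    ((IsScalarTower.toAlgHom K K k).comp X.c₀) hψ (X.ofAlgHom X.isAffine_U₀ (AlgHom.id K X.B₀))
  rw [X.map_ofAlgHom, X.map_ofAlgHom, AlgHom.comp_id, AlgHom.comp_id] at h
  rw [h, ← X.map_ofAlgHom X.isAffine_U₀ X.c₀, show X.ofAlgHom X.isAffine_U₀ X.c₀ = 0 from
    (X.eq_ofAlgHom (0 : X.Pt K) X.isAffine_U₀ X.zero_inOpen).symm, map_zero]

theorem degPt_nonneg {R : X.Pt M} (hR : X.Generic R) : 0 ≤ X.degPt k R := by
  rw [← X.degree_effDiv hR]
  exact FF.degree_nonneg (X.effDiv_nonneg hR)

theorem degPt_le_ht {R : X.Pt M} (hR : X.Generic R) : X.degPt k R ≤ X.ht k R := by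
  have := X.degPt_nonneg (k := k) (Generic.neg X hR)
  rw [ht]
  omega

/-- The poles of the parameters are bounded by the effective polar divisor. -/
theorem poleDiv_u_le_effDiv {R : X.Pt M} (hR : X.Generic R) (i : Fin g) :
    FF.poleDiv (K := k) (X.genMap R hR (X.u i)) ≤ X.effDiv hR := fun c => by
  have h1 := X.neg_ord_u_le (k := k) hR c i
  have h2 : 0 ≤ X.effDiv (k := k) hR c := X.effDiv_nonneg hR c
  rw [FF.poleDiv_apply]
  omega

theorem degree_poleDiv_u_le {R : X.Pt M} (hR : X.Generic R) (i : Fin g) :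
    Divisor.degree (FF.poleDiv (K := k) (X.genMap R hR (X.u i))) ≤ X.degPt k R :=
  (FF.degree_mono (X.poleDiv_u_le_effDiv hR i)).trans (X.degree_effDiv hR).le

/-- The poles of a parameter at the `n`-th multiple of a point through the origin have degree at
most `n ^ 2` times the height of the point. -/
theorem degree_poleDiv_mulMap_le (o : Place k M) (ψ : X.FF →ₐ[K] M)
    (ho : X.valuePt o (X.map ψ X.eta) = 0) {n : ℕ} (hn : ((n : ℤ) : K) ≠ 0) (i : Fin g) :
    Divisor.degree (FF.poleDiv (K := k) (ψ (X.mulMap n hn (X.u i)))) ≤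
      (n : ℤ) ^ 2 * ((X.ht k (X.map ψ X.eta)).toNat : ℤ) := by
  have hP : X.Generic (X.map ψ X.eta) := Generic.map X X.generic_eta ψ
  have hmul : X.map (ψ.comp (X.mulMap n hn)) X.eta = n • X.map ψ X.eta := by
    rw [← X.map_map, X.map_mulMap_eta, map_zsmul, natCast_zsmul]
  have hR : X.Generic (X.map (ψ.comp (X.mulMap n hn)) X.eta) := Generic.map X X.generic_eta _
  have h := X.degree_poleDiv_u_le (k := k) hR i
  rw [X.genMap_eq _ hR] at h
  refine h.trans ((X.degPt_le_ht hR).trans ?_)
  rw [hmul, X.ht_nsmul o ho n]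
  exact mul_le_mul_of_nonneg_left (Int.self_le_toNat _) (sq_nonneg _)

end SmoothAV

end Fermat.Agent.AV
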