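import Mathlib
import Fermat.Prelude.Def_GoodReductionJacobian_RelativeGroupLawKernel
import Fermat.Prelude.Def_JacJ1Iface

/-!
# Points of an abelian variety with values in algebras

`AVData` is an abelian variety given by its group law on points. This file sets up the functorial
group of points with values in algebras, their centres and evaluation of sections, and the
valuative criterion for points with values in valuation rings.
-/

noncomputable section

universe u

open CategoryTheory AlgebraicGeometry TopologicalSpace NeronModelInfra GoodReductionJacobian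

namespace Fermat.Agent.AV

/-- An abelian variety over a field, given by its group law. -/
structure AVData (K : Type u) [Field K] where
  /-- the scheme -/
  A : Scheme.{u}
  /-- the structure map -/
  f : A ⟶ Spec (CommRingCat.of K)
  /-- the group law -/
  L : RelativeGroupLaw K f
  comm : L.IsCommutative
  bundle : AbelianSchemePropertyBundle K f

namespace AVData

variable {K : Type u} [Field K] (X : AVData K)

instance : IsProper X.f := X.bundle.proper

/-- The structure map of the spectrum of an algebra. -/
abbrev str (K : Type u) [Field K] (V : Type u) [CommRing V] [Algebra K V] :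
    Spec (CommRingCat.of V) ⟶ Spec (CommRingCat.of K) :=
  Spec.map (CommRingCat.ofHom (algebraMap K V))

/-- The points with values in an algebra. -/
def Pt (V : Type u) [CommRing V] [Algebra K V] : Type u := SchemeHomOver (str K V) X.f

variable {V W U' : Type u} [CommRing V] [Algebra K V] [CommRing W] [Algebra K W] [CommRing U']
  [Algebra K U']

instance : Add (X.Pt V) := ⟨fun P Q => X.L.mul (str K V) P Q⟩

instance : Zero (X.Pt V) := ⟨X.L.one (str K V)⟩

instance : Neg (X.Pt V) := ⟨fun P => X.L.inv (str K V) P⟩

instance : AddCommGroup (X.Pt V) :=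
  { AddGroup.ofLeftAxioms (G := X.Pt V) (X.L.mul_assoc (str K V)) (X.L.one_mul (str K V))
      (X.L.inv_mul_cancel (str K V)) with
    add_comm := X.comm (str K V) }

/-- The morphism of a point. -/
def hom (P : X.Pt V) : Spec (CommRingCat.of V) ⟶ X.A := P.1

theorem hom_comp (P : X.Pt V) : X.hom P ≫ X.f = str K V := P.2

@[ext]
theorem ext {P Q : X.Pt V} (h : X.hom P = X.hom Q) : P = Q := Subtype.ext h

theorem str_comp (φ : V →ₐ[K] W) :
    Spec.map (CommRingCat.ofHom (φ : V →+* W)) ≫ str K V = str K W := by
  rw [str, str, ← Spec.map_comp, ← CommRingCat.ofHom_comp]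
  congr 2
  exact RingHom.ext φ.commutes

/-- Functoriality of points. -/
def map (φ : V →ₐ[K] W) : X.Pt V →+ X.Pt W :=
  AddMonoidHom.mk' (fun P => schemeHomOverComp (Spec.map (CommRingCat.ofHom (φ : V →+* W)))
    (str_comp φ) P) fun P Q => X.L.mul_natural _ _ _ (str_comp φ) P Q

theorem hom_map (φ : V →ₐ[K] W) (P : X.Pt V) :
    X.hom (X.map φ P) = Spec.map (CommRingCat.ofHom (φ : V →+* W)) ≫ X.hom P := rfl

theorem map_map (φ : V →ₐ[K] W) (ψ : W →ₐ[K] U') (P : X.Pt V) :
    X.map ψ (X.map φ P) = X.map (ψ.comp φ) P := by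
  apply X.ext
  rw [hom_map, hom_map, hom_map, ← Category.assoc, ← Spec.map_comp]
  rfl

theorem map_id (P : X.Pt V) : X.map (AlgHom.id K V) P = P := by
  apply X.ext
  rw [hom_map]
  simp

theorem nsmul_eq (t : ℕ) (P : X.Pt V) : t • P = X.L.nsmul (str K V) t P := by
  induction t with
  | zero => exact zero_nsmul P
  | succ t ih => rw [succ_nsmul, ih]; rfl

/-! ### Evaluation of sections -/

/-- The point lies in an open subscheme. -/
def InOpen (P : X.Pt V) (U : X.A.Opens) : Prop := ⊤ ≤ X.hom P ⁻¹ᵁ U

theorem InOpen.map {P : X.Pt V} {U : X.A.Opens} (h : X.InOpen P U) (φ : V →ₐ[K] W) :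
    X.InOpen (X.map φ P) U := by
  intro x _
  rw [hom_map]
  exact h (x := Spec.map (CommRingCat.ofHom (φ : V →+* W)) x) trivial

theorem InOpen.mono {P : X.Pt V} {U U₁ : X.A.Opens} (h : X.InOpen P U) (hle : U ≤ U₁) :
    X.InOpen P U₁ := fun _ hx => hle (h hx)

/-- The closed point of a point with values in a local ring. -/
def centre [IsLocalRing V] (P : X.Pt V) : X.A := X.hom P (IsLocalRing.closedPoint V)

theorem inOpen_iff [IsLocalRing V] {P : X.Pt V} {U : X.A.Opens} :
    X.InOpen P U ↔ X.centre P ∈ U := by
  refine ⟨fun h => h (x := IsLocalRing.closedPoint V) trivial, fun h => ?_⟩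
  rw [InOpen, Scheme.preimage_eq_top_of_closedPoint_mem _ h]

/-- Evaluation of a section at a point. -/
def eval (P : X.Pt V) (U : X.A.Opens) (h : X.InOpen P U) : Γ(X.A, U) →+* V :=
  ((X.hom P).appLE U ⊤ h ≫ (Scheme.ΓSpecIso (CommRingCat.of V)).hom).hom

theorem eval_presheaf_map (P : X.Pt V) {U U₁ : X.A.Opens} (hle : U ≤ U₁) (h : X.InOpen P U)
    (s : Γ(X.A, U₁)) :
    X.eval P U h (X.A.presheaf.map (homOfLE hle).op s) =
      X.eval P U₁ (InOpen.mono X h hle) s := by
  have e : X.A.presheaf.map (homOfLE hle).op ≫ (X.hom P).appLE U ⊤ h =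
      (X.hom P).appLE U₁ ⊤ (InOpen.mono X h hle) := Scheme.Hom.map_appLE _ _ _
  simp only [eval, ← e]
  rfl

/-- Evaluation commutes with maps of points. -/
theorem eval_map (P : X.Pt V) (φ : V →ₐ[K] W) (U : X.A.Opens) (h : X.InOpen P U)
    (h' : X.InOpen (X.map φ P) U) (s : Γ(X.A, U)) :
    X.eval (X.map φ P) U h' s = φ (X.eval P U h s) := by
  have key : (X.hom (X.map φ P)).appLE U ⊤ h' ≫ (Scheme.ΓSpecIso (CommRingCat.of W)).hom =
      ((X.hom P).appLE U ⊤ h ≫ (Scheme.ΓSpecIso (CommRingCat.of V)).hom) ≫
        CommRingCat.ofHom (φ : V →+* W) := by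
    simp only [hom_map]
    rw [Category.assoc, ← Scheme.ΓSpecIso_naturality (CommRingCat.ofHom (φ : V →+* W)),
      ← Category.assoc]
    congr 1
  exact congrArg (fun g => g.hom s) key

/-- Two points in one affine open with the same values are equal. -/
theorem ext_of_eval {P Q : X.Pt V} {U : X.A.Opens} (hU : IsAffineOpen U) (hP : X.InOpen P U)
    (hQ : X.InOpen Q U) (h : ∀ s, X.eval P U hP s = X.eval Q U hQ s) : P = Q := by
  apply X.ext
  have key : ∀ (R : X.Pt V) (hR : X.InOpen R U),
      X.hom R = (Scheme.isoSpec (Spec (CommRingCat.of V))).hom ≫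
        Spec.map ((X.hom R).appLE U ⊤ hR) ≫ hU.fromSpec := by
    intro R hR
    rw [IsAffineOpen.SpecMap_appLE_fromSpec _ hU (isAffineOpen_top _) hR,
      IsAffineOpen.fromSpec_top, Iso.hom_inv_id_assoc]
  rw [key P hP, key Q hQ]
  congr 3
  rw [← cancel_mono (Scheme.ΓSpecIso (CommRingCat.of V)).hom]
  exact CommRingCat.hom_ext (RingHom.ext h)

/-! ### Points with values in subrings -/

/-- Points with values in a domain inject into those with values in a larger ring. -/
theorem map_injective [IsDomain V] (φ : V →ₐ[K] W) (hφ : Function.Injective φ) :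
    Function.Injective (X.map φ) := by
  intro P Q h
  apply X.ext
  have : IsDominant (Spec.map (CommRingCat.ofHom (φ : V →+* W))) :=
    ⟨(PrimeSpectrum.denseRange_comap_iff_ker_le_nilRadical _).2 (by
      rw [CommRingCat.hom_ofHom, (RingHom.injective_iff_ker_eq_bot (φ : V →+* W)).1 hφ]
      exact bot_le)⟩
  refine ext_of_isDominant_of_isSeparated X.f (by rw [X.hom_comp, X.hom_comp])
    (Spec.map (CommRingCat.ofHom (φ : V →+* W))) ?_
  rw [← hom_map, ← hom_map, h]

/-- **The valuative criterion**: points with values in a field have values in every valuation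
ring. -/
theorem map_surjective [IsDomain V] [ValuationRing V] {N : Type u} [Field N] [Algebra K N]
    [Algebra V N] [IsScalarTower K V N] [IsFractionRing V N] :
    Function.Surjective (X.map (IsScalarTower.toAlgHom K V N)) := by
  intro P
  have hv : ValuativeCriterion.Existence X.f := by
    have h : UniversallyClosed X.f := inferInstance
    rw [UniversallyClosed.eq_valuativeCriterion] at h
    exact h.1
  obtain ⟨l, hl₁, hl₂⟩ := (hv
    { R := V, K := N, i₁ := X.hom P, i₂ := str K V,
      commSq := ⟨by
        rw [X.hom_comp, str, str, ← Spec.map_comp, ← CommRingCat.ofHom_comp,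
          ← IsScalarTower.algebraMap_eq]⟩ }).exists_lift
  refine ⟨⟨l, hl₂⟩, X.ext ?_⟩
  rw [hom_map]
  exact hl₁

end AVData

end Fermat.Agent.AV
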