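import Fermat.Agent.AV.LocalAlg
import Fermat.Agent.AV.Points

/-!
# Charts, integrality and generic points of an abelian variety

Evaluation of sections at points as algebra homomorphisms, points from homomorphisms on affine
opens, and the irreducibility and integrality of an abelian variety over an algebraically closed
field.
-/

noncomputable section

universe u

open CategoryTheory AlgebraicGeometry TopologicalSpace NeronModelInfra GoodReductionJacobian
open Fermat.Agent.AV.Series

namespace Fermat.Agent.AV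

namespace AVData

variable {K : Type u} [Field K] (X : AVData K)
variable {V W : Type u} [CommRing V] [Algebra K V] [CommRing W] [Algebra K W]

/-- The algebra structure on sections. -/
instance algebraΓ (U : X.A.Opens) : Algebra K Γ(X.A, U) :=
  ((Scheme.ΓSpecIso (CommRingCat.of K)).inv ≫ X.f.appLE ⊤ U (by simp)).hom.toAlgebra

theorem algebraMap_res {U U₁ : X.A.Opens} (hle : U ≤ U₁) (r : K) :
    X.A.presheaf.map (homOfLE hle).op (algebraMap K Γ(X.A, U₁) r) = algebraMap K Γ(X.A, U) r := by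
  have h : X.f.appLE ⊤ U₁ (by simp) ≫ X.A.presheaf.map (homOfLE hle).op =
      X.f.appLE ⊤ U (by simp) := Scheme.Hom.appLE_map _ _ _
  exact congrArg (fun e => e.hom ((Scheme.ΓSpecIso (CommRingCat.of K)).inv r)) h

/-- Restriction of sections. -/
def res {U U₁ : X.A.Opens} (hle : U ≤ U₁) : Γ(X.A, U₁) →ₐ[K] Γ(X.A, U) :=
  { (X.A.presheaf.map (homOfLE hle).op).hom with commutes' := X.algebraMap_res hle }

theorem eval_algebraMap (P : X.Pt V) (U : X.A.Opens) (h : X.InOpen P U) (r : K) :
    X.eval P U h (algebraMap K Γ(X.A, U) r) = algebraMap K V r := by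
  have e1 : X.f.appLE ⊤ U (by simp) ≫ (X.hom P).appLE U ⊤ h = (str K V).appLE ⊤ ⊤ (by simp) := by
    rw [Scheme.Hom.appLE_comp_appLE]
    simp only [X.hom_comp]
  have e2 : (str K V).appLE ⊤ ⊤ (by simp) ≫ (Scheme.ΓSpecIso (CommRingCat.of V)).hom =
      (Scheme.ΓSpecIso (CommRingCat.of K)).hom ≫ CommRingCat.ofHom (algebraMap K V) := by
    have e3 : (str K V).appLE ⊤ ⊤ (by simp) = (str K V).appTop := by
      simp [Scheme.Hom.appLE]
    rw [e3, Scheme.ΓSpecIso_naturality]
  have e : (Scheme.ΓSpecIso (CommRingCat.of K)).inv ≫ X.f.appLE ⊤ U (by simp) ≫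
      (X.hom P).appLE U ⊤ h ≫ (Scheme.ΓSpecIso (CommRingCat.of V)).hom =
        CommRingCat.ofHom (algebraMap K V) := by
    rw [← Category.assoc (X.f.appLE _ _ _), e1, e2, Iso.inv_hom_id_assoc]
  exact congrArg (fun g => g.hom r) e

/-- Evaluation, as a homomorphism of algebras. -/
def evalAlg (P : X.Pt V) (U : X.A.Opens) (h : X.InOpen P U) : Γ(X.A, U) →ₐ[K] V :=
  { X.eval P U h with commutes' := X.eval_algebraMap P U h }

theorem evalAlg_apply (P : X.Pt V) (U : X.A.Opens) (h : X.InOpen P U) (s : Γ(X.A, U)) :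
    X.evalAlg P U h s = X.eval P U h s := rfl

theorem eval_res (P : X.Pt V) {U U₁ : X.A.Opens} (hle : U ≤ U₁) (h : X.InOpen P U)
    (s : Γ(X.A, U₁)) : X.eval P U h (X.res hle s) = X.eval P U₁ (InOpen.mono X h hle) s :=
  X.eval_presheaf_map P hle h s

theorem hom_eq_eval (P : X.Pt V) {U : X.A.Opens} (hU : IsAffineOpen U) (h : X.InOpen P U) :
    X.hom P = Spec.map (CommRingCat.ofHom (X.eval P U h)) ≫ hU.fromSpec := by
  have := IsAffineOpen.SpecMap_appLE_fromSpec (X.hom P) hU (isAffineOpen_top _) h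
  rw [IsAffineOpen.fromSpec_top] at this
  rw [eval, CommRingCat.ofHom_hom, Spec.map_comp, Category.assoc, this, ← Scheme.isoSpec_Spec_hom,
    Iso.hom_inv_id_assoc]

theorem fromSpec_comp {U : X.A.Opens} (hU : IsAffineOpen U) :
    hU.fromSpec ≫ X.f = Spec.map (CommRingCat.ofHom (algebraMap K Γ(X.A, U))) := by
  rw [← IsAffineOpen.SpecMap_appLE_fromSpec X.f (isAffineOpen_top _) hU (by simp),
    IsAffineOpen.fromSpec_top, Scheme.isoSpec_Spec_inv, ← Spec.map_comp]
  rfl

/-- The point given by a homomorphism on the sections of an affine open. -/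
def ofAlgHom {U : X.A.Opens} (hU : IsAffineOpen U) (φ : Γ(X.A, U) →ₐ[K] V) : X.Pt V :=
  ⟨Spec.map (CommRingCat.ofHom φ.toRingHom) ≫ hU.fromSpec, by
    rw [Category.assoc, fromSpec_comp, ← Spec.map_comp, str, ← CommRingCat.ofHom_comp]
    congr 2
    exact φ.comp_algebraMap⟩

theorem hom_ofAlgHom {U : X.A.Opens} (hU : IsAffineOpen U) (φ : Γ(X.A, U) →ₐ[K] V) :
    X.hom (X.ofAlgHom hU φ) = Spec.map (CommRingCat.ofHom φ.toRingHom) ≫ hU.fromSpec := rfl

theorem inOpen_ofAlgHom {U : X.A.Opens} (hU : IsAffineOpen U) (φ : Γ(X.A, U) →ₐ[K] V) :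
    X.InOpen (X.ofAlgHom hU φ) U := by
  intro x _
  show X.hom (X.ofAlgHom hU φ) x ∈ (U : Set X.A)
  rw [hom_ofAlgHom, Scheme.Hom.comp_apply, ← hU.range_fromSpec]
  exact ⟨_, rfl⟩

theorem evalAlg_ofAlgHom {U : X.A.Opens} (hU : IsAffineOpen U) (φ : Γ(X.A, U) →ₐ[K] V)
    (h : X.InOpen (X.ofAlgHom hU φ) U) : X.evalAlg (X.ofAlgHom hU φ) U h = φ := by
  have := (X.hom_eq_eval _ hU h).symm.trans (X.hom_ofAlgHom hU φ)
  rw [cancel_mono] at this
  have := congrArg CommRingCat.Hom.hom (Spec.map_injective this)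
  exact AlgHom.ext fun s => RingHom.congr_fun this s

theorem map_ofAlgHom {U : X.A.Opens} (hU : IsAffineOpen U) (φ : Γ(X.A, U) →ₐ[K] V)
    (ψ : V →ₐ[K] W) : X.map ψ (X.ofAlgHom hU φ) = X.ofAlgHom hU (ψ.comp φ) := by
  apply X.ext
  rw [hom_map, hom_ofAlgHom, hom_ofAlgHom, ← Category.assoc, ← Spec.map_comp]
  rfl

theorem eq_ofAlgHom (P : X.Pt V) {U : X.A.Opens} (hU : IsAffineOpen U) (h : X.InOpen P U) :
    P = X.ofAlgHom hU (X.evalAlg P U h) :=
  X.ext (X.hom_eq_eval P hU h)

/-- The centre lies in a basic open set iff the equation evaluates to a unit. -/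
theorem mem_basicOpen_iff [IsLocalRing V] (P : X.Pt V) {U : X.A.Opens} (h : X.InOpen P U)
    (s : Γ(X.A, U)) : X.centre P ∈ X.A.basicOpen s ↔ IsUnit (X.eval P U h s) := by
  have h1 : X.hom P ⁻¹ᵁ X.A.basicOpen s =
      (Spec (CommRingCat.of V)).basicOpen ((X.hom P).appLE U ⊤ h s) := by
    rw [Scheme.Hom.preimage_basicOpen, Scheme.Hom.appLE, CommRingCat.comp_apply,
      Scheme.basicOpen_res, top_inf_eq]
  show IsLocalRing.closedPoint V ∈ X.hom P ⁻¹ᵁ X.A.basicOpen s ↔ _
  rw [h1, basicOpen_eq_of_affine']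
  show ¬ _ ∈ IsLocalRing.maximalIdeal V ↔ _
  rw [IsLocalRing.mem_maximalIdeal, mem_nonunits_iff, not_not]
  rfl

/-! ### Rational points and connectedness -/

theorem connectedSpace : ConnectedSpace X.A := by
  rw [connectedSpace_iff_univ]
  have h := X.bundle.connectedFibres (IsLocalRing.closedPoint K)
  convert h
  exact (Set.eq_univ_of_forall fun x => Subsingleton.elim _ _).symm

theorem jacobsonSpace : JacobsonSpace X.A :=
  LocallyOfFiniteType.jacobsonSpace (Y := Spec (CommRingCat.of K)) X.f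

theorem exists_rational_point [IsAlgClosed K] {x : X.A} (hx : IsClosed {x}) :
    ∃ P : X.Pt K, X.centre P = x := by
  refine ⟨⟨pointOfClosedPoint X.f x hx, ?_⟩, ?_⟩
  · rw [pointOfClosedPoint_comp, str, Algebra.algebraMap_self]
    exact (Spec.map_id _).symm
  · exact pointOfClosedPoint_apply X.f x hx _

theorem exists_closed_specialization (x : X.A) : ∃ y, IsClosed {y} ∧ x ⤳ y := by
  have := X.jacobsonSpace
  obtain ⟨y, hy, hyc⟩ := nonempty_inter_closedPoints (Z := closure {x})
    ⟨x, subset_closure rfl⟩ isClosed_closure.isLocallyClosed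
  exact ⟨y, hyc, specializes_iff_mem_closure.2 hy⟩

end AVData

/-- An abelian variety of given dimension. -/
structure SmoothAV (K : Type u) [Field K] (g : ℕ) extends AVData K where
  smoothDim : SmoothOfRelativeDimension g f

namespace SmoothAV

variable {K : Type u} [Field K] [IsAlgClosed K] {g : ℕ} (X : SmoothAV K g)

omit [IsAlgClosed K] in
/-- Every point has an affine chart, standard smooth of the given dimension. -/
theorem exists_chart (x : X.A) : ∃ U : X.A.Opens, IsAffineOpen U ∧ x ∈ U ∧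
    Algebra.IsStandardSmoothOfRelativeDimension g K Γ(X.A, U) := by
  obtain ⟨U, hU, V, hV, hx, e, hsm⟩ :=
    X.smoothDim.exists_isStandardSmoothOfRelativeDimension x
  obtain rfl : U = ⊤ := by
    refine top_le_iff.1 fun y _ => ?_
    rw [Subsingleton.elim y (X.f x)]
    exact e hx
  refine ⟨V, hV, hx, ?_⟩
  exact (RingHom.isStandardSmoothOfRelativeDimension_respectsIso (n := g)).2 _
    (Scheme.ΓSpecIso (CommRingCat.of K)).symm.commRingCatIsoToRingEquiv hsm

/-- Every closed point has an affine neighbourhood with integral coordinate ring. -/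
theorem exists_domain_nhd {x : X.A} (hx : IsClosed {x}) :
    ∃ W : X.A.Opens, IsAffineOpen W ∧ x ∈ W ∧ IsDomain Γ(X.A, W) := by
  obtain ⟨U, hU, hxU, hsm⟩ := X.exists_chart x
  obtain ⟨P, hP⟩ := X.exists_rational_point hx
  have hPU : X.InOpen P U := (X.inOpen_iff).2 (hP ▸ hxU)
  set c := X.evalAlg P U hPU
  obtain ⟨t, ht⟩ := Local.exists_params (g := g) c
  obtain ⟨ι⟩ := Local.exists_expansion c ht
  obtain ⟨s, hs, hkill⟩ := ι.exists_ker_killer ht
  have hxs : x ∈ X.A.basicOpen s := hP ▸ (X.mem_basicOpen_iff P hPU s).2 (IsUnit.mk0 _ hs)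
  refine ⟨X.A.basicOpen s, hU.basicOpen s, hxs, ?_⟩
  have := hU.isLocalization_basicOpen s
  have hιs : ι.hom s ≠ 0 := fun h0 => hs (by
    show c s = 0
    rw [← ι.const, h0, map_zero])
  have hzero : ∀ a : Γ(X.A, U), ι.hom a = 0 →
      algebraMap Γ(X.A, U) Γ(X.A, X.A.basicOpen s) a = 0 := fun a ha => by
    have h := congrArg (algebraMap Γ(X.A, U) Γ(X.A, X.A.basicOpen s)) (hkill a ha)
    rw [map_mul, map_zero] at h
    exact (IsLocalization.Away.algebraMap_isUnit s).mul_right_eq_zero.1 h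
  have : Nontrivial Γ(X.A, X.A.basicOpen s) := by
    refine ⟨0, 1, fun h01 => ?_⟩
    obtain ⟨⟨_, k, rfl⟩, hk⟩ := (IsLocalization.eq_iff_exists (Submonoid.powers s) _).1
      (show algebraMap Γ(X.A, U) Γ(X.A, X.A.basicOpen s) 0 = algebraMap _ _ 1 by
        rw [map_zero, map_one, h01])
    simp only [mul_zero, mul_one] at hk
    have := congrArg c hk
    rw [map_zero, map_pow] at this
    exact pow_ne_zero _ hs this.symm
  have : NoZeroDivisors Γ(X.A, X.A.basicOpen s) := ⟨fun {a b} hab => by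
    obtain ⟨⟨a', sa⟩, ha⟩ := IsLocalization.surj (Submonoid.powers s) a
    obtain ⟨⟨b', sb⟩, hb⟩ := IsLocalization.surj (Submonoid.powers s) b
    have h0 : algebraMap Γ(X.A, U) Γ(X.A, X.A.basicOpen s) (a' * b') = 0 := by
      rw [map_mul, ← ha, ← hb, mul_mul_mul_comm, hab, zero_mul]
    obtain ⟨⟨_, k, rfl⟩, hk⟩ := (IsLocalization.map_eq_zero_iff (Submonoid.powers s) _ _).1 h0
    have := congrArg ι.hom hk
    simp only [map_mul, map_pow, map_zero, mul_eq_zero, pow_eq_zero_iff', hιs, false_and,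
      false_or] at this
    refine this.imp (fun h => ?_) fun h => ?_
    · exact (IsLocalization.map_units _ sa).mul_left_eq_zero.1 (ha.trans (hzero _ h))
    · exact (IsLocalization.map_units _ sb).mul_left_eq_zero.1 (hb.trans (hzero _ h))⟩
  exact NoZeroDivisors.to_isDomain _

theorem exists_integral_nhd (x : X.A) :
    ∃ W : X.A.Opens, x ∈ W ∧ IsIntegral W := by
  obtain ⟨y, hy, hxy⟩ := X.exists_closed_specialization x
  obtain ⟨W, hW, hyW, hdom⟩ := X.exists_domain_nhd hy
  refine ⟨W, hxy.mem_open W.2 hyW, ?_⟩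
  have : Nonempty W := ⟨⟨y, hyW⟩⟩
  have : IsIntegral (Spec Γ(X.A, W)) := (affine_isIntegral_iff _).2 hdom
  exact IsIntegral.of_isIso hW.isoSpec.inv

/-- An abelian variety is irreducible. -/
theorem irreducibleSpace : IrreducibleSpace X.A := by
  have := X.connectedSpace
  obtain ⟨x⟩ := (inferInstance : Nonempty X.A)
  obtain ⟨W, hxW, hW⟩ := X.exists_integral_nhd x
  have hirr : ∀ W : X.A.Opens, IsIntegral W → IsIrreducible (W : Set X.A) := fun W h =>
    isIrreducible_iff_irreducibleSpace.2 (inferInstanceAs (IrreducibleSpace W.toScheme))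
  have hopen : IsOpen (closure (W : Set X.A)) := by
    refine isOpen_iff_forall_mem_open.2 fun y hy => ?_
    obtain ⟨W', hyW', hW'⟩ := X.exists_integral_nhd y
    refine ⟨W', ?_, W'.2, hyW'⟩
    obtain ⟨z, hz1, hz2⟩ := mem_closure_iff.1 hy W' W'.2 hyW'
    exact (subset_closure_inter_of_isPreirreducible_of_isOpen (hirr W' hW').isPreirreducible W.2
      ⟨z, hz1, hz2⟩).trans (closure_mono Set.inter_subset_right)
  have huniv := IsClopen.eq_univ ⟨isClosed_closure, hopen⟩ ⟨x, subset_closure hxW⟩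
  have := (hirr W hW).closure
  rw [huniv] at this
  exact (irreducibleSpace_def _).2 this

/-- **An abelian variety is integral.** -/
theorem isIntegral : IsIntegral X.A := by
  have := X.irreducibleSpace
  have : ∀ x : X.A, _root_.IsReduced (X.A.presheaf.stalk x) := fun x => by
    obtain ⟨W, hxW, hW⟩ := X.exists_integral_nhd x
    exact isReduced_of_injective (W.stalkIso ⟨x, hxW⟩).inv.hom
      (ConcreteCategory.bijective_of_isIso (W.stalkIso ⟨x, hxW⟩).inv).1
  have : AlgebraicGeometry.IsReduced X.A := isReduced_of_isReduced_stalk X.A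
  exact isIntegral_of_irreducibleSpace_of_isReduced X.A

instance : IsIntegral X.A := X.isIntegral

theorem isDomain_sections {U : X.A.Opens} {x : X.A} (hx : x ∈ U) : IsDomain Γ(X.A, U) := by
  have : Nonempty U := ⟨⟨x, hx⟩⟩
  infer_instance

theorem res_injective {U U₁ : X.A.Opens} (hle : U ≤ U₁) (hne : (U : Set X.A).Nonempty) :
    Function.Injective (X.res hle) := by
  have : Nonempty U := hne.to_subtype
  exact map_injective_of_isIntegral X.A (homOfLE hle)

end SmoothAV

end Fermat.Agent.AV
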