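import Fermat.Agent.AV.Rigid

/-!
# The kernel of multiplication by an integer

The rational torsion points of order `n` prime to the characteristic are the automorphisms of the
function field over its image under multiplication by `n`, which is Galois of degree their number.
-/

noncomputable section

universe u

open CategoryTheory AlgebraicGeometry NeronModelInfra GoodReductionJacobian

namespace Fermat.Agent.AV.SmoothAV

variable {K : Type u} [Field K] [IsAlgClosed K] {g : ℕ} (X : SmoothAV K g) {n : ℕ}

/-- Multiplication by a natural number on functions. -/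
def natMap (hn : (n : K) ≠ 0) : X.FF →ₐ[K] X.FF := X.mulMap (n : ℤ) (by simpa using hn)

theorem map_natMap_eta (hn : (n : K) ≠ 0) : X.map (X.natMap hn) X.eta = n • X.eta := by
  rw [natMap, map_mulMap_eta, natCast_zsmul]

theorem finiteDimensional_natMap (hn : (n : K) ≠ 0) :
    FiniteDimensional (X.natMap hn).fieldRange X.FF :=
  (X.finite_separable_mulMap _).1

theorem isSeparable_natMap (hn : (n : K) ≠ 0) :
    Algebra.IsSeparable (X.natMap hn).fieldRange X.FF :=
  (X.finite_separable_mulMap _).2

/-- The rational points killed by `n`. -/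
abbrev Tors (n : ℕ) : Type u := {T : X.Pt K // n • T = 0}

/-- The number of rational points killed by `n`. -/
def torsCount (n : ℕ) : ℕ := Nat.card (X.Tors n)

omit [IsAlgClosed K] in
theorem natCard_isTorsionPoint (n : ℕ) :
    Nat.card {x : SchemeHomOver (𝟙 (Spec (CommRingCat.of K))) X.f //
      X.L.IsTorsionPoint (𝟙 (Spec (CommRingCat.of K))) n x} = X.torsCount n := by
  have key : ∀ t : Spec (CommRingCat.of K) ⟶ Spec (CommRingCat.of K), t = AVData.str K K →
      Nat.card {x : SchemeHomOver t X.f // X.L.IsTorsionPoint t n x} = X.torsCount n := by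
    rintro _ rfl
    exact Nat.card_congr (Equiv.subtypeEquivRight fun (x : X.Pt K) => by
      show X.L.nsmul (AVData.str K K) n x = X.L.one (AVData.str K K) ↔ n • x = (0 : X.Pt K)
      rw [← X.nsmul_eq]
      exact Iff.rfl)
  refine key _ ?_
  rw [AVData.str, Algebra.algebraMap_self]
  exact (Spec.map_id _).symm

omit [IsAlgClosed K] in
theorem nsmul_eta_add (T : X.Tors n) :
    n • (X.eta + X.map (Algebra.ofId K X.FF) T.1) = n • X.eta := by
  rw [nsmul_add, ← map_nsmul, T.2, map_zero, add_zero]

theorem generic_eta_add (hn : (n : K) ≠ 0) (T : X.Tors n) :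
    X.Generic (X.eta + X.map (Algebra.ofId K X.FF) T.1) := by
  refine Generic.of_nsmul X (n := n) ?_
  rw [X.nsmul_eta_add, ← X.map_natMap_eta hn]
  exact Generic.map X X.generic_eta _

/-- The translation by a torsion point. -/
def transl (hn : (n : K) ≠ 0) (T : X.Tors n) : X.FF →ₐ[K] X.FF :=
  X.genMap _ (X.generic_eta_add hn T)

theorem map_transl_eta (hn : (n : K) ≠ 0) (T : X.Tors n) :
    X.map (X.transl hn T) X.eta = X.eta + X.map (Algebra.ofId K X.FF) T.1 :=
  X.map_genMap _ _

theorem transl_natMap (hn : (n : K) ≠ 0) (T : X.Tors n) (f : X.FF) :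
    X.transl hn T (X.natMap hn f) = X.natMap hn f := by
  have h : (X.transl hn T).comp (X.natMap hn) = X.natMap hn := by
    refine X.hom_eq_of_map_eta ?_
    rw [← X.map_map, map_natMap_eta, map_nsmul, map_transl_eta, X.nsmul_eta_add]
  exact AlgHom.congr_fun h f

/-- The translation, over the image of multiplication. -/
def translEquiv (hn : (n : K) ≠ 0) (T : X.Tors n) :
    X.FF ≃ₐ[(X.natMap hn).fieldRange] X.FF :=
  have := X.finiteDimensional_natMap hn
  AlgEquiv.ofBijective
    { X.transl hn T with
      commutes' := by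
        rintro ⟨_, f, rfl⟩
        exact X.transl_natMap hn T f }
    (AlgHom.bijective _)

theorem transl_injective (hn : (n : K) ≠ 0) : Function.Injective (X.transl hn) := by
  intro T T' h
  have h' := congrArg (fun τ => X.map τ X.eta) h
  simp only [map_transl_eta, add_right_inj] at h'
  exact Subtype.ext (X.map_injective _ (Algebra.ofId K X.FF).toRingHom.injective h')

/-- An embedding over the image of multiplication is a translation. -/
theorem exists_transl {M : Type u} [Field M] [Algebra K M] (hn : (n : K) ≠ 0)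
    (ι : X.FF →ₐ[K] M) (σ : X.FF →ₐ[K] M)
    (hσ : ∀ f, σ (X.natMap hn f) = ι (X.natMap hn f)) :
    ∃ T : X.Tors n, σ = ι.comp (X.transl hn T) := by
  have h : σ.comp (X.natMap hn) = ι.comp (X.natMap hn) := AlgHom.ext hσ
  have hS : n • (X.map σ X.eta - X.map ι X.eta) = 0 := by
    rw [nsmul_sub, ← map_nsmul, ← map_nsmul, ← X.map_natMap_eta hn, X.map_map, X.map_map, h,
      sub_self]
  obtain ⟨T, hT, hT'⟩ := X.exists_map_eq_of_nsmul_eq_zero hn hS
  refine ⟨⟨T, hT⟩, X.hom_eq_of_map_eta ?_⟩
  rw [← X.map_map, map_transl_eta, map_add, X.map_map]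
  show _ = X.map ι X.eta + X.map (ι.comp (Algebra.ofId K X.FF)) T
  rw [show ι.comp (Algebra.ofId K X.FF) = Algebra.ofId K M from Subsingleton.elim _ _, hT',
    add_sub_cancel]

/-- The embeddings into an algebraic closure are the translations. -/
theorem natCard_tors_eq_natCard_embeddings (hn : (n : K) ≠ 0) :
    X.torsCount n = Nat.card (X.FF →ₐ[(X.natMap hn).fieldRange] AlgebraicClosure X.FF) ∧
      Nat.card (X.FF ≃ₐ[(X.natMap hn).fieldRange] X.FF) =
        Nat.card (X.FF →ₐ[(X.natMap hn).fieldRange] AlgebraicClosure X.FF) := by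
  let ι := IsScalarTower.toAlgHom (X.natMap hn).fieldRange X.FF (AlgebraicClosure X.FF)
  have hι : Function.Injective ι := ι.toRingHom.injective
  let e : (X.FF ≃ₐ[(X.natMap hn).fieldRange] X.FF) →
      (X.FF →ₐ[(X.natMap hn).fieldRange] AlgebraicClosure X.FF) := fun s => ι.comp s.toAlgHom
  have he : Function.Injective e := fun s s' h =>
    AlgEquiv.ext fun f => hι (AlgHom.congr_fun h f)
  have hsurj : Function.Surjective (e ∘ X.translEquiv hn) := fun σ => by
    obtain ⟨T, hT⟩ := X.exists_transl hn (IsScalarTower.toAlgHom K X.FF (AlgebraicClosure X.FF))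
      (σ.restrictScalars K) fun f => σ.commutes ⟨X.natMap hn f, f, rfl⟩
    exact ⟨T, AlgHom.ext fun f => (AlgHom.congr_fun hT f).symm⟩
  have htr : Function.Injective (X.translEquiv hn) := fun T T' h =>
    X.transl_injective hn (AlgHom.ext fun f => AlgEquiv.congr_fun h f)
  exact ⟨Nat.card_congr (Equiv.ofBijective _ ⟨he.comp htr, hsurj⟩),
    Nat.card_congr (Equiv.ofBijective e ⟨he, hsurj.of_comp⟩)⟩

/-- **The degree of multiplication is the number of torsion points.** -/
theorem finrank_natMap (hn : (n : K) ≠ 0) :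
    Module.finrank (X.natMap hn).fieldRange X.FF = X.torsCount n := by
  have := X.finiteDimensional_natMap hn
  have := X.isSeparable_natMap hn
  rw [(X.natCard_tors_eq_natCard_embeddings hn).1, Nat.card_eq_fintype_card,
    AlgHom.card (F := (X.natMap hn).fieldRange) (E := X.FF)]

theorem isGalois_natMap (hn : (n : K) ≠ 0) : IsGalois (X.natMap hn).fieldRange X.FF := by
  have := X.finiteDimensional_natMap hn
  refine IsGalois.of_card_aut_eq_finrank _ _ ?_
  rw [(X.natCard_tors_eq_natCard_embeddings hn).2,
    ← (X.natCard_tors_eq_natCard_embeddings hn).1, X.finrank_natMap hn]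

theorem torsCount_pos (hn : (n : K) ≠ 0) : 0 < X.torsCount n := by
  have := X.finiteDimensional_natMap hn
  rw [← X.finrank_natMap hn]
  exact Module.finrank_pos

theorem natMap_mul {a b : ℕ} (ha : (a : K) ≠ 0) (hb : (b : K) ≠ 0)
    (hab : ((a * b : ℕ) : K) ≠ 0) : X.natMap hab = (X.natMap ha).comp (X.natMap hb) := by
  refine X.hom_eq_of_map_eta ?_
  rw [← X.map_map, map_natMap_eta, map_natMap_eta, map_nsmul, map_natMap_eta, smul_smul, mul_comm]

theorem torsCount_mul {a b : ℕ} (ha : (a : K) ≠ 0) (hb : (b : K) ≠ 0) :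
    X.torsCount (a * b) = X.torsCount a * X.torsCount b := by
  have hab : ((a * b : ℕ) : K) ≠ 0 := by rw [Nat.cast_mul]; exact mul_ne_zero ha hb
  rw [← X.finrank_natMap hab, ← X.finrank_natMap ha, ← X.finrank_natMap hb,
    X.natMap_mul ha hb hab]
  have hr : ((X.natMap ha).comp (X.natMap hb)).fieldRange =
      (X.natMap hb).fieldRange.map (X.natMap ha) := (AlgHom.map_fieldRange _ _).symm
  have hle : (X.natMap hb).fieldRange.map (X.natMap ha) ≤ (X.natMap ha).fieldRange := by
    rw [AlgHom.fieldRange_eq_map (X.natMap ha)]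
    exact IntermediateField.map_mono _ le_top
  rw [hr, ← IntermediateField.relfinrank_mul_finrank_top hle]
  conv_lhs => arg 1; rw [AlgHom.fieldRange_eq_map (X.natMap ha)]
  rw [IntermediateField.relfinrank_map_map, IntermediateField.relfinrank_top_right, mul_comm]

theorem torsCount_pow {a : ℕ} (ha : (a : K) ≠ 0) (k : ℕ) :
    X.torsCount (a ^ k) = X.torsCount a ^ k := by
  induction k with
  | zero =>
    rw [pow_zero, pow_zero, torsCount, Nat.card_eq_one_iff_unique]
    exact ⟨⟨fun P Q => Subtype.ext (by rw [← one_nsmul P.1, P.2, ← one_nsmul Q.1, Q.2])⟩,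
      ⟨⟨0, one_nsmul 0⟩⟩⟩
  | succ k ih =>
    rw [pow_succ, pow_succ, X.torsCount_mul (by rw [Nat.cast_pow]; exact pow_ne_zero k ha) ha, ih]

end Fermat.Agent.AV.SmoothAV
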