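import Mathlib.Data.Finsupp.Weight
import Mathlib.RingTheory.Ideal.Operations
import Mathlib.RingTheory.MvPowerSeries.Inverse

/-!
# The powers of the ideal of the variables
-/

open MvPowerSeries

namespace Fermat.Agent.AV.Series

variable {n : ℕ}

/-- A series of order at least `k` lies in the `k`th power of the ideal of the variables. -/
theorem mem_span_X_pow {R : Type*} [CommRing R] : ∀ (k : ℕ) (f : MvPowerSeries (Fin n) R),
    (∀ d : Fin n →₀ ℕ, d.degree < k → coeff d f = 0) →
    f ∈ Ideal.span (Set.range fun i : Fin n => (X i : MvPowerSeries (Fin n) R)) ^ k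
  | 0, f, _ => by simp
  | k + 1, f, hf => by
    classical
    let g : Fin n → MvPowerSeries (Fin n) R := fun i d =>
      if ∀ j < i, d j = 0 then coeff (d + Finsupp.single i 1) f else 0
    have hg : ∀ i d, coeff d (g i) =
        if ∀ j < i, d j = 0 then coeff (d + Finsupp.single i 1) f else 0 := fun _ _ => rfl
    have hgmem : ∀ i,
        g i ∈ Ideal.span (Set.range fun i : Fin n => (X i : MvPowerSeries (Fin n) R)) ^ k :=
        fun i => by
      refine mem_span_X_pow k _ fun d hd => ?_
      rw [hg]
      split_ifs
      · exact hf _ (by rw [map_add, Finsupp.degree_single]; omega)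
      · rfl
    have hsum : f = ∑ i, X i * g i := by
      ext d
      rw [map_sum]
      by_cases hd : d = 0
      · subst hd
        rw [hf 0 (by simp), Finset.sum_eq_zero]
        intro i _
        rw [X, coeff_monomial_mul, if_neg]
        intro hle
        simpa using hle i
      · have hne : d.support.Nonempty := Finsupp.support_nonempty_iff.mpr hd
        set i₀ := d.support.min' hne
        have hi₀ : d i₀ ≠ 0 := Finsupp.mem_support_iff.mp (d.support.min'_mem hne)
        have hlt : ∀ j < i₀, d j = 0 := fun j hj => by
          by_contra hne0
          exact absurd (d.support.min'_le j (Finsupp.mem_support_iff.mpr hne0)) (not_le.mpr hj)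
        have hle : ∀ i : Fin n, Finsupp.single i 1 ≤ d ↔ 1 ≤ d i := fun i => Finsupp.single_le_iff
        rw [Finset.sum_eq_single i₀]
        · rw [X, coeff_monomial_mul, if_pos ((hle i₀).mpr (Nat.one_le_iff_ne_zero.mpr hi₀)),
            one_mul, hg, if_pos,
            tsub_add_cancel_of_le ((hle i₀).mpr (Nat.one_le_iff_ne_zero.mpr hi₀))]
          intro j hj
          simp [hlt j hj]
        · intro i _ hi
          rw [X, coeff_monomial_mul]
          split_ifs with hsl
          · rw [one_mul, hg, if_neg]
            intro hall
            rcases lt_or_gt_of_ne hi with hlt' | hgt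
            · exact absurd (hlt i hlt') (Nat.one_le_iff_ne_zero.mp ((hle i).mp hsl))
            · have := hall i₀ hgt
              simp only [Finsupp.tsub_apply, Finsupp.single_eq_of_ne (ne_of_lt hgt),
                  tsub_zero] at this
              exact hi₀ this
          · rfl
        · exact fun h => absurd (Finset.mem_univ _) h
    rw [hsum, pow_succ']
    exact sum_mem fun i _ => Ideal.mul_mem_mul (Ideal.subset_span ⟨i, rfl⟩) (hgmem i)

/-- A series is its constant coefficient modulo the variables. -/
theorem sub_C_constantCoeff_mem {R : Type*} [CommRing R] (f : MvPowerSeries (Fin n) R) :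
    f - C (constantCoeff f) ∈
      Ideal.span (Set.range fun i : Fin n => (X i : MvPowerSeries (Fin n) R)) := by
  rw [← pow_one (Ideal.span _)]
  refine mem_span_X_pow 1 _ fun d hd => ?_
  obtain rfl := (Finsupp.degree_eq_zero_iff d).mp (by omega)
  simp

end Fermat.Agent.AV.Series
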