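import Mathlib
import Fermat.Agent.AV.SpanPow

/-!
# Formal power series in finitely many variables over a field

The filtration by the order, automorphisms by substitution, and unique factorisation by Weierstrass
preparation.
-/

noncomputable section

universe u

open MvPowerSeries
open scoped Polynomial

namespace Fermat.Agent.AV.Series

variable {K : Type u} [Field K] {n : ℕ}

/-- The series ring in `n` variables. -/
abbrev S (K : Type u) [Field K] (n : ℕ) : Type u := MvPowerSeries (Fin n) K

/-- The maximal ideal. -/
abbrev mI (K : Type u) [Field K] (n : ℕ) : Ideal (S K n) := IsLocalRing.maximalIdeal (S K n)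

theorem mem_mI_iff {f : S K n} : f ∈ mI K n ↔ constantCoeff f = 0 := by
  rw [IsLocalRing.mem_maximalIdeal, mem_nonunits_iff, isUnit_iff_constantCoeff, isUnit_iff_ne_zero,
    not_ne_iff]

theorem X_mem_mI (i : Fin n) : (X i : S K n) ∈ mI K n := mem_mI_iff.2 (constantCoeff_X i)

theorem span_X_eq : Ideal.span (Set.range fun i : Fin n => (X i : S K n)) = mI K n := by
  refine le_antisymm (Ideal.span_le.2 ?_) fun f hf => ?_
  · rintro _ ⟨i, rfl⟩
    exact X_mem_mI i
  · rw [← pow_one (Ideal.span _)]
    refine mem_span_X_pow 1 f fun d hd => ?_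
    rw [(Finsupp.degree_eq_zero_iff d).1 (by omega), coeff_zero_eq_constantCoeff_apply]
    exact mem_mI_iff.1 hf

theorem mem_pow_iff {k : ℕ} {f : S K n} :
    f ∈ mI K n ^ k ↔ ∀ d : Fin n →₀ ℕ, d.degree < k → coeff d f = 0 := by
  refine ⟨fun hf => ?_, fun h => span_X_eq (K := K) ▸ mem_span_X_pow k f h⟩
  induction k generalizing f with
  | zero => intro d hd; omega
  | succ k ih =>
    rw [pow_succ] at hf
    refine Submodule.mul_induction_on hf (fun a ha b hb d hd => ?_) fun a b ha hb d hd => by
      rw [map_add, ha d hd, hb d hd, add_zero]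
    classical
    rw [coeff_mul]
    refine Finset.sum_eq_zero fun x hx => ?_
    rw [Finset.HasAntidiagonal.mem_antidiagonal] at hx
    rcases Nat.eq_zero_or_pos x.2.degree with h2 | h2
    · rw [(Finsupp.degree_eq_zero_iff _).1 h2, coeff_zero_eq_constantCoeff_apply, mem_mI_iff.1 hb,
        mul_zero]
    · rw [ih ha x.1 (by rw [← hx, map_add] at hd; omega), zero_mul]

theorem eq_zero_of_forall_mem_pow {f : S K n} (h : ∀ k, f ∈ mI K n ^ k) : f = 0 := by
  ext d
  simpa using mem_pow_iff.1 (h (d.degree + 1)) d (Nat.lt_succ_self _)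

/-- A sequence with steps in growing powers of the maximal ideal has a limit. -/
theorem exists_limit (x : ℕ → S K n) (hx : ∀ k, x (k + 1) - x k ∈ mI K n ^ k) :
    ∃ L, ∀ k, L - x k ∈ mI K n ^ k := by
  have hcauchy : ∀ k j, x (k + j) - x k ∈ mI K n ^ k := by
    intro k j
    induction j with
    | zero => simp
    | succ j ih =>
      rw [← add_assoc, ← sub_add_sub_cancel _ (x (k + j))]
      exact add_mem (Ideal.pow_le_pow_right (Nat.le_add_right k j) (hx _)) ih
  let L : S K n := fun d => coeff d (x (d.degree + 1))
  have hL : ∀ d, coeff d L = coeff d (x (d.degree + 1)) := fun _ => rfl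
  refine ⟨L, fun k => mem_pow_iff.2 fun d hd => ?_⟩
  obtain ⟨j, rfl⟩ : ∃ j, k = d.degree + 1 + j := ⟨k - (d.degree + 1), by omega⟩
  rw [map_sub, hL, ← neg_sub, neg_eq_zero, ← map_sub]
  exact mem_pow_iff.1 (hcauchy _ j) d (Nat.lt_succ_self _)

instance isAdicComplete : IsAdicComplete (mI K n) (S K n) where
  haus' x hx := eq_zero_of_forall_mem_pow fun k => by
    have := hx k
    rwa [SModEq.zero, smul_eq_mul, Ideal.mul_top] at this
  prec' f hf := by
    have hf' : ∀ k, f (k + 1) - f k ∈ mI K n ^ k := fun k => by
      have := hf (Nat.le_succ k)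
      rw [SModEq.sub_mem, smul_eq_mul, Ideal.mul_top] at this
      rw [← neg_sub]; exact neg_mem this
    obtain ⟨L, hL⟩ := exists_limit f hf'
    refine ⟨L, fun k => ?_⟩
    rw [SModEq.sub_mem, smul_eq_mul, Ideal.mul_top, ← neg_sub]
    exact neg_mem (hL k)

/-! ### Substitutions -/

variable {a : Fin n → S K n} (ha : ∀ i, constantCoeff (a i) = 0)

/-- Substitution of series without constant term. -/
def substHom : S K n →ₐ[K] S K n := substAlgHom (hasSubst_of_constantCoeff_zero ha)

theorem substHom_apply (f : S K n) : substHom ha f = subst a f := by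
  rw [substHom, coe_substAlgHom]

theorem substHom_X (i : Fin n) : substHom ha (X i) = a i := by
  rw [substHom_apply, subst_X (hasSubst_of_constantCoeff_zero ha)]

theorem substHom_mem {f : S K n} (hf : f ∈ mI K n) : substHom ha f ∈ mI K n := by
  rw [mem_mI_iff] at hf ⊢
  rw [substHom_apply]
  exact constantCoeff_subst_eq_zero (hasSubst_of_constantCoeff_zero ha) ha hf

theorem substHom_mem_pow {f : S K n} {k : ℕ} (hf : f ∈ mI K n ^ k) :
    substHom ha f ∈ mI K n ^ k := by
  have h : (mI K n).map (substHom ha) ≤ mI K n := Ideal.map_le_iff_le_comap.2 fun x hx =>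
    substHom_mem ha hx
  have h2 := Ideal.mem_map_of_mem (substHom ha) hf
  rw [Ideal.map_pow] at h2
  exact Ideal.pow_right_mono h k h2

theorem substHom_C (c : K) : substHom ha (C c) = C c := (substHom ha).commutes c

/-- A substitution tangent to the identity moves an element of a power of the maximal ideal by an
element of the next one. -/
theorem substHom_sub_mem (h1 : ∀ i, a i - X i ∈ mI K n ^ 2) :
    ∀ (k : ℕ), ∀ f ∈ mI K n ^ k, substHom ha f - f ∈ mI K n ^ (k + 1) := by
  have h0 : ∀ f : S K n, substHom ha f - f ∈ mI K n ^ 1 := fun f => by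
    have hf : f - C (constantCoeff f) ∈ mI K n := mem_mI_iff.2 (by simp)
    rw [pow_one, show substHom ha f - f = substHom ha (f - C (constantCoeff f)) -
      (f - C (constantCoeff f)) by rw [map_sub, substHom_C]; ring]
    exact sub_mem (substHom_mem ha hf) hf
  have hone : ∀ f ∈ mI K n, substHom ha f - f ∈ mI K n ^ 2 := by
    intro f hf
    rw [← span_X_eq] at hf
    refine Submodule.span_induction ?_ ?_ ?_ ?_ hf
    · rintro _ ⟨i, rfl⟩
      rw [substHom_X]; exact h1 i
    · simp
    · intro x y _ _ hx hy
      rw [map_add, add_sub_add_comm]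
      exact add_mem hx hy
    · intro r x hx hxx
      rw [smul_eq_mul, map_mul, show substHom ha r * substHom ha x - r * x =
        (substHom ha r - r) * x + substHom ha r * (substHom ha x - x) by ring]
      refine add_mem ?_ (Ideal.mul_mem_left _ _ hxx)
      rw [pow_two]
      exact Ideal.mul_mem_mul (by simpa using h0 r) (by rw [← span_X_eq]; exact hx)
  intro k
  induction k with
  | zero => exact fun f _ => h0 f
  | succ k ih =>
    intro f hf
    rw [pow_succ'] at hf
    refine Submodule.mul_induction_on hf (fun x hx y hy => ?_) fun x y hx hy => by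
      rw [map_add, add_sub_add_comm]; exact add_mem hx hy
    rw [map_mul, show substHom ha x * substHom ha y - x * y =
      (substHom ha x - x) * substHom ha y + x * (substHom ha y - y) by ring]
    refine add_mem ?_ ?_
    · rw [show k + 1 + 1 = 2 + k by omega, pow_add]
      exact Ideal.mul_mem_mul (hone x hx) (substHom_mem_pow ha hy)
    · rw [pow_succ']
      exact Ideal.mul_mem_mul hx (ih y hy)

/-- A substitution tangent to the identity is bijective. -/
theorem bijective_of_tangent (h1 : ∀ i, a i - X i ∈ mI K n ^ 2) :
    Function.Bijective (substHom ha) := by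
  have h := substHom_sub_mem ha h1
  refine ⟨(injective_iff_map_eq_zero _).2 fun f hf => eq_zero_of_forall_mem_pow fun k => ?_,
    fun y => ?_⟩
  · induction k with
    | zero => simp
    | succ k ih =>
      have := h k f ih
      rw [hf, zero_sub] at this
      simpa using neg_mem this
  let x : ℕ → S K n := fun k => Nat.rec 0 (fun _ z => z + (y - substHom ha z)) k
  have hxs : ∀ k, x (k + 1) = x k + (y - substHom ha (x k)) := fun _ => rfl
  have hres : ∀ k, y - substHom ha (x k) ∈ mI K n ^ k := by
    intro k
    induction k with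
    | zero => simp
    | succ k ih =>
      have := h k _ ih
      rw [hxs, map_add, show y - (substHom ha (x k) + substHom ha (y - substHom ha (x k))) =
        -(substHom ha (y - substHom ha (x k)) - (y - substHom ha (x k))) by ring]
      exact neg_mem this
  obtain ⟨L, hL⟩ := exists_limit x fun k => by rw [hxs, add_sub_cancel_left]; exact hres k
  refine ⟨L, (sub_eq_zero.1 (eq_zero_of_forall_mem_pow fun k => ?_)).symm⟩
  rw [show y - substHom ha L = (y - substHom ha (x k)) - substHom ha (L - x k) by
    rw [map_sub]; ring]
  exact sub_mem (hres k) (substHom_mem_pow ha (hL k))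

theorem substHom_substHom {b : Fin n → S K n} (hb : ∀ i, constantCoeff (b i) = 0) (f : S K n)
    (hab : ∀ i, constantCoeff (substHom hb (a i)) = 0) :
    substHom hb (substHom ha f) = substHom hab f := by
  rw [substHom_apply, substHom_apply, substHom_apply,
    subst_comp_subst_apply (hasSubst_of_constantCoeff_zero ha) (hasSubst_of_constantCoeff_zero hb)]
  simp only [substHom_apply]

theorem substHom_of_eq_X (h : a = X) (f : S K n) : substHom ha f = f := by
  subst h
  rw [substHom_apply, subst_self]
  rfl

/-- The linear substitution of a matrix. -/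
def linSubst (B : Matrix (Fin n) (Fin n) K) : Fin n → S K n := fun i => ∑ j, C (B i j) * X j

theorem constantCoeff_linSubst (B : Matrix (Fin n) (Fin n) K) (i : Fin n) :
    constantCoeff (linSubst B i) = 0 := by simp [linSubst]

theorem substHom_linSubst (B : Matrix (Fin n) (Fin n) K) (i : Fin n) :
    substHom ha (linSubst B i) = ∑ j, C (B i j) * a j := by
  simp [linSubst, map_sum, map_mul, substHom_C, substHom_X]

theorem linSubst_mul (B B' : Matrix (Fin n) (Fin n) K) (i : Fin n) :
    ∑ j, C (B i j) * linSubst B' j = linSubst (B * B') i := by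
  simp only [linSubst, Finset.mul_sum, Matrix.mul_apply, map_sum, map_mul, Finset.sum_mul,
    mul_assoc]
  exact Finset.sum_comm

theorem linSubst_one : linSubst (1 : Matrix (Fin n) (Fin n) K) = X := by
  funext i
  rw [linSubst, Finset.sum_eq_single i (fun j _ hj => by simp [Matrix.one_apply_ne (Ne.symm hj)])
    (fun h => absurd (Finset.mem_univ i) h), Matrix.one_apply_eq, map_one, one_mul]

theorem bijective_linSubst {B : Matrix (Fin n) (Fin n) K} (hB : IsUnit B.det) :
    Function.Bijective (substHom (constantCoeff_linSubst B)) := by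
  have key : ∀ B B' : Matrix (Fin n) (Fin n) K, B * B' = 1 → ∀ f,
      substHom (constantCoeff_linSubst B') (substHom (constantCoeff_linSubst B) f) = f := by
    intro B B' h f
    have e : (fun i => substHom (constantCoeff_linSubst B') (linSubst B i)) = X := by
      funext i; rw [substHom_linSubst, linSubst_mul, h, linSubst_one]
    rw [substHom_substHom (constantCoeff_linSubst B) (constantCoeff_linSubst B') f fun i => by
      rw [congrFun e i]; simp]
    exact substHom_of_eq_X _ e f
  exact Function.bijective_iff_has_inverse.2 ⟨_, key B B⁻¹ (Matrix.mul_nonsing_inv B hB),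
    key B⁻¹ B (Matrix.nonsing_inv_mul B hB)⟩

/-- **A substitution with invertible linear part is an automorphism.** -/
theorem bijective_substHom {B : Matrix (Fin n) (Fin n) K} (hB : IsUnit B.det)
    (h1 : ∀ i, a i - linSubst B i ∈ mI K n ^ 2) : Function.Bijective (substHom ha) := by
  set b : Fin n → S K n := fun i => substHom ha (linSubst B⁻¹ i) with hbdef
  have hb0 : ∀ i, constantCoeff (b i) = 0 := fun i =>
    mem_mI_iff.1 (substHom_mem ha (mem_mI_iff.2 (constantCoeff_linSubst _ i)))
  have hb : Function.Bijective (substHom hb0) := bijective_of_tangent hb0 fun i => by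
    have e : b i - X i = ∑ j, C (B⁻¹ i j) * (a j - linSubst B j) := by
      rw [hbdef]
      simp only [substHom_linSubst, mul_sub, Finset.sum_sub_distrib]
      rw [linSubst_mul, Matrix.nonsing_inv_mul B hB, linSubst_one]
    rw [e]
    exact sum_mem fun j _ => Ideal.mul_mem_left _ _ (h1 j)
  have hcomp : ⇑(substHom hb0) = substHom ha ∘ substHom (constantCoeff_linSubst B⁻¹) :=
    funext fun f => (substHom_substHom (constantCoeff_linSubst B⁻¹) ha f hb0).symm
  rw [hcomp] at hb
  exact (Function.Bijective.of_comp_iff _
    (bijective_linSubst (Matrix.isUnit_nonsing_inv_det B hB))).1 hb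

/-! ### Unique factorisation -/

/-- The homogeneous part as a polynomial. -/
def homPart (f : S K n) (k : ℕ) : MvPolynomial (Fin n) K :=
  ∑ d ∈ Finset.univ.finsuppAntidiag k, MvPolynomial.monomial d (coeff d f)

theorem homPart_ne_zero {f : S K n} {k : ℕ} {d : Fin n →₀ ℕ} (hd : d.degree = k)
    (h : coeff d f ≠ 0) : homPart f k ≠ 0 := by
  classical
  intro h0
  refine h ?_
  have := congrArg (MvPolynomial.coeff d) h0
  rw [homPart, MvPolynomial.coeff_sum, MvPolynomial.coeff_zero] at this
  simp only [MvPolynomial.coeff_monomial, Finset.sum_ite_eq'] at this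
  rwa [if_pos] at this
  rw [Finset.mem_finsuppAntidiag]
  exact ⟨by rw [← hd, Finsupp.degree_eq_sum], Finset.subset_univ _⟩

/-- The coefficient of `X₀ ^ k` after a linear substitution is the value of the homogeneous part
of degree `k` at the first column. -/
theorem coeff_single_substHom {B : Matrix (Fin (n + 1)) (Fin (n + 1)) K} (f : S K (n + 1)) (k : ℕ) :
    coeff (Finsupp.single 0 k) (substHom (constantCoeff_linSubst B) f) =
      MvPolynomial.eval (fun i => B i 0) (homPart f k) := by
  classical
  -- kill the other variables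
  let p : Fin (n + 1) → MvPowerSeries (Fin 1) K := fun i => if i = 0 then X 0 else 0
  have hp : HasSubst p := hasSubst_of_constantCoeff_zero fun i => by
    by_cases hi : i = 0 <;> simp [p, hi]
  have hq : HasSubst fun i : Fin (n + 1) => (C (B i 0) * X 0 : MvPowerSeries (Fin 1) K) :=
    hasSubst_of_constantCoeff_zero fun i => by simp
  have hcomp : subst p (substHom (constantCoeff_linSubst B) f) =
      subst (fun i : Fin (n + 1) => (C (B i 0) * X 0 : MvPowerSeries (Fin 1) K)) f := by
    rw [substHom_apply,
      subst_comp_subst_apply (hasSubst_of_constantCoeff_zero (constantCoeff_linSubst B)) hp]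
    congr 1
    funext i
    rw [linSubst, ← coe_substAlgHom hp, map_sum, Finset.sum_eq_single 0
      (fun j _ hj => by rw [map_mul, substAlgHom_X, show p j = 0 from if_neg hj, mul_zero])
      (fun h => absurd (Finset.mem_univ _) h), map_mul, substAlgHom_X,
      show p 0 = X 0 from if_pos rfl, coe_substAlgHom, subst_C]
  have hpk : ∀ g : S K (n + 1),
      coeff (Finsupp.single (0 : Fin 1) k) (subst p g) = coeff (Finsupp.single 0 k) g := by
    intro g
    rw [coeff_subst hp, finsum_eq_single _ (Finsupp.single 0 k)]
    · rw [Finsupp.prod_single_index (by simp), show p 0 = X 0 from if_pos rfl, coeff_X_pow,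
        if_pos rfl, smul_eq_mul, mul_one]
    · intro d hd
      by_cases hd0 : ∀ i, i ≠ 0 → d i = 0
      · have hde : d = Finsupp.single 0 (d 0) := by
          ext i
          by_cases hi : i = 0
          · subst hi; simp
          · rw [hd0 i hi, Finsupp.single_eq_of_ne hi]
        rw [hde, Finsupp.prod_single_index (by simp), show p 0 = X 0 from if_pos rfl, coeff_X_pow,
          if_neg, smul_zero]
        intro h
        apply hd
        rw [hde, Finsupp.single_injective _ h]
      · push Not at hd0
        obtain ⟨i, hi, hdi⟩ := hd0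
        rw [Finsupp.prod, Finset.prod_eq_zero (Finsupp.mem_support_iff.2 hdi)
          (by rw [show p i = 0 from if_neg hi, zero_pow hdi]), map_zero, smul_zero]
  rw [← hpk, hcomp, coeff_subst hq, homPart, map_sum]
  have hterm : ∀ d : Fin (n + 1) →₀ ℕ, (d.prod fun s e => (C (B s 0) * X 0 :
      MvPowerSeries (Fin 1) K) ^ e) = monomial (Finsupp.single 0 d.degree)
        (d.prod fun s e => B s 0 ^ e) := by
    intro d
    simp only [Finsupp.prod, mul_pow, Finset.prod_mul_distrib, Finset.prod_pow_eq_pow_sum,
      ← map_pow, ← map_prod, Finsupp.degree_apply]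
    rw [X_pow_eq, ← monomial_zero_eq_C_apply, monomial_mul_monomial, zero_add, mul_one]
  rw [finsum_eq_sum_of_support_subset _ (s := Finset.univ.finsuppAntidiag k)]
  · refine Finset.sum_congr rfl fun d hd => ?_
    rw [Finset.mem_finsuppAntidiag] at hd
    rw [hterm, show d.degree = k by rw [Finsupp.degree_eq_sum]; exact hd.1, coeff_monomial_same,
      smul_eq_mul, MvPolynomial.eval_monomial]
  · intro d hd
    rw [Function.mem_support, hterm, coeff_monomial] at hd
    rw [Finset.mem_coe, Finset.mem_finsuppAntidiag]
    refine ⟨?_, Finset.subset_univ _⟩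
    by_contra hne
    rw [if_neg, smul_zero] at hd
    · exact hd rfl
    · intro h
      have := Finsupp.single_injective _ h
      rw [Finsupp.degree_eq_sum] at this
      exact hne this.symm

/-- After a linear change of variables a series is regular in the first variable. -/
theorem exists_regular [Infinite K] {f : S K (n + 1)} (hf : f ≠ 0) (hu : ¬ IsUnit f) :
    ∃ (B : Matrix (Fin (n + 1)) (Fin (n + 1)) K) (k : ℕ), IsUnit B.det ∧
      coeff (Finsupp.single 0 k) (substHom (constantCoeff_linSubst B) f) ≠ 0 := by
  classical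
  obtain ⟨d₀, hd₀⟩ : ∃ d, coeff d f ≠ 0 := by
    by_contra h
    simp only [not_exists, not_not] at h
    exact hf (ext fun d => by rw [h d, map_zero])
  have hex : ∃ k, ∃ d : Fin (n + 1) →₀ ℕ, d.degree = k ∧ coeff d f ≠ 0 := ⟨_, d₀, rfl, hd₀⟩
  obtain ⟨d, hd, hdf⟩ := Nat.find_spec hex
  set k := Nat.find hex
  have hk : k ≠ 0 := fun h0 => by
    rw [h0, Finsupp.degree_eq_zero_iff] at hd
    rw [hd, coeff_zero_eq_constantCoeff_apply] at hdf
    exact hu (isUnit_iff_constantCoeff.2 hdf.isUnit)
  obtain ⟨a, ha⟩ : ∃ a, MvPolynomial.eval a (homPart f k) ≠ 0 := by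
    by_contra h
    simp only [not_exists, not_not] at h
    exact homPart_ne_zero hd hdf (MvPolynomial.funext fun x => by rw [h x, map_zero])
  obtain ⟨j, hj⟩ : ∃ j, a j ≠ 0 := by
    by_contra h
    simp only [not_exists, not_not] at h
    refine ha ?_
    rw [homPart, map_sum, Finset.sum_eq_zero]
    intro e he
    rw [MvPolynomial.eval_monomial]
    obtain ⟨i, hi⟩ : ∃ i, e i ≠ 0 := by
      by_contra h'
      simp only [not_exists, not_not] at h'
      rw [Finset.mem_finsuppAntidiag] at he
      exact hk (he.1.symm.trans (Finset.sum_eq_zero fun i _ => h' i))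
    rw [Finsupp.prod, Finset.prod_eq_zero (Finsupp.mem_support_iff.2 hi)
      (by rw [h i, zero_pow hi]), mul_zero]
  set p : Equiv.Perm (Fin (n + 1)) := Equiv.swap 0 j
  let B : Matrix (Fin (n + 1)) (Fin (n + 1)) K :=
    fun i l => if l = 0 then a i else if p i = l then 1 else 0
  refine ⟨B, k, ?_, ?_⟩
  · rw [← Matrix.isUnit_iff_isUnit_det, ← Matrix.mulVec_injective_iff_isUnit,
      ← Matrix.coe_mulVecLin, injective_iff_map_eq_zero]
    intro x hx
    have hrow : ∀ i, a i * x 0 + (if p i = 0 then 0 else x (p i)) = 0 := by
      intro i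
      have := congrFun hx i
      simp only [Matrix.mulVecLin_apply, Matrix.mulVec, dotProduct, Pi.zero_apply] at this
      rw [← Finset.add_sum_erase _ _ (Finset.mem_univ (0 : Fin (n + 1)))] at this
      simp only [B, if_pos] at this
      refine Eq.trans ?_ this
      congr 1
      by_cases hi : p i = 0
      · rw [if_pos hi, Finset.sum_eq_zero]
        intro l hl
        simp only [Finset.mem_erase] at hl
        rw [if_neg hl.1, if_neg (hi.trans_ne (Ne.symm hl.1)), zero_mul]
      · rw [if_neg hi, Finset.sum_eq_single (p i)]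
        · rw [if_neg hi, if_pos rfl, one_mul]
        · intro l hl hne
          simp only [Finset.mem_erase] at hl
          rw [if_neg hl.1, if_neg (Ne.symm hne), zero_mul]
        · simp [hi]
    have h0 : x 0 = 0 := by
      have := hrow j
      rw [show p j = 0 from Equiv.swap_apply_right 0 j, if_pos rfl, add_zero] at this
      exact (mul_eq_zero.1 this).resolve_left hj
    funext l
    by_cases hl : l = 0
    · subst hl; exact h0
    · have := hrow (p.symm l)
      rwa [h0, mul_zero, zero_add, Equiv.apply_symm_apply, if_neg hl] at this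
  · rw [coeff_single_substHom]
    convert ha using 3
    funext i
    simp [B]

/-- A prime factor of a distinguished polynomial stays prime among power series. -/
theorem prime_coe_of_dvd {P Q : (S K n)[X]} (hP : P.IsDistinguishedAt (mI K n)) (hQ : Prime Q)
    (hdvd : Q ∣ P) : Prime (Q : PowerSeries (S K n)) := by
  have hlc : IsUnit Q.leadingCoeff := by
    refine isUnit_of_dvd_one ?_
    rw [← hP.monic.leadingCoeff]
    exact Polynomial.leadingCoeff_dvd_leadingCoeff hdvd
  set Q' := Q * Polynomial.C (hlc.unit⁻¹ : (S K n)ˣ).val with hQ'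
  have hCu : IsUnit (Polynomial.C (hlc.unit⁻¹ : (S K n)ˣ).val) :=
      Polynomial.isUnit_C.2 (Units.isUnit _)
  have hass : Associated Q Q' := ⟨hCu.unit, rfl⟩
  have hmon : Q'.Monic := by
    rw [Polynomial.Monic, hQ', Polynomial.leadingCoeff_mul, Polynomial.leadingCoeff_C,
      IsUnit.mul_val_inv]
  have hprimeQ : Prime Q' := hass.prime hQ
  have hdist : Q'.IsDistinguishedAt (mI K n) := by
    refine ⟨⟨fun {m} hm => ?_⟩, hmon⟩
    have hPX := hP.map_eq_X_pow
    have hd := Polynomial.map_dvd (Ideal.Quotient.mk (mI K n)) ((hass.symm.dvd).trans hdvd)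
    rw [hPX] at hd
    have : (mI K n).IsPrime := (IsLocalRing.maximalIdeal.isMaximal _).isPrime
    have : IsDomain (S K n ⧸ mI K n) := Ideal.Quotient.isDomain _
    obtain ⟨i, -, hi⟩ := (dvd_prime_pow Polynomial.prime_X _).1 hd
    have heq := Polynomial.eq_of_monic_of_associated (hmon.map _) (Polynomial.monic_X_pow i) hi
    have hdeg : Q'.natDegree = i := by
      have := congrArg Polynomial.natDegree heq
      rwa [hmon.natDegree_map, Polynomial.natDegree_X_pow] at this
    have hc := congrArg (fun p => Polynomial.coeff p m) heq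
    simp only [Polynomial.coeff_map, Polynomial.coeff_X_pow] at hc
    rw [if_neg (by omega)] at hc
    exact Ideal.Quotient.eq_zero_iff_mem.1 hc
  have hne : ((Q' : (S K n)[X]) : PowerSeries (S K n)) ≠ 0 := fun h0 =>
    hprimeQ.ne_zero (Polynomial.coe_eq_zero_iff.1 h0)
  have hp : Prime ((Q' : (S K n)[X]) : PowerSeries (S K n)) := by
    rw [← Ideal.span_singleton_prime hne]
    have h1 : (Ideal.span {Q'}).IsPrime :=
        (Ideal.span_singleton_prime hprimeQ.ne_zero).2 hprimeQ
    have : IsDomain ((S K n)[X] ⧸ Ideal.span {Q'}) := Ideal.Quotient.isDomain _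
    have := hdist.algEquivQuotient.symm.toMulEquiv.isDomain ((S K n)[X] ⧸ Ideal.span {Q'})
    exact (Ideal.Quotient.isDomain_iff_prime _).1 this
  exact (Associated.map Polynomial.coeToPowerSeries.ringHom hass.symm).prime hp

/-- **Formal power series over an infinite field form a unique factorisation domain.** -/
theorem isUFD [Infinite K] : ∀ n : ℕ, UniqueFactorizationMonoid (S K n) := by
  intro n
  induction n with
  | zero =>
    refine UniqueFactorizationMonoid.of_exists_prime_factors fun f hf => ⟨0, by simp, ?_⟩
    rw [Multiset.prod_zero]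
    have hu : IsUnit f := by
      rw [isUnit_iff_constantCoeff, isUnit_iff_ne_zero]
      intro h0
      refine hf (ext fun d => ?_)
      rw [Subsingleton.elim d 0, coeff_zero_eq_constantCoeff_apply, h0, map_zero]
    exact (associated_one_iff_isUnit.2 hu).symm
  | succ n ih =>
    classical
    refine UniqueFactorizationMonoid.of_exists_prime_factors fun f hf => ?_
    by_cases hu : IsUnit f
    · exact ⟨0, by simp, by rw [Multiset.prod_zero]; exact (associated_one_iff_isUnit.2 hu).symm⟩
    obtain ⟨B, k, hB, hreg⟩ := exists_regular hf hu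
    let σ : S K (n + 1) ≃ₐ[K] S K (n + 1) :=
      AlgEquiv.ofBijective (substHom (constantCoeff_linSubst B)) (bijective_linSubst hB)
    let e : S K (n + 1) ≃* PowerSeries (S K n) :=
      (σ.trans (finSuccEquiv K n)).toMulEquiv
    set g := e f with hg
    have hres : g.map (IsLocalRing.residue (S K n)) ≠ 0 := by
      intro h0
      have h1 := congrArg (PowerSeries.coeff k) h0
      rw [PowerSeries.coeff_map, map_zero, IsLocalRing.residue_eq_zero_iff, mem_mI_iff,
        ← coeff_zero_eq_constantCoeff_apply] at h1
      apply hreg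
      rw [← h1]
      show _ = coeff 0 (PowerSeries.coeff k (finSuccEquiv K n (σ f)))
      rw [coeff_coeff_finSuccEquiv]
      congr 1
      exact congrArg _ (by ext i; cases i using Fin.cases <;> simp)
    obtain ⟨P, h, H⟩ := PowerSeries.exists_isWeierstrassFactorization hres
    have hP := H.isDistinguishedAt
    obtain ⟨T, hT, hTP⟩ := UniqueFactorizationMonoid.exists_prime_factors P hP.monic.ne_zero
    have hprime : ∀ Q ∈ T, Prime ((Q : (S K n)[X]) : PowerSeries (S K n)) := fun Q hQ =>
      prime_coe_of_dvd hP (hT Q hQ) ((Multiset.dvd_prod hQ).trans hTP.dvd)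
    refine ⟨(T.map fun Q : (S K n)[X] => e.symm (Q : PowerSeries (S K n))), ?_, ?_⟩
    · intro b hb
      obtain ⟨Q, hQ, rfl⟩ := Multiset.mem_map.1 hb
      exact (MulEquiv.prime_iff e.symm).2 (hprime Q hQ)
    · have h1 : Associated ((T.map fun Q : (S K n)[X] => (Q : PowerSeries (S K n))).prod) g := by
        rw [H.eq_mul]
        refine Associated.trans ?_ ⟨H.isUnit.unit, rfl⟩
        have := hTP.map Polynomial.coeToPowerSeries.ringHom
        rw [map_multiset_prod] at this
        exact this
      have h2 := h1.map e.symm
      rw [map_multiset_prod, Multiset.map_map, hg, MulEquiv.symm_apply_apply] at h2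
      exact h2

end Fermat.Agent.AV.Series
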