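import Mathlib
import Fermat.Agent.AV.PowerSeries

/-!
# Local algebra of a standard smooth algebra at a rational point

Parameters at a rational point, the expansion as power series in the parameters, and the
principality of the ideals of denominators.
-/

noncomputable section

universe u

open MvPowerSeries
open scoped KaehlerDifferential

namespace Fermat.Agent.AV.Local

open Fermat.Agent.AV.Series

variable {K : Type u} [Field K] {n g : ℕ}

/-- The series are complete for the square of the maximal ideal. -/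
theorem isAdicComplete_sq : IsAdicComplete (mI K n ^ 2) (S K n) := by
  refine { haus' := fun x hx => eq_zero_of_forall_mem_pow fun k => ?_, prec' := fun x hx => ?_ }
  · have := hx k
    rw [SModEq.zero, smul_eq_mul, Ideal.mul_top, ← pow_mul] at this
    exact Ideal.pow_le_pow_right (by omega) this
  · have hstep : ∀ k, x (k + 1) - x k ∈ mI K n ^ (2 * k) := fun k => by
      have := hx (Nat.le_succ k)
      rw [SModEq.sub_mem, smul_eq_mul, Ideal.mul_top, ← pow_mul] at this
      rw [← neg_sub]; exact neg_mem this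
    obtain ⟨L, hL⟩ := exists_limit x
      fun k => Ideal.pow_le_pow_right (by omega) (hstep k)
    refine ⟨L, fun k => ?_⟩
    rw [SModEq.sub_mem, smul_eq_mul, Ideal.mul_top, ← pow_mul]
    have htel : x (2 * k) - x k ∈ mI K n ^ (2 * k) := by
      have hall : ∀ j, k ≤ j → x j - x k ∈ mI K n ^ (2 * k) := fun j hj => by
        induction j, hj using Nat.le_induction with
        | base => simp
        | succ j hj ih =>
          rw [← sub_add_sub_cancel (x (j + 1)) (x j) (x k)]
          exact add_mem (Ideal.pow_le_pow_right (by omega) (hstep j)) ih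
      exact hall _ (by omega)
    rw [← neg_sub]
    refine neg_mem ?_
    rw [← sub_add_sub_cancel L (x (2 * k)) (x k)]
    exact add_mem (hL _) htel

variable {B : Type u} [CommRing B] [Algebra K B] (c : B →ₐ[K] K)

/-- The ideal of a rational point. -/
abbrev mc : Ideal B := RingHom.ker c

theorem mem_mc {b : B} : b ∈ mc c ↔ c b = 0 := RingHom.mem_ker

theorem sub_mem_mc (b : B) : b - algebraMap K B (c b) ∈ mc c := by
  simp

/-- The evaluation at a rational point extends to a local homomorphism on the local ring there. -/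
theorem exists_eval_atPrime [(RingHom.ker c).IsPrime] :
    ∃ π : Localization.AtPrime (RingHom.ker c) →ₐ[K] K, IsLocalHom π.toRingHom ∧
      ∀ b, π (algebraMap B _ b) = c b := by
  have hnz : ∀ y : (RingHom.ker c).primeCompl, c y ≠ 0 := fun y h0 => y.2 (RingHom.mem_ker.2 h0)
  let π : Localization.AtPrime (RingHom.ker c) →ₐ[K] K := IsLocalization.liftAlgHom
    (M := (RingHom.ker c).primeCompl) (f := c) fun y => IsUnit.mk0 _ (hnz y)
  have hπ : ∀ b, π (algebraMap B _ b) = c b := fun b => by
    simp [π, IsLocalization.liftAlgHom_apply]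
  refine ⟨π, ⟨fun x hx => ?_⟩, hπ⟩
  obtain ⟨⟨y, t⟩, rfl⟩ := IsLocalization.mk'_surjective (RingHom.ker c).primeCompl x
  refine (IsLocalization.AtPrime.isUnit_mk'_iff _ _ y t).2 fun hy => hx.ne_zero ?_
  have he := congrArg π (IsLocalization.mk'_spec (Localization.AtPrime (RingHom.ker c)) y t)
  rw [map_mul, hπ, hπ, RingHom.mem_ker.1 hy] at he
  exact (mul_eq_zero.1 he).resolve_right (hnz t)

/-- An injective homomorphism to a field extends injectively to the local ring at a rational
point. -/
theorem exists_lift_atPrime [(RingHom.ker c).IsPrime] {L : Type u} [Field L] [Algebra K L]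
    {f : B →ₐ[K] L} (hf : Function.Injective f) :
    ∃ j : Localization.AtPrime (RingHom.ker c) →ₐ[K] L, Function.Injective j ∧
      ∀ b, j (algebraMap B _ b) = f b := by
  have hnz : ∀ y : (RingHom.ker c).primeCompl, f y ≠ 0 := fun y h0 =>
    y.2 (RingHom.mem_ker.2 (by rw [(injective_iff_map_eq_zero f).1 hf _ h0, map_zero]))
  let j : Localization.AtPrime (RingHom.ker c) →ₐ[K] L := IsLocalization.liftAlgHom
    (M := (RingHom.ker c).primeCompl) (f := f) fun y => IsUnit.mk0 _ (hnz y)
  have hj : ∀ b, j (algebraMap B _ b) = f b := fun b => by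
    simp [j, IsLocalization.liftAlgHom_apply]
  refine ⟨j, (injective_iff_map_eq_zero _).2 fun x hx => ?_, hj⟩
  obtain ⟨⟨y, t⟩, rfl⟩ := IsLocalization.mk'_surjective (RingHom.ker c).primeCompl x
  have he := congrArg j (IsLocalization.mk'_spec (Localization.AtPrime (RingHom.ker c)) y t)
  rw [map_mul, hx, zero_mul, hj] at he
  obtain rfl : y = 0 := (injective_iff_map_eq_zero f).1 hf _ he.symm
  exact IsLocalization.mk'_zero t

/-- A derivation at a rational point. -/
def IsDerAt (δ : B →ₗ[K] K) : Prop := ∀ a b, δ (a * b) = c a * δ b + c b * δ a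

/-- Parameters at a rational point: they vanish there and the derivations at the point take
all values on them. -/
def IsParams (t : Fin g → B) : Prop :=
  (∀ i, c (t i) = 0) ∧ ∀ w : Fin g → K, ∃ δ, IsDerAt c δ ∧ ∀ i, δ (t i) = w i

theorem IsDerAt.map_algebraMap {δ : B →ₗ[K] K} (hδ : IsDerAt c δ) (a : K) :
    δ (algebraMap K B a) = 0 := by
  have h1 : δ 1 = 0 := by simpa using hδ 1 1
  rw [Algebra.algebraMap_eq_smul_one, map_smul, h1, smul_zero]

section Smooth

variable [hsm : Algebra.IsStandardSmoothOfRelativeDimension g K B]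

include c in
/-- The differentials at a rational point of a smooth algebra have a basis of `g` elements. -/
theorem exists_basis (g : ℕ) [Algebra.IsStandardSmoothOfRelativeDimension g K B] :
    Nonempty (Module.Basis (Fin g) B Ω[B⁄K]) := by
  have : Algebra.IsStandardSmooth K B :=
    Algebra.IsStandardSmoothOfRelativeDimension.isStandardSmooth g
  have : Nontrivial B := c.toRingHom.domain_nontrivial
  refine ⟨Module.finBasisOfFinrankEq B Ω[B⁄K] ?_⟩
  rw [Module.finrank, Algebra.IsStandardSmoothOfRelativeDimension.rank_kaehlerDifferential g,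
    Cardinal.toNat_natCast]

/-- A chosen basis of the differentials. -/
def basis (g : ℕ) [Algebra.IsStandardSmoothOfRelativeDimension g K B] :
    Module.Basis (Fin g) B Ω[B⁄K] :=
  (exists_basis c g).some

/-- The coordinates of a differential. -/
def coord (b : B) (j : Fin g) : B := (basis c g).repr (KaehlerDifferential.D K B b) j

theorem coord_mul (a b : B) (j : Fin g) :
    coord c (a * b) j = a * coord c b j + b * coord c a j := by
  simp [coord, Derivation.leibniz]

theorem der_eq {M : Type u} [AddCommGroup M] [Module B M] [Module K M] [IsScalarTower K B M]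
    (D : Derivation K B M) (b : B) :
    D b = ∑ j, coord c b j • D.liftKaehlerDifferential (basis c g j) := by
  conv_lhs => rw [← D.liftKaehlerDifferential_comp_D b, ← (basis c g).sum_repr
    (KaehlerDifferential.D K B b)]
  simp only [map_sum, map_smul]
  rfl

/-- The derivation at the point given by values on the basis. -/
def derAt (v : Fin g → K) : B →ₗ[K] K where
  toFun b := ∑ j, c (coord c b j) * v j
  map_add' a b := by simp [coord, add_mul, Finset.sum_add_distrib]
  map_smul' r b := by
    have h : ∀ j : Fin g, c (coord c (r • b) j) = r * c (coord c b j) := fun j => by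
      rw [Algebra.smul_def, coord_mul, map_add, map_mul, map_mul, c.commutes]
      simp [coord]
    simp [h, Finset.mul_sum, mul_assoc]

theorem isDerAt_derAt (v : Fin g → K) : IsDerAt c (derAt c v) := fun a b => by
  simp [derAt, coord_mul, add_mul, Finset.sum_add_distrib, Finset.mul_sum, mul_assoc]

/-- Every derivation at the point is given by its values on the basis. -/
theorem IsDerAt.exists_eq {δ : B →ₗ[K] K} (hδ : IsDerAt c δ) :
    ∃ v : Fin g → K, δ = derAt c v := by
  let : Algebra B K := c.toRingHom.toAlgebra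
  have : IsScalarTower K B K := IsScalarTower.of_algebraMap_eq fun r => (c.commutes r).symm
  let D : Derivation K B K := Derivation.mk' δ fun a b => hδ a b
  refine ⟨fun j => D.liftKaehlerDifferential (basis c g j), LinearMap.ext fun b => ?_⟩
  exact der_eq c D b

include hsm in
/-- Parameters exist at every rational point of a smooth algebra. -/
theorem exists_params : ∃ t : Fin g → B, IsParams c t := by
  let J : B →ₗ[K] (Fin g → K) := LinearMap.pi fun j => derAt c (Pi.single j (1 : K))
  have hJ : ∀ b j, J b j = c (coord c b j) := fun b j => by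
    simp [J, derAt, Pi.single_apply]
  have hspan : ∀ ω : Ω[B⁄K], (fun j => c ((basis c g).repr ω j)) ∈ LinearMap.range J := by
    intro ω
    have hω : ω ∈ Submodule.span B (Set.range (KaehlerDifferential.D K B)) := by
      rw [KaehlerDifferential.span_range_derivation]; trivial
    induction hω using Submodule.span_induction with
    | mem x hx =>
      obtain ⟨b, rfl⟩ := hx
      exact ⟨b, funext fun j => hJ b j⟩
    | zero => exact ⟨0, by ext j; simp [hJ, coord]⟩
    | add x y _ _ hx hy =>
      obtain ⟨a, ha⟩ := hx; obtain ⟨b, hb⟩ := hy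
      exact ⟨a + b, by rw [map_add, ha, hb]; ext j; simp⟩
    | smul r x _ hx =>
      obtain ⟨a, ha⟩ := hx
      exact ⟨c r • a, by rw [map_smul, ha]; ext j; simp⟩
  choose t' ht' using fun i => hspan (basis c g i)
  refine ⟨fun i => t' i - algebraMap K B (c (t' i)), fun i => by simp, fun w => ?_⟩
  refine ⟨derAt c w, isDerAt_derAt c w, fun i => ?_⟩
  rw [map_sub, (isDerAt_derAt c w).map_algebraMap, sub_zero]
  have h : ∀ j, c (coord c (t' i) j) = if j = i then 1 else 0 := fun j => by
    have := congrFun (ht' i) j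
    rw [hJ] at this
    rw [this]
    simp [Finsupp.single_apply, eq_comm, apply_ite c]
  simp [derAt, h]

include hsm in
/-- Derivations killing parameters vanish near the point. -/
theorem exists_smul_der_eq_zero {t : Fin g → B} (ht : IsParams c t) :
    ∃ s : B, c s ≠ 0 ∧ ∀ (M : Type u) [AddCommGroup M] [Module B M] [Module K M]
      [IsScalarTower K B M] (D : Derivation K B M), (∀ i, D (t i) = 0) → ∀ b, s • D b = 0 := by
  classical
  let A : Matrix (Fin g) (Fin g) B := Matrix.of fun i j => coord c (t i) j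
  refine ⟨A.det, ?_, fun M _ _ _ _ D hD b => ?_⟩
  · have hsurj : Function.Surjective (c.toRingHom.mapMatrix A).mulVec := fun w => by
      obtain ⟨δ, hδ, hδt⟩ := ht.2 w
      obtain ⟨v, rfl⟩ := IsDerAt.exists_eq (g := g) c hδ
      exact ⟨v, funext fun i => hδt i⟩
    rw [Matrix.mulVec_surjective_iff_isUnit, Matrix.isUnit_iff_isUnit_det,
      ← RingHom.map_det] at hsurj
    exact hsurj.ne_zero
  · let v : Fin g → M := fun j => D.liftKaehlerDifferential (basis c g j)
    have hAv : ∀ i, ∑ j, A i j • v j = 0 := fun i => (der_eq c D (t i)).symm.trans (hD i)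
    have hv : ∀ k, A.det • v k = 0 := fun k => by
      have h1 : ∑ i, A.adjugate k i • ∑ j, A i j • v j = A.det • v k := by
        simp_rw [Finset.smul_sum, smul_smul]
        rw [Finset.sum_comm]
        simp_rw [← Finset.sum_smul]
        have h2 : ∀ j, (∑ i, A.adjugate k i * A i j) = if k = j then A.det else 0 := fun j => by
          rw [← Matrix.mul_apply, Matrix.adjugate_mul, Matrix.smul_apply, Matrix.one_apply]
          simp
        simp [h2, ite_smul]
      simpa [hAv] using h1.symm
    rw [der_eq (g := g) c D b, Finset.smul_sum]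
    exact Finset.sum_eq_zero fun j _ => by rw [smul_comm, hv j, smul_zero]

include hsm in
/-- Parameters generate the maximal ideal modulo its square. -/
theorem mc_le {t : Fin g → B} (ht : IsParams c t) :
    mc c ≤ Ideal.span (Set.range t) ⊔ mc c ^ 2 := by
  intro x hx
  set I := Ideal.span (Set.range t) ⊔ mc c ^ 2
  obtain ⟨s, hs, hkill⟩ := exists_smul_der_eq_zero c ht
  let q : B →ₗ[K] B ⧸ I := (Ideal.Quotient.mkₐ K I).toLinearMap ∘ₗ
    (LinearMap.id - (Algebra.linearMap K B) ∘ₗ c.toLinearMap)
  have hq : ∀ b, q b = Ideal.Quotient.mk I (b - algebraMap K B (c b)) := fun b => rfl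
  let D : Derivation K B (B ⧸ I) := Derivation.mk' q fun a b => by
    rw [hq, hq, hq, Algebra.smul_def, Algebra.smul_def, Ideal.Quotient.algebraMap_eq, ← map_mul,
      ← map_mul, ← map_add, Ideal.Quotient.eq]
    refine Ideal.mem_sup_right ?_
    rw [pow_two]
    have hid : a * b - algebraMap K B (c (a * b)) - (a * (b - algebraMap K B (c b)) +
        b * (a - algebraMap K B (c a))) =
        -((a - algebraMap K B (c a)) * (b - algebraMap K B (c b))) := by
      rw [map_mul, map_mul]; ring
    rw [hid]
    exact neg_mem (Ideal.mul_mem_mul (sub_mem_mc c a) (sub_mem_mc c b))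
  have hDt : ∀ i, D (t i) = 0 := fun i => by
    show q (t i) = 0
    rw [hq, Ideal.Quotient.eq_zero_iff_mem, ht.1 i, map_zero, sub_zero]
    exact Ideal.mem_sup_left (Ideal.subset_span ⟨i, rfl⟩)
  have := hkill (B ⧸ I) D hDt x
  change s • q x = 0 at this
  rw [hq, (mem_mc c).1 hx, map_zero, sub_zero, Algebra.smul_def, Ideal.Quotient.algebraMap_eq,
    ← map_mul, Ideal.Quotient.eq_zero_iff_mem] at this
  have h2 : algebraMap K B (c s) * x ∈ I := by
    have : algebraMap K B (c s) * x = s * x - (s - algebraMap K B (c s)) * x := by ring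
    rw [this]
    exact sub_mem ‹_› (Ideal.mem_sup_right
      (by rw [pow_two]; exact Ideal.mul_mem_mul (sub_mem_mc c s) hx))
  exact (Ideal.unit_mul_mem_iff_mem I ((IsUnit.mk0 _ hs).map (algebraMap K B))).mp h2

include hsm in
/-- Every element is a polynomial in the parameters to any given order. -/
theorem exists_poly_sub_mem {t : Fin g → B} (ht : IsParams c t) (N : ℕ) (b : B) :
    ∃ p : MvPolynomial (Fin g) K, b - MvPolynomial.aeval t p ∈ mc c ^ N := by
  have key : ∀ N, ∀ x ∈ mc c ^ N, ∃ p : MvPolynomial (Fin g) K,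
      x - MvPolynomial.aeval t p ∈ mc c ^ (N + 1) := by
    intro N
    induction N with
    | zero =>
      intro x _
      exact ⟨MvPolynomial.C (c x), by simp⟩
    | succ N ih =>
      intro x hx
      rw [pow_succ] at hx
      refine Submodule.mul_induction_on hx (fun y hy z hz => ?_) ?_
      · obtain ⟨p, hp⟩ := ih y hy
        obtain ⟨q, hq⟩ : ∃ q : MvPolynomial (Fin g) K,
            z - MvPolynomial.aeval t q ∈ mc c ^ 2 := by
          obtain ⟨z₁, hz₁, z₂, hz₂, rfl⟩ := Submodule.mem_sup.1 (mc_le c ht hz)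
          obtain ⟨a, rfl⟩ := Submodule.mem_span_range_iff_exists_fun B |>.1 hz₁
          refine ⟨∑ i, MvPolynomial.C (c (a i)) * MvPolynomial.X i, ?_⟩
          rw [map_sum, add_sub_right_comm, ← Finset.sum_sub_distrib]
          refine add_mem (sum_mem fun i _ => ?_) hz₂
          rw [map_mul, MvPolynomial.aeval_C, MvPolynomial.aeval_X, smul_eq_mul, ← sub_mul, pow_two]
          exact Ideal.mul_mem_mul (sub_mem_mc c _) ((mem_mc c).2 (ht.1 i))
        refine ⟨p * q, ?_⟩
        have hid : y * z - MvPolynomial.aeval t (p * q) =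
            (y - MvPolynomial.aeval t p) * z +
              MvPolynomial.aeval t p * (z - MvPolynomial.aeval t q) := by
          rw [map_mul]; ring
        rw [hid]
        refine add_mem ?_ ?_
        · rw [pow_succ]; exact Ideal.mul_mem_mul hp hz
        · have hpN : MvPolynomial.aeval t p ∈ mc c ^ N := by
            have : MvPolynomial.aeval t p = y - (y - MvPolynomial.aeval t p) := by ring
            rw [this]
            exact sub_mem hy (Ideal.pow_le_pow_right (Nat.le_succ N) hp)
          have := Ideal.mul_mem_mul hpN hq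
          rwa [← pow_add] at this
      · rintro x y ⟨p, hp⟩ ⟨q, hq⟩
        exact ⟨p + q, by rw [map_add, add_sub_add_comm]; exact add_mem hp hq⟩
  induction N with
  | zero => exact ⟨0, by simp⟩
  | succ N ih =>
    obtain ⟨p, hp⟩ := ih
    obtain ⟨q, hq⟩ := key N _ hp
    exact ⟨p + q, by rwa [map_add, ← sub_sub]⟩

/-- An expansion as power series in parameters. -/
structure Expansion (t : Fin g → B) where
  /-- the expansion -/
  hom : B →ₐ[K] S K g
  map_t : ∀ i, hom (t i) = X i
  const : ∀ b, constantCoeff (hom b) = c b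

include hsm in
/-- **Expansion in power series** of the parameters exists. -/
theorem exists_expansion {t : Fin g → B} (ht : IsParams c t) :
    Nonempty (Expansion c t) := by
  classical
  have : Algebra.IsStandardSmooth K B :=
    Algebra.IsStandardSmoothOfRelativeDimension.isStandardSmooth g
  choose δ hδ hδt using fun i : Fin g => ht.2 (Pi.single i (1 : K))
  set I := mI K g ^ 2
  let F : B →ₗ[K] S K g := (Algebra.linearMap K (S K g)) ∘ₗ c.toLinearMap +
    ∑ i, ((LinearMap.mulRight K (X i : S K g)) ∘ₗ (Algebra.linearMap K (S K g)) ∘ₗ δ i)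
  have hF : ∀ b, F b = algebraMap K _ (c b) + ∑ i, algebraMap K _ (δ i b) * X i := fun b => by
    simp [F]
  have hmul : ∀ a b, Ideal.Quotient.mk I (F (a * b)) =
      Ideal.Quotient.mk I (F a) * Ideal.Quotient.mk I (F b) := fun a b => by
    rw [← map_mul, Ideal.Quotient.eq]
    have hid : F (a * b) - F a * F b =
        -((∑ i, algebraMap K (S K g) (δ i a) * X i) * ∑ i, algebraMap K (S K g) (δ i b) * X i) := by
      simp only [hF, map_mul, hδ _ a b, map_add, add_mul, Finset.sum_add_distrib, mul_add,
        Finset.mul_sum, Finset.sum_mul]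
      have e1 : ∀ i, algebraMap K (S K g) (c a) * algebraMap K _ (δ i b) * X i =
          algebraMap K (S K g) (c a) * (algebraMap K _ (δ i b) * X i) := fun i => mul_assoc _ _ _
      have e2 : ∀ i, algebraMap K (S K g) (c b) * algebraMap K _ (δ i a) * X i =
          algebraMap K _ (δ i a) * X i * algebraMap K (S K g) (c b) := fun i => by ring
      simp only [e1, e2]
      ring
    rw [hid]
    refine neg_mem ?_
    show _ ∈ mI K g ^ 2
    rw [pow_two]
    exact Ideal.mul_mem_mul (sum_mem fun i _ => Ideal.mul_mem_left _ _ (X_mem_mI i))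
      (sum_mem fun i _ => Ideal.mul_mem_left _ _ (X_mem_mI i))
  have h1 : Ideal.Quotient.mk I (F 1) = 1 := by
    rw [← map_one (Ideal.Quotient.mk I)]
    congr 1
    have : ∀ i, δ i 1 = 0 := fun i => by simpa using hδ i 1 1
    simp [hF, this]
  let f : B →ₐ[K] S K g ⧸ I :=
    AlgHom.ofLinearMap ((Ideal.Quotient.mkₐ K I).toLinearMap ∘ₗ F) h1 hmul
  have : IsAdicComplete I (S K g) := isAdicComplete_sq
  obtain ⟨φ, hφ⟩ := Algebra.FormallySmooth.exists_mkₐ_comp_eq_of_isAdicComplete f
  have hφ' : ∀ b, φ b - F b ∈ I := fun b => by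
    rw [← Ideal.Quotient.eq]
    exact AlgHom.congr_fun hφ b
  have hφc : ∀ b, constantCoeff (φ b) = c b := fun b => by
    have := mem_mI_iff.1 (Ideal.pow_le_self two_ne_zero (hφ' b))
    rw [map_sub, sub_eq_zero] at this
    rw [this, hF]
    simp [MvPowerSeries.algebraMap_apply]
  have ha : ∀ i, constantCoeff (φ (t i)) = 0 := fun i => by rw [hφc, ht.1 i]
  have h2 : ∀ i, φ (t i) - X i ∈ mI K g ^ 2 := fun i => by
    have := hφ' (t i)
    rwa [hF, ht.1 i, map_zero, zero_add, Finset.sum_eq_single i (fun j _ hj => by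
      simp [hδt, Ne.symm hj]) (by simp), hδt, Pi.single_eq_same, map_one, one_mul] at this
  let e := AlgEquiv.ofBijective (substHom ha) (bijective_of_tangent ha h2)
  have he : ∀ f, constantCoeff (substHom ha f) = constantCoeff f := fun f => by
    have h := substHom_mem ha (f := f - C (constantCoeff f)) (mem_mI_iff.2 (by simp))
    rw [mem_mI_iff, map_sub, substHom_C, map_sub, sub_eq_zero] at h
    simpa using h
  refine ⟨⟨e.symm.toAlgHom.comp φ, fun i => ?_, fun b => ?_⟩⟩
  · exact e.injective ((e.apply_symm_apply _).trans (substHom_X ha i).symm)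
  · show constantCoeff (e.symm (φ b)) = c b
    rw [← he, ← hφc]
    exact congrArg constantCoeff (e.apply_symm_apply (φ b))

end Smooth

/-! ### Properties of expansions -/

variable {c} {t : Fin g → B} (ι : Expansion c t)

theorem Expansion.hom_mem {b : B} {N : ℕ} (hb : b ∈ mc c ^ N) : ι.hom b ∈ mI K g ^ N := by
  have h := Ideal.mem_map_of_mem (ι.hom : B →+* S K g) hb
  rw [Ideal.map_pow] at h
  refine Ideal.pow_right_mono (Ideal.map_le_iff_le_comap.2 fun x hx => ?_) N h
  exact mem_mI_iff.2 ((ι.const x).trans ((mem_mc c).1 hx))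

theorem Expansion.hom_aeval (p : MvPolynomial (Fin g) K) :
    ι.hom (MvPolynomial.aeval t p) = (p : S K g) := by
  rw [← AlgHom.comp_apply, MvPolynomial.comp_aeval]
  rw [show (fun i => ι.hom (t i)) = fun i => (X i : S K g) from funext ι.map_t]
  induction p using MvPolynomial.induction_on with
  | C a => simp [MvPowerSeries.algebraMap_apply]
  | add p q hp hq => simp [hp, hq]
  | mul_X p i hp => simp [hp]

/-- Every series is approximated by expansions. -/
theorem Expansion.exists_approx (f : S K g) (N : ℕ) : ∃ b, f - ι.hom b ∈ mI K g ^ N := by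
  classical
  refine ⟨MvPolynomial.aeval t (trunc' K (Finsupp.equivFunOnFinite.symm fun _ => N) f), ?_⟩
  rw [ι.hom_aeval, mem_pow_iff]
  intro d hd
  rw [map_sub, MvPolynomial.coeff_coe, coeff_trunc', if_pos, sub_self]
  intro i
  simp only [Finsupp.equivFunOnFinite_symm_apply_apply]
  have := Finsupp.le_degree i d
  omega

section Smooth

variable [hsm : Algebra.IsStandardSmoothOfRelativeDimension g K B]

include hsm in
/-- The expansion preserves the order of vanishing at the point. -/
theorem Expansion.hom_mem_iff (ht : IsParams c t) {b : B} {N : ℕ} :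
    ι.hom b ∈ mI K g ^ N ↔ b ∈ mc c ^ N := by
  classical
  refine ⟨fun hb => ?_, ι.hom_mem⟩
  obtain ⟨p, hp⟩ := exists_poly_sub_mem c ht N b
  have hpp : (p : S K g) ∈ mI K g ^ N := by
    have := sub_mem hb (ι.hom_mem hp)
    rwa [map_sub, sub_sub_cancel, ι.hom_aeval] at this
  suffices MvPolynomial.aeval t p ∈ mc c ^ N by
    simpa using add_mem hp this
  rw [p.as_sum, map_sum]
  refine sum_mem fun d hd => ?_
  rw [MvPolynomial.aeval_monomial]
  refine Ideal.mul_mem_left _ _ ?_
  have hdN : N ≤ d.degree := by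
    by_contra hlt
    have := mem_pow_iff.1 hpp d (not_le.1 hlt)
    rw [MvPolynomial.coeff_coe] at this
    exact MvPolynomial.mem_support_iff.1 hd this
  refine Ideal.pow_le_pow_right hdN ?_
  rw [Finsupp.degree_apply, ← Finset.prod_pow_eq_pow_sum]
  exact Ideal.prod_mem_prod fun i _ => Ideal.pow_mem_pow ((mem_mc c).2 (ht.1 i)) _

include hsm in
/-- An expansion is determined by the values at the parameters. -/
theorem Expansion.eq_of_forall (ht : IsParams c t) {φ ψ : B →ₐ[K] S K g}
    (hφ : ∀ b, constantCoeff (φ b) = c b) (hψ : ∀ b, constantCoeff (ψ b) = c b)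
    (h : ∀ i, φ (t i) = ψ (t i)) : φ = ψ := by
  refine AlgHom.ext fun b => sub_eq_zero.1 (eq_zero_of_forall_mem_pow fun N => ?_)
  obtain ⟨p, hp⟩ := exists_poly_sub_mem c ht N b
  have hpow : ∀ χ : B →ₐ[K] S K g, (∀ b, constantCoeff (χ b) = c b) →
      χ (b - MvPolynomial.aeval t p) ∈ mI K g ^ N := fun χ hχ => by
    have h := Ideal.mem_map_of_mem (χ : B →+* S K g) hp
    rw [Ideal.map_pow] at h
    refine Ideal.pow_right_mono (Ideal.map_le_iff_le_comap.2 fun x hx => ?_) N h
    exact mem_mI_iff.2 ((hχ x).trans ((mem_mc c).1 hx))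
  have he : φ (MvPolynomial.aeval t p) = ψ (MvPolynomial.aeval t p) := by
    rw [← AlgHom.comp_apply, ← AlgHom.comp_apply, MvPolynomial.comp_aeval,
      MvPolynomial.comp_aeval]
    simp only [h]
  have := sub_mem (hpow φ hφ) (hpow ψ hψ)
  rwa [map_sub, map_sub, he, sub_sub_sub_cancel_right] at this

end Smooth

/-- Elements vanishing at the point whose expansions have an invertible linear part are
parameters. -/
theorem Expansion.isParams_of_linear {t' : Fin g → B} (h0 : ∀ i, c (t' i) = 0)
    {M : Matrix (Fin g) (Fin g) K} (hM : IsUnit M.det)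
    (h : ∀ i, ι.hom (t' i) - linSubst M i ∈ mI K g ^ 2) : IsParams c t' := by
  classical
  refine ⟨h0, fun w => ?_⟩
  let δ : Fin g → B →ₗ[K] K := fun j =>
    (coeff (Finsupp.single j 1)).comp ι.hom.toLinearMap
  have hδ : ∀ j, IsDerAt c (δ j) := fun j a b => by
    show coeff (Finsupp.single j 1) (ι.hom (a * b)) = _
    rw [map_mul, coeff_mul, Finsupp.antidiagonal_single, Finset.sum_map,
      Finset.Nat.sum_antidiagonal_eq_sum_range_succ_mk]
    simp [Finset.sum_range_succ, δ, ι.const]
    ring
  have hδt : ∀ i j, δ j (t' i) = M i j := fun i j => by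
    show coeff (Finsupp.single j 1) (ι.hom (t' i)) = _
    have := mem_pow_iff.1 (h i) (Finsupp.single j 1) (by simp)
    rw [map_sub, sub_eq_zero] at this
    rw [this, linSubst, map_sum, Finset.sum_eq_single j]
    · simp
    · intro k _ hk
      rw [coeff_C_mul, coeff_X, if_neg, mul_zero]
      exact fun he => hk ((Finsupp.single_left_injective one_ne_zero he).symm)
    · simp
  refine ⟨∑ j, (M⁻¹.mulVec w) j • δ j, fun a b => ?_, fun i => ?_⟩
  · simp [hδ _ a b, Finset.mul_sum, ← Finset.sum_add_distrib, mul_add, mul_left_comm]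
  · have : M.mulVec (M⁻¹.mulVec w) i = w i := by
      rw [Matrix.mulVec_mulVec, Matrix.mul_nonsing_inv _ hM, Matrix.one_mulVec]
    rw [← this]
    simp [hδt, Matrix.mulVec, dotProduct, mul_comm]

/-! ### Consequences of Krull's theorem -/

/-- An element lying in `J` modulo every power of the ideal of the point lies in `J` near the
point. -/
theorem exists_mul_mem [IsNoetherianRing B] (J : Ideal B) {x : B}
    (hx : ∀ N, x ∈ J ⊔ mc c ^ N) : ∃ s, c s ≠ 0 ∧ s * x ∈ J := by
  have h : Ideal.Quotient.mk J x ∈ (⨅ i : ℕ, mc c ^ i • ⊤ : Submodule B (B ⧸ J)) := by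
    rw [Submodule.mem_iInf]
    intro i
    obtain ⟨y, hy, z, hz, rfl⟩ := Submodule.mem_sup.1 (hx i)
    rw [map_add, Ideal.Quotient.eq_zero_iff_mem.2 hy, zero_add,
      show Ideal.Quotient.mk J z = z • (1 : B ⧸ J) by rw [Algebra.smul_def, mul_one]; rfl]
    exact Submodule.smul_mem_smul hz trivial
  obtain ⟨⟨r, hr⟩, hrx⟩ := (Ideal.mem_iInf_smul_pow_eq_bot_iff _ _).1 h
  refine ⟨1 - r, by simp [(mem_mc c).1 hr], ?_⟩
  rw [← Ideal.Quotient.eq_zero_iff_mem, sub_mul, one_mul, map_sub, map_mul]
  rw [Algebra.smul_def, Ideal.Quotient.algebraMap_eq] at hrx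
  rw [hrx, sub_self]

section Smooth

variable [hsm : Algebra.IsStandardSmoothOfRelativeDimension g K B]

omit c in
include hsm in
theorem isNoetherianRing : IsNoetherianRing B := by
  have : Algebra.IsStandardSmooth K B :=
    Algebra.IsStandardSmoothOfRelativeDimension.isStandardSmooth g
  exact Algebra.FiniteType.isNoetherianRing K B

include hsm in
/-- Near the point, the expansion is injective. -/
theorem Expansion.exists_ker_killer (ht : IsParams c t) :
    ∃ s, c s ≠ 0 ∧ ∀ b, ι.hom b = 0 → s * b = 0 := by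
  classical
  have : IsNoetherianRing B := isNoetherianRing (K := K) (g := g)
  obtain ⟨G, hG⟩ := IsNoetherian.noetherian (RingHom.ker ι.hom)
  have h1 : ∀ b ∈ G, ∃ s, c s ≠ 0 ∧ s * b = 0 := fun b hb => by
    have hb0 : b ∈ RingHom.ker ι.hom := hG ▸ Submodule.subset_span hb
    obtain ⟨s, hs, hsb⟩ := exists_mul_mem (c := c) (⊥ : Ideal B) (x := b) fun N =>
      Ideal.mem_sup_right ((ι.hom_mem_iff ht).1 (by rw [RingHom.mem_ker.1 hb0]; exact zero_mem _))
    exact ⟨s, hs, by simpa using hsb⟩
  choose s hs hsb using h1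
  refine ⟨∏ b ∈ G.attach, s b.1 b.2, ?_, fun b hb => ?_⟩
  · rw [map_prod]
    exact Finset.prod_ne_zero_iff.2 fun b _ => hs _ _
  have hb' : b ∈ Submodule.span B (G : Set B) := by rw [hG]; exact hb
  clear hb
  induction hb' using Submodule.span_induction with
  | mem x hx =>
    rw [← Finset.prod_erase_mul _ _ (Finset.mem_attach G ⟨x, hx⟩), mul_assoc, hsb, mul_zero]
  | zero => simp
  | add x y hx hy ihx ihy => rw [mul_add, ihx, ihy, add_zero]
  | smul r x hx ih => rw [smul_eq_mul, mul_left_comm, ih, mul_zero]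

include hsm in
theorem Expansion.injective [IsDomain B] (ht : IsParams c t) : Function.Injective ι.hom := by
  obtain ⟨s, hs, h⟩ := ι.exists_ker_killer ht
  refine (injective_iff_map_eq_zero _).2 fun b hb => ?_
  exact (mul_eq_zero.1 (h b hb)).resolve_left fun h0 => hs (by simp [h0])

include ι hsm in
/-- **Principal denominators**: near a rational point, the denominators of a fraction `a / b`
form a principal ideal. -/
theorem Expansion.exists_denominator [Infinite K] [IsDomain B] (ht : IsParams c t) (a b : B)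
    (hb : b ≠ 0) :
    ∃ h s : B, h ≠ 0 ∧ c s ≠ 0 ∧ b ∣ h * a ∧ ∀ r, b ∣ r * a → h ∣ s * r := by
  classical
  have : IsNoetherianRing B := isNoetherianRing (K := K) (g := g)
  have : UniqueFactorizationMonoid (S K g) := isUFD g
  obtain ⟨b', a', d, hrel, hdb, hda⟩ := UniqueFactorizationMonoid.exists_reduced_factors
    (ι.hom b) ((map_ne_zero_iff _ (ι.injective ht)).2 hb) (ι.hom a)
  have hb' : b' ≠ 0 := fun h0 => by
    apply (map_ne_zero_iff _ (ι.injective ht)).2 hb
    rw [← hdb, h0, mul_zero]
  have hd : d ≠ 0 := fun h0 => by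
    apply (map_ne_zero_iff _ (ι.injective ht)).2 hb
    rw [← hdb, h0, zero_mul]
  have hdvd : ∀ r, b ∣ r * a → b' ∣ ι.hom r := fun r hr => by
    obtain ⟨q, hq⟩ := hr
    refine hrel.dvd_of_dvd_mul_right ⟨ι.hom q, mul_left_cancel₀ hd ?_⟩
    have := congrArg ι.hom hq
    rw [map_mul, map_mul, ← hdb, ← hda] at this
    linear_combination this
  obtain ⟨N, hN⟩ : ∃ N, b' ∉ mI K g ^ N := by
    by_contra hcon
    push Not at hcon
    exact hb' (eq_zero_of_forall_mem_pow hcon)
  set J : Ideal B := Ideal.span {a} ⊔ Ideal.span {b}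
  obtain ⟨k, hk⟩ := Ideal.exists_pow_inf_eq_pow_smul (mc c) (J : Submodule B B)
  obtain ⟨r₀, hr₀⟩ := ι.exists_approx b' (N + k)
  obtain ⟨q₀, hq₀⟩ := ι.exists_approx a' (N + k)
  have hmem : r₀ * a - q₀ * b ∈ mc c ^ (N + k) := by
    rw [← ι.hom_mem_iff ht]
    have hid : ι.hom (r₀ * a - q₀ * b) =
        ι.hom b * (a' - ι.hom q₀) - ι.hom a * (b' - ι.hom r₀) := by
      rw [map_sub, map_mul, map_mul, ← hdb, ← hda]; ring
    rw [hid]
    exact sub_mem (Ideal.mul_mem_left _ _ hq₀) (Ideal.mul_mem_left _ _ hr₀)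
  have hmem' : r₀ * a - q₀ * b ∈ mc c ^ N * J := by
    have h' : r₀ * a - q₀ * b ∈ (mc c ^ (N + k) • ⊤ : Submodule B B) ⊓ J := by
      refine ⟨?_, sub_mem (Ideal.mem_sup_left ?_) (Ideal.mem_sup_right ?_)⟩
      · simpa [smul_eq_mul, Ideal.mul_top] using hmem
      · exact Ideal.mem_span_singleton.2 (dvd_mul_left a r₀)
      · exact Ideal.mem_span_singleton.2 (dvd_mul_left b q₀)
    rw [hk (N + k) (Nat.le_add_left k N), Nat.add_sub_cancel] at h'
    exact Submodule.smul_mono le_rfl inf_le_right h'
  rw [Ideal.mul_sup] at hmem'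
  obtain ⟨y, hy, z, hz, hyz⟩ := Submodule.mem_sup.1 hmem'
  obtain ⟨α, hα, rfl⟩ := Ideal.mem_mul_span_singleton.1 hy
  obtain ⟨β, hβ, rfl⟩ := Ideal.mem_mul_span_singleton.1 hz
  have hha : b ∣ (r₀ - α) * a := ⟨q₀ + β, by linear_combination -hyz⟩
  obtain ⟨w, hw⟩ := hdvd _ hha
  have hsub : b' - ι.hom (r₀ - α) ∈ mI K g ^ N := by
    rw [map_sub, ← sub_add]
    exact add_mem (Ideal.pow_le_pow_right (Nat.le_add_right N k) hr₀) (ι.hom_mem hα)
  have hwu : IsUnit w := by
    by_contra hwn
    have hu : IsUnit (1 - w) := IsLocalRing.isUnit_one_sub_self_of_mem_nonunits w hwn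
    apply hN
    rw [hw, show b' - b' * w = b' * (1 - w) by ring] at hsub
    exact (Ideal.mul_unit_mem_iff_mem _ hu).mp hsub
  have hh0 : r₀ - α ≠ 0 := fun h0 => by
    rw [h0, map_zero] at hw
    exact mul_ne_zero hb' hwu.ne_zero hw.symm
  have hprinc : ∀ r, b ∣ r * a → ∃ s, c s ≠ 0 ∧ r₀ - α ∣ s * r := fun r hr => by
    obtain ⟨v, hv⟩ := hdvd r hr
    obtain ⟨q, hq⟩ : ι.hom (r₀ - α) ∣ ι.hom r := by
      rw [hw, hv]; exact mul_dvd_mul_left b' hwu.dvd
    simp_rw [← Ideal.mem_span_singleton]
    refine exists_mul_mem _ fun M => ?_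
    obtain ⟨qM, hqM⟩ := ι.exists_approx q M
    refine Submodule.mem_sup.2 ⟨(r₀ - α) * qM, Ideal.mem_span_singleton.2 (dvd_mul_right _ _),
      r - (r₀ - α) * qM, (ι.hom_mem_iff ht).1 ?_, by ring⟩
    rw [map_sub, map_mul, hq, ← mul_sub]
    exact Ideal.mul_mem_left _ _ hqM
  let I : Ideal B := Submodule.comap (LinearMap.mulRight B a) (Ideal.span {b})
  have hI : ∀ r, r ∈ I ↔ b ∣ r * a := fun r => Ideal.mem_span_singleton
  obtain ⟨G, hG⟩ := IsNoetherian.noetherian I
  choose s hs hsd using fun r (hr : r ∈ G) =>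
    hprinc r ((hI r).1 (hG ▸ Submodule.subset_span hr))
  refine ⟨r₀ - α, ∏ r ∈ G.attach, s r.1 r.2, hh0, ?_, hha, fun r hr => ?_⟩
  · rw [map_prod]
    exact Finset.prod_ne_zero_iff.2 fun b _ => hs _ _
  have hr' : r ∈ Submodule.span B (G : Set B) := hG ▸ (hI r).2 hr
  clear hr
  induction hr' using Submodule.span_induction with
  | mem x hx =>
    rw [← Finset.prod_erase_mul _ _ (Finset.mem_attach G ⟨x, hx⟩), mul_assoc]
    exact dvd_mul_of_dvd_right (hsd x hx) _
  | zero => simp
  | add x y hx hy ihx ihy => rw [mul_add]; exact dvd_add ihx ihy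
  | smul e x hx ih => rw [smul_eq_mul, mul_left_comm]; exact dvd_mul_of_dvd_right ih _

end Smooth

end Fermat.Agent.AV.Local
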