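import Fermat.Agent.AV.DegreeLower
import Fermat.Agent.AV.Divisor
import Fermat.Agent.AV.Formal

/-!
# The chart at the origin

Multiplication by an integer preserves the functions regular at the origin, the function field is
finite separable over the parameters and over their transforms under multiplication by an integer
prime to the characteristic, and the functions whose expansion at the origin is a power series
form a chart.
-/

noncomputable section

universe u

open CategoryTheory AlgebraicGeometry NeronModelInfra GoodReductionJacobian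
open Fermat.Agent.AV.Series MvPowerSeries
open scoped KaehlerDifferential

namespace Fermat.Agent.AV

theorem Series.linSubst_diagonal {K : Type u} [Field K] {n : ℕ} (d : Fin n → K) (i : Fin n) :
    Series.linSubst (Matrix.diagonal d) i = MvPowerSeries.C (d i) * MvPowerSeries.X i := by
  rw [Series.linSubst, Finset.sum_eq_single i (fun j _ hj => by
    rw [Matrix.diagonal_apply_ne _ (Ne.symm hj), map_zero, zero_mul])
    (fun h => absurd (Finset.mem_univ i) h), Matrix.diagonal_apply_eq]

namespace SmoothAV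

variable {K : Type u} [Field K] [IsAlgClosed K] {g : ℕ} (X : SmoothAV K g)

/-- The origin as the centre of the tautological series point. -/
def origin : X.A := X.centre X.theta

omit [IsAlgClosed K] in
theorem origin_eq : X.origin = X.centre (0 : X.Pt K) := by
  rw [origin, ← X.centre_map (constHom K g) X.theta]
  exact congrArg X.centre (X.theta_mem :)

omit [IsAlgClosed K] in
theorem origin_mem : X.origin ∈ X.U₀ := X.origin_eq ▸ X.centre_zero_mem

theorem algebraMap_mem_origin (b : X.B₀) : algebraMap X.B₀ X.FF b ∈ X.loc X.origin := by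
  have := X.mem_loc X.origin_mem b
  rwa [show X.etaEval X.U₀ ⟨_, X.origin_mem⟩ b = algebraMap X.B₀ X.FF b from X.eval_eta b] at this

theorem exists_frac_origin {f : X.FF} (hf : f ∈ X.loc X.origin) : ∃ a b : X.B₀,
    X.c₀ b ≠ 0 ∧ f * algebraMap X.B₀ X.FF b = algebraMap X.B₀ X.FF a := by
  obtain ⟨a, s, hs, h⟩ := X.exists_frac X.isAffine_U₀ X.origin_mem hf
  refine ⟨a, s, ?_, (congrArg (f * ·) (X.eval_eta s).symm).trans (h.trans (X.eval_eta a))⟩
  rw [X.origin_eq, X.mem_basicOpen_iff (0 : X.Pt K) X.zero_inOpen] at hs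
  exact hs.ne_zero

theorem mem_origin_of_frac {f : X.FF} {a b : X.B₀} (hb : X.c₀ b ≠ 0)
    (h : f * algebraMap X.B₀ X.FF b = algebraMap X.B₀ X.FF a) : f ∈ X.loc X.origin := by
  refine X.mem_loc_of_frac X.origin_mem (a := a) (s := b) ?_
    ((congrArg (f * ·) (X.eval_eta b)).trans (h.trans (X.eval_eta a).symm))
  rw [X.origin_eq, X.mem_basicOpen_iff (0 : X.Pt K) X.zero_inOpen]
  exact IsUnit.mk0 _ hb

/-- The expansion of local functions at the origin. -/
def iota : X.loc X.origin →ₐ[K] S K g := X.evalLoc X.theta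

theorem expand_coe (f : X.loc X.origin) :
    X.expand f = algebraMap (S K g) (FractionRing (S K g)) (X.iota f) := by
  obtain ⟨O, hO, s, hs⟩ := f.2
  have hη : X.InOpen X.eta O := Generic.inOpen X X.generic_eta ⟨_, hO⟩
  rw [show X.iota f = _ from X.evalLoc_eq X.theta f hO s hs, ← hs]
  show X.expand (X.eval X.eta O hη s) = _
  rw [← X.eval_map X.eta X.expand O hη (AVData.InOpen.map _ hη _)]
  simp_rw [map_expand_eta]
  rw [X.eval_map X.theta _ O ((X.inOpen_iff).2 hO)]
  rfl

theorem iota_algebraMap (b : X.B₀) :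
    X.iota ⟨algebraMap X.B₀ X.FF b, X.algebraMap_mem_origin b⟩ = X.ι₀.hom b := by
  apply IsFractionRing.injective (S K g) (FractionRing (S K g))
  rw [← expand_coe, expand_algebraMap]

theorem u_mem_origin (l : Fin g) : X.u l ∈ X.loc X.origin := X.algebraMap_mem_origin _

theorem iota_u (l : Fin g) : X.iota ⟨X.u l, X.u_mem_origin l⟩ = MvPowerSeries.X l :=
  (X.iota_algebraMap _).trans (X.ι₀.map_t l)

/-- Multiplication by `n` preserves the local ring at the origin. -/
theorem mulMap_mem_origin {n : ℤ} (hn : (n : K) ≠ 0) {f : X.FF} (hf : f ∈ X.loc X.origin) :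
    X.mulMap n hn f ∈ X.loc X.origin := by
  obtain ⟨a, b, hb, h⟩ := X.exists_frac_origin hf
  have hP : (RingHom.ker X.c₀).IsPrime := RingHom.ker_isPrime _
  set R₀ := Localization.AtPrime (RingHom.ker X.c₀)
  obtain ⟨π, hπloc, hπ⟩ := Local.exists_eval_atPrime X.c₀
  obtain ⟨j, -, hj⟩ := Local.exists_lift_atPrime X.c₀
    (f := IsScalarTower.toAlgHom K X.B₀ X.FF) (IsFractionRing.injective X.B₀ X.FF)
  let Q : X.Pt R₀ := n • X.ofAlgHom X.isAffine_U₀ (IsScalarTower.toAlgHom K X.B₀ R₀)
  have hπQ : X.map π Q = 0 := by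
    rw [map_zsmul, X.map_ofAlgHom, X.eq_ofAlgHom (0 : X.Pt K) X.isAffine_U₀ X.zero_inOpen]
    rw [show π.comp (IsScalarTower.toAlgHom K X.B₀ R₀) = X.evalAlg 0 X.U₀ X.zero_inOpen from
      AlgHom.ext hπ, ← X.eq_ofAlgHom (0 : X.Pt K) X.isAffine_U₀ X.zero_inOpen, smul_zero]
  have hjQ : X.map j Q = n • X.eta := by
    rw [map_zsmul, X.map_ofAlgHom, eta]
    congr 2
    exact AlgHom.ext hj
  have hQ := X.inOpen_of_map_zero π hπQ
  have hg := Generic.inOpen X (X.generic_zsmul_eta hn) X.nonempty_U₀
  have hval : ∀ y, X.mulMap n hn (algebraMap X.B₀ X.FF y) = j (X.eval Q X.U₀ hQ y) := fun y => by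
    rw [mulMap, genMap_algebraMap, ← X.eval_map Q j X.U₀ hQ (AVData.InOpen.map _ hQ _)]
    simp_rw [hjQ]
  have hu : IsUnit (X.eval Q X.U₀ hQ b) := by
    refine IsUnit.of_map π.toRingHom _ (IsUnit.mk0 _ ?_)
    show π (X.eval Q X.U₀ hQ b) ≠ 0
    rw [← X.eval_map Q π X.U₀ hQ (AVData.InOpen.map _ hQ _)]
    simp_rw [hπQ]
    exact hb
  obtain ⟨w, hw⟩ := hu
  have heq : X.mulMap n hn f = j (X.eval Q X.U₀ hQ a * ↑w⁻¹) := by
    have h' := congrArg (X.mulMap n hn) h
    rw [map_mul, hval, hval, ← hw] at h'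
    rw [map_mul, ← h', mul_assoc, ← map_mul, Units.mul_inv, map_one, mul_one]
  rw [heq]
  obtain ⟨⟨y, t⟩, ht⟩ := IsLocalization.surj (RingHom.ker X.c₀).primeCompl
    (X.eval Q X.U₀ hQ a * ↑w⁻¹)
  have h' := congrArg j ht
  rw [map_mul, hj, hj] at h'
  exact X.mem_origin_of_frac (fun h0 => t.2 (RingHom.mem_ker.2 h0)) h'

theorem iota_mulMap {n : ℤ} (hn : (n : K) ≠ 0) (f : X.loc X.origin) :
    X.iota ⟨X.mulMap n hn f, X.mulMap_mem_origin hn f.2⟩ = X.mulSubst n (X.iota f) := by
  obtain ⟨a, b, hb, h⟩ := X.exists_frac_origin f.2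
  have hι : X.iota f * X.ι₀.hom b = X.ι₀.hom a := by
    rw [← iota_algebraMap, ← iota_algebraMap, ← map_mul]
    exact congrArg X.iota (Subtype.ext h)
  apply IsFractionRing.injective (S K g) (FractionRing (S K g))
  rw [← expand_coe]
  have h' := congrArg X.expand (congrArg (X.mulMap n hn) h)
  rw [map_mul, map_mul, expand_mulMap, expand_mulMap, ← hι, map_mul, map_mul] at h'
  refine mul_right_cancel₀ ((map_ne_zero_iff _ (IsFractionRing.injective (S K g) _)).2
    ((map_ne_zero_iff _ (X.bijective_mulSubst n hn).1).2 fun h0 => hb ?_)) h'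
  rw [← X.ι₀.const, h0, map_zero]

/-! ### Finiteness and separability -/

/-- The function field is finite separable over a field containing parameters at the origin. -/
theorem finite_separable_of_isParams (E : IntermediateField K X.FF) (a b : Fin g → X.B₀)
    (ha : Local.IsParams X.c₀ a) (hb : ∀ i, X.c₀ (b i) ≠ 0)
    (h : ∀ i, ∃ f ∈ E, f * algebraMap X.B₀ X.FF (b i) = algebraMap X.B₀ X.FF (a i)) :
    FiniteDimensional E X.FF ∧ Algebra.IsSeparable E X.FF := by
  classical
  choose f hfE hf using h
  have : Algebra.IsStandardSmooth K X.B₀ :=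
    Algebra.IsStandardSmoothOfRelativeDimension.isStandardSmooth g
  have : Algebra.EssFiniteType X.B₀ X.FF :=
    Algebra.EssFiniteType.of_isLocalization X.FF (nonZeroDivisors X.B₀)
  have : Algebra.EssFiniteType K X.FF := Algebra.EssFiniteType.comp K X.B₀ X.FF
  have : Algebra.EssFiniteType E X.FF := Algebra.EssFiniteType.of_comp K E X.FF
  let D := KaehlerDifferential.D E X.FF
  let D' : Derivation K X.B₀ (Ω[X.FF⁄E]) := (D.restrictScalars K).compAlgebraMap X.B₀
  let ω : Fin g → Ω[X.FF⁄E] := fun j => D'.liftKaehlerDifferential (Local.basis X.c₀ g j)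
  have hD' : ∀ y, D' y = ∑ j, Local.coord X.c₀ y j • ω j := Local.der_eq X.c₀ D'
  let A : Matrix (Fin g) (Fin g) X.B₀ := Matrix.of fun i j =>
    b i * Local.coord X.c₀ (a i) j - a i * Local.coord X.c₀ (b i) j
  have hrel : ∀ i, ∑ j, A i j • ω j = 0 := fun i => by
    simp only [A, Matrix.of_apply, sub_smul, Finset.sum_sub_distrib, mul_smul, ← Finset.smul_sum,
      ← hD']
    show b i • D (algebraMap X.B₀ X.FF (a i)) - a i • D (algebraMap X.B₀ X.FF (b i)) = 0
    have h0 : D (f i) = 0 := D.map_algebraMap ⟨f i, hfE i⟩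
    rw [← algebraMap_smul X.FF (b i) (D _), ← algebraMap_smul X.FF (a i) (D _), ← hf i,
      D.leibniz, h0, smul_zero, add_zero, smul_smul, mul_comm (algebraMap _ _ (b i)), sub_self]
  have hdet : X.c₀ A.det ≠ 0 := by
    have hsurj : Function.Surjective (X.c₀.toRingHom.mapMatrix A).mulVec := fun w => by
      obtain ⟨δ, hδ, hδt⟩ := ha.2 fun i => w i / X.c₀ (b i)
      obtain ⟨v, rfl⟩ := Local.IsDerAt.exists_eq (g := g) X.c₀ hδ
      refine ⟨v, funext fun i => ?_⟩
      have hi : ∑ j, X.c₀ (Local.coord X.c₀ (a i) j) * v j = w i / X.c₀ (b i) := hδt i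
      simp only [Matrix.mulVec, dotProduct, RingHom.mapMatrix_apply, Matrix.map_apply, A,
        Matrix.of_apply, AlgHom.toRingHom_eq_coe, RingHom.coe_coe, map_sub, map_mul, ha.1 i,
        zero_mul, sub_zero, mul_assoc, ← Finset.mul_sum, hi]
      field_simp [hb i]
    rw [Matrix.mulVec_surjective_iff_isUnit, Matrix.isUnit_iff_isUnit_det,
      ← RingHom.map_det] at hsurj
    exact hsurj.ne_zero
  have hω : ∀ k, ω k = 0 := fun k => by
    have h1 : ∑ i, A.adjugate k i • ∑ j, A i j • ω j = A.det • ω k := by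
      simp_rw [Finset.smul_sum, smul_smul]
      rw [Finset.sum_comm]
      simp_rw [← Finset.sum_smul]
      have h2 : ∀ j, (∑ i, A.adjugate k i * A i j) = if k = j then A.det else 0 := fun j => by
        rw [← Matrix.mul_apply, Matrix.adjugate_mul, Matrix.smul_apply, Matrix.one_apply]
        simp
      simp [h2, ite_smul]
    simp only [hrel, smul_zero, Finset.sum_const_zero] at h1
    rw [← algebraMap_smul X.FF A.det (ω k)] at h1
    refine (smul_eq_zero.1 h1.symm).resolve_left ?_
    exact (map_ne_zero_iff _ (IsFractionRing.injective X.B₀ X.FF)).2 fun h0 => hdet (by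
      rw [h0, map_zero])
  have hB : ∀ y, D (algebraMap X.B₀ X.FF y) = 0 := fun y => by
    show D' y = 0
    simp [hD', hω]
  have hD : ∀ x, D x = 0 := fun x => by
    obtain ⟨p, q, -, rfl⟩ := IsFractionRing.div_surjective X.B₀ x
    rw [Derivation.leibniz_div, hB, hB]
    simp
  have : Algebra.FormallyUnramified E X.FF := by
    refine ⟨subsingleton_of_forall_eq 0 fun x => ?_⟩
    have hx : x ∈ Submodule.span X.FF (Set.range D) := by
      rw [KaehlerDifferential.span_range_derivation]; trivial
    rw [show Set.range D = {0} from Set.eq_singleton_iff_unique_mem.2 ⟨⟨0, map_zero D⟩, by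
      rintro _ ⟨x, rfl⟩; exact hD x⟩] at hx
    simpa using hx
  exact ⟨Algebra.FormallyUnramified.finite_of_free E X.FF,
    Algebra.FormallyUnramified.isSeparable E X.FF⟩

theorem finite_separable_adjoin_u :
    FiniteDimensional (IntermediateField.adjoin K (Set.range X.u)) X.FF ∧
      Algebra.IsSeparable (IntermediateField.adjoin K (Set.range X.u)) X.FF :=
  X.finite_separable_of_isParams _ X.par (fun _ => 1) X.isParams_par (fun _ => by simp) fun i =>
    ⟨X.u i, IntermediateField.subset_adjoin _ _ ⟨i, rfl⟩, by simp [u]⟩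

/-- Multiplication by `n` invertible in `K` is finite and separable on functions. -/
theorem finite_separable_mulMap {n : ℤ} (hn : (n : K) ≠ 0) :
    FiniteDimensional (X.mulMap n hn).fieldRange X.FF ∧
      Algebra.IsSeparable (X.mulMap n hn).fieldRange X.FF := by
  choose a b hb h using fun i => X.exists_frac_origin (X.mulMap_mem_origin hn (X.u_mem_origin i))
  have hι : ∀ i, X.formalCoord (X.thetaMul n) i * X.ι₀.hom (b i) = X.ι₀.hom (a i) := fun i => by
    have h1 : X.iota ⟨X.mulMap n hn (X.u i), X.mulMap_mem_origin hn (X.u_mem_origin i)⟩ =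
        X.formalCoord (X.thetaMul n) i := by
      rw [X.iota_mulMap hn ⟨X.u i, X.u_mem_origin i⟩, iota_u, mulSubst, substHom_X]
    rw [← h1, ← iota_algebraMap, ← iota_algebraMap, ← map_mul]
    exact congrArg X.iota (Subtype.ext (h i))
  refine X.finite_separable_of_isParams _ a b
    (X.ι₀.isParams_of_linear (M := Matrix.diagonal fun i => X.c₀ (b i) * (n : K)) (fun i => ?_)
      ?_ fun i => ?_) hb fun i => ⟨_, ⟨X.u i, rfl⟩, h i⟩
  · rw [← X.ι₀.const, ← hι, map_mul, X.const_formalCoord, zero_mul]
  · rw [Matrix.det_diagonal, isUnit_iff_ne_zero]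
    exact Finset.prod_ne_zero_iff.2 fun i _ => mul_ne_zero (hb i) hn
  · have h1 := X.formalCoord_sub_mem n i
    rw [Matrix.scalar_apply, linSubst_diagonal] at h1
    rw [linSubst_diagonal, ← hι, map_mul]
    have hid : X.formalCoord (X.thetaMul n) i * X.ι₀.hom (b i) -
        C (X.c₀ (b i)) * C (n : K) * MvPowerSeries.X i =
        (X.formalCoord (X.thetaMul n) i - C (n : K) * MvPowerSeries.X i) * X.ι₀.hom (b i) +
          C (n : K) * (MvPowerSeries.X i * (X.ι₀.hom (b i) - C (X.c₀ (b i)))) := by ring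
    rw [hid]
    refine add_mem (Ideal.mul_mem_right _ _ h1) (Ideal.mul_mem_left _ _ ?_)
    rw [pow_two]
    exact Ideal.mul_mem_mul (X_mem_mI i) (mem_mI_iff.2 (by simp [X.ι₀.const]))

/-! ### The chart -/

/-- The functions whose expansion at the origin is a power series. -/
def regR : Subalgebra K X.FF :=
  (IsScalarTower.toAlgHom K (Series.S K g) (FractionRing (Series.S K g))).range.comap X.expand

theorem mem_regR {f : X.FF} : f ∈ X.regR ↔
    ∃ s : Series.S K g, algebraMap (Series.S K g) (FractionRing (Series.S K g)) s = X.expand f :=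
  Iff.rfl

/-- The expansion of such a function. -/
def regIota : X.regR →ₐ[K] Series.S K g :=
  (AlgEquiv.ofInjective (IsScalarTower.toAlgHom K (Series.S K g) (FractionRing (Series.S K g)))
    (IsFractionRing.injective _ _)).symm.toAlgHom.comp
    ((X.expand.comp X.regR.val).codRestrict _ fun f => f.2)

theorem algebraMap_regIota (r : X.regR) :
    algebraMap (Series.S K g) (FractionRing (Series.S K g)) (X.regIota r) = X.expand r := by
  have h := (AlgEquiv.ofInjective (IsScalarTower.toAlgHom K (Series.S K g)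
    (FractionRing (Series.S K g))) (IsFractionRing.injective _ _)).apply_symm_apply
    ((X.expand.comp X.regR.val).codRestrict _ (fun f => f.2) r)
  exact congrArg Subtype.val h

theorem regIota_eq {r : X.regR} {s : Series.S K g}
    (h : algebraMap (Series.S K g) (FractionRing (Series.S K g)) s = X.expand r) :
    X.regIota r = s :=
  IsFractionRing.injective (Series.S K g) _ ((X.algebraMap_regIota r).trans h.symm)

theorem algebraMap_mem_regR (b : X.B₀) : algebraMap X.B₀ X.FF b ∈ X.regR :=
  (X.mem_regR).2 ⟨X.ι₀.hom b, (X.expand_algebraMap b).symm⟩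

theorem regIota_algebraMap (b : X.B₀) :
    X.regIota ⟨_, X.algebraMap_mem_regR b⟩ = X.ι₀.hom b :=
  X.regIota_eq (X.expand_algebraMap b).symm

theorem regIota_injective : Function.Injective X.regIota := fun a b h =>
  Subtype.ext (X.expand.toRingHom.injective (by
    show X.expand a = X.expand b
    rw [← X.algebraMap_regIota, ← X.algebraMap_regIota, h]))

/-- The chart at the origin: the functions whose expansion there is a power series. -/
def chart : Chart K X.FF g where
  R := X.regR
  frac f := by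
    obtain ⟨a, b, hb, rfl⟩ := IsFractionRing.div_surjective X.B₀ f
    have hb' : algebraMap X.B₀ X.FF b ≠ 0 := IsFractionRing.to_map_ne_zero_of_mem_nonZeroDivisors hb
    exact ⟨⟨_, X.algebraMap_mem_regR a⟩, ⟨_, X.algebraMap_mem_regR b⟩, hb',
      div_mul_cancel₀ _ hb'⟩
  u l := ⟨X.u l, X.algebraMap_mem_regR _⟩
  iota := X.regIota
  injective := X.regIota_injective
  iota_u l := (X.regIota_algebraMap (X.par l)).trans (X.ι₀.map_t l)
  finite := X.finite_separable_adjoin_u.1

end SmoothAV

end Fermat.Agent.AV
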