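import Fermat.Agent.AV.DegreeUpper
import Fermat.Agent.AV.Height
import Fermat.Agent.AV.Origin

/-!
# The curve of the upper bound for multiplication by `n`

The point of the generic germ of a curve at the origin has value zero at the series place, so
heights bound the poles at its multiples.
-/

noncomputable section

universe u

open CategoryTheory AlgebraicGeometry NeronModelInfra GoodReductionJacobian AlgebraicCurve
open Fermat.Agent.FF (IsFunctionField)
open MvPowerSeries

namespace Fermat.Agent.AV

section Germ

variable {K : Type u} [Field K] {g : ℕ}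

/-- The germ preserves constant terms. -/
theorem constantCoeff_germDir (f : Series.S K g) :
    PowerSeries.constantCoeff (germ (germDir K g) f) =
      algebraMap K (germConst K g) (MvPowerSeries.constantCoeff f) := by
  set c := MvPowerSeries.constantCoeff f
  have h := (germ_coeff_eq_zero_iff (algebraicIndependent_germDir K g) (N := 1)
    (f := f - algebraMap K (Series.S K g) c)).2 (fun d hd => ?_) 0 one_pos
  · rw [map_sub, AlgHom.commutes, map_sub, sub_eq_zero, PowerSeries.coeff_zero_eq_constantCoeff]
      at h
    rw [h, PowerSeries.algebraMap_apply, PowerSeries.constantCoeff_C]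
  · obtain rfl : d = 0 := (Finsupp.degree_eq_zero_iff d).1 (by omega)
    rw [MvPowerSeries.coeff_zero_eq_constantCoeff_apply, map_sub]
    simp [MvPowerSeries.algebraMap_apply, c]

namespace Chart

variable {F : Type u} [Field F] [Algebra K F] (C : Chart K F g)

/-- The germs on the curve, as a homomorphism of algebras. -/
def curveHom : F →ₐ[K] C.curve where
  toFun := C.toCurve
  map_one' := Subtype.ext (map_one C.toGerm)
  map_mul' a b := Subtype.ext (map_mul C.toGerm a b)
  map_zero' := Subtype.ext (map_zero C.toGerm)
  map_add' a b := Subtype.ext (map_add C.toGerm a b)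
  commutes' c := Subtype.ext (C.toGerm.commutes c)

end Chart

end Germ

namespace SmoothAV

variable {K : Type u} [Field K] [IsAlgClosed K] {g : ℕ} (X : SmoothAV K g)

omit [IsAlgClosed K] in
/-- The origin has value zero along the germ of a chart centred at the origin. -/
theorem valuePt_germ {k' : Type u} [Field k'] [Algebra K k'] [IsAlgClosed k']
    (E : IntermediateField k' (LaurentSeries k')) (hU : lvar k' ∈ E) [IsFunctionField k' E]
    (ψ : X.FF →ₐ[K] E) (hψ : ∀ b : X.B₀, ∃ f : PowerSeries k',
      HahnSeries.ofPowerSeries ℤ k' f = (ψ (algebraMap X.B₀ X.FF b) : LaurentSeries k') ∧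
        PowerSeries.constantCoeff f = algebraMap K k' (X.c₀ b)) :
    X.valuePt (seriesPlace E hU) (X.map ψ X.eta) = 0 :=
  X.valuePt_map_eta _ ψ fun b => by
    obtain ⟨f, hf, hc⟩ := hψ b
    obtain ⟨h, hv⟩ := valueHom_seriesPlace E hU hf
    exact ⟨h, hv.trans hc⟩

/-- The point of the generic germ. -/
abbrev curvePt : X.Pt X.chart.curve := X.map X.chart.curveHom X.eta

/-- The height of the generic germ. -/
def height [NeZero g] : ℕ := (X.ht (germConst K g) X.curvePt).toNat

theorem valuePt_curvePt [NeZero g] :
    X.valuePt (seriesPlace X.chart.curve X.chart.lvar_mem_curve)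
        X.curvePt =
      0 :=
  X.valuePt_germ _ _ _ fun b => ⟨germ (germDir K g) (X.ι₀.hom b),
    ((congrArg (fun s => HahnSeries.ofPowerSeries ℤ (germConst K g) (germ (germDir K g) s))
      (X.regIota_algebraMap b).symm).trans
      (X.chart.germField_apply _ X.chart.injective
        ⟨_, X.algebraMap_mem_regR b⟩).symm), by
    rw [constantCoeff_germDir, X.ι₀.const]⟩

theorem mulMap_u_mem {n : ℤ} (hn : (n : K) ≠ 0) (l : Fin g) : X.mulMap n hn (X.u l) ∈ X.regR :=
  (X.mem_regR).2 ⟨_, (X.expand_mulMap n hn (X.par l)).symm⟩

/-- **The upper bound.** -/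
theorem finrank_mulMap_le [NeZero g] {n : ℕ} (hn : ((n : ℤ) : K) ≠ 0)
    [FiniteDimensional (X.mulMap n hn).fieldRange X.FF] :
    Module.finrank (X.mulMap n hn).fieldRange X.FF ≤ ((g * X.height + 1) * n ^ 2) ^ g :=
  X.chart.finrank_le (X.mulMap n hn) (fun l => X.mulMap_u_mem hn l) n X.height
    (Nat.pos_of_ne_zero fun h => hn (by simp [h]))
    fun l => X.degree_poleDiv_mulMap_le _ X.chart.curveHom X.valuePt_curvePt hn l

end SmoothAV

end Fermat.Agent.AV
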