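import Fermat.Agent.AV.CurveDiv
import Fermat.Agent.FF.Extension

/-!
# The polar pullback under a finite extension of function fields

Places over a place, and the degree and effective divisor of the image of a point.
-/

noncomputable section

universe u

open CategoryTheory AlgebraicGeometry NeronModelInfra GoodReductionJacobian AlgebraicCurve
open Fermat.Agent.FF (IsFunctionField)

namespace Fermat.Agent.AV

namespace SmoothAV

variable {K : Type u} [Field K] [IsAlgClosed K] {g : ℕ} (X : SmoothAV K g)
variable {k M M' : Type u} [Field k] [Algebra K k] [Field M] [Algebra k M] [Algebra K M]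
  [IsScalarTower K k M] [Field M'] [Algebra k M'] [Algebra K M'] [IsScalarTower K k M']
  [Algebra M M'] [IsScalarTower k M M'] [IsScalarTower K M M'] [FiniteDimensional M M']

/-- The inclusion of the valuation ring of the place below. -/
def pullbackIncl (l : Place k M') : (l.restrict M).toValuationSubring →ₐ[K]
    l.toValuationSubring where
  toRingHom := Place.restrictInclusion M l
  commutes' r := Subtype.ext (IsScalarTower.algebraMap_apply k M M' (algebraMap K k r)).symm

omit [IsAlgClosed K] in
theorem pullback_liftAt (R : X.Pt M) (l : Place k M') :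
    X.liftAt l (X.map (IsScalarTower.toAlgHom K M M') R) =
      X.map (pullbackIncl l) (X.liftAt (l.restrict M) R) := by
  refine (X.eq_liftAt ?_).symm
  conv_rhs => rw [← X.map_liftAt (l.restrict M) R, X.map_map]
  rw [X.map_map]
  congr 1

omit [IsAlgClosed K] [FiniteDimensional M M'] in
theorem pullback_centre_mem {R : X.Pt M} {O : X.A.Opens} (h : X.centre R ∈ O) :
    X.centre (X.map (IsScalarTower.toAlgHom K M M') R) ∈ O :=
  (X.centre_map_specializes _ R).mem_open O.2 h

omit [IsAlgClosed K] in
theorem pullback_centre_liftAt_mem {R : X.Pt M} (l : Place k M') {O : X.A.Opens}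
    (h : X.centre (X.liftAt (l.restrict M) R) ∈ O) :
    X.centre (X.liftAt l (X.map (IsScalarTower.toAlgHom K M M') R)) ∈ O := by
  rw [X.pullback_liftAt R l]
  exact (X.centre_map_specializes _ _).mem_open O.2 h

theorem pullback_dfun (a : X.Piece) (R : X.Pt M) (ha : X.centre R ∈ a.O) (l : Place k M') :
    X.dfun a (X.map (IsScalarTower.toAlgHom K M M') R) (X.pullback_centre_mem ha) l =
      (l.ramificationIndex M : ℤ) * X.dfun a R ha (l.restrict M) := by
  have hb := X.mem_piece (X.centre (X.liftAt (l.restrict M) R))
  rw [X.dfun_eq a _ _ (X.pullback_centre_liftAt_mem l hb), X.dfun_eq a R ha hb, ← l.ord_restrict]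
  exact congrArg l.ord (X.map_ratio (IsScalarTower.toAlgHom K M M') R _ a _ ha).symm

variable [IsAlgClosed k] [IsFunctionField k M] [IsFunctionField k M']

theorem pullback_dDiv (a : X.Piece) (R : X.Pt M) (ha : X.centre R ∈ a.O) :
    X.dDiv (k := k) a (X.map (IsScalarTower.toAlgHom K M M') R) (X.pullback_centre_mem ha) =
      Divisor.pullback M' (X.dDiv a R ha) := by
  ext l
  rw [Divisor.pullback_apply, dDiv_apply, dDiv_apply, pullback_dfun]

/-- The degree multiplies by the degree of the extension. -/
theorem degPt_map (R : X.Pt M) :
    X.degPt k (X.map (IsScalarTower.toAlgHom K M M') R) =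
      (Module.finrank M M' : ℤ) * X.degPt k R := by
  rw [← X.degree_dDiv (X.piece (X.centre R)) _ (X.pullback_centre_mem (X.mem_piece (X.centre R))),
    X.pullback_dDiv _ R (X.mem_piece _), Divisor.degree_pullback, X.degree_dDiv]

end SmoothAV

end Fermat.Agent.AV
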