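import Fermat.Agent.AV.DegreeLower
import Fermat.Agent.AV.MulChart
import Fermat.Agent.AV.Pullback

/-!
# The curve of the lower bound for multiplication by `n`

The germ divided by `n` lies on a curve over the generic germ; its conjugates differ from it by
torsion points, so the effective polar divisor gives local equations at the conjugate places.
-/

noncomputable section

universe u

open CategoryTheory AlgebraicGeometry NeronModelInfra GoodReductionJacobian AlgebraicCurve
open Fermat.Agent.FF (IsFunctionField)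
open MvPowerSeries

namespace Fermat.Agent.AV

namespace Chart

variable {K F : Type u} [Field K] [Field F] [Algebra K F] {g : ℕ} (C : Chart K F g)
  (ι' : C.R →ₐ[K] Series.S K g) (hι' : Function.Injective ι')

/-- The germs on the conjugate curve, as a homomorphism of algebras. -/
def curveHom' : F →ₐ[K] C.curve' ι' hι' where
  toFun := C.toCurve' ι' hι'
  map_one' := Subtype.ext (map_one (C.germField ι' hι'))
  map_mul' a b := Subtype.ext (map_mul (C.germField ι' hι') a b)
  map_zero' := Subtype.ext (map_zero (C.germField ι' hι'))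
  map_add' a b := Subtype.ext (map_add (C.germField ι' hι') a b)
  commutes' c := Subtype.ext ((C.germField ι' hι').commutes c)

end Chart

namespace SmoothAV

variable {K : Type u} [Field K] [IsAlgClosed K] {g : ℕ} (X : SmoothAV K g)

omit [IsAlgClosed K] in
theorem constantCoeff_mulSubst (n : ℤ) (f : Series.S K g) :
    constantCoeff (X.mulSubst n f) = constantCoeff f := by
  have hm := Series.substHom_mem (X.const_formalCoord (X.thetaMul n))
    (f := f - MvPowerSeries.C (constantCoeff f)) (Series.mem_mI_iff.2 (by simp))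
  rw [Series.mem_mI_iff, map_sub, Series.substHom_C, map_sub, sub_eq_zero, constantCoeff_C] at hm
  exact hm

omit [IsAlgClosed K] in
/-- Homomorphisms of the function field which agree on the chart are equal. -/
theorem algHom_ext_B₀ {L : Type u} [CommRing L] [Algebra K L] (φ ψ : X.FF →ₐ[K] L)
    (h : ∀ b, φ (algebraMap X.B₀ X.FF b) = ψ (algebraMap X.B₀ X.FF b)) (f : X.FF) : φ f = ψ f :=
  RingHom.congr_fun (IsLocalization.ringHom_ext (nonZeroDivisors X.B₀) (RingHom.ext h) :
    φ.toRingHom = ψ.toRingHom) f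

variable {n : ℤ} (hn : (n : K) ≠ 0)

/-- Multiplication by an invertible integer on series, as an automorphism. -/
def mulSubstEquiv : Series.S K g ≃ₐ[K] Series.S K g :=
  AlgEquiv.ofBijective (X.mulSubst n) (X.bijective_mulSubst n hn)

/-- The expansion at the origin of the germ divided by `n`. -/
def divIota : X.regR →ₐ[K] Series.S K g :=
  (X.mulSubstEquiv hn).symm.toAlgHom.comp X.regIota

theorem divIota_injective : Function.Injective (X.divIota hn) :=
  (X.mulSubstEquiv hn).symm.injective.comp X.regIota_injective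

theorem constantCoeff_divIota (b : X.B₀) :
    constantCoeff (X.divIota hn ⟨_, X.algebraMap_mem_regR b⟩) = X.c₀ b := by
  rw [← X.constantCoeff_mulSubst n]
  show constantCoeff (X.mulSubstEquiv hn ((X.mulSubstEquiv hn).symm (X.regIota _))) = _
  rw [AlgEquiv.apply_symm_apply, X.regIota_algebraMap, X.ι₀.const]

/-- A translation of the generic point by a rational point maps local functions at that point to
series. -/
theorem mem_regR_of_translate (τ : X.FF →ₐ[K] X.FF) (t : X.Pt K)
    (hτ : X.map τ X.eta = X.eta + X.map (Algebra.ofId K X.FF) t) {f : X.FF}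
    (hf : f ∈ X.loc (X.centre t)) : τ f ∈ X.regR := by
  set toF := IsScalarTower.toAlgHom K (Series.S K g) (FractionRing (Series.S K g))
  set Z : X.Pt (Series.S K g) := X.theta + X.map (Algebra.ofId K _) t with hZdef
  have hZ : X.centre Z = X.centre t := by
    rw [← X.centre_map (constHom K g) Z, hZdef, map_add,
      show X.map (constHom K g) X.theta = 0 from X.theta_mem, zero_add, X.map_map,
      show (constHom K g).comp (Algebra.ofId K (Series.S K g)) = AlgHom.id K K from
        Subsingleton.elim _ _, X.map_id]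
  have hR : X.Generic (X.map (X.expand.comp τ) X.eta) := Generic.map X X.generic_eta _
  have hmap : X.map toF Z = X.map (X.expand.comp τ) X.eta := by
    rw [← X.map_map τ X.expand, hτ, map_add, map_add, map_expand_eta, X.map_map, X.map_map,
      show X.expand.comp (Algebra.ofId K X.FF) = toF.comp (Algebra.ofId K _) from
        Subsingleton.elim _ _]
  have hf' : f ∈ X.loc (X.centre Z) := hZ ▸ hf
  have key : ∀ R' : X.Pt (FractionRing (Series.S K g)), X.map toF Z = R' →
      ∀ h' : f ∈ X.loc (X.centre R'), X.evalLoc R' ⟨f, h'⟩ = toF (X.evalLoc Z ⟨f, hf'⟩) := by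
    rintro R' rfl h'
    exact X.evalLoc_map toF Z ⟨f, hf'⟩ h'
  have hmem : f ∈ X.loc (X.centre (X.map (X.expand.comp τ) X.eta)) :=
    hmap ▸ X.loc_le_of_specializes (X.centre_map_specializes _ Z) hf'
  have h := key _ hmap hmem
  rw [X.evalLoc_generic hR ⟨f, hmem⟩, X.genMap_eq _ hR] at h
  exact (X.mem_regR).2 ⟨_, h.symm⟩

theorem germField_divIota (f : X.FF) :
    X.chart.germField (X.divIota hn) (X.divIota_injective hn) (X.mulMap n hn f) =
      X.chart.toGerm f := by
  refine X.algHom_ext_B₀ ((X.chart.germField (X.divIota hn)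
    (X.divIota_injective hn)).comp (X.mulMap n hn)) X.chart.toGerm (fun b => ?_) f
  have hmem : X.mulMap n hn (algebraMap X.B₀ X.FF b) ∈ X.chart.R :=
    (X.mem_regR).2 ⟨_, (X.expand_mulMap n hn b).symm⟩
  have h1 := X.chart.germField_apply (X.divIota hn) (X.divIota_injective hn) ⟨_, hmem⟩
  have h2 := X.chart.germField_apply _ X.chart.injective
    ⟨_, X.algebraMap_mem_regR b⟩
  have h3 : X.divIota hn ⟨_, hmem⟩ = X.regIota ⟨_, X.algebraMap_mem_regR b⟩ := by
    rw [divIota, AlgHom.comp_apply]
    refine (AlgEquiv.symm_apply_eq _).2 ?_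
    rw [X.regIota_algebraMap]
    exact X.regIota_eq (X.expand_mulMap n hn b).symm
  rw [AlgHom.comp_apply]
  exact h1.trans ((congrArg (fun s => HahnSeries.ofPowerSeries ℤ (germConst K g)
    (germ (germDir K g) s)) h3).trans h2.symm)

/-- The conjugate curve of the germ divided by `n`. -/
abbrev divCurve : IntermediateField (germConst K g) (LaurentSeries (germConst K g)) :=
  X.chart.curve' (X.divIota hn) (X.divIota_injective hn)

theorem valuePt_divCurve [NeZero g] [IsFunctionField (germConst K g) (X.divCurve hn)] :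
    X.valuePt (seriesPlace (X.divCurve hn)
        (X.chart.lvar_mem_curve' (X.germField_divIota hn)))
      (X.map (X.chart.curveHom' (X.divIota hn) (X.divIota_injective hn)) X.eta) = 0 :=
  X.valuePt_germ _ _ _ fun b =>
    ⟨germ (germDir K g) (X.divIota hn ⟨_, X.algebraMap_mem_regR b⟩),
      (X.chart.germField_apply (X.divIota hn) (X.divIota_injective hn)
        ⟨_, X.algebraMap_mem_regR b⟩).symm, by
      rw [constantCoeff_germDir, constantCoeff_divIota]⟩

section Abstract

variable {k M M' : Type u} [Field k] [IsAlgClosed k] [Algebra K k] [Field M] [Algebra k M]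
  [Algebra K M] [IsScalarTower K k M] [Field M'] [Algebra k M'] [Algebra K M']
  [IsScalarTower K k M'] [IsFunctionField k M] [IsFunctionField k M']

/-- The degree of the effective divisor of a point divided by `n`. -/
theorem sq_mul_degree_effDiv_le [Algebra M M'] [IsScalarTower k M M'] [IsScalarTower K M M']
    [FiniteDimensional M M'] (o : Place k M') {P : X.Pt M} {Q : X.Pt M'} (hQ : X.Generic Q)
    (ho : X.valuePt o Q = 0) {m : ℕ} (hmQ : m • Q = X.map (IsScalarTower.toAlgHom K M M') P) :
    (m : ℤ) ^ 2 * Divisor.degree (X.effDiv (k := k) hQ) ≤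
      (Module.finrank M M' : ℤ) * ((X.ht k P).toNat : ℤ) := by
  have h : X.ht k (X.map (IsScalarTower.toAlgHom K M M') P) =
      (Module.finrank M M' : ℤ) * X.ht k P := by
    rw [ht, ← map_neg, X.degPt_map, X.degPt_map, ← mul_add]
    rfl
  calc (m : ℤ) ^ 2 * Divisor.degree (X.effDiv (k := k) hQ)
      ≤ (m : ℤ) ^ 2 * X.ht k Q := mul_le_mul_of_nonneg_left
        ((X.degree_effDiv hQ).le.trans (X.degPt_le_ht hQ)) (sq_nonneg _)
    _ = (Module.finrank M M' : ℤ) * X.ht k P := by rw [← X.ht_nsmul o ho, hmQ, h]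
    _ ≤ _ := mul_le_mul_of_nonneg_left (Int.self_le_toNat _) (by omega)

omit [IsAlgClosed K] in
/-- The centre at a conjugate place is that of the translating point `t`. -/
theorem centre_liftAt_conj (o c : Place k M') (σ : M' ≃ₐ[k] M')
    (hσ : ∀ x, c.ord x = o.ord (σ x)) (ψ : X.FF →ₐ[K] M') (τ : X.FF →ₐ[K] X.FF) (t : X.Pt K)
    (ho : X.valuePt o (X.map ψ X.eta) = 0)
    (hτ : X.map τ X.eta = X.eta + X.map (Algebra.ofId K X.FF) t)
    (hστ : ∀ f, σ (ψ f) = ψ (τ f)) :
    X.centre (X.liftAt c (X.map ψ X.eta)) = X.centre t := by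
  have hmem : ∀ x : c.toValuationSubring, σ (x : M') ∈ o.toValuationSubring := fun x =>
    (FF.mem_iff_ord_nonneg o).2 (hσ x ▸ (FF.mem_iff_ord_nonneg c).1 x.2)
  let χ : c.toValuationSubring →ₐ[K] o.toValuationSubring :=
    { toFun := fun x => ⟨σ x, hmem x⟩
      map_one' := Subtype.ext (map_one σ)
      map_mul' := fun a b => Subtype.ext (map_mul σ _ _)
      map_zero' := Subtype.ext (map_zero σ)
      map_add' := fun a b => Subtype.ext (map_add σ _ _)
      commutes' := fun r => Subtype.ext (by
        show σ (algebraMap k M' (algebraMap K k r)) = algebraMap k M' (algebraMap K k r)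
        exact σ.commutes _) }
  have : IsLocalHom χ.toRingHom := ⟨fun x hx => by
    by_contra hnu
    have hx0 : (x : M') = 0 ∨ 0 < c.ord (x : M') := (valueHom_eq_zero_iff_ord c x).1
      ((valueHom_eq_zero_iff c x).2 hnu)
    rcases hx0 with h | h
    · exact hx.ne_zero (Subtype.ext (show σ (x : M') = 0 by rw [h, map_zero]))
    · rw [hσ] at h
      exact (IsLocalRing.mem_maximalIdeal _).1
        ((valueHom_eq_zero_iff o _).1 ((valueHom_eq_zero_iff_ord o ⟨_, hmem x⟩).2 (Or.inr h))) hx⟩
  have hlift : X.map χ (X.liftAt c (X.map ψ X.eta)) = X.liftAt o (X.map (ψ.comp τ) X.eta) := by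
    refine X.eq_liftAt ?_
    rw [X.map_map, show (placeIncl o).comp χ =
        ((σ.restrictScalars K).toAlgHom).comp (placeIncl c) from AlgHom.ext fun x => rfl,
      ← X.map_map, X.map_liftAt, X.map_map]
    congr 2
    exact AlgHom.ext hστ
  rw [← X.centre_map χ, hlift, ← X.centre_valuePt, ← X.map_map, hτ, map_add, map_add, ho,
    zero_add, X.map_map, show ψ.comp (Algebra.ofId K X.FF) = Algebra.ofId K M' from
      Subsingleton.elim _ _,
    X.valuePt_eq_of_hom o (Algebra.ofId K M') (Algebra.ofId K k) (fun r => ?_), X.centre_map]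
  refine ⟨?_, ?_⟩
  · rw [Algebra.ofId_apply, IsScalarTower.algebraMap_apply K k M']
    exact o.algebraMap_mem' _
  · refine (valueHom_eq_iff o _ _).2 (Or.inl ?_)
    show algebraMap K M' r - algebraMap k M' (algebraMap K k r) = 0
    rw [IsScalarTower.algebraMap_apply K k M', sub_self]

/-- The local equations at a conjugate place. -/
theorem exists_conj_equation (o c : Place k M') (σ : M' ≃ₐ[k] M')
    (hσ : ∀ x, c.ord x = o.ord (σ x)) (ψ : X.FF →ₐ[K] M') (τ : X.FF →ₐ[K] X.FF) (t : X.Pt K)
    (ho : X.valuePt o (X.map ψ X.eta) = 0)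
    (hτ : X.map τ X.eta = X.eta + X.map (Algebra.ofId K X.FF) t)
    (hστ : ∀ f, σ (ψ f) = ψ (τ f)) :
    ∃ b ∈ X.regR, b ≠ 0 ∧ (∀ l, b * τ (X.u l) ∈ X.regR) ∧
      o.ord (ψ b) ≤ X.effDiv (Generic.map X X.generic_eta ψ) c := by
  set a := X.piece (X.centre t)
  have ha := X.mem_piece (X.centre t)
  refine ⟨τ (X.eqn a), X.mem_regR_of_translate τ t hτ (X.eqn_mem a ha),
    (_root_.map_ne_zero _).2 (X.eqn_ne_zero a), fun l => ?_, le_of_eq ?_⟩
  · rw [← map_mul]
    exact X.mem_regR_of_translate τ t hτ (X.eqn_mul_u_mem a ha l)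
  · rw [X.effDiv_apply, X.genMap_eq ψ, X.centre_liftAt_conj o c σ hσ ψ τ t ho hτ hστ, hσ, hστ]

end Abstract

/-- **The lower bound.** -/
theorem pow_le_finrank_mulMap [NeZero g] {m : ℕ} (hm : ((m : ℤ) : K) ≠ 0)
    [FiniteDimensional (X.mulMap m hm).fieldRange X.FF] [IsGalois (X.mulMap m hm).fieldRange X.FF]
    (hrig : ∀ T : X.Pt X.FF, m • T = 0 → ∃ t : X.Pt K, T = X.map (Algebra.ofId K X.FF) t) :
    m ^ (2 * g) ≤
      Module.finrank (X.mulMap m hm).fieldRange X.FF * (g * X.height + 1) ^ g := by
  have hcomp := X.germField_divIota hm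
  have := X.chart.isFunctionField_curve' hcomp
  obtain ⟨-, hrel, -⟩ := X.chart.isGalois_rel hcomp
  set ψ := X.chart.curveHom
  set ψ' := X.chart.curveHom' (X.divIota hm) (X.divIota_injective hm)
  set o := seriesPlace (X.divCurve hm) (X.chart.lvar_mem_curve' hcomp)
  have ho : X.valuePt o (X.map ψ' X.eta) = 0 := X.valuePt_divCurve hm
  let : Algebra X.chart.curve (X.divCurve hm) :=
    (IntermediateField.inclusion (X.chart.curve_le hcomp)).toAlgebra
  let : Module X.chart.curve (X.divCurve hm) := Algebra.toModule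
  let : SMul X.chart.curve (X.divCurve hm) := Algebra.toSMul
  have : IsScalarTower (germConst K g) X.chart.curve (X.divCurve hm) :=
    IsScalarTower.of_algebraMap_eq fun _ => rfl
  have : IsScalarTower K X.chart.curve (X.divCurve hm) :=
    IsScalarTower.of_algebraMap_eq fun _ => rfl
  have : FiniteDimensional X.chart.curve (X.divCurve hm) :=
    Module.Finite.of_equiv_equiv (A₁ := X.chart.curve) (B₁ := X.chart.rel hcomp)
      (RingEquiv.refl _) (RingEquiv.refl _) (RingHom.ext fun _ => rfl)
  have hrank : Module.finrank X.chart.curve (X.chart.rel hcomp) =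
      Module.finrank X.chart.curve (X.divCurve hm) :=
    Algebra.finrank_eq_of_equiv_equiv (RingEquiv.refl _) (RingEquiv.refl _)
      (RingHom.ext fun _ => rfl)
  have hψ' : ψ'.comp (X.mulMap m hm) =
      (IsScalarTower.toAlgHom K X.chart.curve (X.divCurve hm)).comp ψ :=
    AlgHom.ext fun f => Subtype.ext (hcomp f)
  have hQ : m • X.map ψ' X.eta =
      X.map (IsScalarTower.toAlgHom K X.chart.curve (X.divCurve hm))
        X.curvePt := by
    rw [curvePt, X.map_map, ← hψ', ← X.map_map, X.map_mulMap_eta, map_zsmul, natCast_zsmul]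
  have hgen : X.Generic (X.map ψ' X.eta) := Generic.map X X.generic_eta ψ'
  refine X.chart.pow_le_finrank (X.mulMap m hm) (X.divIota hm) (X.divIota_injective hm)
    hcomp m X.height
    (X.effDiv hgen) ?_ (fun l v => ?_) (fun s τ hτφ hτ => ?_)
  · rw [hrank]
    exact X.sq_mul_degree_effDiv_le o hgen ho hQ
  · have := X.poleDiv_u_le_effDiv (k := germConst K g) hgen l v
    rw [X.genMap_eq ψ' hgen] at this
    exact this
  · have hT : m • (X.map τ X.eta - X.eta) = 0 := by
      rw [smul_sub, ← map_nsmul, ← natCast_zsmul X.eta, ← X.map_mulMap_eta (m : ℤ) hm, X.map_map,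
        show τ.comp (X.mulMap m hm) = X.mulMap m hm from AlgHom.ext hτφ, sub_self]
    obtain ⟨t, ht⟩ := hrig _ hT
    obtain ⟨b, hbR, hb0, hbu, hbΘ⟩ := X.exists_conj_equation o (X.chart.conjPlace s)
      (X.chart.conjEquiv s)
      (X.chart.ord_conjPlace _ _ _ hcomp s) ψ' τ t ho
      (by rw [← ht, add_sub_cancel]) hτ
    exact ⟨⟨b, hbR⟩, hb0, hbu, hbΘ⟩

end SmoothAV

end Fermat.Agent.AV
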