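import Fermat.Agent.AV.CurveDiv
import Fermat.Agent.AV.SpecialPlaces

/-!
# Reduction of points and of polar divisors along a specialisation

The functions regular on a residue class of places, points reducing to points, and the compatibility
of the pullbacks of the polar divisor with the reduction of divisors.
-/

noncomputable section

universe u

open CategoryTheory AlgebraicGeometry NeronModelInfra GoodReductionJacobian AlgebraicCurve
open Fermat.Agent.FF (IsFunctionField)

namespace Fermat.Agent.AV

variable {K k Ω κ M N N' : Type u} [Field K] [Field k] [Field Ω] [Field κ] [Field M] [Field N]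
  [Field N'] [Algebra k Ω] [Algebra k κ] [Algebra k M] [Algebra k N] [Algebra Ω N] [Algebra M N]
  [IsScalarTower k Ω N] [IsScalarTower k M N] [Algebra k N'] [Algebra κ N'] [Algebra M N']
  [IsScalarTower k κ N'] [IsScalarTower k M N']
  [IsAlgClosed k] [IsFunctionField k M] [IsAlgClosed Ω] [IsAlgClosed κ]
  [IsFunctionField Ω N] [IsFunctionField κ N']
  [Algebra K k] [Algebra K Ω] [IsScalarTower K k Ω] [Algebra K κ] [IsScalarTower K k κ]
  [Algebra K M] [IsScalarTower K k M] [Algebra K N] [IsScalarTower K Ω N] [Algebra K N']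
  [IsScalarTower K κ N']
  (S : Specialization k Ω κ) (hN : IsConstExt k M Ω N) (hN' : IsConstExt k M κ N')

/-- The subfield tower of the extended functions. -/
theorem isScalarTower_ext (K k Ω M N : Type u) [Field K] [Field k] [Field Ω] [Field M] [Field N]
    [Algebra k Ω] [Algebra k M] [Algebra k N] [Algebra Ω N] [Algebra M N] [IsScalarTower k Ω N]
    [IsScalarTower k M N] [Algebra K k] [Algebra K Ω] [IsScalarTower K k Ω] [Algebra K M]
    [IsScalarTower K k M] [Algebra K N] [IsScalarTower K Ω N] : IsScalarTower K M N :=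
  IsScalarTower.of_algebraMap_eq fun r => by
    rw [IsScalarTower.algebraMap_apply K Ω N, IsScalarTower.algebraMap_apply K k Ω,
      IsScalarTower.algebraMap_apply K k M, ← IsScalarTower.algebraMap_apply k M N,
      ← IsScalarTower.algebraMap_apply k Ω N]

namespace Specialization

/-- The valuation ring as an algebra over a smaller field. -/
instance algebraA : Algebra K S.A :=
  (((algebraMap k Ω).codRestrict S.A.toSubring S.mem).comp (algebraMap K k)).toAlgebra

instance isScalarTower_A : IsScalarTower K S.A Ω :=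
  IsScalarTower.of_algebraMap_eq fun r => IsScalarTower.algebraMap_apply K k Ω r

/-- The specialisation over a smaller field. -/
def piK : S.A →ₐ[K] κ :=
  { S.π with
    commutes' := fun r => (S.comm (algebraMap K k r)).trans
      (IsScalarTower.algebraMap_apply K k κ r).symm }

omit [IsAlgClosed k] [IsAlgClosed Ω] [IsAlgClosed κ] in
theorem isUnit_of_pi_ne_zero {a : S.A} (h : S.π a ≠ 0) : IsUnit a := by
  by_contra hn
  exact h ((Red.pi_eq_zero_iff S.surj).2 hn)

omit [IsFunctionField Ω N] [IsFunctionField κ N'] in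
/-- An element with nonzero reduction is a unit of the reduction ring. -/
theorem isUnit_red {x : (S.redData hN hN').O} (h : (S.redData hN hN').red x ≠ 0) : IsUnit x := by
  let R := S.redData hN hN'
  have hx : (x : N) ≠ 0 := R.coe_ne_zero h
  obtain ⟨c, w, hw, hcw⟩ := R.scale (x : N)⁻¹ (inv_ne_zero hx)
  have he : ((1 : R.O) : N) = algebraMap Ω N c * ((w * x : R.O) : N) := by
    rw [OneMemClass.coe_one, Subring.coe_mul, ← mul_assoc, ← hcw, inv_mul_cancel₀ hx]
  have hc : c ∈ S.A := R.mem_of_smul_mem (by rw [map_mul]; exact mul_ne_zero hw h) he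
  refine IsUnit.of_mul_eq_one (R.ι ⟨c, hc⟩ * w) (Subtype.ext ?_)
  rw [he, Subring.coe_mul, Subring.coe_mul, Subring.coe_mul, Red.RedBase.coe_ι]
  ring

/-- The functions with a reduction, as a local ring. -/
instance isLocalRing_O : IsLocalRing (S.redData hN hN').O := by
  refine IsLocalRing.of_nonunits_add fun a b ha hb => ?_
  have ha' : (S.redData hN hN').red a = 0 := by
    by_contra h; exact ha (S.isUnit_red hN hN' h)
  have hb' : (S.redData hN hN').red b = 0 := by
    by_contra h; exact hb (S.isUnit_red hN hN' h)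
  intro hu
  have := hu.map (S.redData hN hN').red
  rw [map_add, ha', hb', add_zero] at this
  exact this.ne_zero rfl

omit [IsFunctionField Ω N] [IsFunctionField κ N'] [Algebra K κ] [IsScalarTower K k κ]
    [Algebra K M] [IsScalarTower K k M] [Algebra K N'] [IsScalarTower K κ N'] in
/-- The constants of `K` are integral for the reduction data. -/
theorem algebraMap_mem_O (r : K) : algebraMap K N r ∈ (S.redData hN hN').O := by
  rw [IsScalarTower.algebraMap_apply K Ω N, IsScalarTower.algebraMap_apply K S.A Ω]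
  exact (S.redData hN hN').algebraMap_mem _

instance algebraO : Algebra K (S.redData hN hN').O :=
  ((algebraMap K N).codRestrict (S.redData hN hN').O (S.algebraMap_mem_O hN hN')).toAlgebra

/-- The inclusion of the functions with a reduction. -/
def inclO : (S.redData hN hN').O →ₐ[K] N :=
  { (S.redData hN hN').O.subtype with commutes' := fun _ => rfl }

/-- The reduction, over a smaller field. -/
def redO : (S.redData hN hN').O →ₐ[K] N' :=
  { (S.redData hN hN').red with
    commutes' := fun r => by
      have h : algebraMap K (S.redData hN hN').O r = (S.redData hN hN').ι (algebraMap K S.A r) :=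
        Subtype.ext ((IsScalarTower.algebraMap_apply K Ω N r).trans
          (congrArg (algebraMap Ω N) (IsScalarTower.algebraMap_apply K S.A Ω r)))
      show (S.redData hN hN').red (algebraMap K (S.redData hN hN').O r) = _
      rw [h, Red.RedBase.red_ι, IsScalarTower.algebraMap_apply K κ N']
      exact congrArg (algebraMap κ N') ((S.piK (K := K)).commutes r) }

instance isLocalHom_redO : IsLocalHom (S.redO (K := K) hN hN').toRingHom :=
  ⟨fun _ h => S.isUnit_red hN hN' h.ne_zero⟩

/-- The functions regular on a residue class. -/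
def classRing (Q : Place κ N') : Subring N where
  carrier := {x | x ∈ (S.redData hN hN').O ∧ ∀ p, (S.redData hN hN').r p = Q →
      x ∈ p.toValuationSubring}
  zero_mem' := ⟨zero_mem _, fun _ _ => zero_mem _⟩
  one_mem' := ⟨one_mem _, fun _ _ => one_mem _⟩
  add_mem' h h' := ⟨add_mem h.1 h'.1, fun p hp => add_mem (h.2 p hp) (h'.2 p hp)⟩
  neg_mem' h := ⟨neg_mem h.1, fun p hp => neg_mem (h.2 p hp)⟩
  mul_mem' h h' := ⟨mul_mem h.1 h'.1, fun p hp => mul_mem (h.2 p hp) (h'.2 p hp)⟩

variable (Q : Place κ N')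

omit [IsFunctionField Ω N] [IsFunctionField κ N'] [Algebra K κ] [IsScalarTower K k κ]
    [Algebra K M] [IsScalarTower K k M] [Algebra K N'] [IsScalarTower K κ N'] in
theorem algebraMap_mem_classRing (r : K) : algebraMap K N r ∈ S.classRing hN hN' Q :=
  ⟨S.algebraMap_mem_O hN hN' r, fun p _ => by
    rw [IsScalarTower.algebraMap_apply K Ω N]; exact p.algebraMap_mem' _⟩

instance algebraClassRing : Algebra K (S.classRing hN hN' Q) :=
  ((algebraMap K N).codRestrict (S.classRing hN hN' Q)
    (S.algebraMap_mem_classRing hN hN' Q)).toAlgebra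

/-- The inclusion of the functions regular on a class into those with a reduction. -/
def classToO : S.classRing hN hN' Q →ₐ[K] (S.redData hN hN').O :=
  { Subring.inclusion (fun _ h => h.1 : S.classRing hN hN' Q ≤ (S.redData hN hN').O) with
    commutes' := fun _ => rfl }

/-- The inclusion of the functions regular on a class. -/
def classIncl : S.classRing hN hN' Q →ₐ[K] N := (S.inclO hN hN').comp (S.classToO hN hN' Q)

omit [Algebra K M] [IsScalarTower K k M] in
theorem red_mem_place (x : S.classRing hN hN' Q) :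
    S.redO (K := K) hN hN' (S.classToO (K := K) hN hN' Q x) ∈ Q.toValuationSubring :=
  (FF.mem_iff_ord_nonneg Q).2 (S.class_value hN hN' (S.classToO (K := K) hN hN' Q x) Q
    fun p hp => (FF.mem_iff_ord_nonneg p).1 (x.2.2 p hp)).1

/-- The reduction of functions regular on a class. -/
def classRed : S.classRing hN hN' Q →ₐ[K] Q.toValuationSubring :=
  { ((S.redO (K := K) hN hN').comp (S.classToO hN hN' Q)).toRingHom.codRestrict
      Q.toValuationSubring.toSubring (S.red_mem_place hN hN' Q) with
    commutes' := fun r => Subtype.ext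
      ((((S.redO hN hN').comp (S.classToO hN hN' Q)).commutes r).trans
        (IsScalarTower.algebraMap_apply K Q.toValuationSubring N' r)) }

variable {Q} in
/-- The restriction to a place of the class. -/
def classToPlace {p : Place Ω N} (hp : (S.redData hN hN').r p = Q) :
    S.classRing hN hN' Q →ₐ[K] p.toValuationSubring :=
  { Subring.inclusion
      (fun _ h => h.2 p hp : S.classRing hN hN' Q ≤ p.toValuationSubring.toSubring) with
    commutes' := fun r => Subtype.ext (IsScalarTower.algebraMap_apply K p.toValuationSubring N r) }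

/-- An element with nonzero reduction, not vanishing at `Q`, is a unit of the class ring. -/
theorem isUnit_classRing_of_red {x : S.classRing hN hN' Q}
    (hred : (S.redData hN hN').red ⟨x, x.2.1⟩ ≠ 0)
    (hle : ¬ 0 < Q.ord ((S.redData hN hN').red ⟨x, x.2.1⟩)) : IsUnit x := by
  classical
  let R := S.redData hN hN'
  let w : R.O := ⟨x, x.2.1⟩
  have hord : Q.ord (R.red w) = 0 := by
    have h1 : 0 ≤ Q.ord (R.red w) := (S.class_value hN hN' w Q
      fun p hp => (FF.mem_iff_ord_nonneg p).1 (x.2.2 p hp)).1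
    have h2 : ¬ 0 < Q.ord (R.red w) := hle
    omega
  obtain ⟨w', hw'⟩ := (S.isUnit_red hN hN' hred).exists_right_inv
  have hinv : (w' : N) = (x : N)⁻¹ :=
    (inv_eq_of_mul_eq_one_right (congrArg Subtype.val hw')).symm
  have hpush := R.push w hred _ (fun P => FF.divOf_apply ((w : R.O) : N) P) Q
  rw [hord] at hpush
  have hmem : (x : N)⁻¹ ∈ S.classRing hN hN' Q := by
    refine ⟨hinv ▸ w'.2, fun p hp => (FF.mem_iff_ord_nonneg p).2 ?_⟩
    subst hp
    have hle := Red.apply_le_mapDomain R.r (FF.divOf (K := Ω) ((w : R.O) : N)) p fun a ha => by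
      rw [FF.divOf_apply]
      exact (FF.mem_iff_ord_nonneg a).1 (x.2.2 a ha)
    rw [hpush, FF.divOf_apply] at hle
    rw [p.ord_inv]
    change (p.ord (x : N)) ≤ 0 at hle
    omega
  refine IsUnit.of_mul_eq_one ⟨_, hmem⟩ (Subtype.ext ?_)
  exact mul_inv_cancel₀ fun h0 => hred (by rw [show (⟨x, x.2.1⟩ : R.O) = 0 from Subtype.ext h0,
      map_zero])

instance isLocalRing_classRing : IsLocalRing (S.classRing hN hN' Q) := by
  refine IsLocalRing.of_nonunits_add fun a b ha hb hu => ?_
  have hz : ∀ x : S.classRing hN hN' Q, ¬ IsUnit x →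
      (S.redData hN hN').red ⟨x, x.2.1⟩ = 0 ∨ 0 < Q.ord ((S.redData hN hN').red ⟨x, x.2.1⟩) :=
    fun x hx => by
      by_contra hcon
      rw [not_or] at hcon
      exact hx (S.isUnit_classRing_of_red hN hN' Q hcon.1 hcon.2)
  obtain ⟨w, hw⟩ := hu.exists_right_inv
  have hnn : ∀ x : S.classRing hN hN' Q,
      (S.redData hN hN').red ⟨x, x.2.1⟩ ∈ Q.toValuationSubring := fun x =>
    (FF.mem_iff_ord_nonneg Q).2 (S.class_value hN hN' ⟨x, x.2.1⟩ Q
      fun p hp => (FF.mem_iff_ord_nonneg p).1 (x.2.2 p hp)).1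
  have hmax : ∀ x : S.classRing hN hN' Q, ¬ IsUnit x →
      valueHom Q ⟨_, hnn x⟩ = 0 := fun x hx => (valueHom_eq_zero_iff_ord Q _).2 (hz x hx)
  have h : (⟨_, hnn a⟩ + ⟨_, hnn b⟩ : Q.toValuationSubring) * ⟨_, hnn w⟩ = 1 := by
    refine Subtype.ext ?_
    show ((S.redData hN hN').red ⟨a, a.2.1⟩ + (S.redData hN hN').red ⟨b, b.2.1⟩) *
      (S.redData hN hN').red ⟨w, w.2.1⟩ = 1
    rw [← map_add, ← map_mul, ← map_one (S.redData hN hN').red]
    exact congrArg _ (Subtype.ext (congrArg Subtype.val hw :))
  have h' := congrArg (valueHom Q) h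
  rw [map_mul, map_add, hmax a ha, hmax b hb, map_one, add_zero, zero_mul] at h'
  exact zero_ne_one h'

omit [Algebra K M] [IsScalarTower K k M] in
theorem isUnit_classRing {x : S.classRing hN hN' Q}
    (h : valueHom Q (S.classRed (K := K) hN hN' Q x) ≠ 0) : IsUnit x :=
  S.isUnit_classRing_of_red hN hN' Q
    (fun h0 => h ((valueHom_eq_zero_iff_ord Q _).2 (Or.inl h0)))
    (fun hpos => h ((valueHom_eq_zero_iff_ord Q _).2 (Or.inr hpos)))

instance isLocalHom_classRed : IsLocalHom (S.classRed (K := K) hN hN' Q).toRingHom :=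
  ⟨fun _ h => S.isUnit_classRing (K := K) hN hN' Q (h.map (valueHom Q)).ne_zero⟩

end Specialization

namespace SmoothAV

variable [IsAlgClosed K] {g : ℕ} (X : SmoothAV K g)

/-- Specialisation of constant points. -/
def specPt : X.Pt Ω →+ X.Pt κ :=
  (X.map (S.piK (K := K))).comp
    (AddEquiv.ofBijective (X.map (IsScalarTower.toAlgHom K S.A Ω))
      ⟨X.map_injective _ Subtype.val_injective,
        X.map_surjective (V := S.A) (N := Ω)⟩).symm.toAddMonoidHom

omit [IsAlgClosed k] [IsAlgClosed Ω] [IsAlgClosed κ] [IsAlgClosed K] in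
theorem specPt_eq {y : X.Pt Ω} {z : X.Pt S.A} (h : X.map (IsScalarTower.toAlgHom K S.A Ω) z = y) :
    X.specPt S y = X.map S.piK z := by
  subst h
  exact congrArg (X.map (S.piK (K := K)))
    ((AddEquiv.ofBijective (X.map (IsScalarTower.toAlgHom K S.A Ω))
      ⟨X.map_injective _ Subtype.val_injective,
        X.map_surjective (V := S.A) (N := Ω)⟩).symm_apply_apply z)

omit [IsAlgClosed k] [IsAlgClosed Ω] [IsAlgClosed κ] [IsAlgClosed K] in
theorem exists_lift_specPt (y : X.Pt Ω) :
    ∃ z : X.Pt S.A, X.map (IsScalarTower.toAlgHom K S.A Ω) z = y ∧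
      X.specPt S y = X.map S.piK z := by
  obtain ⟨z, hz⟩ := X.map_surjective (V := S.A) (N := Ω) y
  exact ⟨z, hz, X.specPt_eq S hz⟩

/-- A point reducing to a point. -/
def Reduces (P : X.Pt N) (P' : X.Pt N') : Prop :=
  ∀ Q : Place κ N', ∃ Z : X.Pt (S.classRing hN hN' Q),
    X.map (S.classIncl hN hN' Q) Z = P ∧
      X.map (placeIncl Q) (X.map (S.classRed hN hN' Q) Z) = P'

variable {X S hN hN'}

omit [IsAlgClosed K] [Algebra K M] [IsScalarTower K k M] in
theorem Reduces.add {P R : X.Pt N} {P' R' : X.Pt N'} (h : X.Reduces S hN hN' P P')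
    (h' : X.Reduces S hN hN' R R') : X.Reduces S hN hN' (P + R) (P' + R') := fun Q => by
  obtain ⟨Z, hZ, hZ'⟩ := h Q
  obtain ⟨W, hW, hW'⟩ := h' Q
  exact ⟨Z + W, by rw [map_add, hZ, hW], by rw [map_add, map_add, hZ', hW']⟩

variable (X S hN hN')

omit [IsAlgClosed K] [Algebra K M] [IsScalarTower K k M] in
/-- Constant points reduce to their specialisations. -/
theorem reduces_const (y : X.Pt Ω) :
    X.Reduces S hN hN' (X.map (IsScalarTower.toAlgHom K Ω N) y)
      (X.map (IsScalarTower.toAlgHom K κ N') (X.specPt S y)) := fun Q => by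
  obtain ⟨z, hz, hz'⟩ := X.exists_lift_specPt S y
  have hmem : ∀ a : S.A, algebraMap Ω N (a : Ω) ∈ S.classRing hN hN' Q := fun a =>
    ⟨(S.redData hN hN').algebraMap_mem a, fun p _ => p.algebraMap_mem' _⟩
  let φ : S.A →ₐ[K] S.classRing hN hN' Q :=
    { ((algebraMap Ω N).comp S.A.subtype).codRestrict (S.classRing hN hN' Q) hmem with
      commutes' := fun r => Subtype.ext
        ((congrArg (algebraMap Ω N) (IsScalarTower.algebraMap_apply K S.A Ω r).symm).trans
          (IsScalarTower.algebraMap_apply K Ω N r).symm) }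
  refine ⟨X.map φ z, ?_, ?_⟩
  · rw [X.map_map, ← hz, X.map_map]
    rfl
  · rw [hz', X.map_map, X.map_map, X.map_map]
    refine congrArg (fun e => X.map e z) (AlgHom.ext fun a => ?_)
    exact (S.redData hN hN').red_ι a

omit [IsAlgClosed K] in
/-- The images of a point over `M` reduce to one another. -/
theorem reduces_map [IsScalarTower K M N] [IsScalarTower K M N'] (P : X.Pt M) :
    X.Reduces S hN hN' (X.map (IsScalarTower.toAlgHom K M N) P)
      (X.map (IsScalarTower.toAlgHom K M N') P) := fun Q => by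
  have hO : ∀ m : M, algebraMap M N m ∈ (S.redData hN hN').O := S.map_mem_O hN hN'
  have hred : ∀ m : M, (S.redData hN hN').red ⟨_, hO m⟩ = algebraMap M N' m := S.red_map hN hN'
  rcases trivial_or_over (K := k) (F := M) Q with htriv | ⟨c, hc⟩
  · have hclass : ∀ m : M, algebraMap M N m ∈ S.classRing hN hN' Q := fun m =>
      ⟨hO m, fun p hp => (FF.mem_iff_ord_nonneg p).2 (by
        rcases trivial_or_over (K := k) (F := M) p with h | ⟨c', hc'⟩
        · exact (h m).ge
        · exfalso
          rw [eq_liftPlace hN hc', S.r_liftPlace hN hN'] at hp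
          obtain ⟨t, -, ht⟩ := FF.exists_ord_eq_one c'
          have := htriv t
          rw [← hp, ord_liftPlace, ht] at this
          omega)⟩
    let φ : M →ₐ[K] S.classRing hN hN' Q :=
      { (algebraMap M N).codRestrict (S.classRing hN hN' Q) hclass with
        commutes' := fun r => Subtype.ext (IsScalarTower.algebraMap_apply K M N r).symm }
    refine ⟨X.map φ P, by rw [X.map_map]; rfl, ?_⟩
    rw [X.map_map, X.map_map]
    exact congrArg (fun e => X.map e P) (AlgHom.ext fun m => hred m)
  · have hclass : ∀ m : c.toValuationSubring, algebraMap M N m ∈ S.classRing hN hN' Q := fun m =>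
      ⟨hO m, fun p hp => (FF.mem_iff_ord_nonneg p).2 (by
        rcases trivial_or_over (K := k) (F := M) p with h | ⟨c', hc'⟩
        · exact (h (m : M)).ge
        · obtain rfl : c' = c := liftPlace_injective hN' (by
            rw [← S.r_liftPlace hN hN', ← eq_liftPlace hN hc', hp, eq_liftPlace hN' hc])
          exact (hc'.mem_iff _).2 ((FF.mem_iff_ord_nonneg c').1 m.2))⟩
    let φ : c.toValuationSubring →ₐ[K] S.classRing hN hN' Q :=
      { ((algebraMap M N).comp c.toValuationSubring.subtype).codRestrict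
          (S.classRing hN hN' Q) hclass with
        commutes' := fun r => Subtype.ext
          ((congrArg (algebraMap M N)
            (IsScalarTower.algebraMap_apply K c.toValuationSubring M r).symm).trans
              (IsScalarTower.algebraMap_apply K M N r).symm) }
    refine ⟨X.map φ (X.liftAt c P), ?_, ?_⟩
    · conv_rhs => rw [← X.map_liftAt c P]
      rw [X.map_map, X.map_map]
      rfl
    · conv_rhs => rw [← X.map_liftAt c P]
      rw [X.map_map, X.map_map, X.map_map]
      exact congrArg (fun e => X.map e (X.liftAt c P)) (AlgHom.ext fun m => hred m)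

variable {X S hN hN'}

omit [IsAlgClosed K] [Algebra K M] [IsScalarTower K k M] in
/-- The point with values in the functions with a reduction. -/
theorem Reduces.exists_lift {P : X.Pt N} {P' : X.Pt N'} (h : X.Reduces S hN hN' P P')
    (Q₀ : Place κ N') :
    ∃ Z : X.Pt (S.redData hN hN').O, X.map (S.inclO hN hN') Z = P ∧
      X.map (S.redO hN hN') Z = P' ∧ X.centre P' = X.centre Z ∧
      ∀ Q, ∃ ZQ : X.Pt (S.classRing hN hN' Q), X.map (S.classToO hN hN' Q) ZQ = Z ∧
        X.map (placeIncl Q) (X.map (S.classRed hN hN' Q) ZQ) = P' := by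
  obtain ⟨Z₀, hZ₀, hZ₀'⟩ := h Q₀
  set Z := X.map (S.classToO hN hN' Q₀) Z₀
  have hred : X.map (S.redO hN hN') Z = P' := by
    rw [← hZ₀', X.map_map, X.map_map]
    rfl
  refine ⟨Z, by rw [X.map_map]; exact hZ₀, hred, by rw [← hred, X.centre_map], fun Q => ?_⟩
  obtain ⟨ZQ, hQ, hQ'⟩ := h Q
  exact ⟨ZQ, X.map_injective (S.inclO hN hN') Subtype.val_injective
    (by rw [X.map_map, X.map_map]; exact hQ.trans hZ₀.symm), hQ'⟩

omit [IsAlgClosed K] [Algebra K M] [IsScalarTower K k M] in
theorem Reduces.centre_mem {P : X.Pt N} {P' : X.Pt N'} (h : X.Reduces S hN hN' P P')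
    {O : X.A.Opens} (hO : X.centre P' ∈ O) : X.centre P ∈ O := by
  obtain ⟨Q₀, -⟩ := FF.exists_place_ord_pos (hN'.transcendental
    (Specialization.transcendental_coord (k := k) (M := M)))
  obtain ⟨Z, hZ, -, hc, -⟩ := h.exists_lift Q₀
  rw [← hZ]
  exact (X.centre_map_specializes _ Z).mem_open O.2 (hc ▸ hO)

omit [Algebra K M] [IsScalarTower K k M] in
/-- **The polar divisor reduces to the polar divisor.** -/
theorem Reduces.mapDomain_dDiv {P : X.Pt N} {P' : X.Pt N'} (h : X.Reduces S hN hN' P P')
    (a : X.Piece) (ha' : X.centre P' ∈ a.O) (Q : Place κ N') :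
    Finsupp.mapDomain (S.redData hN hN').r (X.dDiv a P (h.centre_mem ha')) Q =
      X.dDiv a P' ha' Q := by
  classical
  obtain ⟨Z, hZ, hred, hc, hlift⟩ := h.exists_lift Q
  obtain ⟨ZQ, hQ, hQ'⟩ := hlift Q
  set b := X.piece (X.centre (X.liftAt Q P'))
  have hbQ : X.centre (X.liftAt Q P') ∈ b.O := X.mem_piece _
  have hbZQ : X.centre ZQ ∈ b.O := by
    rw [← X.centre_map (S.classRed hN hN' Q) ZQ, X.eq_liftAt hQ']
    exact hbQ
  have hbZ : X.centre Z ∈ b.O := hQ ▸ (X.centre_map_specializes _ ZQ).mem_open b.O.2 hbZQ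
  have haZ : X.centre Z ∈ a.O := hc ▸ ha'
  set ρ := X.ratio Z b a hbZ haZ
  have hρne : (S.redData hN hN').red ρ ≠ 0 :=
    ((X.isUnit_ratio Z b a hbZ haZ).map (S.redO (K := K) hN hN').toRingHom).ne_zero
  have hρ' : (S.redData hN hN').red ρ = X.ratio P' b a (X.centre_mem_of_liftAt hbQ) ha' := by
    refine (X.map_ratio (S.redO hN hN') Z b a hbZ haZ).trans ?_
    simp_rw [hred]
  have hρ : (ρ : N) = X.ratio P b a (h.centre_mem (X.centre_mem_of_liftAt hbQ))
      (h.centre_mem ha') := by
    refine (X.map_ratio (S.inclO hN hN') Z b a hbZ haZ).trans ?_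
    simp_rw [hZ]
  have hfib : ∀ p, (S.redData hN hN').r p = Q →
      X.dDiv a P (h.centre_mem ha') p = FF.divOf (K := Ω) (ρ : N) p := fun p hp => by
    have hp' : X.liftAt p P = X.map (S.classToPlace hN hN' hp) ZQ := (X.eq_liftAt (by
      rw [X.map_map, ← hZ, ← hQ, X.map_map]
      rfl)).symm
    have hbp : X.centre (X.liftAt p P) ∈ b.O :=
      hp' ▸ (X.centre_map_specializes _ ZQ).mem_open b.O.2 hbZQ
    rw [dDiv_apply, X.dfun_eq a P _ hbp, FF.divOf_apply, hρ]
  have h1 := Red.mapDomain_nonneg_of_fibre (S.redData hN hN').r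
    (X.dDiv a P (h.centre_mem ha') - FF.divOf (K := Ω) (ρ : N)) Q fun p hp => by
      rw [Finsupp.sub_apply, hfib p hp, sub_self]
  have h2 := Red.mapDomain_nonneg_of_fibre (S.redData hN hN').r
    (FF.divOf (K := Ω) (ρ : N) - X.dDiv a P (h.centre_mem ha')) Q fun p hp => by
      rw [Finsupp.sub_apply, hfib p hp, sub_self]
  rw [Finsupp.mapDomain_sub, Finsupp.sub_apply] at h1 h2
  have h3 := (S.redData hN hN').push ρ hρne _ (fun p => FF.divOf_apply (ρ : N) p) Q
  rw [hρ', ← X.dfun_eq a P' ha' hbQ, ← dDiv_apply] at h3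
  omega

end SmoothAV

end Fermat.Agent.AV
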