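import Fermat.Agent.AV.Origin

/-!
# Rigidity of torsion and descent of genericity

Torsion points of order prime to the characteristic with values in any field extension are
rational, and a point with a generic multiple is generic.
-/

noncomputable section

universe u

open CategoryTheory AlgebraicGeometry NeronModelInfra GoodReductionJacobian
open Fermat.Agent.AV.Series MvPowerSeries

namespace Fermat.Agent.AV

/-- A finitely generated algebra over an algebraically closed field has a rational point. -/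
theorem exists_algHom_of_finiteType (K V : Type u) [Field K] [IsAlgClosed K] [CommRing V]
    [Nontrivial V] [Algebra K V] [Algebra.FiniteType K V] : Nonempty (V →ₐ[K] K) := by
  obtain ⟨m, hm⟩ := Ideal.exists_maximal V
  let : Field (V ⧸ m) := Ideal.Quotient.field m
  have : Algebra.FiniteType K (V ⧸ m) :=
    Algebra.FiniteType.of_surjective (Ideal.Quotient.mkₐ K m) (Ideal.Quotient.mkₐ_surjective K m)
  have : Module.Finite K (V ⧸ m) := finite_of_finite_type_of_isJacobsonRing K (V ⧸ m)
  let e := AlgEquiv.ofBijective (Algebra.ofId K (V ⧸ m))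
    IsAlgClosed.algebraMap_bijective_of_isIntegral
  exact ⟨e.symm.toAlgHom.comp (Ideal.Quotient.mkₐ K m)⟩

namespace SmoothAV

variable {K : Type u} [Field K] [IsAlgClosed K] {g : ℕ} (X : SmoothAV K g)

omit [IsAlgClosed K] in
theorem eval_of_eq_zero {R : Type u} [CommRing R] [Algebra K R] {P : X.Pt R} (h : P = 0)
    (hP : X.InOpen P X.U₀) (b : X.B₀) :
    X.eval P X.U₀ hP b = algebraMap K R (X.c₀ b) := by
  have key : ∀ Q : X.Pt R, Q = X.map (Algebra.ofId K R) 0 → ∀ hQ : X.InOpen Q X.U₀,
      X.eval Q X.U₀ hQ b = algebraMap K R (X.c₀ b) := by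
    rintro _ rfl hQ
    rw [X.eval_map _ _ _ X.zero_inOpen]
    rfl
  exact key P (h.trans (map_zero _).symm) hP

omit [IsAlgClosed K] in
/-- Near the origin, homomorphisms are determined modulo a nilpotent ideal by the parameters. -/
theorem algHom_eq_of_par {R : Type u} [CommRing R] [Algebra K R] {J : Ideal R} {N : ℕ}
    (hJ : J ^ N = ⊥) {φ ψ : X.B₀ →ₐ[K] R} (hφ : ∀ b, X.c₀ b = 0 → φ b ∈ J)
    (hψ : ∀ b, X.c₀ b = 0 → ψ b ∈ J) (h : ∀ i, φ (X.par i) = ψ (X.par i)) : φ = ψ := by
  refine AlgHom.ext fun b => ?_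
  obtain ⟨p, hp⟩ := Local.exists_poly_sub_mem X.c₀ X.isParams_par N b
  have hpow : ∀ χ : X.B₀ →ₐ[K] R, (∀ b, X.c₀ b = 0 → χ b ∈ J) →
      χ (b - MvPolynomial.aeval X.par p) = 0 := fun χ hχ => by
    have h := Ideal.mem_map_of_mem χ hp
    rw [Ideal.map_pow] at h
    have h' := Ideal.pow_right_mono (Ideal.map_le_iff_le_comap.2 fun x hx =>
      hχ x ((Local.mem_mc X.c₀).1 hx) : (Local.mc X.c₀).map χ ≤ J) N h
    rwa [hJ, Ideal.mem_bot] at h'
  have h1 := hpow φ hφ
  have h2 := hpow ψ hψ
  rw [map_sub, sub_eq_zero] at h1 h2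
  rw [h1, h2, ← AlgHom.comp_apply, ← AlgHom.comp_apply, MvPolynomial.comp_aeval,
    MvPolynomial.comp_aeval]
  simp only [h]

omit [IsAlgClosed K] in
/-- The step of infinitesimal rigidity: parameters of a torsion point lying in the power `k + 1`
of the maximal ideal lie in the next power. -/
theorem evalAlg_par_mem_pow {R : Type u} [CommRing R] [Algebra K R] [IsLocalRing R] {n : ℕ}
    (hn : (n : K) ≠ 0) {D : X.Pt R} (hDU : X.InOpen D X.U₀) (hD : n • D = 0)
    (hm : ∀ b, X.c₀ b = 0 → X.evalAlg D X.U₀ hDU b ∈ IsLocalRing.maximalIdeal R) {k : ℕ}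
    (ih : ∀ i, X.evalAlg D X.U₀ hDU (X.par i) ∈ IsLocalRing.maximalIdeal R ^ (k + 1)) :
    ∀ i, X.evalAlg D X.U₀ hDU (X.par i) ∈ IsLocalRing.maximalIdeal R ^ (k + 2) := by
  classical
  set φ := X.evalAlg D X.U₀ hDU with hφdef
  set m := IsLocalRing.maximalIdeal R
  let q : R →ₐ[K] R ⧸ m ^ (k + 2) := Ideal.Quotient.mkₐ K (m ^ (k + 2))
  let v : Fin g → R ⧸ m ^ (k + 2) := fun i => q (φ (X.par i))
  let l : (Fin g → K) →ₗ[K] R ⧸ m ^ (k + 2) := Fintype.linearCombination K v
  have hl : ∀ w, l w = ∑ i, w i • v i := fun w => Fintype.linearCombination_apply _ _ _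
  have hvv : ∀ i j, v i * v j = 0 := fun i j => by
    show q _ * q _ = 0
    rw [← map_mul]
    refine Ideal.Quotient.eq_zero_iff_mem.2
      (Ideal.pow_le_pow_right (by omega : k + 2 ≤ (k + 1) + (k + 1)) ?_)
    rw [pow_add]
    exact Ideal.mul_mem_mul (ih i) (ih j)
  have hll : ∀ x y, l x * l y = 0 := fun x y => by
    rw [hl, hl, Finset.sum_mul_sum]
    exact Finset.sum_eq_zero fun i _ => Finset.sum_eq_zero fun j _ => by
      rw [smul_mul_smul_comm, hvv, smul_zero]
  let χ : S K g →ₐ[K] R ⧸ m ^ (k + 2) :=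
    (TrivSqZeroExt.liftEquivOfComm ⟨l, hll⟩).comp (tangentHom K g)
  have hχ : ∀ f, χ f = algebraMap K _ (constantCoeff f) +
      ∑ i, coeff (Finsupp.single i 1) f • v i := fun f => by
    simp [χ, tangentHom, TrivSqZeroExt.liftEquivOfComm, hl, TrivSqZeroExt.lift_apply_inl,
      TrivSqZeroExt.lift_apply_inr]
  have hcomp : q.comp φ = χ.comp X.ι₀.hom := by
    have hnil : (m.map q) ^ (k + 2) = ⊥ := by
      rw [← Ideal.map_pow]
      exact Ideal.map_quotient_self (m ^ (k + 2))
    refine X.algHom_eq_of_par hnil (fun b hb => Ideal.mem_map_of_mem _ (hm b hb))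
      (fun b hb => ?_) fun i => ?_
    · rw [AlgHom.comp_apply, hχ, X.ι₀.const, hb, map_zero, zero_add]
      exact sum_mem fun i _ => Submodule.smul_of_tower_mem _ _
        (Ideal.mem_map_of_mem _ (hm _ (X.isParams_par.1 i)))
    · rw [AlgHom.comp_apply, AlgHom.comp_apply, X.ι₀.map_t, hχ, constantCoeff_X, map_zero,
        zero_add, Finset.sum_eq_single i]
      · rw [coeff_X, if_pos rfl, one_smul]
      · intro j _ hj
        rw [coeff_X, if_neg, zero_smul]
        exact fun he => hj (Finsupp.single_left_injective one_ne_zero he)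
      · simp
  have hθ : X.map χ X.theta = X.map q D := by
    rw [theta, X.map_ofAlgHom, X.eq_ofAlgHom D X.isAffine_U₀ hDU, X.map_ofAlgHom, ← hφdef,
      hcomp]
  intro i
  have hz : X.map χ (X.thetaMul (n : ℤ) : X.Pt (S K g)) = 0 := by
    show X.map χ ((n : ℤ) • X.theta) = 0
    rw [natCast_zsmul, map_nsmul, hθ, ← map_nsmul, hD, map_zero]
  have hcoord : χ (X.formalCoord (X.thetaMul (n : ℤ)) i) = 0 := by
    rw [formalCoord, ← X.eval_map _ χ X.U₀ (X.formal_inOpen _)
      (AVData.InOpen.map _ (X.formal_inOpen _) χ), X.eval_of_eq_zero hz, X.isParams_par.1 i,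
      map_zero]
  have hlin : ∀ j, coeff (Finsupp.single j 1) (X.formalCoord (X.thetaMul (n : ℤ)) i) =
      (Pi.single i ((n : ℤ) : K) : Fin g → K) j := fun j =>
    congrFun (congrFun (X.linPart_thetaMul (n : ℤ)) i) j
  rw [hχ, X.const_formalCoord, map_zero, zero_add, Finset.sum_eq_single i (fun j _ hj => by
      rw [hlin, Pi.single_eq_of_ne hj, zero_smul]) (by simp), hlin, Pi.single_eq_same,
    Int.cast_natCast] at hcoord
  exact Ideal.Quotient.eq_zero_iff_mem.1 ((smul_eq_zero_iff_right hn).1 hcoord)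

omit [IsAlgClosed K] in
/-- **Infinitesimal rigidity**: a torsion point reducing to the origin is the origin. -/
theorem eq_zero_of_nsmul_eq_zero {R : Type u} [CommRing R] [Algebra K R] [IsLocalRing R]
    [IsNoetherianRing R] (π : R →ₐ[K] K) [IsLocalHom π.toRingHom] {n : ℕ} (hn : (n : K) ≠ 0)
    {D : X.Pt R} (h0 : X.map π D = 0) (hD : n • D = 0) : D = 0 := by
  have hDU := X.inOpen_of_map_zero π h0
  set φ := X.evalAlg D X.U₀ hDU with hφdef
  set m := IsLocalRing.maximalIdeal R
  have hπ : ∀ b, π (φ b) = X.c₀ b := fun b => by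
    show π (X.eval D X.U₀ hDU b) = _
    rw [← X.eval_map D π X.U₀ hDU (AVData.InOpen.map _ hDU π),
      X.eval_of_eq_zero h0, Algebra.algebraMap_self, RingHom.id_apply]
  have hm : ∀ b, X.c₀ b = 0 → φ b ∈ m := fun b hb => by
    rw [IsLocalRing.mem_maximalIdeal, mem_nonunits_iff]
    intro hu
    have := hu.map π
    rw [hπ, hb] at this
    exact not_isUnit_zero this
  have hnil : ∀ N, (m.map (Ideal.Quotient.mkₐ K (m ^ N))) ^ N = ⊥ := fun N => by
    rw [← Ideal.map_pow]
    exact Ideal.map_quotient_self (m ^ N)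
  have key : ∀ k i, φ (X.par i) ∈ m ^ (k + 1) := by
    intro k
    induction k with
    | zero => exact fun i => by rw [pow_one]; exact hm _ (X.isParams_par.1 i)
    | succ k ih => exact X.evalAlg_par_mem_pow hn hDU hD hm ih
  have hconst : ∀ b, φ b - algebraMap K R (X.c₀ b) = 0 := fun b => by
    rw [← Ideal.mem_bot, ← Ideal.iInf_pow_eq_bot_of_isLocalRing m
      (IsLocalRing.maximalIdeal.isMaximal R).ne_top, Ideal.mem_iInf]
    intro N
    have h : (Ideal.Quotient.mkₐ K (m ^ N)).comp φ =
        (Algebra.ofId K (R ⧸ m ^ N)).comp X.c₀ := by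
      refine X.algHom_eq_of_par (hnil N) (fun b hb => Ideal.mem_map_of_mem _ (hm b hb))
        (fun b hb => by rw [AlgHom.comp_apply, hb, map_zero]; exact zero_mem _) fun i => ?_
      rw [AlgHom.comp_apply, AlgHom.comp_apply, X.isParams_par.1 i, map_zero]
      exact Ideal.Quotient.eq_zero_iff_mem.2 (Ideal.pow_le_pow_right (Nat.le_succ N) (key N i))
    exact Ideal.Quotient.eq.1 (AlgHom.congr_fun h b)
  refine X.ext_of_eval X.isAffine_U₀ hDU (X.inOpen_of_map_zero π (map_zero _)) fun b => ?_
  rw [X.eval_of_eq_zero rfl]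
  exact sub_eq_zero.1 (hconst b)

/-- **Rigidity**: torsion points with values in a field extension are rational. -/
theorem exists_map_eq_of_nsmul_eq_zero {L : Type u} [Field L] [Algebra K L] {n : ℕ}
    (hn : (n : K) ≠ 0) {T : X.Pt L} (hT : n • T = 0) :
    ∃ T₀ : X.Pt K, n • T₀ = 0 ∧ X.map (Algebra.ofId K L) T₀ = T := by
  obtain ⟨U, hU, hxU, hsm⟩ := X.exists_chart (X.centre T)
  have hTU : X.InOpen T U := (X.inOpen_iff).2 hxU
  have : Algebra.IsStandardSmooth K Γ(X.A, U) :=
    Algebra.IsStandardSmoothOfRelativeDimension.isStandardSmooth g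
  set φ := X.evalAlg T U hTU
  let V := φ.range
  have : Algebra.FiniteType K V :=
    Algebra.FiniteType.of_surjective φ.rangeRestrict φ.rangeRestrict_surjective
  have : IsNoetherianRing V := Algebra.FiniteType.isNoetherianRing K V
  obtain ⟨π⟩ := exists_algHom_of_finiteType K V
  have hP : (RingHom.ker π).IsPrime := RingHom.ker_isPrime _
  set R := Localization.AtPrime (RingHom.ker π)
  obtain ⟨πR, hπloc, hπR⟩ := Local.exists_eval_atPrime π
  obtain ⟨ψ, hψi, hψ⟩ := Local.exists_lift_atPrime π (f := V.val) Subtype.val_injective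
  have : IsNoetherianRing R :=
    IsLocalization.isNoetherianRing (RingHom.ker π).primeCompl R inferInstance
  have : IsDomain R :=
      IsLocalization.isDomain_localization (RingHom.ker π).primeCompl_le_nonZeroDivisors
  let TR : X.Pt R := X.ofAlgHom hU ((IsScalarTower.toAlgHom K V R).comp φ.rangeRestrict)
  have hTR : X.map ψ TR = T := by
    rw [X.map_ofAlgHom, X.eq_ofAlgHom T hU hTU]
    congr 1
    exact AlgHom.ext fun s => hψ _
  have hnTR : n • TR = 0 := X.map_injective ψ hψi (by rw [map_nsmul, hTR, hT, map_zero])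
  refine ⟨X.map πR TR, by rw [← map_nsmul, hnTR, map_zero], ?_⟩
  have hD : TR - X.map (Algebra.ofId K R) (X.map πR TR) = 0 := by
    refine X.eq_zero_of_nsmul_eq_zero πR hn ?_ ?_
    · rw [map_sub, X.map_map (Algebra.ofId K R),
        show πR.comp (Algebra.ofId K R) = AlgHom.id K K from Subsingleton.elim _ _, X.map_id,
        sub_self]
    · rw [smul_sub, hnTR, ← map_nsmul, ← map_nsmul, hnTR, map_zero, map_zero, sub_zero]
  conv_rhs => rw [← hTR, sub_eq_zero.1 hD, X.map_map (Algebra.ofId K R)]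
  rw [show ψ.comp (Algebra.ofId K R) = Algebra.ofId K L from Subsingleton.elim _ _]

/-! ### Descent of genericity -/

theorem algebraicIndependent_u : AlgebraicIndependent K X.u :=
  X.chart.algebraicIndependent_u

theorem isTranscendenceBasis_u : IsTranscendenceBasis K X.u := by
  have := X.finite_separable_adjoin_u.1
  refine X.algebraicIndependent_u.isTranscendenceBasis_iff_isAlgebraic.2 ⟨fun x => ?_⟩
  exact IntermediateField.isAlgebraic_adjoin_iff.1
    ((Algebra.IsAlgebraic.of_finite (IntermediateField.adjoin K (Set.range X.u))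
        X.FF).isAlgebraic x)

theorem trdeg_FF : Algebra.trdeg K X.FF = g := by
  have h := X.isTranscendenceBasis_u.lift_cardinalMk_eq_trdeg
  simp only [Cardinal.mk_fin, Cardinal.lift_natCast, Cardinal.lift_id'] at h
  exact (by simpa using h.symm)

/-- Genericity descends from a multiple. -/
theorem Generic.of_nsmul {M : Type u} [Field M] [Algebra K M] {P : X.Pt M} {n : ℕ}
    (h : X.Generic (n • P)) : X.Generic P := by
  classical
  obtain ⟨U, hU, hxU, -⟩ := X.exists_chart (X.centre P)
  have hPU : X.InOpen P U := (X.inOpen_iff).2 hxU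
  have hne : (U : Set X.A).Nonempty := ⟨_, hxU⟩
  have : IsDomain Γ(X.A, U) := X.isDomain_sections hxU
  set φ := X.evalAlg P U hPU with hφ
  refine X.generic_of_injective hU hPU ?_
  show Function.Injective φ
  let L : IntermediateField K M := IntermediateField.adjoin K (Set.range φ)
  let φL : Γ(X.A, U) →ₐ[K] L :=
    φ.codRestrict L.toSubalgebra fun s => IntermediateField.subset_adjoin _ _ ⟨s, rfl⟩
  have hPL : X.map L.val (X.ofAlgHom hU φL) = P := by
    rw [X.map_ofAlgHom, X.eq_ofAlgHom P hU hPU]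
    congr 1
  have hgen : X.Generic (n • X.ofAlgHom hU φL) :=
    Generic.of_map X L.val (by rw [map_nsmul, hPL]; exact h)
  have hL : (g : Cardinal) ≤ Algebra.trdeg K L := by
    rw [← X.trdeg_FF]
    exact trdeg_le_of_injective (X.genMap _ hgen) (X.genMap _ hgen).toRingHom.injective
  have : Algebra.IsAlgebraic (Algebra.adjoin K (Set.range φL)) L := by
    refine ⟨fun x => IntermediateField.isAlgebraic_adjoin_iff.1 ?_⟩
    have htop : IntermediateField.adjoin K (Set.range φL) = ⊤ := by
      apply IntermediateField.lift_injective L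
      rw [IntermediateField.lift_top, IntermediateField.lift_adjoin, ← Set.range_comp]
      rfl
    rw [htop]
    exact isAlgebraic_algebraMap (⟨x, trivial⟩ : (⊤ : IntermediateField K L))
  obtain ⟨t, htsub, ht⟩ := exists_isTranscendenceBasis_subset (R := K) (Set.range φL)
  rw [← ht.cardinalMk_eq_trdeg] at hL
  obtain ⟨e⟩ : Nonempty (Fin g ↪ t) := Cardinal.lift_mk_le'.1 (by simpa using hL)
  choose y hy using fun i => htsub (e i).2
  have hyL : AlgebraicIndependent K (φL ∘ y) := by
    rw [show φL ∘ y = Subtype.val ∘ e from funext hy]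
    exact ht.1.comp e e.injective
  have hyφ : AlgebraicIndependent K (φ ∘ y) := by
    have := hyL.map' (f := L.val) L.val.toRingHom.injective
    exact this
  have hyB : IsTranscendenceBasis K y := by
    refine (AlgebraicIndependent.of_comp φ hyφ).isTranscendenceBasis_of_lift_trdeg_le_of_finite ?_
    have := trdeg_le_of_injective (X.etaEval U hne) (X.etaEval_injective U hne)
    rw [X.trdeg_FF] at this
    simpa using this
  have := hyB.isAlgebraic
  refine (injective_iff_map_eq_zero _).2 fun b hb => ?_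
  by_contra hb0
  obtain ⟨r, hr0, hr⟩ := IsAlgebraic.exists_nonzero_dvd
    (Algebra.IsAlgebraic.isAlgebraic (R := Algebra.adjoin K (Set.range y)) b)
    (mem_nonZeroDivisors_of_ne_zero hb0)
  have hrφ : φ (r : Γ(X.A, U)) = 0 := by
    obtain ⟨c, hc⟩ := hr
    rw [show (r : Γ(X.A, U)) = b * c from hc, map_mul, hb, zero_mul]
  obtain ⟨p, hp⟩ : ∃ p : MvPolynomial (Fin g) K, MvPolynomial.aeval y p = (r : Γ(X.A, U)) := by
    exact (AlgHom.mem_range _).1 ((Algebra.adjoin_range_eq_range_aeval K y).le r.2)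
  refine hr0 (Subtype.ext ?_)
  rw [← hp, ← AlgHom.comp_apply, MvPolynomial.comp_aeval] at hrφ
  rw [← hp, hyφ.eq_zero_of_aeval_eq_zero p hrφ, map_zero]
  rfl

end SmoothAV

end Fermat.Agent.AV
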