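import Fermat.Agent.AV.Chev
import Fermat.Agent.AV.ConstExt
import Fermat.Agent.AV.PlaceValue
import Fermat.Agent.Red.Existence

/-!
# Specialisation of constant field extensions

A specialisation `Ω ⊇ A → κ` over `k` gives a good reduction of the constant extensions of `M/k`.
-/

noncomputable section

open IntermediateField AlgebraicCurve TensorProduct
open Fermat.Agent.FF (IsFunctionField)

namespace Fermat.Agent.AV

/-- A place of `Ω` over `k` with values in `κ`. -/
structure Specialization (k Ω κ : Type*) [Field k] [Field Ω] [Field κ] [Algebra k Ω] [Algebra k κ]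
    where
  /-- the valuation ring -/
  A : ValuationSubring Ω
  /-- the specialisation -/
  π : A →+* κ
  mem : ∀ c : k, algebraMap k Ω c ∈ A
  comm : ∀ c : k, π ⟨algebraMap k Ω c, mem c⟩ = algebraMap k κ c
  surj : Function.Surjective π

namespace Specialization

variable {k Ω κ : Type*} [Field k] [Field Ω] [Field κ] [Algebra k Ω] [Algebra k κ]
  (S : Specialization k Ω κ)

/-- The valuation ring as an algebra over the constants. -/
abbrev algA : Algebra k S.A := ((algebraMap k Ω).codRestrict S.A.toSubring S.mem).toAlgebra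

/-- The inclusion of the valuation ring. -/
def valA : letI := S.algA; S.A →ₐ[k] Ω :=
  letI := S.algA
  { S.A.subtype with commutes' := fun _ => rfl }

/-- The specialisation as an algebra map. -/
def piA : letI := S.algA; S.A →ₐ[k] κ :=
  letI := S.algA
  { S.π with commutes' := S.comm }

/-- Every constant extension specialises to the ground field. -/
theorem exists_to_base [IsAlgClosed k] [IsAlgClosed Ω] : Nonempty (Specialization k Ω k) := by
  let R : Subring Ω := (algebraMap k Ω).range
  let e : k ≃+* R := RingEquiv.ofBijective (algebraMap k Ω).rangeRestrict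
    ⟨fun a b h => (algebraMap k Ω).injective (congrArg Subtype.val h),
      RingHom.rangeRestrict_surjective _⟩
  obtain ⟨V, g, hRV, hgR, hker⟩ := exists_valuationSubring_extend R (e.symm : R →+* k)
  have hmem : ∀ c : k, algebraMap k Ω c ∈ V := fun c => hRV ⟨c, rfl⟩
  have hcomm : ∀ c : k, g ⟨algebraMap k Ω c, hmem c⟩ = c := fun c => by
    rw [hgR ⟨algebraMap k Ω c, ⟨c, rfl⟩⟩]
    exact e.symm_apply_apply c
  refine ⟨⟨V, g, hmem, fun c => hcomm c, surjective_of_isAlgebraic V g hker
    ((algebraMap k Ω).codRestrict V.toSubring hmem) fun z => ⟨Polynomial.X - Polynomial.C z,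
      Polynomial.X_sub_C_ne_zero z, ?_⟩⟩⟩
  rw [Polynomial.eval₂_sub, Polynomial.eval₂_X, Polynomial.eval₂_C, sub_eq_zero]
  exact (hcomm z).symm

variable {M N N' : Type*} [Field M] [Field N] [Field N'] [Algebra k M]
  [Algebra k N] [Algebra Ω N] [Algebra M N] [IsScalarTower k Ω N] [IsScalarTower k M N]
  [Algebra k N'] [Algebra κ N'] [Algebra M N'] [IsScalarTower k κ N'] [IsScalarTower k M N']
  (hN : IsConstExt k M Ω N) (hN' : IsConstExt k M κ N')

/-- The integral functions. -/
def incl : letI := S.algA; S.A ⊗[k] M →ₐ[k] N :=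
  letI := S.algA
  (extMap k M Ω N).comp (Algebra.TensorProduct.map S.valA (AlgHom.id k M))

/-- Their reductions. -/
def proj : letI := S.algA; S.A ⊗[k] M →ₐ[k] N' :=
  letI := S.algA
  (extMap k M κ N').comp (Algebra.TensorProduct.map S.piA (AlgHom.id k M))

theorem incl_tmul (a : S.A) (m : M) :
    letI := S.algA
    S.incl (N := N) (a ⊗ₜ[k] m) = algebraMap Ω N a * algebraMap M N m := by
  let := S.algA
  simp only [incl, AlgHom.comp_apply, Algebra.TensorProduct.map_tmul, AlgHom.id_apply, extMap_tmul]
  rfl

theorem proj_tmul (a : S.A) (m : M) :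
    letI := S.algA
    S.proj (N' := N') (a ⊗ₜ[k] m) = algebraMap κ N' (S.π a) * algebraMap M N' m := by
  let := S.algA
  simp only [proj, AlgHom.comp_apply, Algebra.TensorProduct.map_tmul, AlgHom.id_apply, extMap_tmul]
  rfl

include hN in
theorem incl_injective : letI := S.algA; Function.Injective (S.incl (M := M) (N := N)) := by
  let := S.algA
  exact hN.injective.comp
    (Module.Flat.rTensor_preserves_injective_linearMap S.valA.toLinearMap Subtype.val_injective)

/-- The ring of integral functions. -/
abbrev intRing : Subring N :=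
  letI := S.algA
  (S.incl (M := M) (N := N)).toRingHom.range

/-- The reduction of integral functions. -/
def intRed : S.intRing (M := M) (N := N) →+* N' :=
  letI := S.algA
  (S.proj (M := M) (N' := N')).toRingHom.comp
    ((RingEquiv.ofBijective (S.incl (M := M) (N := N)).toRingHom.rangeRestrict
      ⟨fun _ _ h => S.incl_injective hN (congrArg Subtype.val h),
        RingHom.rangeRestrict_surjective _⟩).symm : _ →+* _)

theorem intRed_incl (z : letI := S.algA; S.A ⊗[k] M) :
    letI := S.algA
    S.intRed hN ⟨S.incl (N := N) z, z, rfl⟩ = S.proj (N' := N') z := by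
  let := S.algA
  rw [intRed, RingHom.comp_apply]
  exact congrArg (S.proj (M := M) (N' := N')) (RingEquiv.symm_apply_apply _ z)

theorem algebraMap_mem_intRing (a : S.A) : algebraMap Ω N a ∈ S.intRing (M := M) (N := N) :=
  letI := S.algA
  ⟨a ⊗ₜ[k] 1, by simp [incl_tmul]⟩

theorem mem_intRing (m : M) : algebraMap M N m ∈ S.intRing (M := M) (N := N) :=
  letI := S.algA
  ⟨(1 : S.A) ⊗ₜ[k] m, by simp [incl_tmul]⟩

theorem intRed_algebraMap (a : S.A) :
    S.intRed hN ⟨algebraMap Ω N a, S.algebraMap_mem_intRing (M := M) a⟩ =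
      algebraMap κ N' (S.π a) := by
  let := S.algA
  have e : (⟨algebraMap Ω N a, S.algebraMap_mem_intRing (M := M) a⟩ : S.intRing (M := M) (N := N)) =
      ⟨S.incl (N := N) (a ⊗ₜ[k] (1 : M)), _, rfl⟩ := Subtype.ext (by simp [incl_tmul])
  rw [e, intRed_incl, proj_tmul, map_one, mul_one]

theorem intRed_map (m : M) :
    S.intRed hN ⟨algebraMap M N m, S.mem_intRing m⟩ = algebraMap M N' m := by
  let := S.algA
  have e : (⟨algebraMap M N m, S.mem_intRing m⟩ : S.intRing (M := M) (N := N)) =
      ⟨S.incl (N := N) ((1 : S.A) ⊗ₜ[k] m), _, rfl⟩ := Subtype.ext (by simp [incl_tmul])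
  rw [e, intRed_incl, proj_tmul, map_one, map_one, one_mul]

variable [IsAlgClosed k] [IsFunctionField k M]

/-- A chosen non-constant function. -/
def coord (k M : Type*) [Field k] [Field M] [Algebra k M] [IsFunctionField k M] : M :=
  (IsFunctionField.exists_transcendental (K := k) (F := M)).choose

omit [IsAlgClosed k] in
/-- The chosen coordinate is transcendental. -/
theorem transcendental_coord : Transcendental k (coord k M) :=
  (IsFunctionField.exists_transcendental (K := k) (F := M)).choose_spec.1

/-- The Gauss data of a specialisation. -/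
def gauss : Red.GaussData S.A S.π N N' :=
  haveI := FF.finiteDimensional_adjoin_of_transcendental (transcendental_coord (k := k) (M := M))
  { B := S.intRing (M := M)
    ρ := S.intRed hN
    algebraMap_mem := S.algebraMap_mem_intRing
    ρ_algebraMap := S.intRed_algebraMap hN
    surj_pi := S.surj
    x := ⟨_, S.mem_intRing (coord k M)⟩
    transcendental := by rw [S.intRed_map hN]; exact hN'.transcendental transcendental_coord
    d := Module.finrank k⟮coord k M⟯ M
    d_pos := Module.finrank_pos
    b := fun i => ⟨_, S.mem_intRing (Module.finBasis k⟮coord k M⟯ M i)⟩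
    linearIndependent := by
      have key : ∀ y : N', y = algebraMap M N' (coord k M) →
          LinearIndependent κ⟮y⟯ fun i => algebraMap M N' (Module.finBasis k⟮coord k M⟯ M i) := by
        rintro y rfl
        exact hN'.linearIndependent_adjoin transcendental_coord _
          (Module.finBasis k⟮coord k M⟯ M).linearIndependent
      simp only [S.intRed_map hN]
      exact key _ (S.intRed_map hN (coord k M))
    finrank_eq := (hN.finrank_adjoin transcendental_coord).2 }

omit [IsAlgClosed k] in
theorem finrank_gauss :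
    Module.finrank (κ⟮(S.gauss hN hN').ρ (S.gauss hN hN').x⟯) N' = (S.gauss hN hN').d := by
  have e : (S.gauss hN hN').ρ (S.gauss hN hN').x = algebraMap M N' (coord k M) :=
    S.intRed_map hN (coord k M)
  rw [e]
  exact (hN'.finrank_adjoin transcendental_coord).2

section Genus

variable [IsAlgClosed Ω]

omit [IsScalarTower k κ N'] in
/-- Functions of `M` keep their pole bounds. -/
theorem map_mem_space [IsFunctionField Ω N] {n : ℕ} {x w : M}
    (hw : w ∈ riemannRochSpace (n • FF.poleDiv (K := k) x)) :
    algebraMap M N w ∈ riemannRochSpace (n • FF.poleDiv (K := Ω) (algebraMap M N x)) := by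
  rw [mem_riemannRochSpace_iff] at hw ⊢
  intro v
  rcases eq_or_ne w 0 with rfl | hw0
  · simp
  refine Or.inr ?_
  rw [Finsupp.smul_apply, nsmul_eq_mul, FF.poleDiv_apply]
  rcases trivial_or_over (K := k) (F := M) v with h | ⟨c, hc⟩
  · rw [h, h]; simp
  have hwc := (hw c).resolve_left hw0
  rw [Finsupp.smul_apply, nsmul_eq_mul, FF.poleDiv_apply] at hwc
  rcases le_or_gt 0 (c.ord x) with hx | hx
  · have h1 : 0 ≤ c.ord w := by rw [max_eq_right (by omega)] at hwc; omega
    have h2 := (hc.mem_iff w).2 h1
    have h3 : (0 : ℤ) ≤ n * max (-v.ord (algebraMap M N x)) 0 :=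
      mul_nonneg (by omega) (le_max_right _ _)
    linarith
  · rw [max_eq_left (by omega)] at hwc
    have hx0 : x ≠ 0 := by rintro rfl; simp at hx
    have h1 : 0 ≤ c.ord (w / x ^ n) := by
      rw [FF.ord_div c hw0 (pow_ne_zero _ hx0), FF.ord_pow]; linarith
    have h2 := (hc.mem_iff _).2 h1
    rw [map_div₀, map_pow, FF.ord_div v ((_root_.map_ne_zero _).2 hw0)
      (pow_ne_zero _ ((_root_.map_ne_zero _).2 hx0)), FF.ord_pow] at h2
    have h3 : (n : ℤ) * -v.ord (algebraMap M N x) ≤ n * max (-v.ord (algebraMap M N x)) 0 :=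
      mul_le_mul_of_nonneg_left (le_max_left _ _) (by omega)
    linarith

include hN in
/-- Constant extensions have the same genus. -/
theorem genus_eq : genusFF Ω N = genusFF k M := by
  obtain ⟨T⟩ := exists_to_base (k := k) (Ω := Ω)
  have := hN.isFunctionField
  have hG := T.finrank_gauss hN (isConstExt_self (k := k) (M := M))
  refine ((T.gauss hN isConstExt_self).genus_eq_and_latticeSurj hG
    ((T.gauss hN isConstExt_self).genus_le_of_lift hG (n := 2 * genusFF Ω N) le_rfl ?_)).1
  intro w hw
  refine ⟨⟨_, (T.gauss hN isConstExt_self).mem_O_of_mem_B ⟨_, T.mem_intRing w⟩⟩, ?_, ?_⟩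
  · refine map_mem_space (k := k) (Ω := Ω) ?_
    have e : (T.gauss hN (isConstExt_self (k := k) (M := M))).ρ
        (T.gauss hN isConstExt_self).x = coord k M := T.intRed_map hN (coord k M)
    rw [e] at hw
    exact hw
  · show (T.gauss hN isConstExt_self).red ⟨_, _⟩ = w
    rw [(T.gauss hN isConstExt_self).red_B ⟨_, T.mem_intRing w⟩]
    exact T.intRed_map hN w

variable [IsAlgClosed κ]

include hN hN' in
theorem exists_redData : ∃ R : Red.RedData S.A S.π N N',
    R.toRedBase = (S.gauss hN hN').toRedBase := by
  have := hN.isFunctionField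
  have := hN'.isFunctionField
  have hg : genusFF Ω N = genusFF κ N' := (genus_eq hN).trans (genus_eq hN').symm
  obtain ⟨-, hS⟩ := (S.gauss hN hN').genus_eq_and_latticeSurj (S.finrank_gauss hN hN') hg.le
  have hK : Red.RR κ N' (genusFF Ω N) := hg ▸ Red.RR.ofFF
  obtain ⟨r, hr⟩ := (S.gauss hN hN').toRedBase.exists_placeMap Red.RR.ofFF hK hS
  exact ⟨⟨(S.gauss hN hN').toRedBase, r, hr⟩, rfl⟩

/-- The reduction of functions and of places. -/
def redData : Red.RedData S.A S.π N N' := (S.exists_redData hN hN').choose

theorem map_mem_O (m : M) : algebraMap M N m ∈ (S.redData hN hN').O := by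
  rw [redData, (S.exists_redData hN hN').choose_spec]
  exact (S.gauss hN hN').mem_O_of_mem_B ⟨_, S.mem_intRing m⟩

/-- Reduction fixes the functions of `M`. -/
theorem red_map (m : M) :
    (S.redData hN hN').red ⟨algebraMap M N m, S.map_mem_O hN hN' m⟩ = algebraMap M N' m := by
  have key : ∀ (R : Red.RedBase S.A S.π N N') (_ : R = (S.gauss hN hN').toRedBase)
      (hm : algebraMap M N m ∈ R.O), R.red ⟨algebraMap M N m, hm⟩ = algebraMap M N' m := by
    rintro R rfl hm
    show (S.gauss hN hN').red ⟨_, _⟩ = _
    rw [(S.gauss hN hN').red_B ⟨_, S.mem_intRing m⟩]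
    exact S.intRed_map hN m
  exact key _ (S.exists_redData hN hN').choose_spec _

end Genus

end Specialization

end Fermat.Agent.AV
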