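import Mathlib

/-!
# Tensor products of domains over an algebraically closed field

The tensor product of two domains over an algebraically closed field is a domain, by evaluating at
rational points of finitely generated subalgebras.
-/

noncomputable section

open TensorProduct

namespace Fermat.Agent.AV

variable {k : Type*} [Field k] [IsAlgClosed k]

/-- A point of a reduced finitely generated algebra detects a non-zero element. -/
theorem exists_algHom_ne_zero {A : Type*} [CommRing A] [Algebra k A] [IsReduced A]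
    [Algebra.FiniteType k A] {a : A} (ha : a ≠ 0) : ∃ φ : A →ₐ[k] k, φ a ≠ 0 := by
  have : IsJacobsonRing A := isJacobsonRing_of_finiteType (A := k) (B := A)
  have h : a ∉ Ring.jacobson A := by
    intro h
    have : Ideal.jacobson (⊥ : Ideal A) = ⊥ :=
      IsJacobsonRing.out inferInstance Ideal.isRadical_bot
    rw [← Ideal.jacobson_bot] at h
    rw [this] at h
    exact ha h
  rw [← Ideal.jacobson_bot, Ideal.jacobson, Submodule.mem_sInf] at h
  push Not at h
  obtain ⟨m, ⟨-, hm⟩, ham⟩ := h
  let := Ideal.Quotient.field m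
  have : Module.Finite k (A ⧸ m) := finite_of_finite_type_of_isJacobsonRing k (A ⧸ m)
  have : Algebra.IsIntegral k (A ⧸ m) := Algebra.IsIntegral.of_finite _ _
  let e : k ≃ₐ[k] A ⧸ m := AlgEquiv.ofBijective (Algebra.ofId k (A ⧸ m))
    IsAlgClosed.algebraMap_bijective_of_isIntegral
  refine ⟨(e.symm : (A ⧸ m) →ₐ[k] k).comp (Ideal.Quotient.mkₐ k m), fun h0 => ham ?_⟩
  rw [AlgHom.comp_apply, AlgEquiv.coe_toAlgHom, map_eq_zero_iff _ e.symm.injective,
    Ideal.Quotient.mkₐ_eq_mk, Ideal.Quotient.eq_zero_iff_mem] at h0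
  exact h0

variable {A B : Type*} [CommRing A] [IsDomain A] [Algebra k A] [CommRing B]
    [IsDomain B] [Algebra k B]

/-- **The tensor product of two domains over an algebraically closed field is a domain.** -/
theorem isDomain_tensorProduct : IsDomain (A ⊗[k] B) := by
  classical
  have : Nontrivial (A ⊗[k] B) :=
    Algebra.TensorProduct.nontrivial_of_algebraMap_injective_of_isDomain k A B
      (algebraMap k A).injective (algebraMap k B).injective
  refine @NoZeroDivisors.to_isDomain _ _ _ ⟨fun {x y} hxy => ?_⟩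
  let b := Module.Basis.ofVectorSpace k B
  let e := TensorProduct.equivFinsuppOfBasisRight (M := A) b
  by_contra hcon
  push Not at hcon
  obtain ⟨i, hi⟩ := Finsupp.ne_iff.1 (fun h => hcon.1 (e.injective (h.trans (map_zero e).symm)) :
    e x ≠ 0)
  obtain ⟨j, hj⟩ := Finsupp.ne_iff.1 (fun h => hcon.2 (e.injective (h.trans (map_zero e).symm)) :
    e y ≠ 0)
  rw [Finsupp.zero_apply] at hi hj
  set S : Set A := Set.range (e x) ∪ Set.range (e y)
  have hS : S.Finite := (Finsupp.finite_range _).union (Finsupp.finite_range _)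
  let A' := Algebra.adjoin k S
  have : Algebra.FiniteType k A' := (Subalgebra.fg_iff_finiteType _).1 ⟨hS.toFinset, by simp [A']⟩
  let ai : A' := ⟨_, Algebra.subset_adjoin (Or.inl ⟨i, rfl⟩)⟩
  let aj : A' := ⟨_, Algebra.subset_adjoin (Or.inr ⟨j, rfl⟩)⟩
  obtain ⟨φ, hφ⟩ := exists_algHom_ne_zero (k := k) (a := ai * aj)
    (mul_ne_zero (fun h => hi (congrArg Subtype.val h)) fun h => hj (congrArg Subtype.val h))
  -- lift to `A' ⊗ B`
  let ι : A' ⊗[k] B →ₐ[k] A ⊗[k] B := Algebra.TensorProduct.map A'.val (AlgHom.id k B)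
  have hι : Function.Injective ι :=
    Module.Flat.rTensor_preserves_injective_linearMap (A'.val.toLinearMap) Subtype.val_injective
  let e' := TensorProduct.equivFinsuppOfBasisRight (M := A') b
  have hlift : ∀ z : A ⊗[k] B, (∀ l, e z l ∈ A') →
      ∃ z' : A' ⊗[k] B, ι z' = z ∧ ∀ l, (e' z' l : A) = e z l := fun z hz => by
    let w : _ →₀ A' := Finsupp.onFinset (e z).support (fun l => ⟨e z l, hz l⟩)
      fun l hl => Finsupp.mem_support_iff.2 fun h0 => hl (Subtype.ext h0)
    refine ⟨e'.symm w, ?_, fun l => by rw [LinearEquiv.apply_symm_apply]; rfl⟩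
    apply e.injective
    ext l
    have hcomm : ∀ z' : A' ⊗[k] B, e (ι z') l = (e' z' l : A) := by
      intro z'
      induction z' using TensorProduct.induction_on with
      | zero => simp
      | tmul a c =>
        simp [ι, e, e']
      | add p q hp hq => simp [map_add, hp, hq]
    rw [hcomm, LinearEquiv.apply_symm_apply]
    rfl
  obtain ⟨x', hx', hxl⟩ := hlift x fun l => Algebra.subset_adjoin (Or.inl ⟨l, rfl⟩)
  obtain ⟨y', hy', hyl⟩ := hlift y fun l => Algebra.subset_adjoin (Or.inr ⟨l, rfl⟩)
  have h0 : x' * y' = 0 := hι (by rw [map_mul, hx', hy', hxy, map_zero])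
  let ev : A' ⊗[k] B →ₐ[k] B :=
    Algebra.TensorProduct.lift ((Algebra.ofId k B).comp φ) (AlgHom.id k B)
      fun _ _ => Commute.all _ _
  have hev : ∀ (z' : A' ⊗[k] B) l, b.repr (ev z') l = φ (e' z' l) := by
    intro z' l
    induction z' using TensorProduct.induction_on with
    | zero => simp
    | tmul a c =>
      simp [ev, e', ← Algebra.smul_def]
      ring
    | add p q hp hq => simp [map_add, hp, hq]
  have hprod := congrArg ev h0
  rw [map_mul, map_zero, mul_eq_zero] at hprod
  rw [map_mul] at hφ
  rcases hprod with h | h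
  · refine hφ (mul_eq_zero_of_left ?_ _)
    rw [show ai = e' x' i from Subtype.ext (hxl i).symm, ← hev, h]
    simp
  · refine hφ (mul_eq_zero_of_right _ ?_)
    rw [show aj = e' y' j from Subtype.ext (hyl j).symm, ← hev, h]
    simp

end Fermat.Agent.AV
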