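import Fermat.Agent.AV.Kernel
import Fermat.Agent.AV.MulLower

/-!
# The number of torsion points of an abelian variety

Multiplicativity, the upper bound and the lower bound for the degree of multiplication by `n`
give `n ^ (2 g)` torsion points of order dividing `n`, for `n` prime to the characteristic.
-/

noncomputable section

universe u

open CategoryTheory AlgebraicGeometry NeronModelInfra GoodReductionJacobian

namespace Fermat.Agent.AV.SmoothAV

variable {K : Type u} [Field K] [IsAlgClosed K] {g : ℕ} (X : SmoothAV K g)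

/-- An abelian variety of dimension zero has one torsion point. -/
theorem torsCount_eq_one_of_dim_zero (hg : g = 0) {n : ℕ} (hn : (n : K) ≠ 0) :
    X.torsCount n = 1 := by
  have := X.finite_separable_adjoin_u.1
  have : IsEmpty (Fin g) := by subst hg; infer_instance
  have hbot : IntermediateField.adjoin K (Set.range X.u) = ⊥ := by
    rw [Set.range_eq_empty, IntermediateField.adjoin_empty]
  have hint : ∀ x : X.FF, IsIntegral K x := fun x => by
    have hx := Algebra.IsIntegral.isIntegral (R := IntermediateField.adjoin K (Set.range X.u)) x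
    have : Algebra.IsIntegral K (IntermediateField.adjoin K (Set.range X.u)) := by
      rw [hbot]
      exact ⟨fun y => by
        obtain ⟨c, hc⟩ := IntermediateField.mem_bot.1 y.2
        rw [show y = algebraMap K _ c from Subtype.ext hc.symm]
        exact isIntegral_algebraMap⟩
    exact isIntegral_trans x hx
  have : Algebra.IsIntegral K X.FF := ⟨hint⟩
  have htop : (X.natMap hn).fieldRange = ⊤ := top_le_iff.1 fun x _ => by
    obtain ⟨c, rfl⟩ := (IsAlgClosed.algebraMap_bijective_of_isIntegral (k := K) (K := X.FF)).2 x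
    exact ⟨algebraMap K X.FF c, AlgHom.commutes _ c⟩
  rw [← X.finrank_natMap hn, htop]
  exact IntermediateField.finrank_top

/-- **The number of torsion points.** -/
theorem torsCount_eq {n : ℕ} (hn : (n : K) ≠ 0) : X.torsCount n = n ^ (2 * g) := by
  rcases Nat.eq_zero_or_pos g with hg | hg
  · rw [X.torsCount_eq_one_of_dim_zero hg hn, hg, mul_zero, pow_zero]
  have : NeZero g := ⟨hg.ne'⟩
  have hnk : ∀ k, ((n ^ k : ℕ) : K) ≠ 0 := fun k => by
    rw [Nat.cast_pow]
    exact pow_ne_zero k hn
  refine Chart.degree_eq_pow (d := X.torsCount) (h := X.height)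
    (Nat.pos_of_ne_zero fun h => hn (by simp [h])) (X.torsCount_pow hn) (X.torsCount_pos hn)
    (fun k _ => ?_) fun k _ => ?_
  · have hk : (((n ^ k : ℕ) : ℤ) : K) ≠ 0 := by rw [Int.cast_natCast]; exact hnk k
    have : FiniteDimensional (X.mulMap ((n ^ k : ℕ) : ℤ) hk).fieldRange X.FF :=
      X.finiteDimensional_natMap (hnk k)
    have h := X.finrank_mulMap_le hk
    rw [← X.finrank_natMap (hnk k)]
    exact h
  · have hk : (((n ^ k : ℕ) : ℤ) : K) ≠ 0 := by rw [Int.cast_natCast]; exact hnk k
    have : FiniteDimensional (X.mulMap ((n ^ k : ℕ) : ℤ) hk).fieldRange X.FF :=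
      X.finiteDimensional_natMap (hnk k)
    have : IsGalois (X.mulMap ((n ^ k : ℕ) : ℤ) hk).fieldRange X.FF := X.isGalois_natMap (hnk k)
    have h := X.pow_le_finrank_mulMap hk fun T hT => by
      obtain ⟨t, -, ht⟩ := X.exists_map_eq_of_nsmul_eq_zero (hnk k) hT
      exact ⟨t, ht.symm⟩
    rw [← X.finrank_natMap (hnk k)]
    exact h

end Fermat.Agent.AV.SmoothAV
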